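import Mathlib.Analysis.SpecialFunctions.Gaussian.FourierTransform
import Fermat.Agent.Hoheisel.DPoly

/-!
# A large sieve for exponential sums with clustered frequencies

At `δ`-separated points of `[-2, 2]` the squares of `∑ exp (i s x)`, the frequencies `|s| ≤ T`, sum
to `O (T + 1/δ)` times the number of pairs of frequencies at distance at most one.
-/

set_option autoImplicit false

noncomputable section

namespace FA.GuthMaynard

open Finset Complex MeasureTheory Filter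
open scoped Real ComplexConjugate

variable {ι : Type*}

/-- The pairs of frequencies at distance at most one. -/
def closePairs (I : Finset ι) (s : ι → ℝ) : ℕ :=
  ((I ×ˢ I).filter fun p => |s p.1 - s p.2| ≤ 1).card

/-- The sum over all integers of `1 / (1 + d²)`. -/
def latticeConst : ℝ := ∑' d : ℤ, 1 / (1 + (d : ℝ) ^ 2)

theorem latticeConst_nonneg : 0 ≤ latticeConst := tsum_nonneg fun d => by positivity

theorem sum_lattice_le (J : Finset ℤ) (j : ℤ) :
    ∑ l ∈ J, 1 / (1 + ((j : ℝ) - l) ^ 2) ≤ latticeConst := by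
  have hs : Summable fun d : ℤ => 1 / (1 + (d : ℝ) ^ 2) := by
    refine Summable.of_norm_bounded_eventually (Real.summable_one_div_int_pow.2 one_lt_two) ?_
    filter_upwards [(Set.finite_singleton (0 : ℤ)).compl_mem_cofinite] with d hd
    have hd0 : (d : ℝ) ≠ 0 := Int.cast_ne_zero.2 hd
    rw [Real.norm_of_nonneg (by positivity)]
    exact one_div_le_one_div_of_le (by positivity) (by linarith)
  refine le_trans (le_of_eq ?_) (hs.sum_le_tsum (J.image fun l => j - l) fun _ _ => by positivity)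
  rw [sum_image fun a _ b _ h => by simpa using h]
  exact sum_congr rfl fun l _ => by push_cast; ring_nf

theorem exp_neg_sq_le {x : ℝ} {d : ℤ} (h : |x - d| ≤ 1) :
    Real.exp (-x ^ 2 / 4) ≤ 12 / (1 + (d : ℝ) ^ 2) := by
  have h1 : (d : ℝ) ^ 2 ≤ 2 * x ^ 2 + 2 := by
    nlinarith [sq_nonneg (x + (x - d)), sq_abs (x - d), abs_nonneg (x - d)]
  rw [le_div_iff₀ (by positivity)]
  have h2 := Real.add_one_le_exp (x ^ 2 / 4)
  have h3 : Real.exp (-x ^ 2 / 4) * Real.exp (x ^ 2 / 4) = 1 := by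
    rw [← Real.exp_add]; ring_nf; exact Real.exp_zero
  nlinarith [mul_le_mul_of_nonneg_left h2 (Real.exp_pos (-x ^ 2 / 4)).le,
    mul_le_mul_of_nonneg_left h1 (Real.exp_pos (-x ^ 2 / 4)).le]

/-- **Schur's bound through the integral parts.** -/
theorem sum_exp_neg_sq_le (I : Finset ι) (s : ι → ℝ) :
    ∑ i ∈ I, ∑ k ∈ I, Real.exp (-(s i - s k) ^ 2 / 4) ≤
      12 * latticeConst * closePairs I s := by
  classical
  obtain ⟨J, hJ⟩ : ∃ J, J = I.image fun i => ⌊s i⌋ := ⟨_, rfl⟩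
  obtain ⟨r, hr⟩ : ∃ r : ℤ → ℕ, r = fun j => (I.filter fun i => ⌊s i⌋ = j).card := ⟨_, rfl⟩
  have hr2 : ∑ j ∈ J, (r j : ℝ) ^ 2 ≤ closePairs I s := by
    rw [closePairs]
    calc ∑ j ∈ J, (r j : ℝ) ^ 2
        = ((J.biUnion fun j => (I.filter fun i => ⌊s i⌋ = j) ×ˢ
            (I.filter fun i => ⌊s i⌋ = j)).card : ℝ) := by
          rw [card_biUnion fun a _ b _ hab => disjoint_left.2 fun p hp hp' => hab (by
            simp only [mem_product, mem_filter] at hp hp'
            rw [← hp.1.2, hp'.1.2]), Nat.cast_sum]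
          exact sum_congr rfl fun j _ => by rw [card_product, hr]; push_cast; ring
      _ ≤ _ := Nat.cast_le.2 (card_le_card fun p hp => by
          simp only [mem_biUnion, mem_product, mem_filter] at hp ⊢
          obtain ⟨j, -, h1, h2⟩ := hp
          exact ⟨⟨h1.1, h2.1⟩, (Int.abs_sub_lt_one_of_floor_eq_floor (h1.2.trans h2.2.symm)).le⟩)
  have hbin : ∀ f : ℤ → ℝ, ∑ i ∈ I, f ⌊s i⌋ = ∑ j ∈ J, (r j : ℝ) * f j := fun f => by
    rw [hJ, sum_comp]
    exact sum_congr rfl fun j _ => by rw [nsmul_eq_mul, hr]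
  have h1 : ∑ i ∈ I, ∑ k ∈ I, Real.exp (-(s i - s k) ^ 2 / 4) ≤
      ∑ j ∈ J, ∑ l ∈ J, (r j : ℝ) * r l * (12 / (1 + ((j : ℝ) - l) ^ 2)) := by
    refine (sum_le_sum (g := fun i => ∑ k ∈ I, 12 / (1 + ((⌊s i⌋ : ℝ) - ⌊s k⌋) ^ 2))
      fun i _ => sum_le_sum fun k _ => ?_).trans (le_of_eq ?_)
    · have h := exp_neg_sq_le (x := s i - s k) (d := ⌊s i⌋ - ⌊s k⌋) (by
        push_cast
        rw [abs_le]
        constructor <;> linarith [Int.floor_le (s i), Int.lt_floor_add_one (s i),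
          Int.floor_le (s k), Int.lt_floor_add_one (s k)])
      push_cast at h
      exact h
    · rw [hbin (fun a => ∑ k ∈ I, 12 / (1 + ((a : ℝ) - ⌊s k⌋) ^ 2))]
      refine sum_congr rfl fun j _ => ?_
      rw [hbin (fun b => 12 / (1 + ((j : ℝ) - b) ^ 2)), mul_sum]
      exact sum_congr rfl fun l _ => by ring
  refine h1.trans ?_
  calc ∑ j ∈ J, ∑ l ∈ J, (r j : ℝ) * r l * (12 / (1 + ((j : ℝ) - l) ^ 2))
      ≤ ∑ j ∈ J, ∑ l ∈ J, ((r j : ℝ) ^ 2 * (6 * (1 / (1 + ((j : ℝ) - l) ^ 2))) +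
          (r l : ℝ) ^ 2 * (6 * (1 / (1 + ((l : ℝ) - j) ^ 2)))) := by
        refine sum_le_sum fun j _ => sum_le_sum fun l _ => ?_
        rw [show ((l : ℝ) - j) ^ 2 = ((j : ℝ) - l) ^ 2 by ring]
        have h0 : 0 ≤ 6 * (1 / (1 + ((j : ℝ) - l) ^ 2)) := by positivity
        rw [show (12 : ℝ) / (1 + ((j : ℝ) - l) ^ 2) = 2 * (6 * (1 / (1 + ((j : ℝ) - l) ^ 2))) by
          ring]
        nlinarith [mul_nonneg h0 (sq_nonneg ((r j : ℝ) - r l))]
    _ = 2 * ∑ j ∈ J, (r j : ℝ) ^ 2 * (6 * ∑ l ∈ J, 1 / (1 + ((j : ℝ) - l) ^ 2)) := by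
        simp only [sum_add_distrib, mul_sum]
        rw [sum_comm (f := fun j l : ℤ => (r l : ℝ) ^ 2 * (6 * (1 / (1 + ((l : ℝ) - j) ^ 2)))),
          ← sum_add_distrib]
        refine sum_congr rfl fun j _ => ?_
        rw [← sum_add_distrib]
        exact sum_congr rfl fun l _ => (two_mul _).symm
    _ ≤ 2 * ∑ j ∈ J, (r j : ℝ) ^ 2 * (6 * latticeConst) := by
        gcongr with j
        exact sum_lattice_le J j
    _ ≤ _ := by
        rw [← sum_mul]
        nlinarith [mul_le_mul_of_nonneg_right hr2 latticeConst_nonneg]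

/-- **The mean square against a Gaussian.** -/
theorem exists_gauss_le : ∃ C, 0 ≤ C ∧ ∀ {ι : Type} (I : Finset ι) (s : ι → ℝ) (c : ι → ℂ) (B : ℝ),
    0 ≤ B → (∀ i ∈ I, ‖c i‖ ≤ B) →
      Integrable (fun x : ℝ => Real.exp (-x ^ 2) *
        ‖∑ i ∈ I, c i * Complex.exp (((s i * x : ℝ) : ℂ) * Complex.I)‖ ^ 2) ∧
      ∫ x : ℝ, Real.exp (-x ^ 2) *
        ‖∑ i ∈ I, c i * Complex.exp (((s i * x : ℝ) : ℂ) * Complex.I)‖ ^ 2 ≤
          C * B ^ 2 * closePairs I s := by
  refine ⟨‖((π : ℂ) / 1) ^ (1 / 2 : ℂ)‖ * (12 * latticeConst), by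
    have := latticeConst_nonneg; positivity, fun {ι} I s c B hB hc => ?_⟩
  obtain ⟨g, hg⟩ : ∃ g : ι → ι → ℝ → ℂ, g = fun i k (x : ℝ) => c i * conj (c k) *
      (Complex.exp (Complex.I * ((s i - s k : ℝ) : ℂ) * (x : ℂ)) *
        Complex.exp (-(1 : ℂ) * (x : ℂ) ^ 2)) := ⟨_, rfl⟩
  have hgi : ∀ i k, Integrable (g i k) := fun i k => by
    rw [hg]
    refine Integrable.const_mul ?_ _
    refine (integrable_cexp_quadratic (b := 1) (by norm_num)
      (Complex.I * ((s i - s k : ℝ) : ℂ)) 0).congr (Eventually.of_forall fun x => ?_)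
    simp only
    rw [← Complex.exp_add]
    ring_nf
  have e : ∀ x : ℝ, ((Real.exp (-x ^ 2) *
      ‖∑ i ∈ I, c i * Complex.exp (((s i * x : ℝ) : ℂ) * Complex.I)‖ ^ 2 : ℝ) : ℂ) =
      ∑ i ∈ I, ∑ k ∈ I, g i k x := fun x => by
    rw [ofReal_mul, ofReal_pow, ← Complex.mul_conj', map_sum, sum_mul_sum, mul_sum, hg]
    refine sum_congr rfl fun i _ => ?_
    rw [mul_sum]
    refine sum_congr rfl fun k _ => ?_
    rw [map_mul, ← Complex.exp_conj, map_mul, conj_ofReal, conj_I, mul_mul_mul_comm,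
      ← Complex.exp_add, Complex.ofReal_exp, mul_left_comm, ← Complex.exp_add]
    simp only
    rw [← Complex.exp_add]
    congr 2
    push_cast
    ring
  have hint : Integrable fun x : ℝ => ((Real.exp (-x ^ 2) *
      ‖∑ i ∈ I, c i * Complex.exp (((s i * x : ℝ) : ℂ) * Complex.I)‖ ^ 2 : ℝ) : ℂ) := by
    simp only [e]
    exact integrable_finsetSum _ fun i _ => integrable_finsetSum _ fun k _ => hgi i k
  refine ⟨hint.re.congr (Eventually.of_forall fun x => by
    simp only [RCLike.re_to_complex, Complex.ofReal_re]), ?_⟩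
  have h := congrArg norm (integral_complex_ofReal (μ := volume)
    (f := fun x : ℝ => Real.exp (-x ^ 2) *
    ‖∑ i ∈ I, c i * Complex.exp (((s i * x : ℝ) : ℂ) * Complex.I)‖ ^ 2))
  rw [Complex.norm_real, Real.norm_of_nonneg (integral_nonneg fun x => by positivity)] at h
  rw [← h]
  simp only [e]
  rw [integral_finsetSum _ fun i _ => integrable_finsetSum _ fun k _ => hgi i k]
  refine (norm_sum_le _ _).trans ((sum_le_sum fun i hi => ?_).trans
    (le_trans (le_of_eq (mul_sum I (fun i => ∑ k ∈ I, Real.exp (-(s i - s k) ^ 2 / 4))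
      (‖((π : ℂ) / 1) ^ (1 / 2 : ℂ)‖ * B ^ 2)).symm) ?_))
  · rw [integral_finsetSum _ fun k _ => hgi i k, mul_sum]
    refine (norm_sum_le _ _).trans (sum_le_sum fun k hk => ?_)
    rw [hg, integral_const_mul, fourierIntegral_gaussian (b := 1) (by norm_num), norm_mul,
      norm_mul, norm_mul, Complex.norm_conj, Complex.norm_exp]
    rw [show ((-((s i - s k : ℝ) : ℂ) ^ 2 / (4 * 1)) : ℂ).re = -(s i - s k) ^ 2 / 4 by
      rw [show (-((s i - s k : ℝ) : ℂ) ^ 2 / (4 * 1)) = ((-(s i - s k) ^ 2 / 4 : ℝ) : ℂ) by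
        push_cast; ring, Complex.ofReal_re]]
    have h0 := mul_le_mul (hc i hi) (hc k hk) (norm_nonneg _) hB
    calc ‖c i‖ * ‖c k‖ * (‖((π : ℂ) / 1) ^ (1 / 2 : ℂ)‖ * Real.exp (-(s i - s k) ^ 2 / 4))
        ≤ B * B * (‖((π : ℂ) / 1) ^ (1 / 2 : ℂ)‖ * Real.exp (-(s i - s k) ^ 2 / 4)) :=
          mul_le_mul_of_nonneg_right h0 (by positivity)
      _ = _ := by ring
  · refine (mul_le_mul_of_nonneg_left (sum_exp_neg_sq_le I s) (by positivity)).trans (le_of_eq ?_)
    ring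

/-- The square at a point through the mean square about it. -/
theorem norm_sq_mul_length_le {F F' : ℝ → ℂ} (hF : ∀ t, HasDerivAt F (F' t) t)
    (hF' : Continuous F') {a b x c : ℝ} (hc : 0 < c) (hx : x ∈ Set.Icc a b) :
    (b - a) * ‖F x‖ ^ 2 ≤ (∫ t in a..b, ‖F t‖ ^ 2) +
      (b - a) * ∫ t in a..b, (c * ‖F t‖ ^ 2 + ‖F' t‖ ^ 2 / c) := by
  have hab : a ≤ b := hx.1.trans hx.2
  have hcont : Continuous F := continuous_iff_continuousAt.2 fun t => (hF t).continuousAt
  obtain ⟨J, hJ⟩ : ∃ J, J = ∫ t in a..b, (c * ‖F t‖ ^ 2 + ‖F' t‖ ^ 2 / c) := ⟨_, rfl⟩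
  rw [← hJ]
  have key : ∀ y ∈ Set.Icc a b, ‖F x‖ ^ 2 ≤ ‖F y‖ ^ 2 + J := fun y hy => by
    have hd : ∀ t, HasDerivAt (fun z => F (z / c)) (((1 / c : ℝ) : ℂ) * F' (t / c)) t := fun t =>
      ((hF (t / c)).scomp t ((hasDerivAt_id t).div_const c)).congr_deriv (by
        rw [Complex.real_smul])
    have h := FA.Hoheisel.norm_sq_le_add_integral hd (by fun_prop) (a := c * a) (b := c * b)
      (x := c * x) (y := c * y)
      ⟨mul_le_mul_of_nonneg_left hx.1 hc.le, mul_le_mul_of_nonneg_left hx.2 hc.le⟩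
      ⟨mul_le_mul_of_nonneg_left hy.1 hc.le, mul_le_mul_of_nonneg_left hy.2 hc.le⟩
    rw [mul_div_cancel_left₀ _ hc.ne', mul_div_cancel_left₀ _ hc.ne'] at h
    refine h.trans (le_of_eq ?_)
    rw [hJ, intervalIntegral.integral_comp_div
      (fun z => ‖F z‖ ^ 2 + ‖((1 / c : ℝ) : ℂ) * F' z‖ ^ 2) hc.ne',
      mul_div_cancel_left₀ _ hc.ne', mul_div_cancel_left₀ _ hc.ne', smul_eq_mul,
      ← intervalIntegral.integral_const_mul]
    congr 1
    refine intervalIntegral.integral_congr fun z _ => ?_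
    simp only [norm_mul, Complex.norm_real, Real.norm_of_nonneg (show 0 ≤ 1 / c by positivity)]
    field_simp
  have h1 : ∫ _t in a..b, ‖F x‖ ^ 2 ≤ ∫ t in a..b, (‖F t‖ ^ 2 + J) :=
    intervalIntegral.integral_mono_on hab intervalIntegrable_const
      (Continuous.intervalIntegrable (by fun_prop) _ _) key
  rw [intervalIntegral.integral_const, intervalIntegral.integral_add
    (Continuous.intervalIntegrable (by fun_prop) _ _) intervalIntegrable_const,
    intervalIntegral.integral_const] at h1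
  simpa only [smul_eq_mul] using h1

/-- **The large sieve.** -/
theorem exists_large_sieve_le : ∃ C, 0 ≤ C ∧ ∀ {ι : Type} (I : Finset ι) (s : ι → ℝ) (T δ : ℝ)
    (X : Finset ℝ), 1 ≤ T → 0 < δ → δ ≤ 1 → (∀ i ∈ I, |s i| ≤ T) → (∀ x ∈ X, |x| ≤ 2) →
      (∀ x ∈ X, ∀ y ∈ X, x ≠ y → δ ≤ |x - y|) →
      ∑ x ∈ X, ‖∑ i ∈ I, Complex.exp (((s i * x : ℝ) : ℂ) * Complex.I)‖ ^ 2 ≤
        C * (T + 1 / δ) * closePairs I s := by
  obtain ⟨K, hK, hgauss⟩ := exists_gauss_le
  refine ⟨2 * Real.exp 9 * K, by positivity, fun {ι} I s T δ X hT hδ hδ1 hs hX hsep => ?_⟩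
  obtain ⟨F, hF⟩ : ∃ F : ℝ → ℂ,
      F = fun x => ∑ i ∈ I, (1 : ℂ) * Complex.exp (((s i * x : ℝ) : ℂ) * Complex.I) := ⟨_, rfl⟩
  obtain ⟨F', hF'⟩ : ∃ F' : ℝ → ℂ, F' = fun x =>
      ∑ i ∈ I, ((s i : ℂ) * Complex.I) * Complex.exp (((s i * x : ℝ) : ℂ) * Complex.I) :=
    ⟨_, rfl⟩
  have hd : ∀ x, HasDerivAt F (F' x) x := fun x => by
    rw [hF, hF']
    refine HasDerivAt.fun_sum fun i _ => ?_
    refine (((((hasDerivAt_id x).const_mul (s i)).ofReal_comp).mul_const Complex.I).cexp.const_mul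
      (1 : ℂ)).congr_deriv ?_
    simp only [id, mul_one, one_mul]
    ring
  have hFc : Continuous F := by rw [hF]; fun_prop
  have hF'c : Continuous F' := by rw [hF']; fun_prop
  obtain ⟨i1, h1⟩ := hgauss I s (fun _ => (1 : ℂ)) 1 zero_le_one fun i _ => by simp
  obtain ⟨i2, h2⟩ := hgauss I s (fun i => (s i : ℂ) * Complex.I) T (by linarith) fun i hi => by
    simpa [Real.norm_eq_abs] using hs i hi
  obtain ⟨G, hG⟩ : ∃ G : ℝ → ℝ, G = fun x => Real.exp (-x ^ 2) * ((1 / δ + T) * ‖F x‖ ^ 2) +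
      Real.exp (-x ^ 2) * (‖F' x‖ ^ 2 / T) := ⟨_, rfl⟩
  have hG0 : ∀ x, 0 ≤ G x := fun x => by rw [hG]; positivity
  have hGa : Integrable fun x => Real.exp (-x ^ 2) * ((1 / δ + T) * ‖F x‖ ^ 2) :=
    ((i1.const_mul (1 / δ + T))).congr (Eventually.of_forall fun x => by rw [hF]; ring)
  have hGb : Integrable fun x => Real.exp (-x ^ 2) * (‖F' x‖ ^ 2 / T) :=
    ((i2.div_const T)).congr (Eventually.of_forall fun x => by rw [hF']; ring)
  have hGi : Integrable G := hG ▸ hGa.add hGb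
  have hpt : ∀ x ∈ X, ‖F x‖ ^ 2 ≤ Real.exp 9 * ∫ t in Set.Ioc (x - δ / 2) (x + δ / 2), G t := by
    intro x hx
    have h := norm_sq_mul_length_le hd hF'c (a := x - δ / 2) (b := x + δ / 2) (x := x)
      (show 0 < T by linarith) ⟨by linarith, by linarith⟩
    rw [show x + δ / 2 - (x - δ / 2) = δ by ring] at h
    have h3 : ‖F x‖ ^ 2 ≤ ∫ t in (x - δ / 2)..(x + δ / 2),
        ((1 / δ + T) * ‖F t‖ ^ 2 + ‖F' t‖ ^ 2 / T) := by
      refine le_of_mul_le_mul_left (h.trans (le_of_eq ?_)) hδ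
      rw [← intervalIntegral.integral_const_mul, ← intervalIntegral.integral_const_mul,
        ← intervalIntegral.integral_add (Continuous.intervalIntegrable (by fun_prop) _ _)
          (Continuous.intervalIntegrable (by fun_prop) _ _)]
      refine intervalIntegral.integral_congr fun t _ => ?_
      field_simp
      ring
    rw [intervalIntegral.integral_of_le (by linarith)] at h3
    refine h3.trans ?_
    rw [← integral_const_mul]
    refine setIntegral_mono_on ((Continuous.integrableOn_Ioc (by fun_prop)))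
      (hGi.integrableOn.const_mul _) measurableSet_Ioc fun t ht => ?_
    have h9 : 1 ≤ Real.exp 9 * Real.exp (-t ^ 2) := by
      rw [← Real.exp_add]
      refine Real.one_le_exp ?_
      have hx2 := abs_le.1 (hX x hx)
      nlinarith [ht.1, ht.2]
    rw [hG]
    have hnn : 0 ≤ (1 / δ + T) * ‖F t‖ ^ 2 + ‖F' t‖ ^ 2 / T := by positivity
    calc _ ≤ Real.exp 9 * Real.exp (-t ^ 2) * ((1 / δ + T) * ‖F t‖ ^ 2 + ‖F' t‖ ^ 2 / T) :=
          le_mul_of_one_le_left hnn h9
      _ = _ := by ring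
  have hdisj : Set.Pairwise (↑X) (Function.onFun Disjoint fun x : ℝ =>
      Set.Ioc (x - δ / 2) (x + δ / 2)) := fun x hx y hy hxy => by
    refine Set.disjoint_left.2 fun t h1 h2 => ?_
    have := hsep x hx y hy hxy
    rw [le_abs] at this
    obtain ⟨a1, a2⟩ := h1
    obtain ⟨b1, b2⟩ := h2
    rcases this with h | h <;> linarith
  have hint : ∫ t, G t ≤ 2 * K * (T + 1 / δ) * closePairs I s := by
    rw [hG, integral_add hGa hGb]
    have e1 : ∫ x, Real.exp (-x ^ 2) * ((1 / δ + T) * ‖F x‖ ^ 2) ≤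
        (1 / δ + T) * (K * 1 ^ 2 * closePairs I s) := by
      refine le_trans (le_of_eq ?_) (mul_le_mul_of_nonneg_left h1 (by positivity))
      rw [← integral_const_mul, hF]
      exact integral_congr_ae (Eventually.of_forall fun x => by ring)
    have e2 : ∫ x, Real.exp (-x ^ 2) * (‖F' x‖ ^ 2 / T) ≤
        K * T ^ 2 * closePairs I s / T := by
      refine le_trans (le_of_eq ?_) (div_le_div_of_nonneg_right h2 (by linarith))
      rw [← integral_div, hF']
      exact integral_congr_ae (Eventually.of_forall fun x => by ring)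
    rw [show K * T ^ 2 * (closePairs I s : ℝ) / T = K * T * closePairs I s by field_simp] at e2
    have : 0 ≤ K * (1 / δ) * closePairs I s := by positivity
    linarith
  have hsum : ∑ x ∈ X, ∫ t in Set.Ioc (x - δ / 2) (x + δ / 2), G t ≤ ∫ t, G t := by
    rw [← integral_biUnion_finset X (fun x _ => measurableSet_Ioc) hdisj
      fun x _ => hGi.integrableOn]
    exact setIntegral_le_integral hGi (Eventually.of_forall hG0)
  calc ∑ x ∈ X, ‖∑ i ∈ I, Complex.exp (((s i * x : ℝ) : ℂ) * Complex.I)‖ ^ 2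
      = ∑ x ∈ X, ‖F x‖ ^ 2 := by simp [hF]
    _ ≤ ∑ x ∈ X, Real.exp 9 * ∫ t in Set.Ioc (x - δ / 2) (x + δ / 2), G t := sum_le_sum hpt
    _ ≤ Real.exp 9 * (2 * K * (T + 1 / δ) * closePairs I s) := by
        rw [← mul_sum]
        exact mul_le_mul_of_nonneg_left (hsum.trans hint) (Real.exp_pos _).le
    _ = _ := by ring

end FA.GuthMaynard

end
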