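import Mathlib.Analysis.Calculus.BumpFunction.InnerProduct
import Mathlib.Analysis.Fourier.PoissonSummation
import Mathlib.Analysis.Fourier.FourierTransformDeriv
import Mathlib.Analysis.Distribution.SchwartzSpace.Fourier
import Fermat.Agent.GuthMaynard.LargeSieve

/-!
# Sums of affine images and their transforms

The smoothed sum `∑ φ (b / M) e (b t)` is `O (M)` and is negligible unless `t` is within `R / M` of
an integer; the transform of `v ↦ f ((a v + b + z) / c)` is `|c / a| e (ξ (b + z) / a)` times that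
of `f` at `c ξ / a`.
-/

set_option autoImplicit false

noncomputable section

namespace FA.GuthMaynard

open Finset Complex MeasureTheory Filter
open scoped Topology ContDiff Real FourierTransform SchwartzMap

/-- The weight of the shifts. -/
def shiftBump : ContDiffBump (0 : ℝ) where
  rIn := 1
  rOut := 2
  rIn_pos := one_pos
  rIn_lt_rOut := one_lt_two

theorem shiftBump_eq_zero {x : ℝ} (h : 2 ≤ |x|) : shiftBump x = 0 :=
  shiftBump.zero_of_le_dist (by rw [Real.dist_eq, sub_zero]; exact h)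

theorem shiftBump_eq_one {x : ℝ} (h : |x| ≤ 1) : shiftBump x = 1 :=
  shiftBump.one_of_mem_closedBall (by rw [Metric.mem_closedBall, Real.dist_eq, sub_zero]; exact h)

/-- The shifts `|b| ≤ 2 M`. -/
def shiftRange (M : ℕ) : Finset ℤ := Finset.Icc (-(2 * M : ℤ)) (2 * M)

/-- `∑ φ (b / M) e (b t)`. -/
def shiftSum (M : ℕ) (t : ℝ) : ℂ :=
  ∑ b ∈ shiftRange M, (shiftBump ((b : ℝ) / M) : ℂ) *
    Complex.exp (((2 * π * b * t : ℝ) : ℂ) * I)

theorem summable_lattice (k₀ : ℤ) : Summable fun k : ℤ => 1 / (1 + ((k₀ : ℝ) - k) ^ 2) := by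
  refine Summable.of_nonneg_of_le (fun k => by positivity) (fun k => le_rfl) ?_
  refine summable_of_sum_le (fun k => by positivity) (c := latticeConst) fun s => ?_
  exact sum_lattice_le s k₀

theorem tsum_lattice_le (k₀ : ℤ) :
    ∑' k : ℤ, 1 / (1 + ((k₀ : ℝ) - k) ^ 2) ≤ latticeConst :=
  (summable_lattice k₀).tsum_le_of_sum_le fun s => sum_lattice_le s k₀

/-- **The shifts by Poisson summation.** -/
theorem exists_shiftSum_le (n : ℕ) : ∃ C, 0 ≤ C ∧ ∀ (M : ℕ) (R t : ℝ), 1 ≤ M → 1 ≤ R →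
    ‖shiftSum M t‖ ≤ C * M ∧
      (R < M * |t - round t| → ‖shiftSum M t‖ ≤ C * M / R ^ n) := by
  obtain ⟨φ, hφ⟩ : ∃ φ : 𝓢(ℝ, ℂ), (φ : ℝ → ℂ) = fun x => (shiftBump x : ℂ) :=
    ⟨(shiftBump.hasCompactSupport.comp_left Complex.ofReal_zero).toSchwartzMap
      (Complex.ofRealCLM.contDiff.comp shiftBump.contDiff), rfl⟩
  obtain ⟨D₀, hD₀, h₀⟩ := (𝓕 φ : 𝓢(ℝ, ℂ)).decay 0 0
  obtain ⟨D₂, hD₂, h₂⟩ := (𝓕 φ : 𝓢(ℝ, ℂ)).decay 2 0
  obtain ⟨Dn, hDn, hn⟩ := (𝓕 φ : 𝓢(ℝ, ℂ)).decay (n + 2) 0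
  simp only [norm_iteratedFDeriv_zero, pow_zero, one_mul, Real.norm_eq_abs] at h₀ h₂ hn
  refine ⟨8 * (D₀ + D₂ + Dn) * latticeConst, by have := latticeConst_nonneg; positivity,
    fun M R t hM hR => ?_⟩
  have hM0 : (0 : ℝ) < M := Nat.cast_pos.2 hM
  have hM1 : (1 : ℝ) ≤ M := Nat.one_le_cast.2 hM
  obtain ⟨g, hg⟩ : ∃ g : 𝓢(ℝ, ℂ), (g : ℝ → ℂ) = fun x =>
      (shiftBump (x / M) : ℂ) * Complex.exp (((2 * π * x * t : ℝ) : ℂ) * I) :=
    ⟨(HasCompactSupport.intro (isCompact_Icc (a := -(2 * (M : ℝ))) (b := 2 * M)) fun x hx => by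
      simp only [Function.comp_apply, id, Complex.ofRealCLM_apply]
      rw [shiftBump_eq_zero, Complex.ofReal_zero, zero_mul]
      rw [Set.mem_Icc, not_and_or, not_le, not_le] at hx
      rw [abs_div, abs_of_pos hM0, le_div_iff₀ hM0, le_abs]
      rcases hx with hx | hx
      · right; linarith
      · left; linarith).toSchwartzMap ((Complex.ofRealCLM.contDiff.comp
        (shiftBump.contDiff.comp (contDiff_id.div_const _))).mul
        ((Complex.ofRealCLM.contDiff.comp ((contDiff_const.mul contDiff_id).mul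
          contDiff_const)).mul contDiff_const).cexp), rfl⟩
  have hĝ : ∀ k : ℤ, (𝓕 g : 𝓢(ℝ, ℂ)) (k : ℝ) =
      (M : ℂ) * (𝓕 φ : 𝓢(ℝ, ℂ)) ((M : ℝ) * ((k : ℝ) - t)) := fun k => by
    rw [SchwartzMap.fourier_coe, SchwartzMap.fourier_coe, hg, hφ,
      Real.fourier_real_eq_integral_exp_smul, Real.fourier_real_eq_integral_exp_smul]
    have h := Measure.integral_comp_div (fun y : ℝ =>
      Complex.exp ((↑(-2 * π * y * ((M : ℝ) * ((k : ℝ) - t))) : ℂ) * I) • (shiftBump y : ℂ))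
      (M : ℝ)
    rw [abs_of_pos hM0, Complex.real_smul, Complex.ofReal_natCast] at h
    rw [← h]
    refine integral_congr_ae (Eventually.of_forall fun x => ?_)
    simp only [smul_eq_mul]
    rw [mul_comm ((shiftBump (x / M) : ℝ) : ℂ), ← mul_assoc, ← Complex.exp_add]
    congr 2
    have : (M : ℂ) ≠ 0 := Nat.cast_ne_zero.2 (by omega)
    push_cast
    field_simp
    ring
  have hpois : shiftSum M t = ∑' k : ℤ, (M : ℂ) * (𝓕 φ : 𝓢(ℝ, ℂ)) ((M : ℝ) * ((k : ℝ) - t)) := by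
    have h := SchwartzMap.tsum_eq_tsum_fourier g 0
    simp only [zero_add, QuotientAddGroup.mk_zero, fourier_eval_zero, mul_one, hĝ] at h
    rw [← h, tsum_eq_sum (s := shiftRange M) fun b hb => ?_, shiftSum]
    · rw [hg]
    · rw [hg]
      simp only
      rw [shiftBump_eq_zero, Complex.ofReal_zero, zero_mul]
      rw [shiftRange, Finset.mem_Icc, not_and_or, not_le, not_le] at hb
      rw [abs_div, abs_of_pos hM0, le_div_iff₀ hM0, le_abs]
      rcases hb with hb | hb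
      · right
        have := (Int.cast_lt (R := ℝ)).2 hb
        push_cast at this
        linarith
      · left
        have := (Int.cast_lt (R := ℝ)).2 hb
        push_cast at this
        linarith
  obtain ⟨k₀, hk₀⟩ : ∃ k₀, k₀ = round t := ⟨_, rfl⟩
  have hclose : ∀ k : ℤ, 1 + ((k₀ : ℝ) - k) ^ 2 ≤ 4 * (1 + ((k : ℝ) - t) ^ 2) := fun k => by
    have h := abs_sub_round t
    rw [← hk₀] at h
    nlinarith [sq_abs (t - k₀), abs_nonneg (t - k₀), sq_nonneg ((k : ℝ) - t + (t - k₀)),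
      sq_nonneg ((k : ℝ) - t - (t - k₀))]
  have key : ∀ B : ℝ, 0 ≤ B → (∀ k : ℤ, (1 + ((k : ℝ) - t) ^ 2) *
      ‖(𝓕 φ : 𝓢(ℝ, ℂ)) ((M : ℝ) * ((k : ℝ) - t))‖ ≤ B) →
      ‖shiftSum M t‖ ≤ 4 * B * latticeConst * M := fun B hB hb => by
    rw [hpois]
    refine (tsum_of_norm_bounded (((summable_lattice k₀).hasSum).mul_left (4 * B * (M : ℝ)))
      fun k => ?_).trans ?_
    · rw [norm_mul, Complex.norm_natCast, mul_one_div, le_div_iff₀ (by positivity)]
      calc (M : ℝ) * ‖(𝓕 φ : 𝓢(ℝ, ℂ)) ((M : ℝ) * ((k : ℝ) - t))‖ * (1 + ((k₀ : ℝ) - k) ^ 2)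
          ≤ (M : ℝ) * ‖(𝓕 φ : 𝓢(ℝ, ℂ)) ((M : ℝ) * ((k : ℝ) - t))‖ *
              (4 * (1 + ((k : ℝ) - t) ^ 2)) :=
            mul_le_mul_of_nonneg_left (hclose k) (by positivity)
        _ ≤ _ := by
            nlinarith [mul_le_mul_of_nonneg_left (hb k) (show (0 : ℝ) ≤ 4 * M by positivity)]
    · calc 4 * B * (M : ℝ) * ∑' k : ℤ, 1 / (1 + ((k₀ : ℝ) - k) ^ 2)
          ≤ 4 * B * (M : ℝ) * latticeConst :=
            mul_le_mul_of_nonneg_left (tsum_lattice_le k₀) (by positivity)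
        _ = _ := by ring
  have hLC := latticeConst_nonneg
  refine ⟨(key (D₀ + D₂) (by positivity) fun k => ?_).trans (by
    nlinarith [mul_nonneg (mul_nonneg (show 0 ≤ D₀ + D₂ + 2 * Dn by positivity) hLC) hM0.le]),
    fun hfar => ?_⟩
  · have e2 := h₂ ((M : ℝ) * ((k : ℝ) - t))
    rw [sq_abs, mul_pow] at e2
    have e0 := h₀ ((M : ℝ) * ((k : ℝ) - t))
    have hM2 : (1 : ℝ) ≤ (M : ℝ) ^ 2 := one_le_pow₀ hM1
    nlinarith [mul_le_mul_of_nonneg_right hM2 (mul_nonneg (sq_nonneg ((k : ℝ) - t))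
      (norm_nonneg ((𝓕 φ : 𝓢(ℝ, ℂ)) ((M : ℝ) * ((k : ℝ) - t)))))]
  · refine (key (2 * Dn / R ^ n) (by positivity) fun k => ?_).trans ?_
    · obtain ⟨y, hy⟩ : ∃ y, y = |(M : ℝ) * ((k : ℝ) - t)| := ⟨_, rfl⟩
      have hyR : R ≤ y := by
        rw [hy, abs_mul, abs_of_pos hM0, abs_sub_comm]
        exact hfar.le.trans (mul_le_mul_of_nonneg_left (round_le t k) hM0.le)
      have e := hn ((M : ℝ) * ((k : ℝ) - t))
      rw [← hy, pow_add] at e
      rw [le_div_iff₀ (by positivity)]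
      have h1 : 1 + ((k : ℝ) - t) ^ 2 ≤ 2 * y ^ 2 := by
        have h2 : ((k : ℝ) - t) ^ 2 ≤ y ^ 2 := by
          rw [hy, sq_abs, mul_pow]
          exact le_mul_of_one_le_left (sq_nonneg _) (one_le_pow₀ hM1)
        have h3 : 1 ≤ y ^ 2 := one_le_pow₀ (hR.trans hyR)
        linarith
      calc (1 + ((k : ℝ) - t) ^ 2) * ‖(𝓕 φ : 𝓢(ℝ, ℂ)) ((M : ℝ) * ((k : ℝ) - t))‖ * R ^ n
          ≤ 2 * y ^ 2 * ‖(𝓕 φ : 𝓢(ℝ, ℂ)) ((M : ℝ) * ((k : ℝ) - t))‖ * y ^ n := by gcongr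
        _ ≤ 2 * Dn := by linarith
    · calc 4 * (2 * Dn / R ^ n) * latticeConst * (M : ℝ)
          = 4 * (2 * Dn) * latticeConst * M / R ^ n := by ring
        _ ≤ _ := by
            refine div_le_div_of_nonneg_right ?_ (by positivity)
            have h1 : 0 ≤ (D₀ + D₂) * latticeConst * M := by positivity
            nlinarith [mul_nonneg (mul_nonneg hDn.le hLC) hM0.le]

theorem fourier_affine {f : ℝ → ℂ} {a c : ℤ} (ha : a ≠ 0) (hc : c ≠ 0) (y ξ : ℝ) :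
    𝓕 (fun v : ℝ => f (((a : ℝ) * v + y) / c)) ξ =
      ((|(c : ℝ)| / |(a : ℝ)| : ℝ) : ℂ) *
        (Complex.exp (((2 * π * ξ * y / a : ℝ) : ℂ) * I) * 𝓕 f ((c : ℝ) * ξ / a)) := by
  have ha' : (a : ℝ) ≠ 0 := Int.cast_ne_zero.2 ha
  have hc' : (c : ℝ) ≠ 0 := Int.cast_ne_zero.2 hc
  rw [Real.fourier_real_eq_integral_exp_smul, Real.fourier_real_eq_integral_exp_smul,
    ← integral_const_mul]
  have h := Measure.integral_comp_mul_left
    (fun x : ℝ => Complex.exp (((2 * π * ξ * y / a : ℝ) : ℂ) * I) *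
      (Complex.exp ((↑(-2 * π * (x + y / c) * ((c : ℝ) * ξ / a)) : ℂ) * I) * f (x + y / c)))
    ((a : ℝ) / c)
  rw [integral_add_right_eq_self (fun x : ℝ => Complex.exp (((2 * π * ξ * y / a : ℝ) : ℂ) * I) *
    (Complex.exp ((↑(-2 * π * x * ((c : ℝ) * ξ / a)) : ℂ) * I) * f x)) (y / c),
    Complex.real_smul, abs_inv, abs_div, inv_div] at h
  simp only [smul_eq_mul]
  rw [← h]
  refine integral_congr_ae (Eventually.of_forall fun v => ?_)
  simp only
  rw [show (a : ℝ) / c * v + y / c = ((a : ℝ) * v + y) / c by ring, ← mul_assoc, ← Complex.exp_add]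
  congr 2
  push_cast
  have : (a : ℂ) ≠ 0 := Int.cast_ne_zero.2 ha
  have : (c : ℂ) ≠ 0 := Int.cast_ne_zero.2 hc
  field_simp
  ring

end FA.GuthMaynard

end
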