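import Mathlib.NumberTheory.Divisors
import Mathlib.NumberTheory.Harmonic.Bounds
import Fermat.Agent.GuthMaynard.AffineFourier

/-!
# The mean square of a sum of affine images

For `f` smooth and supported in `[-6, 6]` the sum of `f ((a v + b + z) / c)` over `0 < |a| ≤ M`,
`|c|` of size `M` and smoothed `b` of size `M` has square integral at most, up to logarithms and
divisor functions, `M⁶ ‖f‖₁² + M⁴ ‖f‖₂²`: by Plancherel and Poisson summation in `b`.
-/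

set_option autoImplicit false

noncomputable section

namespace FA.GuthMaynard

open Finset Complex MeasureTheory Filter
open scoped Topology ContDiff Real FourierTransform SchwartzMap

/-- The integers with `0 < |a| ≤ M`. -/
def nonzeroRange (M : ℕ) : Finset ℤ := (Finset.Icc (-(M : ℤ)) M).erase 0

/-- The integers with `M < 2 |c|` and `|c| ≤ M`. -/
def dyadicRange (M : ℕ) : Finset ℤ := (nonzeroRange M).filter fun c => (M : ℤ) < 2 * |c|

/-- The smoothed sum of affine images. -/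
def affineSum (M : ℕ) (f : ℝ → ℂ) (z v : ℝ) : ℂ :=
  ∑ a ∈ nonzeroRange M, ∑ c ∈ dyadicRange M, ∑ b ∈ shiftRange M,
    (shiftBump ((b : ℝ) / M) : ℂ) * f (((a : ℝ) * v + ((b : ℝ) + z)) / c)

/-- One when `t` is within `R / M` of a nonzero integer nearest to it. -/
def nearInd (M : ℕ) (R t : ℝ) : ℝ :=
  if round t ≠ 0 ∧ (M : ℝ) * |t - round t| ≤ R then 1 else 0

theorem nearInd_nonneg (M : ℕ) (R t : ℝ) : 0 ≤ nearInd M R t := by
  unfold nearInd; split_ifs <;> norm_num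

theorem nearInd_le_one (M : ℕ) (R t : ℝ) : nearInd M R t ≤ 1 := by
  unfold nearInd; split_ifs <;> norm_num

theorem nearInd_sq (M : ℕ) (R t : ℝ) : nearInd M R t ^ 2 = nearInd M R t := by
  unfold nearInd; split_ifs <;> norm_num

theorem measurable_nearInd (M : ℕ) (R : ℝ) : Measurable (nearInd M R) := by
  have hr : Measurable fun t : ℝ => round t := by
    simp only [round_eq]
    exact Int.measurable_floor.comp (measurable_id.add_const _)
  have hc : Measurable fun t : ℝ => ((round t : ℤ) : ℝ) :=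
    (measurable_of_countable (fun k : ℤ => (k : ℝ))).comp hr
  refine Measurable.ite (MeasurableSet.inter ?_ ?_) measurable_const measurable_const
  · exact (hr (measurableSet_singleton (0 : ℤ))).compl
  · exact measurableSet_le
      ((continuous_abs.measurable.comp (measurable_id.sub hc)).const_mul _) measurable_const

theorem mem_nonzeroRange {M : ℕ} {a : ℤ} :
    a ∈ nonzeroRange M ↔ a ≠ 0 ∧ |a| ≤ (M : ℤ) := by
  rw [nonzeroRange, mem_erase, Finset.mem_Icc, abs_le]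

theorem abs_cast_bounds {M : ℕ} {a : ℤ} (ha : a ∈ nonzeroRange M) :
    1 ≤ |(a : ℝ)| ∧ |(a : ℝ)| ≤ M := by
  obtain ⟨h1, h2⟩ := mem_nonzeroRange.1 ha
  refine ⟨by exact_mod_cast Int.one_le_abs h1, ?_⟩
  rw [← Int.cast_abs]
  exact_mod_cast h2

theorem half_lt_abs_of_mem {M : ℕ} {c : ℤ} (hc : c ∈ dyadicRange M) :
    (M : ℝ) / 2 < |(c : ℝ)| := by
  have h := (mem_filter.1 hc).2
  have h' : ((M : ℤ) : ℝ) < ((2 * |c| : ℤ) : ℝ) := Int.cast_lt.2 h
  push_cast at h'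
  linarith

theorem card_nonzeroRange_le (M : ℕ) : ((nonzeroRange M).card : ℝ) ≤ 2 * M := by
  have h : (nonzeroRange M).card ≤ 2 * M := by
    rw [nonzeroRange, card_erase_of_mem (Finset.mem_Icc.2 (by omega)), Int.card_Icc]
    omega
  exact_mod_cast h

theorem card_dyadicRange_le (M : ℕ) : ((dyadicRange M).card : ℝ) ≤ 2 * M :=
  (Nat.cast_le.2 (card_filter_le _ _)).trans (card_nonzeroRange_le M)

theorem sum_inv_abs_le (M : ℕ) :
    ∑ a ∈ nonzeroRange M, 1 / |(a : ℝ)| ≤ 2 * (1 + Real.log M) := by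
  classical
  have hh : ∑ m ∈ Finset.Icc 1 M, 1 / (m : ℝ) ≤ 1 + Real.log M := by
    refine le_trans (le_of_eq ?_) (harmonic_le_one_add_log M)
    rw [harmonic_eq_sum_Icc]
    push_cast
    simp only [one_div]
  refine (sum_le_sum_of_subset_of_nonneg (t := (Finset.Icc 1 M).image (fun m : ℕ => (m : ℤ)) ∪
    (Finset.Icc 1 M).image (fun m : ℕ => -(m : ℤ))) (fun a ha => ?_)
      fun a _ _ => by positivity).trans ?_
  · obtain ⟨h1, h2⟩ := mem_nonzeroRange.1 ha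
    rw [abs_le] at h2
    rw [mem_union, mem_image, mem_image]
    rcases lt_or_gt_of_ne h1 with h | h
    · exact Or.inr ⟨a.natAbs, Finset.mem_Icc.2 (by omega), by omega⟩
    · exact Or.inl ⟨a.natAbs, Finset.mem_Icc.2 (by omega), by omega⟩
  rw [sum_union (disjoint_left.2 fun a ha ha' => by
      simp only [mem_image, Finset.mem_Icc] at ha ha'
      obtain ⟨x, hx, rfl⟩ := ha
      obtain ⟨y, hy, hxy⟩ := ha'
      omega), sum_image (fun x _ y _ h => Nat.cast_injective h),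
    sum_image (fun x _ y _ h => Nat.cast_injective (neg_injective h)), two_mul]
  push_cast
  simp only [abs_neg, Nat.abs_cast]
  exact add_le_add hh hh

/-- **The count of coefficients near a given point.** -/
theorem sum_nearInd_le {M : ℕ} {R Y D x : ℝ} (hR : 1 ≤ R) (hD : 1 ≤ D)
    (hdiv : ∀ l : ℕ, (l : ℝ) ≤ 2 * Y + R → (l.divisors.card : ℝ) ≤ D) (hx : |x| ≤ 2 * Y) :
    ∑ a ∈ nonzeroRange M, nearInd M R (x / a) ≤ 10 * R * D := by
  classical
  obtain ⟨Ls, hLs⟩ : ∃ Ls, Ls = (Finset.Icc ⌈x - R⌉ ⌊x + R⌋).filter fun l : ℤ => l ≠ 0 := ⟨_, rfl⟩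
  have hsub : (nonzeroRange M).filter
      (fun a : ℤ => round (x / a) ≠ 0 ∧ (M : ℝ) * |x / a - round (x / a)| ≤ R) ⊆
      Ls.biUnion fun l => (l.natAbs.divisors.image fun d : ℕ => (d : ℤ)) ∪
        (l.natAbs.divisors.image fun d : ℕ => -(d : ℤ)) := by
    intro a ha
    rw [mem_filter] at ha
    obtain ⟨haM, hk, hnear⟩ := ha
    obtain ⟨ha0, -⟩ := mem_nonzeroRange.1 haM
    have ha' : (a : ℝ) ≠ 0 := Int.cast_ne_zero.2 ha0
    obtain ⟨k, hk'⟩ : ∃ k, k = round (x / a) := ⟨_, rfl⟩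
    rw [← hk'] at hk hnear
    have hd : |x - k * a| ≤ R := by
      rw [show x - k * a = (a : ℝ) * (x / a - k) by field_simp, abs_mul]
      exact (mul_le_mul_of_nonneg_right (abs_cast_bounds haM).2 (abs_nonneg _)).trans hnear
    rw [abs_le] at hd
    rw [mem_biUnion]
    refine ⟨k * a, ?_, ?_⟩
    · rw [hLs, mem_filter, Finset.mem_Icc, Int.ceil_le, Int.le_floor]
      push_cast
      exact ⟨⟨by linarith, by linarith⟩, mul_ne_zero hk ha0⟩
    · have hmem : a.natAbs ∈ (k * a).natAbs.divisors := by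
        rw [Nat.mem_divisors, Int.natAbs_mul]
        exact ⟨dvd_mul_left _ _, mul_ne_zero (Int.natAbs_ne_zero.2 hk) (Int.natAbs_ne_zero.2 ha0)⟩
      rw [mem_union, mem_image, mem_image]
      rcases Int.natAbs_eq a with h | h
      · exact Or.inl ⟨_, hmem, h.symm⟩
      · exact Or.inr ⟨_, hmem, h.symm⟩
  have hcardL : (Ls.card : ℝ) ≤ 2 * R + 1 := by
    have h0 : (Ls.card : ℝ) ≤ ((Finset.Icc ⌈x - R⌉ ⌊x + R⌋).card : ℝ) := by
      rw [hLs]; exact Nat.cast_le.2 (card_filter_le _ _)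
    refine h0.trans ?_
    rw [Int.card_Icc]
    have h1 := Int.le_ceil (x - R)
    have h2 := Int.floor_le (x + R)
    rcases le_or_gt 0 (⌊x + R⌋ + 1 - ⌈x - R⌉) with h | h
    · rw [← Int.cast_natCast (R := ℝ), Int.toNat_of_nonneg h]
      push_cast
      linarith
    · rw [Int.toNat_eq_zero.2 h.le, Nat.cast_zero]; linarith
  calc ∑ a ∈ nonzeroRange M, nearInd M R (x / a)
      = (((nonzeroRange M).filter
          (fun a : ℤ => round (x / a) ≠ 0 ∧ (M : ℝ) * |x / a - round (x / a)| ≤ R)).card : ℝ) := by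
        simp only [nearInd]
        rw [sum_boole]
    _ ≤ ∑ l ∈ Ls, (((l.natAbs.divisors.image fun d : ℕ => (d : ℤ)) ∪
        (l.natAbs.divisors.image fun d : ℕ => -(d : ℤ))).card : ℝ) := by
        exact_mod_cast (card_le_card hsub).trans card_biUnion_le
    _ ≤ ∑ _l ∈ Ls, 2 * D := by
        refine sum_le_sum fun l hl => ?_
        refine (Nat.cast_le.2 (card_union_le _ _)).trans ?_
        push_cast
        have h1 : (l.natAbs.divisors.card : ℝ) ≤ D := by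
          refine hdiv _ ?_
          rw [hLs, mem_filter, Finset.mem_Icc, Int.ceil_le, Int.le_floor] at hl
          rw [Nat.cast_natAbs, Int.cast_abs, abs_le]
          obtain ⟨hxl, hxu⟩ := abs_le.1 hx
          constructor <;> linarith [hl.1.1, hl.1.2]
        have h2 := Nat.cast_le (α := ℝ).2 (card_image_le (s := l.natAbs.divisors)
          (f := fun d : ℕ => (d : ℤ)))
        have h3 := Nat.cast_le (α := ℝ).2 (card_image_le (s := l.natAbs.divisors)
          (f := fun d : ℕ => -(d : ℤ)))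
        linarith
    _ ≤ _ := by
        rw [sum_const, nsmul_eq_mul]
        nlinarith [mul_le_mul_of_nonneg_right hcardL (show (0 : ℝ) ≤ 2 * D by linarith)]

theorem sum_nearInd_le_card (M : ℕ) (R x : ℝ) :
    ∑ a ∈ nonzeroRange M, nearInd M R (x / a) ≤ 2 * M := by
  refine (sum_le_sum (g := fun _ : ℤ => (1 : ℝ)) fun a _ =>
    nearInd_le_one M R (x / (a : ℝ))).trans ?_
  rw [sum_const, nsmul_eq_mul, mul_one]
  exact card_nonzeroRange_le M

/-- The majorant of the count. -/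
def nearBound (M : ℕ) (R Y D η : ℝ) : ℝ := if |η| ≤ Y then 10 * R * D else 2 * M

theorem fourier_smul_integral (g : ℝ → ℂ) (ξ : ℝ) :
    ‖𝓕 g ξ‖ ≤ ∫ x, ‖g x‖ := VectorFourier.norm_fourierIntegral_le_integral_norm _ _ _ _ _

theorem hasCompactSupport_of_abs {g : ℝ → ℂ} {B : ℝ} (h : ∀ x, B < |x| → g x = 0) :
    HasCompactSupport g :=
  HasCompactSupport.intro (isCompact_Icc (a := -B) (b := B)) fun x hx => by
    refine h x ?_
    rw [Set.mem_Icc, not_and_or, not_le, not_le] at hx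
    rw [lt_abs]
    rcases hx with hx | hx
    · right; linarith
    · left; exact hx

/-- The square integral of the transform and that against the square of the variable. -/
theorem transform_moments {f : ℝ → ℂ} (hf : ContDiff ℝ ∞ f) {B : ℝ}
    (hsupp : ∀ x, B < |x| → f x = 0) :
    (Integrable fun η => ‖𝓕 f η‖ ^ 2) ∧ (∫ η, ‖𝓕 f η‖ ^ 2 = ∫ x, ‖f x‖ ^ 2) ∧
    (Integrable fun η => η ^ 2 * ‖𝓕 f η‖ ^ 2) ∧
    ∫ η, η ^ 2 * ‖𝓕 f η‖ ^ 2 ≤ ∫ x, ‖deriv f x‖ ^ 2 := by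
  have hd : ∀ x, B < |x| → deriv f x = 0 := fun x hx => by
    have h : f =ᶠ[𝓝 x] fun _ => (0 : ℂ) := by
      filter_upwards [continuous_abs.continuousAt.preimage_mem_nhds (Ioi_mem_nhds hx)] with y hy
      exact hsupp y hy
    rw [h.deriv_eq, deriv_const]
  have hds : ContDiff ℝ ∞ (deriv f) := (contDiff_infty_iff_deriv.1 hf).2
  obtain ⟨F, hF⟩ : ∃ F : 𝓢(ℝ, ℂ), (F : ℝ → ℂ) = f :=
    ⟨(hasCompactSupport_of_abs hsupp).toSchwartzMap hf, rfl⟩
  obtain ⟨F', hF'⟩ : ∃ F' : 𝓢(ℝ, ℂ), (F' : ℝ → ℂ) = deriv f :=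
    ⟨(hasCompactSupport_of_abs hd).toSchwartzMap hds, rfl⟩
  have e1 : ((𝓕 F : 𝓢(ℝ, ℂ)) : ℝ → ℂ) = 𝓕 f := by rw [SchwartzMap.fourier_coe, hF]
  have e2 : ((𝓕 F' : 𝓢(ℝ, ℂ)) : ℝ → ℂ) = 𝓕 (deriv f) := by rw [SchwartzMap.fourier_coe, hF']
  have i1 : Integrable fun η => ‖𝓕 f η‖ ^ 2 := e1 ▸
    (memLp_two_iff_integrable_sq_norm ((𝓕 F).memLp 2).1).1 ((𝓕 F).memLp 2)
  have i2 : Integrable fun η => ‖𝓕 (deriv f) η‖ ^ 2 := e2 ▸
    (memLp_two_iff_integrable_sq_norm ((𝓕 F').memLp 2).1).1 ((𝓕 F').memLp 2)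
  have p1 : ∫ η, ‖𝓕 f η‖ ^ 2 = ∫ x, ‖f x‖ ^ 2 := by
    rw [← e1, SchwartzMap.integral_norm_sq_fourier, hF]
  have p2 : ∫ η, ‖𝓕 (deriv f) η‖ ^ 2 = ∫ x, ‖deriv f x‖ ^ 2 := by
    rw [← e2, SchwartzMap.integral_norm_sq_fourier, hF']
  have hfd := Real.fourier_deriv (hF ▸ F.integrable) (hf.differentiable (by simp))
    (hF' ▸ F'.integrable)
  have hle : ∀ η, η ^ 2 * ‖𝓕 f η‖ ^ 2 ≤ ‖𝓕 (deriv f) η‖ ^ 2 := fun η => by
    rw [hfd, norm_smul, mul_pow]
    refine mul_le_mul_of_nonneg_right ?_ (sq_nonneg _)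
    rw [norm_mul, norm_mul, norm_mul, Complex.norm_I, Complex.norm_real, Complex.norm_two,
      Complex.norm_real, mul_one, Real.norm_of_nonneg Real.pi_pos.le, Real.norm_eq_abs, mul_pow,
      sq_abs]
    exact le_mul_of_one_le_left (sq_nonneg _) (one_le_pow₀ (by linarith [Real.pi_gt_three]))
  have hc : Continuous (𝓕 f) := e1 ▸ (𝓕 F).continuous
  have i3 : Integrable fun η => η ^ 2 * ‖𝓕 f η‖ ^ 2 :=
    i2.mono' (Continuous.aestronglyMeasurable (by fun_prop)) (Eventually.of_forall fun η => by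
      rw [Real.norm_of_nonneg (by positivity)]; exact hle η)
  exact ⟨i1, p1, i3, (integral_mono i3 i2 hle).trans p2.le⟩

/-- The mean square of the sum with coefficients near an integer. -/
theorem integral_near_le {f : ℝ → ℂ} (hf : ContDiff ℝ ∞ f) {B : ℝ}
    (hsupp : ∀ x, B < |x| → f x = 0) {M : ℕ} {R Y D : ℝ} (hM : 1 ≤ M) (hR : 1 ≤ R) (hY : 0 < Y)
    (hD : 1 ≤ D) (hdiv : ∀ l : ℕ, (l : ℝ) ≤ 2 * Y + R → (l.divisors.card : ℝ) ≤ D) :
    ∫ ξ, (∑ a ∈ nonzeroRange M, ∑ c ∈ dyadicRange M,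
        nearInd M R (ξ / a) * ‖𝓕 f ((c : ℝ) * ξ / a)‖ / |(a : ℝ)|) ^ 2 ≤
      8 * (1 + Real.log M) * ((10 * R * D) ^ 2 * (∫ x, ‖f x‖ ^ 2) +
        4 * (M : ℝ) ^ 2 / Y ^ 2 * ∫ x, ‖deriv f x‖ ^ 2) := by
  obtain ⟨i1, p1, i3, p3⟩ := transform_moments hf hsupp
  obtain ⟨Φ, hΦ⟩ : ∃ Φ : ℤ → ℝ → ℝ,
      Φ = fun (c : ℤ) η => nearBound M R Y D η * nearInd M R (η / c) * ‖𝓕 f η‖ ^ 2 := ⟨_, rfl⟩
  have hM0 : (0 : ℝ) < M := Nat.cast_pos.2 hM
  have hB0 : ∀ η, 0 ≤ nearBound M R Y D η := fun η => by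
    unfold nearBound; split_ifs <;> positivity
  have hBle : ∀ η, nearBound M R Y D η ≤ 10 * R * D + 2 * M := fun η => by
    unfold nearBound
    split_ifs
    · linarith
    · linarith [show 0 ≤ 10 * R * D by positivity]
  have hBm : Measurable (nearBound M R Y D) :=
    Measurable.ite (measurableSet_le (by fun_prop) measurable_const) measurable_const
      measurable_const
  have hΦi : ∀ c, Integrable (Φ c) := fun c => by
    refine (i1.const_mul (10 * R * D + 2 * M)).mono' ?_ (Eventually.of_forall fun η => ?_)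
    · rw [hΦ]
      exact ((hBm.mul ((measurable_nearInd M R).comp
        (measurable_id.div_const _))).aestronglyMeasurable).mul i1.1
    · rw [hΦ, Real.norm_of_nonneg (mul_nonneg (mul_nonneg (hB0 η) (nearInd_nonneg _ _ _))
        (sq_nonneg _))]
      exact mul_le_mul_of_nonneg_right ((mul_le_of_le_one_right (hB0 η)
        (nearInd_le_one _ _ _)).trans (hBle η)) (sq_nonneg _)
  have hpoint : ∀ ξ, (∑ a ∈ nonzeroRange M, ∑ c ∈ dyadicRange M,
        nearInd M R (ξ / a) * ‖𝓕 f ((c : ℝ) * ξ / a)‖ / |(a : ℝ)|) ^ 2 ≤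
      2 * M * ∑ a ∈ nonzeroRange M, ∑ c ∈ dyadicRange M,
        1 / |(a : ℝ)| ^ 2 * Φ c ((c : ℝ) / a * ξ) := fun ξ => by
    simp only [← sum_product']
    obtain ⟨P, hP⟩ : ∃ P, P = nonzeroRange M ×ˢ dyadicRange M := ⟨_, rfl⟩
    rw [← hP]
    obtain ⟨S, hS⟩ : ∃ S, S = ∑ a ∈ nonzeroRange M, nearInd M R (ξ / a) := ⟨_, rfl⟩
    have hcnt : ∑ p ∈ P, nearInd M R (ξ / p.1) ^ 2 ≤ 2 * M * S := by
      simp only [nearInd_sq]
      rw [hP, sum_product, hS, mul_sum]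
      refine sum_le_sum fun a _ => ?_
      simp only [sum_const, nsmul_eq_mul]
      exact mul_le_mul_of_nonneg_right (card_dyadicRange_le M) (nearInd_nonneg _ _ _)
    calc (∑ p ∈ P, nearInd M R (ξ / p.1) * ‖𝓕 f ((p.2 : ℝ) * ξ / p.1)‖ / |(p.1 : ℝ)|) ^ 2
        = (∑ p ∈ P, nearInd M R (ξ / p.1) *
            (nearInd M R (ξ / p.1) * ‖𝓕 f ((p.2 : ℝ) * ξ / p.1)‖ / |(p.1 : ℝ)|)) ^ 2 := by
          refine congrArg (· ^ 2) (sum_congr rfl fun p _ => ?_)
          rw [mul_div_assoc', ← mul_assoc, ← sq, nearInd_sq]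
      _ ≤ _ := sum_mul_sq_le_sq_mul_sq _ _ _
      _ ≤ 2 * M * S * ∑ p ∈ P,
            (nearInd M R (ξ / p.1) * ‖𝓕 f ((p.2 : ℝ) * ξ / p.1)‖ / |(p.1 : ℝ)|) ^ 2 :=
          mul_le_mul_of_nonneg_right hcnt (sum_nonneg fun p _ => sq_nonneg _)
      _ ≤ _ := by
          rw [mul_assoc, mul_sum]
          refine mul_le_mul_of_nonneg_left (sum_le_sum fun p hp => ?_) (by positivity)
          rw [hP, mem_product] at hp
          obtain ⟨hp1, hp2⟩ := hp
          have ha := abs_cast_bounds hp1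
          have hc := half_lt_abs_of_mem hp2
          have ha0 : (p.1 : ℝ) ≠ 0 := abs_pos.1 (by linarith)
          have hc0 : (p.2 : ℝ) ≠ 0 := abs_pos.1 (by linarith)
          rw [hΦ, div_pow, mul_pow, nearInd_sq]
          simp only
          rw [show (p.2 : ℝ) / p.1 * ξ / p.2 = ξ / p.1 by field_simp,
            show (p.2 : ℝ) / p.1 * ξ = p.2 * ξ / p.1 by ring]
          have hSle : S ≤ nearBound M R Y D ((p.2 : ℝ) * ξ / p.1) := by
            unfold nearBound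
            split_ifs with h
            · rw [hS]
              refine sum_nearInd_le hR hD hdiv ?_
              have h2 : |ξ| = |(p.1 : ℝ)| * |(p.2 : ℝ) * ξ / p.1| / |(p.2 : ℝ)| := by
                rw [abs_div, abs_mul]; field_simp
              rw [h2, div_le_iff₀ (by linarith)]
              calc |(p.1 : ℝ)| * |(p.2 : ℝ) * ξ / p.1| ≤ (2 * |(p.2 : ℝ)|) * Y :=
                    mul_le_mul (by linarith) h (abs_nonneg _) (by positivity)
                _ = _ := by ring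
            · rw [hS]; exact sum_nearInd_le_card M R ξ
          calc S * (nearInd M R (ξ / p.1) * ‖𝓕 f ((p.2 : ℝ) * ξ / p.1)‖ ^ 2 / |(p.1 : ℝ)| ^ 2)
              ≤ nearBound M R Y D ((p.2 : ℝ) * ξ / p.1) *
                  (nearInd M R (ξ / p.1) * ‖𝓕 f ((p.2 : ℝ) * ξ / p.1)‖ ^ 2 / |(p.1 : ℝ)| ^ 2) :=
                mul_le_mul_of_nonneg_right hSle (div_nonneg (mul_nonneg (nearInd_nonneg _ _ _)
                  (sq_nonneg _)) (sq_nonneg _))
            _ = _ := by ring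
  have hint : Integrable fun ξ => 2 * (M : ℝ) * ∑ a ∈ nonzeroRange M, ∑ c ∈ dyadicRange M,
      1 / |(a : ℝ)| ^ 2 * Φ c ((c : ℝ) / a * ξ) := by
    refine Integrable.const_mul ?_ _
    refine integrable_finsetSum _ fun a ha => integrable_finsetSum _ fun c hc => ?_
    refine Integrable.const_mul ((hΦi c).comp_mul_left' ?_) _
    exact div_ne_zero (abs_pos.1 (by linarith [half_lt_abs_of_mem hc]))
      (abs_pos.1 (by linarith [(abs_cast_bounds ha).1]))
  refine (integral_mono_of_nonneg (Eventually.of_forall fun ξ => sq_nonneg _) hint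
    (Eventually.of_forall hpoint)).trans ?_
  have hsub : ∀ a ∈ nonzeroRange M, ∀ c ∈ dyadicRange M,
      ∫ ξ, 1 / |(a : ℝ)| ^ 2 * Φ c ((c : ℝ) / a * ξ) ≤
        1 / |(a : ℝ)| * (2 / M * ∫ η, Φ c η) := fun a ha c hc => by
    have ha1 := (abs_cast_bounds ha).1
    have hc1 := half_lt_abs_of_mem hc
    rw [integral_const_mul, Measure.integral_comp_mul_left (fun η => Φ c η), smul_eq_mul,
      inv_div, abs_div]
    have hI : 0 ≤ ∫ η, Φ c η := integral_nonneg fun η => by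
      rw [hΦ]; exact mul_nonneg (mul_nonneg (hB0 η) (nearInd_nonneg _ _ _)) (sq_nonneg _)
    rw [show 1 / |(a : ℝ)| ^ 2 * (|(a : ℝ)| / |(c : ℝ)| * ∫ η, Φ c η) =
      1 / |(a : ℝ)| * (1 / |(c : ℝ)| * ∫ η, Φ c η) by field_simp]
    refine mul_le_mul_of_nonneg_left (mul_le_mul_of_nonneg_right ?_ hI) (by positivity)
    rw [div_le_div_iff₀ (by linarith) hM0]
    linarith
  rw [integral_const_mul, integral_finsetSum _ fun a ha => integrable_finsetSum _ fun c hc =>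
    Integrable.const_mul ((hΦi c).comp_mul_left' (div_ne_zero
      (abs_pos.1 (by linarith [half_lt_abs_of_mem hc]))
      (abs_pos.1 (by linarith [(abs_cast_bounds ha).1])))) _]
  refine (mul_le_mul_of_nonneg_left (sum_le_sum fun a ha => ?_) (by positivity)).trans
    (le_trans (le_of_eq (congrArg (2 * (M : ℝ) * ·)
      (sum_mul (nonzeroRange M) (fun a : ℤ => 1 / |(a : ℝ)|)
        (2 / M * ∫ η, ∑ c ∈ dyadicRange M, Φ c η)).symm)) ?_)
  · rw [integral_finsetSum _ fun c hc => Integrable.const_mul ((hΦi c).comp_mul_left' (div_ne_zero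
      (abs_pos.1 (by linarith [half_lt_abs_of_mem hc]))
      (abs_pos.1 (by linarith [(abs_cast_bounds ha).1])))) _,
      integral_finsetSum _ fun c _ => hΦi c, mul_sum, mul_sum]
    exact sum_le_sum fun c hc => hsub a ha c hc
  have htot : ∫ η, ∑ c ∈ dyadicRange M, Φ c η ≤
      (10 * R * D) ^ 2 * (∫ x, ‖f x‖ ^ 2) +
        4 * (M : ℝ) ^ 2 / Y ^ 2 * ∫ x, ‖deriv f x‖ ^ 2 := by
    have hb : Integrable fun η => (10 * R * D) ^ 2 * ‖𝓕 f η‖ ^ 2 +
        4 * (M : ℝ) ^ 2 / Y ^ 2 * (η ^ 2 * ‖𝓕 f η‖ ^ 2) :=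
      (i1.const_mul _).add (i3.const_mul _)
    refine (integral_mono (integrable_finsetSum _ fun c _ => hΦi c) hb fun η => ?_).trans ?_
    · rw [hΦ]
      simp only [← sum_mul, ← mul_sum]
      rw [← mul_assoc (4 * (M : ℝ) ^ 2 / Y ^ 2), ← add_mul]
      refine mul_le_mul_of_nonneg_right ?_ (sq_nonneg _)
      have hcs : ∑ c ∈ dyadicRange M, nearInd M R (η / c) ≤
          ∑ c ∈ nonzeroRange M, nearInd M R (η / c) :=
        sum_le_sum_of_subset_of_nonneg (filter_subset _ _) fun c _ _ => nearInd_nonneg _ _ _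
      have h0 : 0 ≤ 4 * (M : ℝ) ^ 2 / Y ^ 2 * η ^ 2 := by positivity
      unfold nearBound
      split_ifs with h
      · refine (mul_le_mul_of_nonneg_left (hcs.trans (sum_nearInd_le hR hD hdiv (by linarith)))
          (by positivity)).trans ?_
        linarith [sq (10 * R * D)]
      · refine (mul_le_mul_of_nonneg_left (hcs.trans (sum_nearInd_le_card M R η))
          (by positivity)).trans ?_
        have h1 : 1 ≤ η ^ 2 / Y ^ 2 := by
          rw [one_le_div (by positivity), ← sq_abs η]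
          exact pow_le_pow_left₀ hY.le (not_le.1 h).le 2
        have h2 := mul_le_mul_of_nonneg_left h1 (show 0 ≤ 4 * (M : ℝ) ^ 2 by positivity)
        rw [show 4 * (M : ℝ) ^ 2 * (η ^ 2 / Y ^ 2) = 4 * (M : ℝ) ^ 2 / Y ^ 2 * η ^ 2 by ring] at h2
        nlinarith [sq_nonneg (10 * R * D)]
    · rw [integral_add (i1.const_mul _) (i3.const_mul _), integral_const_mul, integral_const_mul,
        p1]
      exact add_le_add le_rfl (mul_le_mul_of_nonneg_left p3 (by positivity))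
  have hH := sum_inv_abs_le M
  have h0 : 0 ≤ ∫ η, ∑ c ∈ dyadicRange M, Φ c η := integral_nonneg fun η => sum_nonneg fun c _ => by
    rw [hΦ]; exact mul_nonneg (mul_nonneg (hB0 η) (nearInd_nonneg _ _ _)) (sq_nonneg _)
  calc 2 * (M : ℝ) * ((∑ a ∈ nonzeroRange M, 1 / |(a : ℝ)|) *
        (2 / M * ∫ η, ∑ c ∈ dyadicRange M, Φ c η))
      = 4 * (∑ a ∈ nonzeroRange M, 1 / |(a : ℝ)|) * ∫ η, ∑ c ∈ dyadicRange M, Φ c η := by
        field_simp
        ring
    _ ≤ 4 * (2 * (1 + Real.log M)) * ((10 * R * D) ^ 2 * (∫ x, ‖f x‖ ^ 2) +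
          4 * (M : ℝ) ^ 2 / Y ^ 2 * ∫ x, ‖deriv f x‖ ^ 2) :=
        mul_le_mul (mul_le_mul_of_nonneg_left hH (by norm_num)) htot h0
          (by have := Real.log_natCast_nonneg M; positivity)
    _ = _ := by ring

/-- **The mean square of the affine sum.** -/
theorem exists_affine_le (n : ℕ) : ∃ C, 0 ≤ C ∧ ∀ (M : ℕ) (R Y D : ℝ) (f : ℝ → ℂ) (z : ℝ),
    1 ≤ M → 1 ≤ R → 0 < Y → 1 ≤ D → (M : ℝ) ≤ R ^ n →
      (∀ l : ℕ, (l : ℝ) ≤ 2 * Y + R → (l.divisors.card : ℝ) ≤ D) →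
      ContDiff ℝ ∞ f → (∀ x, 6 < |x| → f x = 0) →
      ∫ v, ‖affineSum M f z v‖ ^ 2 ≤ C * (1 + Real.log M) ^ 2 *
        (R * (M : ℝ) ^ 6 * (∫ x, ‖f x‖) ^ 2 + (M : ℝ) ^ 4 * (R * D) ^ 2 * (∫ x, ‖f x‖ ^ 2) +
          (M : ℝ) ^ 6 / Y ^ 2 * ∫ x, ‖deriv f x‖ ^ 2) := by
  obtain ⟨C, hC, hshift⟩ := exists_shiftSum_le n
  refine ⟨3 * C ^ 2 * 1000, by positivity, fun M R Y D f z hM hR hY hD hMR hdiv hf hsupp => ?_⟩
  obtain ⟨i1, p1, -, -⟩ := transform_moments hf hsupp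
  have hM0 : (0 : ℝ) < M := Nat.cast_pos.2 hM
  have hM1 : (1 : ℝ) ≤ M := Nat.one_le_cast.2 hM
  have hlog : 0 ≤ Real.log M := Real.log_natCast_nonneg M
  -- every term
  have hterm : ∀ a ∈ nonzeroRange M, ∀ c ∈ dyadicRange M, ∀ b ∈ shiftRange M,
      (ContDiff ℝ ∞ fun v : ℝ => f (((a : ℝ) * v + ((b : ℝ) + z)) / c)) ∧
      ∀ v, 8 * (M : ℝ) + |z| < |v| → f (((a : ℝ) * v + ((b : ℝ) + z)) / c) = 0 := by
    intro a ha c hc b hb
    refine ⟨hf.comp (((contDiff_const.mul contDiff_id).add contDiff_const).div_const _),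
      fun v hv => hsupp _ ?_⟩
    obtain ⟨ha1, -⟩ := abs_cast_bounds ha
    obtain ⟨hc1, hc2⟩ := abs_cast_bounds (mem_filter.1 hc).1
    have hb' : |(b : ℝ)| ≤ 2 * M := by
      rw [shiftRange, Finset.mem_Icc] at hb
      rw [abs_le]
      exact ⟨by exact_mod_cast hb.1, by exact_mod_cast hb.2⟩
    rw [abs_div, lt_div_iff₀ (by linarith)]
    have h1 : |(a : ℝ) * v| - |(b : ℝ) + z| ≤ |(a : ℝ) * v + ((b : ℝ) + z)| := by
      have := abs_sub_abs_le_abs_sub ((a : ℝ) * v) (-((b : ℝ) + z))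
      rwa [abs_neg, sub_neg_eq_add] at this
    have h2 : |v| ≤ |(a : ℝ) * v| := by
      rw [abs_mul]; exact le_mul_of_one_le_left (abs_nonneg v) ha1
    have h3 := abs_add_le (b : ℝ) z
    linarith
  have hG : ContDiff ℝ ∞ (affineSum M f z) ∧
      ∀ v, 8 * (M : ℝ) + |z| < |v| → affineSum M f z v = 0 := by
    refine ⟨ContDiff.sum fun a ha => ContDiff.sum fun c hc => ContDiff.sum fun b hb =>
      contDiff_const.mul (hterm a ha c hc b hb).1, fun v hv => sum_eq_zero fun a ha =>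
        sum_eq_zero fun c hc => sum_eq_zero fun b hb => ?_⟩
    rw [(hterm a ha c hc b hb).2 v hv, mul_zero]
  -- the transform
  have hfourier : ∀ ξ, 𝓕 (affineSum M f z) ξ = ∑ a ∈ nonzeroRange M, ∑ c ∈ dyadicRange M,
      ((|(c : ℝ)| / |(a : ℝ)| : ℝ) : ℂ) *
        (Complex.exp (((2 * π * ξ * z / a : ℝ) : ℂ) * I) * 𝓕 f ((c : ℝ) * ξ / a)) *
          shiftSum M (ξ / a) := fun ξ => by
    have hint : ∀ a ∈ nonzeroRange M, ∀ c ∈ dyadicRange M, ∀ b ∈ shiftRange M,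
        Integrable fun v : ℝ => Complex.exp ((↑(-2 * π * v * ξ) : ℂ) * I) *
          ((shiftBump ((b : ℝ) / M) : ℂ) * f (((a : ℝ) * v + ((b : ℝ) + z)) / c)) :=
      fun a ha c hc b hb => by
        refine Continuous.integrable_of_hasCompactSupport (Continuous.mul (by fun_prop)
          (continuous_const.mul (hterm a ha c hc b hb).1.continuous))
          (hasCompactSupport_of_abs (B := 8 * (M : ℝ) + |z|) fun v hv => ?_)
        rw [(hterm a ha c hc b hb).2 v hv, mul_zero, mul_zero]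
    rw [Real.fourier_real_eq_integral_exp_smul]
    simp only [smul_eq_mul, affineSum, mul_sum]
    rw [integral_finsetSum _ fun a ha => integrable_finsetSum _ fun c hc =>
      integrable_finsetSum _ fun b hb => hint a ha c hc b hb]
    refine sum_congr rfl fun a ha => ?_
    rw [integral_finsetSum _ fun c hc => integrable_finsetSum _ fun b hb => hint a ha c hc b hb]
    refine sum_congr rfl fun c hc => ?_
    rw [integral_finsetSum _ fun b hb => hint a ha c hc b hb, shiftSum, mul_sum]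
    refine sum_congr rfl fun b hb => ?_
    have h := fourier_affine (f := f) (mem_nonzeroRange.1 ha).1
      (mem_nonzeroRange.1 (mem_filter.1 hc).1).1 ((b : ℝ) + z) ξ
    rw [Real.fourier_real_eq_integral_exp_smul] at h
    simp only [smul_eq_mul] at h
    rw [integral_congr_ae (g := fun v : ℝ => (shiftBump ((b : ℝ) / M) : ℂ) *
      (Complex.exp ((↑(-2 * π * v * ξ) : ℂ) * I) * f (((a : ℝ) * v + ((b : ℝ) + z)) / c)))
        (Eventually.of_forall fun v => by ring), integral_const_mul, h,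
      show ((2 * π * ξ * ((b : ℝ) + z) / a : ℝ) : ℂ) * I =
        ((2 * π * ξ * z / a : ℝ) : ℂ) * I + ((2 * π * b * (ξ / a) : ℝ) : ℂ) * I by
          push_cast; ring, Complex.exp_add]
    ring
  -- the three parts
  obtain ⟨F₁, hF₁⟩ : ∃ F₁, F₁ = ∫ x, ‖f x‖ := ⟨_, rfl⟩
  have hF₁0 : 0 ≤ F₁ := hF₁ ▸ integral_nonneg fun x => norm_nonneg _
  obtain ⟨P₀, hP₀⟩ : ∃ P₀ : ℝ → ℝ, P₀ = Set.indicator (Set.Icc (-R) R) fun _ =>
      F₁ * (2 * M * (2 * (1 + Real.log M))) := ⟨_, rfl⟩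
  obtain ⟨P₁, hP₁⟩ : ∃ P₁ : ℝ → ℝ, P₁ = fun ξ => ∑ a ∈ nonzeroRange M, ∑ c ∈ dyadicRange M,
      nearInd M R (ξ / a) * ‖𝓕 f ((c : ℝ) * ξ / a)‖ / |(a : ℝ)| := ⟨_, rfl⟩
  obtain ⟨P₂, hP₂⟩ : ∃ P₂ : ℝ → ℝ, P₂ = fun ξ => ∑ a ∈ nonzeroRange M, ∑ c ∈ dyadicRange M,
      (R ^ n)⁻¹ * (‖𝓕 f ((c : ℝ) * ξ / a)‖ / |(a : ℝ)|) := ⟨_, rfl⟩
  have hbound : ∀ ξ, ‖𝓕 (affineSum M f z) ξ‖ ≤ C * (M : ℝ) ^ 2 * (P₀ ξ + P₁ ξ + P₂ ξ) := fun ξ => by
    rw [hfourier]
    have hP₀le : ∑ a ∈ nonzeroRange M, ∑ c ∈ dyadicRange M,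
        Set.indicator (Set.Icc (-R) R) (fun _ => F₁) ξ / |(a : ℝ)| ≤ P₀ ξ := by
      rw [hP₀]
      by_cases hξ : ξ ∈ Set.Icc (-R) R
      · simp only [Set.indicator_of_mem hξ, sum_const, nsmul_eq_mul]
        rw [← mul_sum]
        rw [show ∑ a ∈ nonzeroRange M, F₁ / |(a : ℝ)| =
          F₁ * ∑ a ∈ nonzeroRange M, 1 / |(a : ℝ)| by
            rw [mul_sum]; exact sum_congr rfl fun a _ => (mul_one_div _ _).symm]
        have h1 := card_dyadicRange_le M
        have h2 := sum_inv_abs_le M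
        calc ((dyadicRange M).card : ℝ) * (F₁ * ∑ a ∈ nonzeroRange M, 1 / |(a : ℝ)|)
            ≤ 2 * M * (F₁ * (2 * (1 + Real.log M))) := by gcongr
          _ = _ := by ring
      · simp [Set.indicator_of_notMem hξ]
    rw [mul_add, mul_add]
    refine (norm_sum_le _ _).trans (le_trans (sum_le_sum fun a ha =>
      (norm_sum_le _ _).trans (sum_le_sum (g := fun c : ℤ => C * (M : ℝ) ^ 2 *
        (Set.indicator (Set.Icc (-R) R) (fun _ => F₁) ξ / |(a : ℝ)|) +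
        C * (M : ℝ) ^ 2 * (nearInd M R (ξ / a) * ‖𝓕 f ((c : ℝ) * ξ / a)‖ / |(a : ℝ)|) +
        C * (M : ℝ) ^ 2 * ((R ^ n)⁻¹ * (‖𝓕 f ((c : ℝ) * ξ / a)‖ / |(a : ℝ)|)))
        fun c hc => ?_)) ?_)
    · obtain ⟨ha1, ha2⟩ := abs_cast_bounds ha
      obtain ⟨hc1, hc2⟩ := abs_cast_bounds (mem_filter.1 hc).1
      obtain ⟨hs1, hs2⟩ := hshift M R (ξ / a) hM hR
      rw [norm_mul, norm_mul, norm_mul, Complex.norm_exp_ofReal_mul_I, one_mul, Complex.norm_real,
        Real.norm_of_nonneg (by positivity), ← mul_add, ← mul_add]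
      obtain ⟨u, hu⟩ : ∃ u, u = ‖𝓕 f ((c : ℝ) * ξ / a)‖ / |(a : ℝ)| := ⟨_, rfl⟩
      have hu0 : 0 ≤ u := hu ▸ by positivity
      rw [show |(c : ℝ)| / |(a : ℝ)| * ‖𝓕 f ((c : ℝ) * ξ / a)‖ * ‖shiftSum M (ξ / a)‖ =
        |(c : ℝ)| * u * ‖shiftSum M (ξ / a)‖ by rw [hu]; ring,
        mul_div_assoc (nearInd M R (ξ / a)), ← hu]
      have hI0 : 0 ≤ Set.indicator (Set.Icc (-R) R) (fun _ => F₁) ξ / |(a : ℝ)| :=
        div_nonneg (Set.indicator_nonneg (fun _ _ => hF₁0) ξ) (abs_nonneg _)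
      have hRn : 0 ≤ (R ^ n)⁻¹ * u := by positivity
      have hN0 : 0 ≤ nearInd M R (ξ / a) * u := mul_nonneg (nearInd_nonneg _ _ _) hu0
      by_cases hnear : (M : ℝ) * |ξ / a - round (ξ / a)| ≤ R
      · refine (mul_le_mul (mul_le_mul_of_nonneg_right hc2 hu0) hs1 (norm_nonneg _)
          (by positivity)).trans ?_
        rw [show (M : ℝ) * u * (C * M) = C * (M : ℝ) ^ 2 * u by ring]
        refine mul_le_mul_of_nonneg_left ?_ (by positivity)
        by_cases hk : round (ξ / a) = 0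
        · rw [hk, Int.cast_zero, sub_zero, abs_div] at hnear
          have hξ : ξ ∈ Set.Icc (-R) R := by
            rw [Set.mem_Icc, ← abs_le]
            have h1 : |ξ| / |(a : ℝ)| * |(a : ℝ)| ≤ |ξ| / |(a : ℝ)| * M :=
              mul_le_mul_of_nonneg_left ha2 (by positivity)
            rw [div_mul_cancel₀ _ (by linarith : |(a : ℝ)| ≠ 0)] at h1
            linarith
          have h2 : u ≤ Set.indicator (Set.Icc (-R) R) (fun _ => F₁) ξ / |(a : ℝ)| := by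
            rw [Set.indicator_of_mem hξ, hu, hF₁]
            exact div_le_div_of_nonneg_right (fourier_smul_integral f _) (abs_nonneg _)
          linarith
        · have h2 : nearInd M R (ξ / a) = 1 := if_pos ⟨hk, hnear⟩
          rw [h2]
          linarith
      · refine (mul_le_mul (mul_le_mul_of_nonneg_right hc2 hu0) (hs2 (not_le.1 hnear))
          (norm_nonneg _) (by positivity)).trans ?_
        rw [show (M : ℝ) * u * (C * M / R ^ n) = C * (M : ℝ) ^ 2 * ((R ^ n)⁻¹ * u) by ring]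
        refine mul_le_mul_of_nonneg_left ?_ (by positivity)
        linarith
    · simp only [sum_add_distrib, ← mul_sum]
      rw [hP₁, hP₂]
      simp only [← mul_sum]
      gcongr
  -- the integrals
  have e0 : ∫ ξ, P₀ ξ ^ 2 = 2 * R * (F₁ * (2 * M * (2 * (1 + Real.log M)))) ^ 2 := by
    rw [hP₀]
    have : (fun ξ : ℝ => Set.indicator (Set.Icc (-R) R)
        (fun _ => F₁ * (2 * M * (2 * (1 + Real.log M)))) ξ ^ 2) =
        Set.indicator (Set.Icc (-R) R) fun _ => (F₁ * (2 * M * (2 * (1 + Real.log M)))) ^ 2 := by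
      funext ξ
      by_cases hξ : ξ ∈ Set.Icc (-R) R <;> simp [hξ]
    rw [this, integral_indicator measurableSet_Icc, setIntegral_const, measureReal_def,
      Real.volume_Icc, ENNReal.toReal_ofReal (by linarith), smul_eq_mul]
    ring
  have hi0 : Integrable fun ξ => P₀ ξ ^ 2 := by
    refine (IntegrableOn.integrable_indicator (f := fun _ : ℝ =>
      (F₁ * (2 * M * (2 * (1 + Real.log M)))) ^ 2) (integrableOn_const measure_Icc_lt_top.ne)
      (measurableSet_Icc (a := -R) (b := R))).congr (Eventually.of_forall fun ξ => ?_)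
    rw [hP₀]
    by_cases hξ : ξ ∈ Set.Icc (-R) R <;> simp [hξ]
  have hsq : ∀ ξ, P₂ ξ ^ 2 ≤ 4 * ∑ a ∈ nonzeroRange M, ∑ c ∈ dyadicRange M,
      1 / |(a : ℝ)| ^ 2 * ‖𝓕 f ((c : ℝ) / a * ξ)‖ ^ 2 := fun ξ => by
    rw [hP₂]
    simp only [← sum_product']
    refine sq_sum_le_card_mul_sum_sq.trans ?_
    rw [mul_sum, mul_sum]
    refine sum_le_sum fun p _ => ?_
    rw [card_product, Nat.cast_mul]
    have h1 := mul_le_mul (card_nonzeroRange_le M) (card_dyadicRange_le M) (Nat.cast_nonneg _)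
      (by positivity)
    refine (mul_le_mul_of_nonneg_right h1 (sq_nonneg _)).trans ?_
    rw [show (p.2 : ℝ) * ξ / p.1 = (p.2 : ℝ) / p.1 * ξ by ring]
    calc 2 * (M : ℝ) * (2 * M) *
          ((R ^ n)⁻¹ * (‖𝓕 f ((p.2 : ℝ) / p.1 * ξ)‖ / |(p.1 : ℝ)|)) ^ 2
        = 4 * ((M : ℝ) / R ^ n) ^ 2 *
            (1 / |(p.1 : ℝ)| ^ 2 * ‖𝓕 f ((p.2 : ℝ) / p.1 * ξ)‖ ^ 2) := by ring
      _ ≤ 4 * 1 * (1 / |(p.1 : ℝ)| ^ 2 * ‖𝓕 f ((p.2 : ℝ) / p.1 * ξ)‖ ^ 2) := by
          gcongr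
          exact pow_le_one₀ (by positivity) ((div_le_one (by positivity)).2 hMR)
      _ = _ := by ring
  have hci : ∀ a ∈ nonzeroRange M, ∀ c ∈ dyadicRange M,
      Integrable fun ξ => 1 / |(a : ℝ)| ^ 2 * ‖𝓕 f ((c : ℝ) / a * ξ)‖ ^ 2 := fun a ha c hc =>
    (i1.comp_mul_left' (div_ne_zero (abs_pos.1 (by linarith [half_lt_abs_of_mem hc]))
      (abs_pos.1 (by linarith [(abs_cast_bounds ha).1])))).const_mul _
  have e2 : ∫ ξ, P₂ ξ ^ 2 ≤ 32 * (1 + Real.log M) * ∫ x, ‖f x‖ ^ 2 := by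
    refine (integral_mono_of_nonneg (Eventually.of_forall fun ξ => sq_nonneg _)
      ((integrable_finsetSum _ fun a ha => integrable_finsetSum _ fun c hc =>
        hci a ha c hc).const_mul 4) (Eventually.of_forall hsq)).trans ?_
    rw [integral_const_mul, integral_finsetSum _ fun a ha => integrable_finsetSum _ fun c hc =>
      hci a ha c hc]
    have hI : 0 ≤ ∫ x, ‖f x‖ ^ 2 := integral_nonneg fun x => sq_nonneg _
    have h4 : ∀ a ∈ nonzeroRange M, ∫ ξ, ∑ c ∈ dyadicRange M,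
        1 / |(a : ℝ)| ^ 2 * ‖𝓕 f ((c : ℝ) / a * ξ)‖ ^ 2 ≤
          1 / |(a : ℝ)| * (4 * ∫ x, ‖f x‖ ^ 2) := fun a ha => by
      rw [integral_finsetSum _ fun c hc => hci a ha c hc]
      refine (sum_le_sum (g := fun _ => 1 / |(a : ℝ)| * (2 / M * ∫ x, ‖f x‖ ^ 2))
        fun c hc => ?_).trans ?_
      · rw [integral_const_mul, Measure.integral_comp_mul_left (fun η => ‖𝓕 f η‖ ^ 2), smul_eq_mul,
          inv_div, abs_div, p1]
        have hc1 := half_lt_abs_of_mem hc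
        have ha1 := (abs_cast_bounds ha).1
        rw [show 1 / |(a : ℝ)| ^ 2 * (|(a : ℝ)| / |(c : ℝ)| * ∫ x, ‖f x‖ ^ 2) =
          1 / |(a : ℝ)| * (1 / |(c : ℝ)| * ∫ x, ‖f x‖ ^ 2) by field_simp]
        refine mul_le_mul_of_nonneg_left (mul_le_mul_of_nonneg_right ?_ hI) (by positivity)
        rw [div_le_div_iff₀ (by linarith) hM0]
        linarith
      · rw [sum_const, nsmul_eq_mul]
        calc ((dyadicRange M).card : ℝ) * (1 / |(a : ℝ)| * (2 / M * ∫ x, ‖f x‖ ^ 2))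
            ≤ 2 * M * (1 / |(a : ℝ)| * (2 / M * ∫ x, ‖f x‖ ^ 2)) :=
              mul_le_mul_of_nonneg_right (card_dyadicRange_le M) (by positivity)
          _ = _ := by field_simp; ring
    refine (mul_le_mul_of_nonneg_left (sum_le_sum h4) (by norm_num)).trans ?_
    rw [← sum_mul]
    nlinarith [mul_le_mul_of_nonneg_right (sum_inv_abs_le M) hI]
  have hc1f : Continuous (𝓕 f) :=
    VectorFourier.fourierIntegral_continuous Real.continuous_fourierChar (L := innerₗ ℝ)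
      continuous_inner (hf.continuous.integrable_of_hasCompactSupport
        (hasCompactSupport_of_abs hsupp))
  have hi2 : Integrable fun ξ => P₂ ξ ^ 2 :=
    ((integrable_finsetSum _ fun a ha => integrable_finsetSum _ fun c hc =>
      hci a ha c hc).const_mul 4).mono' (by rw [hP₂]; fun_prop)
        (Eventually.of_forall fun ξ => by rw [Real.norm_of_nonneg (sq_nonneg _)]; exact hsq ξ)
  have hP1m : Measurable P₁ := by
    rw [hP₁]
    refine Finset.measurable_sum _ fun a _ => Finset.measurable_sum _ fun c _ => ?_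
    exact (((measurable_nearInd M R).comp (measurable_id.div_const _)).mul
      (hc1f.measurable.comp (by fun_prop)).norm).div_const _
  have hi1 : Integrable fun ξ => P₁ ξ ^ 2 := by
    refine ((integrable_finsetSum _ fun a ha => integrable_finsetSum _ fun c hc =>
      hci a ha c hc).const_mul (4 * (M : ℝ) ^ 2)).mono' (hP1m.pow_const 2).aestronglyMeasurable
        (Eventually.of_forall fun ξ => ?_)
    rw [Real.norm_of_nonneg (sq_nonneg _), hP₁]
    simp only [← sum_product']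
    refine sq_sum_le_card_mul_sum_sq.trans ?_
    rw [mul_sum, mul_sum, card_product, Nat.cast_mul]
    refine sum_le_sum fun p _ => ?_
    rw [show (p.2 : ℝ) * ξ / p.1 = (p.2 : ℝ) / p.1 * ξ by ring, div_pow, mul_pow, nearInd_sq]
    have h1 := mul_le_mul (card_nonzeroRange_le M) (card_dyadicRange_le M) (Nat.cast_nonneg _)
      (by positivity)
    calc ((nonzeroRange M).card : ℝ) * (dyadicRange M).card *
          (nearInd M R (ξ / p.1) * ‖𝓕 f ((p.2 : ℝ) / p.1 * ξ)‖ ^ 2 / |(p.1 : ℝ)| ^ 2)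
        ≤ 2 * (M : ℝ) * (2 * M) * (1 * ‖𝓕 f ((p.2 : ℝ) / p.1 * ξ)‖ ^ 2 / |(p.1 : ℝ)| ^ 2) := by
          gcongr
          · exact div_nonneg (mul_nonneg (nearInd_nonneg _ _ _) (sq_nonneg _)) (sq_nonneg _)
          · exact nearInd_le_one _ _ _
      _ = _ := by ring
  -- Plancherel
  obtain ⟨G, hGd⟩ : ∃ G : 𝓢(ℝ, ℂ), (G : ℝ → ℂ) = affineSum M f z :=
    ⟨(hasCompactSupport_of_abs hG.2).toSchwartzMap hG.1, rfl⟩
  have hplan : ∫ v, ‖affineSum M f z v‖ ^ 2 = ∫ ξ, ‖𝓕 (affineSum M f z) ξ‖ ^ 2 := by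
    rw [← hGd, ← SchwartzMap.fourier_coe, SchwartzMap.integral_norm_sq_fourier]
  rw [hplan]
  have hsum : Integrable fun ξ =>
      3 * (C * (M : ℝ) ^ 2) ^ 2 * (P₀ ξ ^ 2 + P₁ ξ ^ 2 + P₂ ξ ^ 2) :=
    ((hi0.add hi1).add hi2).const_mul _
  refine (integral_mono_of_nonneg (Eventually.of_forall fun ξ => sq_nonneg _) hsum
    (Eventually.of_forall fun ξ => ?_)).trans ?_
  · refine (pow_le_pow_left₀ (norm_nonneg _) (hbound ξ) 2).trans ?_
    have h3 : (P₀ ξ + P₁ ξ + P₂ ξ) ^ 2 ≤ 3 * (P₀ ξ ^ 2 + P₁ ξ ^ 2 + P₂ ξ ^ 2) := by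
      nlinarith [sq_nonneg (P₀ ξ - P₁ ξ), sq_nonneg (P₁ ξ - P₂ ξ), sq_nonneg (P₀ ξ - P₂ ξ)]
    rw [mul_pow]
    exact (mul_le_mul_of_nonneg_left h3 (sq_nonneg _)).trans (le_of_eq (by ring))
  rw [integral_const_mul, integral_add (f := fun ξ => P₀ ξ ^ 2 + P₁ ξ ^ 2) (hi0.add hi1) hi2,
    integral_add hi0 hi1, e0]
  have e1 := integral_near_le hf hsupp hM hR hY hD hdiv
  rw [hP₁]
  have hI : 0 ≤ ∫ x, ‖f x‖ ^ 2 := integral_nonneg fun x => sq_nonneg _
  have hJ : 0 ≤ ∫ x, ‖deriv f x‖ ^ 2 := integral_nonneg fun x => sq_nonneg _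
  obtain ⟨H, hH⟩ : ∃ H, H = 1 + Real.log M := ⟨_, rfl⟩
  obtain ⟨Q, hQ⟩ : ∃ Q, Q = (R * D) ^ 2 := ⟨_, rfl⟩
  rw [← hH] at e1 e2 ⊢
  rw [← hF₁, ← hQ]
  rw [show (10 * R * D) ^ 2 = 100 * Q by rw [hQ]; ring] at e1
  have hH1 : 1 ≤ H := hH ▸ by linarith
  have hQ1 : 1 ≤ Q := hQ ▸ one_le_pow₀ (one_le_mul_of_one_le_of_one_le hR hD)
  have hHH : H ≤ H ^ 2 := le_self_pow₀ hH1 two_ne_zero
  have b1 : 8 * H * (100 * Q * (∫ x, ‖f x‖ ^ 2) +
      4 * (M : ℝ) ^ 2 / Y ^ 2 * ∫ x, ‖deriv f x‖ ^ 2) ≤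
      H ^ 2 * (800 * Q * (∫ x, ‖f x‖ ^ 2) +
        32 * ((M : ℝ) ^ 2 / Y ^ 2) * ∫ x, ‖deriv f x‖ ^ 2) := by
    refine le_trans (le_of_eq ?_) (mul_le_mul_of_nonneg_right hHH (by positivity))
    ring
  have b2 : 32 * H * (∫ x, ‖f x‖ ^ 2) ≤ H ^ 2 * (32 * Q * ∫ x, ‖f x‖ ^ 2) := by
    refine le_trans (le_of_eq (mul_assoc _ _ _)) ?_
    calc 32 * (H * ∫ x, ‖f x‖ ^ 2) ≤ 32 * (H ^ 2 * (Q * ∫ x, ‖f x‖ ^ 2)) := by
          gcongr
          exact le_mul_of_one_le_left hI hQ1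
      _ = _ := by ring
  refine (mul_le_mul_of_nonneg_left (add_le_add (add_le_add le_rfl (e1.trans b1)) (e2.trans b2))
    (by positivity)).trans ?_
  calc 3 * (C * (M : ℝ) ^ 2) ^ 2 * (2 * R * (F₁ * (2 * M * (2 * H))) ^ 2 +
        H ^ 2 * (800 * Q * (∫ x, ‖f x‖ ^ 2) +
          32 * ((M : ℝ) ^ 2 / Y ^ 2) * ∫ x, ‖deriv f x‖ ^ 2) +
        H ^ 2 * (32 * Q * ∫ x, ‖f x‖ ^ 2))
      = 3 * C ^ 2 * H ^ 2 * (32 * (R * (M : ℝ) ^ 6 * F₁ ^ 2) +
          832 * ((M : ℝ) ^ 4 * Q * ∫ x, ‖f x‖ ^ 2) +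
          32 * ((M : ℝ) ^ 6 / Y ^ 2 * ∫ x, ‖deriv f x‖ ^ 2)) := by ring
    _ ≤ 3 * C ^ 2 * H ^ 2 * (1000 * (R * (M : ℝ) ^ 6 * F₁ ^ 2) +
          1000 * ((M : ℝ) ^ 4 * Q * ∫ x, ‖f x‖ ^ 2) +
          1000 * ((M : ℝ) ^ 6 / Y ^ 2 * ∫ x, ‖deriv f x‖ ^ 2)) := by gcongr <;> norm_num
    _ = _ := by ring

end FA.GuthMaynard

end
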