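import Fermat.Agent.GuthMaynard.DensityBand
import Fermat.Agent.Huxley.ShortIntervals

/-!
# The zero-density theorem of Guth and Maynard

The bands give `N (σ, T) ≤ C T ^ (30 (1 - σ) / 13 + ε)`, and for every `c > 30/13` a bound
`C T ^ (c (1 - σ)) log ^ A T`; primes in short intervals follow for `θ > 17/30`.
-/

set_option autoImplicit false

noncomputable section

namespace FA.GuthMaynard

open Finset Filter
open FA.RiemannMangoldt FA.ExplicitFormula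
open FA.Hoheisel (countGe exists_countGe_trivial countGe_le_bands exponent_le_log
  prime_short_of_count gap_of_prime_short)
open FA.Huxley (DensityBound two_le_log short_of_density)

/-- The bands give the count, for any exponent that reaches `1` at `σ₀`. -/
theorem exists_count_of_band_at {σ₀ : ℝ} {e : ℝ → ℝ} {A : ℕ} {C₁ T₀ : ℝ} (hC₁ : 0 ≤ C₁)
    (hT₀ : 1 ≤ T₀) (hlow : ∀ σ ≤ σ₀, 1 ≤ e σ) (h0 : ∀ σ ≤ (1 : ℝ), 0 ≤ e σ)
    (hband : ∀ σ T : ℝ, T₀ ≤ T → σ₀ ≤ σ → σ ≤ 1 →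
      ∑ ρ ∈ ((zerosUpTo T).filter (fun ρ => σ ≤ ρ.re)).filter (fun ρ => T / 2 < |ρ.im|),
        (zeroWeight ρ : ℝ) ≤ C₁ * T ^ e σ * Real.log T ^ A) :
    ∃ C, 0 ≤ C ∧ ∀ σ T : ℝ, 2 ≤ T →
      (countGe σ T : ℝ) ≤ C * T ^ e σ * Real.log T ^ (A + 1) := by
  obtain ⟨C₀, hC₀, htriv⟩ := exists_countGe_trivial
  obtain ⟨M, hM⟩ : ∃ M, M = (countGe 0 T₀ : ℝ) := ⟨_, rfl⟩
  have hM0 : 0 ≤ M := hM ▸ Nat.cast_nonneg _
  refine ⟨(C₀ + M + 3 * C₁) * 4 ^ (A + 2), by positivity, fun σ T hT => ?_⟩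
  obtain ⟨L, hLdef⟩ : ∃ L, L = Real.log T := ⟨_, rfl⟩
  rw [← hLdef]
  have hL : 1 / 2 ≤ L := hLdef ▸
    le_trans (by linarith [Real.log_two_gt_d9]) (Real.log_le_log two_pos hT)
  have hT0 : 0 < T := by linarith
  obtain ⟨P, hP⟩ : ∃ P, P = T ^ e σ := ⟨_, rfl⟩
  rw [← hP]
  have hP0 : 0 ≤ P := hP ▸ Real.rpow_nonneg hT0.le _
  have h4 : ∀ i : ℕ, i ≤ A + 1 → L ^ i ≤ 4 ^ (A + 2) * L ^ (A + 1) := fun i hi => by
    have e' : (4 : ℝ) ^ (A + 2) * L ^ (A + 1) = 4 * (4 * L) ^ (A + 1 - i) * (4 ^ i * L ^ i) := by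
      rw [← mul_pow, mul_assoc, ← pow_add, show A + 1 - i + i = A + 1 by omega, mul_pow]
      ring
    rw [e', ← mul_assoc]
    refine le_mul_of_one_le_left (pow_nonneg (by linarith) i) ?_
    exact one_le_mul_of_one_le_of_one_le (one_le_mul_of_one_le_of_one_le (by norm_num)
      (one_le_pow₀ (by linarith))) (one_le_pow₀ (by norm_num))
  rcases le_or_gt σ σ₀ with hσ | hσ
  · have hTP : T ≤ P := hP ▸ Real.self_le_rpow_of_one_le (by linarith) (hlow σ hσ)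
    have h := h4 1 (by omega)
    rw [pow_one] at h
    calc (countGe σ T : ℝ) ≤ C₀ * (T * L) := hLdef ▸ htriv σ T hT
      _ ≤ C₀ * (P * (4 ^ (A + 2) * L ^ (A + 1))) := by gcongr
      _ = C₀ * 4 ^ (A + 2) * P * L ^ (A + 1) := by ring
      _ ≤ _ := by
        gcongr
        linarith
  rcases le_or_gt σ 1 with hσ1 | hσ1
  swap
  · have : countGe σ T = 0 := Finset.sum_eq_zero fun ρ hρ => by
      simp only [Finset.mem_filter, mem_zerosUpTo] at hρ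
      linarith [(xiFn_zero_strip hρ.1.1).2]
    rw [this, Nat.cast_zero]
    positivity
  obtain ⟨j, hj⟩ : ∃ j, j = Nat.log 2 ⌊T⌋₊ + 1 := ⟨_, rfl⟩
  have hjT : T ≤ 2 ^ j * T₀ := by
    have h2 : ((⌊T⌋₊ : ℕ) : ℝ) + 1 ≤ (2 : ℝ) ^ j := by
      rw [hj]
      exact_mod_cast
        (Nat.lt_pow_succ_log_self one_lt_two ⌊T⌋₊ : ⌊T⌋₊ + 1 ≤ 2 ^ (Nat.log 2 ⌊T⌋₊ + 1))
    have : (2 : ℝ) ^ j ≤ 2 ^ j * T₀ := le_mul_of_one_le_right (by positivity) hT₀
    linarith [Nat.lt_floor_add_one T]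
  have hjL : (j : ℝ) ≤ 4 * L := by
    have hfl : 2 ^ Nat.log 2 ⌊T⌋₊ ≤ ⌊T⌋₊ :=
      Nat.pow_log_le_self 2 (Nat.floor_pos.2 (by linarith : (1 : ℝ) ≤ T)).ne'
    have hflR : (2 : ℝ) ^ Nat.log 2 ⌊T⌋₊ ≤ (⌊T⌋₊ : ℝ) := by exact_mod_cast hfl
    have h := exponent_le_log (show 1 ≤ T by linarith) (m := 1)
      (n := Nat.log 2 ⌊T⌋₊) (by rw [Real.rpow_one]; exact hflR.trans (Nat.floor_le hT0.le))
    rw [hj, hLdef, Nat.cast_succ]
    linarith [hLdef ▸ hL]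
  have h := countGe_le_bands hT₀ (show 0 ≤ C₁ * P * L ^ A by positivity)
    (fun S hS hST => (hband σ S hS hσ.le hσ1).trans (by
      have hS2 : 1 ≤ S := hT₀.trans hS
      rw [hP, hLdef]
      refine mul_le_mul (mul_le_mul_of_nonneg_left (Real.rpow_le_rpow (by linarith) hST
        (h0 σ hσ1)) hC₁) ?_ (pow_nonneg (Real.log_nonneg hS2) A) (by positivity)
      exact pow_le_pow_left₀ (Real.log_nonneg hS2) (Real.log_le_log (by linarith) hST) A))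
    j T le_rfl hjT
  refine h.trans ?_
  have h1 : 1 ≤ P * (4 ^ (A + 2) * L ^ (A + 1)) :=
    one_le_mul_of_one_le_of_one_le (hP ▸ Real.one_le_rpow (by linarith) (h0 σ hσ1))
      ((pow_zero L).symm.trans_le (h4 0 (Nat.zero_le _)))
  calc (countGe 0 T₀ : ℝ) + (j : ℝ) * (C₁ * P * L ^ A) ≤
        M * (P * (4 ^ (A + 2) * L ^ (A + 1))) + 4 * L * (C₁ * P * L ^ A) := by
        rw [← hM]
        refine add_le_add (le_mul_of_one_le_right hM0 h1) ?_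
        gcongr
    _ = (M * 4 ^ (A + 2) + 4 * C₁) * P * L ^ (A + 1) := by ring
    _ ≤ _ := by
        gcongr
        have : (4 : ℝ) * C₁ ≤ 3 * C₁ * 4 ^ (A + 2) := by
          have := one_le_pow₀ (n := A) (show (1 : ℝ) ≤ 4 by norm_num)
          rw [pow_add]
          nlinarith
        nlinarith [show (0 : ℝ) ≤ C₀ * 4 ^ (A + 2) by positivity]

/-- The bands give the count, for any exponent that reaches `1` at `17/30`. -/
theorem exists_count_of_band {e : ℝ → ℝ} {A : ℕ} {C₁ T₀ : ℝ} (hC₁ : 0 ≤ C₁) (hT₀ : 1 ≤ T₀)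
    (h17 : ∀ σ ≤ (17 / 30 : ℝ), 1 ≤ e σ) (h0 : ∀ σ ≤ (1 : ℝ), 0 ≤ e σ)
    (hband : ∀ σ T : ℝ, T₀ ≤ T → 17 / 30 ≤ σ → σ ≤ 1 →
      ∑ ρ ∈ ((zerosUpTo T).filter (fun ρ => σ ≤ ρ.re)).filter (fun ρ => T / 2 < |ρ.im|),
        (zeroWeight ρ : ℝ) ≤ C₁ * T ^ e σ * Real.log T ^ A) :
    ∃ C, 0 ≤ C ∧ ∀ σ T : ℝ, 2 ≤ T →
      (countGe σ T : ℝ) ≤ C * T ^ e σ * Real.log T ^ (A + 1) :=
  exists_count_of_band_at hC₁ hT₀ h17 h0 hband

/-- **The zero-density theorem of Guth and Maynard.** -/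
theorem exists_gm_density_eps {ε : ℝ} (hε : 0 < ε) : ∃ C, 0 ≤ C ∧ ∀ σ T : ℝ, 2 ≤ T →
    (countGe σ T : ℝ) ≤ C * T ^ (30 / 13 * (1 - σ) + ε) := by
  obtain ⟨C₁, hC₁, T₀, hT₀, hband⟩ := exists_band_eps (half_pos hε)
  obtain ⟨C, hC, hD⟩ := exists_count_of_band (e := fun σ => 30 / 13 * (1 - σ) + ε / 2) hC₁ hT₀
    (fun σ hσ => by linarith) (fun σ hσ => by linarith) hband
  obtain ⟨Ll, hLl, hll⟩ := exists_log_pow_le (5 + 1) (half_pos hε)
  refine ⟨C * Ll, by positivity, fun σ T hT => (hD σ T hT).trans ?_⟩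
  have hT0 : 0 < T := by linarith
  calc C * T ^ (30 / 13 * (1 - σ) + ε / 2) * Real.log T ^ (5 + 1)
      ≤ C * T ^ (30 / 13 * (1 - σ) + ε / 2) * (Ll * T ^ (ε / 2)) := by
        gcongr; exact hll T (by linarith)
    _ = C * Ll * (T ^ (30 / 13 * (1 - σ) + ε / 2) * T ^ (ε / 2)) := by ring
    _ = _ := by rw [← Real.rpow_add hT0]; ring_nf

/-- The density hypothesis `T ^ (c (1 - σ)) log ^ A T` for every `c > 30/13`. -/
theorem exists_gm_densityBound {δ : ℝ} (hδ : 0 < δ) :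
    ∃ C A, DensityBound (30 / 13 + δ) C A := by
  obtain ⟨C₁, hC₁, A, T₁, hT₁, hlog⟩ := exists_band_log
  obtain ⟨C₂, hC₂, T₂, hT₂, heps⟩ := exists_band_eps (show 0 < δ / 5 by positivity)
  obtain ⟨T₀, hT₀⟩ : ∃ T₀, T₀ = max (max T₁ T₂) 11 := ⟨_, rfl⟩
  obtain ⟨C, hC, hD⟩ := exists_count_of_band (e := fun σ => (30 / 13 + δ) * (1 - σ))
    (A := A + 5) (C₁ := C₁ + C₂) (T₀ := T₀) (by positivity)
    (hT₀ ▸ le_max_of_le_right (by norm_num))
    (fun σ hσ => by nlinarith [mul_nonneg hδ.le (show 0 ≤ 1 - σ by linarith)])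
    (fun σ hσ => mul_nonneg (by linarith) (by linarith)) fun σ T hT hσ hσ1 => by
      rw [hT₀, max_le_iff, max_le_iff] at hT
      have hT1 : 1 ≤ T := by linarith [hT.2]
      have hL : 1 ≤ Real.log T := by linarith [two_le_log hT.2]
      obtain ⟨P, hP⟩ : ∃ P, P = T ^ ((30 / 13 + δ) * (1 - σ)) := ⟨_, rfl⟩
      rw [← hP]
      have hP0 : 0 ≤ P := hP ▸ Real.rpow_nonneg (by linarith) _
      rcases em (σ ≤ 7 / 10 ∨ 4 / 5 ≤ σ) with hcase | hcase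
      · refine (hlog σ T hT.1.1 hσ hσ1 hcase).trans ?_
        refine mul_le_mul (mul_le_mul (by linarith) (hP ▸ Real.rpow_le_rpow_of_exponent_le hT1 ?_)
          (by positivity) (by positivity)) (pow_le_pow_right₀ hL (by omega))
          (by positivity) (by positivity)
        nlinarith [mul_nonneg hδ.le (show 0 ≤ 1 - σ by linarith)]
      · rw [not_or, not_le, not_le] at hcase
        refine (heps σ T hT.1.2 hσ hσ1).trans ?_
        refine mul_le_mul (mul_le_mul (by linarith) (hP ▸ Real.rpow_le_rpow_of_exponent_le hT1 ?_)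
          (by positivity) (by positivity)) (pow_le_pow_right₀ hL (by omega))
          (by positivity) (by positivity)
        nlinarith [mul_le_mul_of_nonneg_left (show (1 / 5 : ℝ) ≤ 1 - σ by linarith [hcase.2]) hδ.le]
  exact ⟨C, A + 5 + 1, hC, hD⟩

/-- `θ (x + h) - θ x ∼ h` and `π (x + h) - π x ∼ h / log x` for `h ≥ x ^ θ`, `θ > 17/30`. -/
theorem gm_short {θ : ℝ} (hθ : 17 / 30 < θ) :
    ∀ ε : ℝ, 0 < ε → ∀ᶠ x in atTop, ∀ h : ℝ, x ^ θ ≤ h → h ≤ x →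
      |Chebyshev.theta (x + h) - Chebyshev.theta x - h| ≤ ε * h ∧
        |((Nat.primeCounting ⌊x + h⌋₊ : ℝ) - Nat.primeCounting ⌊x⌋₊) * Real.log x - h| ≤
          ε * h := by
  obtain ⟨μ, hμ⟩ : ∃ μ, μ = (min θ (3 / 5) + 17 / 30) / 2 := ⟨_, rfl⟩
  have h1 : μ < θ := by rw [hμ]; linarith [min_le_left θ (3 / 5)]
  have h2 : 17 / 30 < μ := by rw [hμ]; linarith [lt_min hθ (show (17 / 30 : ℝ) < 3 / 5 by norm_num)]
  have h3 : μ ≤ 3 / 5 := by rw [hμ]; linarith [min_le_right θ (3 / 5)]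
  have hc : (30 / 13 : ℝ) < 1 / (1 - μ) := by rw [lt_div_iff₀ (by linarith)]; linarith
  obtain ⟨C, A, hD⟩ := exists_gm_densityBound (show 0 < 1 / (1 - μ) - 30 / 13 by linarith)
  rw [add_sub_cancel] at hD
  exact short_of_density FA.Hoheisel.freeRate (by linarith) hD
    (by rw [one_div_one_div]; linarith)

/-- `p_{n+1} - p_n ≤ p_n ^ θ` for large `n`, `θ > 17/30`. -/
theorem gm_gap {θ : ℝ} (hθ : 17 / 30 < θ) :
    ∀ᶠ n in atTop, (Nat.nth Nat.Prime (n + 1) : ℝ) - Nat.nth Nat.Prime n ≤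
      (Nat.nth Nat.Prime n : ℝ) ^ θ := by
  obtain ⟨x₀, -, h⟩ := prime_short_of_count (θ := min θ 1) (min_le_right _ _)
    (gm_short (lt_min hθ (by norm_num)))
  filter_upwards [gap_of_prime_short h] with n hn
  refine hn.trans (Real.rpow_le_rpow_of_exponent_le ?_ (min_le_left _ _))
  exact Nat.one_le_cast.2 (Nat.prime_nth_prime n).one_le

end FA.GuthMaynard

end
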