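import Fermat.Agent.GuthMaynard.ZeroPower

/-!
# The first class by Huxley's large values theorem

When the power of the block has length `H` the zeros number, up to logarithms, at most
`H ^ (2 - 2 σ) + T H ^ (4 - 6 σ) + T H ^ (2 - 4 σ)`.
-/

set_option autoImplicit false

noncomputable section

namespace FA.GuthMaynard

open Finset Complex
open FA.Huxley (powCoeff powCoeff_eq_zero sum_sq_tau_le large_values)
open FA.ThreePrimes (logOne one_le_logOne)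
open FA.HuaCubes (tauPow)
open FA.RiemannMangoldt FA.ExplicitFormula
open scoped Real

/-- **The count by Huxley's large values theorem.** -/
theorem exists_count_huxley (κ B : ℝ) (hκ : 1 ≤ κ) (hB : 1 ≤ B) : ∃ C, 0 ≤ C ∧ ∃ A : ℕ,
    ∀ (U : ℕ) (c : ℕ → ℂ) (σ T : ℝ) (p : ℕ) (Z : Finset ℂ), IsPowered κ B σ T U c p Z →
      1 / 2 ≤ σ → σ ≤ 1 →
      ∑ ρ ∈ Z, (zeroWeight ρ : ℝ) ≤ C * (((U : ℝ) ^ (p + 1)) ^ (2 - 2 * σ) +
        T * ((U : ℝ) ^ (p + 1)) ^ (4 - 6 * σ) + T * ((U : ℝ) ^ (p + 1)) ^ (2 - 4 * σ)) *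
          Real.log T ^ A := by
  obtain ⟨Cb, hCb, hwt⟩ := exists_weight_le
  obtain ⟨E, hE⟩ : ∃ E : ℕ, E = 2 ^ (2 * 33) + 4 := ⟨_, rfl⟩
  obtain ⟨D, hD⟩ : ∃ D, D = B ^ 17 := ⟨_, rfl⟩
  have hD1 : 1 ≤ D := hD ▸ one_le_pow₀ hB
  obtain ⟨Q₀, hQ₀⟩ : ∃ Q₀ : ℝ, Q₀ = 2 ^ 40 * (2 ^ 17 * D ^ 2 * 4 ^ E) * κ ^ 34 := ⟨_, rfl⟩
  refine ⟨Cb * (8 * Q₀ ^ 3), by rw [hQ₀]; positivity, 3 * (E + 35) + 1,
    fun U c σ T p Z h hσ hσ1 => ?_⟩
  obtain ⟨L, hL⟩ : ∃ L, L = Real.log T := ⟨_, rfl⟩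
  have hL2 : 2 ≤ L := hL ▸ h.two_le_log'
  have hT11 := h.eleven_le
  have hT1 : 1 ≤ T := by linarith
  have hT0 : 0 < T := by linarith
  obtain ⟨H, hH⟩ : ∃ H : ℕ, H = U ^ (p + 1) := ⟨_, rfl⟩
  have hHR : (U : ℝ) ^ (p + 1) = (H : ℝ) := by rw [hH]; push_cast; rfl
  have hH1 : 1 ≤ H := hH ▸ h.pow_pos'
  have hH0 : (0 : ℝ) < H := Nat.cast_pos.2 hH1
  obtain ⟨M, hM⟩ : ∃ M : ℕ, M = H * 2 ^ (p + 1) := ⟨_, rfl⟩
  have hM' : (2 * U) ^ (p + 1) = M := by rw [hM, hH, mul_pow, mul_comm]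
  have hMH : (M : ℝ) ≤ 2 ^ 17 * H := by
    rw [hM]; push_cast; rw [mul_comm]
    exact mul_le_mul_of_nonneg_right h.two_pow_le hH0.le
  rw [hHR, ← hL]
  obtain ⟨P, hP⟩ : ∃ P, P = (H : ℝ) ^ (2 - 2 * σ) + T * (H : ℝ) ^ (4 - 6 * σ) +
      T * (H : ℝ) ^ (2 - 4 * σ) := ⟨_, rfl⟩
  rw [← hP]
  have hP0 : 0 ≤ P := hP ▸ by positivity
  obtain ⟨b, hb⟩ : ∃ b, b = powCoeff U c p := ⟨_, rfl⟩
  have hbn : ∀ n, ‖b n‖ ≤ D * tauPow 33 n := fun n => hb ▸ hD ▸ h.norm_coeff_le hB n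
  obtain ⟨W, hW⟩ : ∃ W, W = (κ * L) ^ 17 := ⟨_, rfl⟩
  have hW1 : 1 ≤ W := hW ▸ one_le_pow₀ (one_le_mul_of_one_le_of_one_le hκ (by linarith))
  have hW2 : W ^ 2 = κ ^ 34 * L ^ 34 := by rw [hW]; ring
  have hbig : ∀ ρ ∈ Z, 1 ≤ W * ‖∑ n ∈ Ioc H M, b n * (1 / (n : ℂ) ^ ρ)‖ := fun ρ hρ => by
    have := h.big_sum hκ hρ
    rwa [← hH, ← hM, ← hb, ← hL, ← hW] at this
  classical
  obtain ⟨S, hS⟩ : ∃ S : Finset ℕ, S = Z.image fun ρ => ⌊|ρ.im|⌋₊ := ⟨_, rfl⟩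
  have hex : ∀ k ∈ S, ∃ ρ, ρ ∈ Z ∧ ⌊|ρ.im|⌋₊ = k := fun k hk => by
    rw [hS, mem_image] at hk
    exact hk
  choose! s hs using hex
  obtain ⟨g, hg⟩ : ∃ g : ℝ, g = 2 ^ 17 * D ^ 2 * (4 * L) ^ E := ⟨_, rfl⟩
  have hg0 : 0 < g := hg ▸ by positivity
  have hl4 : logOne M ≤ 4 * L := hL ▸ h.logOne_le (by
    rw [hHR.symm] at hMH
    refine hMH.trans ?_
    nlinarith [h.high, show (0 : ℝ) ≤ T ^ (15 / 13 : ℝ) by positivity])
  have hG : ∑ n ∈ Icc 1 M, (n : ℝ) ^ (-(2 * σ)) * ‖b n‖ ^ 2 ≤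
      g * (H : ℝ) ^ (1 - 2 * σ) := by
    rw [← sum_subset (s₁ := Ioc H M) (fun n hn => by
      rw [mem_Ioc] at hn; rw [Finset.mem_Icc]; omega) fun n hn hn' => by
        rw [hb, powCoeff_eq_zero U c p n (by rwa [hM', ← hH]), norm_zero]
        ring]
    refine (sum_sq_tau_le hH1 (by linarith) hbn).trans ?_
    calc D ^ 2 * logOne M ^ 2 ^ (2 * 33) * M * (H : ℝ) ^ (-(2 * σ))
        ≤ D ^ 2 * (4 * L) ^ E * (2 ^ 17 * H) * (H : ℝ) ^ (-(2 * σ)) := by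
          refine mul_le_mul_of_nonneg_right (mul_le_mul (mul_le_mul_of_nonneg_left ?_
            (sq_nonneg D)) hMH (Nat.cast_nonneg M) (by positivity)) (by positivity)
          exact (pow_le_pow_right₀ (one_le_logOne M) (hE ▸ Nat.le_add_right _ 4)).trans
            (pow_le_pow_left₀ (zero_le_one.trans (one_le_logOne M)) hl4 E)
      _ = _ := by
          rw [hg, show (1 : ℝ) - 2 * σ = 1 + -(2 * σ) by ring, Real.rpow_add hH0, Real.rpow_one]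
          ring
  have hlv := large_values S s (σ := σ) (T := T) (V := 1 / W)
    (G := g * (H : ℝ) ^ (1 - 2 * σ)) (by positivity) (by positivity) hT1 M b
    (fun k hk => ⟨(h.zeros _ (hs k hk).1).2.2.1, (h.zeros _ (hs k hk).1).2.1⟩)
    (fun x hx y hy hxy => by
      have e1 := (hs x (mem_coe.1 hx)).2
      have e2 := (hs y (mem_coe.1 hy)).2
      exact e1.symm.trans (hxy.trans e2))
    (fun k hk => by
      rw [div_le_iff₀' (by linarith : (0 : ℝ) < W)]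
      refine (hbig _ (hs k hk).1).trans (le_of_eq ?_)
      congr 2
      refine sum_subset (fun n hn => by
        rw [mem_Ioc] at hn; rw [Finset.mem_Icc]; omega) fun n hn hn' => by
          rw [hb, powCoeff_eq_zero U c p n (by rwa [hM', ← hH]), zero_mul])
    hG
  obtain ⟨Q, hQ⟩ : ∃ Q, Q = 2 ^ 40 * g * W ^ 2 * L := ⟨_, rfl⟩
  have hQ0 : Q = Q₀ * L ^ (E + 35) := by rw [hQ, hg, hQ₀, hW2]; ring
  have hQ1 : 1 ≤ Q := by
    have h1 : (1 : ℝ) ≤ g := hg ▸ one_le_mul_of_one_le_of_one_le (one_le_mul_of_one_le_of_one_le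
      (one_le_pow₀ one_le_two) (one_le_pow₀ hD1)) (one_le_pow₀ (by linarith))
    rw [hQ]
    exact one_le_mul_of_one_le_of_one_le (one_le_mul_of_one_le_of_one_le
      (one_le_mul_of_one_le_of_one_le (one_le_pow₀ one_le_two) h1) (one_le_pow₀ hW1))
        (by linarith)
  have hlk : (Nat.log 2 M : ℝ) + 1 ≤ 8 * L := by
    have hM0 : M ≠ 0 := hM ▸ Nat.mul_ne_zero (by omega) (by positivity)
    have h1 := Real.log_le_log (by positivity : (0 : ℝ) < (2 : ℝ) ^ Nat.log 2 M)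
      (show (2 : ℝ) ^ Nat.log 2 M ≤ (M : ℝ) by exact_mod_cast Nat.pow_log_le_self 2 hM0)
    rw [Real.log_pow] at h1
    rw [logOne] at hl4
    nlinarith [mul_le_mul_of_nonneg_left Real.log_two_gt_d9.le
      (Nat.cast_nonneg (α := ℝ) (Nat.log 2 M))]
  have hlt : 1 + Real.log (T + 2) ≤ 3 * L := by
    have : Real.log (T + 2) ≤ Real.log (T ^ 2) := Real.log_le_log (by positivity) (by nlinarith)
    rw [Real.log_pow, ← hL] at this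
    push_cast at this
    linarith
  have hq : 174 * (g * (H : ℝ) ^ (1 - 2 * σ)) * ((Nat.log 2 M : ℝ) + 1) / (1 / W) ^ 2 ≤
      Q * (H : ℝ) ^ (1 - 2 * σ) := by
    rw [one_div, inv_pow, div_inv_eq_mul]
    calc 174 * (g * (H : ℝ) ^ (1 - 2 * σ)) * ((Nat.log 2 M : ℝ) + 1) * W ^ 2
        ≤ 174 * (g * (H : ℝ) ^ (1 - 2 * σ)) * (8 * L) * W ^ 2 := by gcongr
      _ = 1392 * (g * W ^ 2 * L) * (H : ℝ) ^ (1 - 2 * σ) := by ring
      _ ≤ 2 ^ 40 * (g * W ^ 2 * L) * (H : ℝ) ^ (1 - 2 * σ) := by gcongr; norm_num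
      _ = _ := by rw [hQ]; ring
  have hbE : 1200 * (g * (H : ℝ) ^ (1 - 2 * σ)) * M * (1 + Real.log (T + 2)) / (1 / W) ^ 2 ≤
      Q * (H : ℝ) ^ (2 - 2 * σ) := by
    rw [one_div, inv_pow, div_inv_eq_mul, show (2 : ℝ) - 2 * σ = 1 + (1 - 2 * σ) by ring,
      Real.rpow_add hH0, Real.rpow_one]
    calc 1200 * (g * (H : ℝ) ^ (1 - 2 * σ)) * M * (1 + Real.log (T + 2)) * W ^ 2
        ≤ 1200 * (g * (H : ℝ) ^ (1 - 2 * σ)) * (2 ^ 17 * H) * (3 * L) * W ^ 2 := by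
          gcongr
          linarith [Real.log_nonneg (show (1 : ℝ) ≤ T + 2 by linarith)]
      _ = 3600 * 2 ^ 17 * (g * W ^ 2 * L) * ((H : ℝ) * (H : ℝ) ^ (1 - 2 * σ)) := by ring
      _ ≤ 2 ^ 40 * (g * W ^ 2 * L) * ((H : ℝ) * (H : ℝ) ^ (1 - 2 * σ)) := by gcongr; norm_num
      _ = _ := by rw [hQ]; ring
  obtain ⟨x, hx⟩ : ∃ x, x = T * (H : ℝ) ^ (2 - 4 * σ) := ⟨_, rfl⟩
  have hxy : x * (H : ℝ) ^ (2 - 2 * σ) = T * (H : ℝ) ^ (4 - 6 * σ) := by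
    rw [hx, mul_assoc, ← Real.rpow_add hH0]; congr 2; ring
  have hcard : (S.card : ℝ) ≤ 8 * Q ^ 3 * P := by
    have hq2 : 4 * T * (174 * (g * (H : ℝ) ^ (1 - 2 * σ)) * ((Nat.log 2 M : ℝ) + 1) /
        (1 / W) ^ 2) ^ 2 ≤ 4 * Q ^ 2 * x := by
      refine (mul_le_mul_of_nonneg_left (pow_le_pow_left₀ (by positivity) hq 2)
        (by positivity)).trans (le_of_eq ?_)
      rw [hx, show 2 - 4 * σ = (1 - 2 * σ) * 2 by ring, Real.rpow_mul hH0.le, Real.rpow_two]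
      ring
    have hl2 : 0 ≤ 1 + Real.log (T + 2) := by
      linarith [Real.log_nonneg (show (1 : ℝ) ≤ T + 2 by linarith)]
    refine hlv.trans ((add_le_add hq2 (mul_le_mul (add_le_add_left hq2 2) hbE
      (div_nonneg (mul_nonneg (by positivity) hl2) (by positivity))
      (by rw [hx]; positivity))).trans ?_)
    have b1 : Q ^ 2 ≤ Q ^ 3 := pow_le_pow_right₀ hQ1 (by norm_num)
    have b2 : Q ≤ Q ^ 3 := le_self_pow₀ hQ1 (by norm_num)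
    have hy0 : 0 ≤ (H : ℝ) ^ (2 - 2 * σ) := by positivity
    have hz0 : 0 ≤ T * (H : ℝ) ^ (4 - 6 * σ) := by positivity
    have hx0 : 0 ≤ x := hx ▸ by positivity
    calc 4 * Q ^ 2 * x + (4 * Q ^ 2 * x + 2) * (Q * (H : ℝ) ^ (2 - 2 * σ))
        = 4 * Q ^ 2 * x + 4 * Q ^ 3 * (x * (H : ℝ) ^ (2 - 2 * σ)) +
            2 * Q * (H : ℝ) ^ (2 - 2 * σ) := by ring
      _ ≤ 4 * Q ^ 3 * x + 4 * Q ^ 3 * (T * (H : ℝ) ^ (4 - 6 * σ)) +
            2 * Q ^ 3 * (H : ℝ) ^ (2 - 2 * σ) := by rw [hxy]; gcongr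
      _ ≤ _ := by
          rw [hP, ← hx]
          nlinarith [mul_nonneg (pow_nonneg (zero_le_one.trans hQ1) 3) hy0,
            mul_nonneg (pow_nonneg (zero_le_one.trans hQ1) 3) hz0,
            mul_nonneg (pow_nonneg (zero_le_one.trans hQ1) 3) hx0]
  have hw := hwt T Z hT11 fun ρ hρ => ⟨(h.zeros ρ hρ).1, (h.zeros ρ hρ).2.1⟩
  rw [← hS, ← hL] at hw
  refine hw.trans ((mul_le_mul_of_nonneg_left hcard (by positivity)).trans (le_of_eq ?_))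
  rw [hQ0]
  ring

end FA.GuthMaynard

end
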