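import Fermat.Agent.Huxley.ClassOne

/-!
# The first class through a power of its block

At the zeros of the first class a power of a block is large. When that power has length `H` between
`T ^ (10/13)` and `4 T ^ (15/13)` the mean value theorem bounds their number by
`H ^ (2 - 2 σ) + T H ^ (1 - 2 σ)` up to logarithms.
-/

set_option autoImplicit false

noncomputable section

namespace FA.GuthMaynard

open Finset Complex
open FA.Huxley (powCoeff norm_powCoeff_le piece_pow powCoeff_eq_zero tauPow_le_tauPow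
  blockSum_tau_le two_le_log ell_le_two_log)
open FA.ThreePrimes (logOne one_le_logOne)
open FA.HuaCubes (tauPow tauPow_nonneg)
open FA.ZeroFree (ell ell_mono)
open FA.RiemannMangoldt FA.ExplicitFormula
open FA.Hoheisel (piece piece_eq blockSum blockSum_nonneg exists_piece_sample sum_dyadic)
open scoped Real

/-- The power to which a block is raised. -/
theorem exists_power_gm {T : ℝ} {U : ℕ} (hT : (2 : ℝ) ^ 300 ≤ T)
    (hU1 : T ^ (1 / 20 : ℝ) / 2 ≤ U) (hU2 : (U : ℝ) ≤ 2 * T ^ (15 / 26 : ℝ)) :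
    ∃ p : ℕ, p ≤ 16 ∧ T ^ (10 / 13 : ℝ) ≤ (U : ℝ) ^ (p + 1) ∧
      (U : ℝ) ^ (p + 1) ≤ 4 * T ^ (15 / 13 : ℝ) := by
  have hT0 : 0 < T := lt_of_lt_of_le (by positivity) hT
  have hT1 : 1 ≤ T := le_trans (one_le_pow₀ (by norm_num)) hT
  have hbig : (2 : ℝ) ^ 17 ≤ T ^ (21 / 260 : ℝ) := by
    refine le_trans ?_ (Real.rpow_le_rpow (by positivity) hT (by norm_num))
    rw [← Real.rpow_natCast, ← Real.rpow_natCast 2 300, ← Real.rpow_mul two_pos.le]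
    exact Real.rpow_le_rpow_of_exponent_le one_le_two (by norm_num)
  have h17 : T ^ (10 / 13 : ℝ) ≤ (U : ℝ) ^ 17 := by
    refine le_trans ?_ (pow_le_pow_left₀ (by positivity) hU1 17)
    rw [div_pow, le_div_iff₀ (by positivity), ← Real.rpow_mul_natCast hT0.le]
    calc T ^ (10 / 13 : ℝ) * 2 ^ 17 ≤ T ^ (10 / 13 : ℝ) * T ^ (21 / 260 : ℝ) := by gcongr
      _ = _ := by rw [← Real.rpow_add hT0]; norm_num
  have hU : 1 ≤ (U : ℝ) := by
    have h : (0 : ℝ) < U := lt_of_lt_of_le (by positivity) hU1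
    exact Nat.one_le_cast.2 (Nat.cast_pos.1 h)
  have hex : ∃ p : ℕ, T ^ (10 / 13 : ℝ) ≤ (U : ℝ) ^ (p + 1) := ⟨16, h17⟩
  classical
  refine ⟨Nat.find hex, Nat.find_min' hex h17, Nat.find_spec hex, ?_⟩
  obtain ⟨p, hp⟩ : ∃ p, p = Nat.find hex := ⟨_, rfl⟩
  rw [← hp]
  have h15 : T ^ (15 / 26 : ℝ) * T ^ (15 / 26 : ℝ) = T ^ (15 / 13 : ℝ) := by
    rw [← Real.rpow_add hT0]; norm_num
  rcases Nat.lt_or_ge p 2 with h | h
  · calc (U : ℝ) ^ (p + 1) ≤ (U : ℝ) ^ 2 := pow_le_pow_right₀ hU (by omega)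
      _ ≤ (2 * T ^ (15 / 26 : ℝ)) ^ 2 := pow_le_pow_left₀ (by positivity) hU2 2
      _ = _ := by rw [← h15]; ring
  · have hlt : (U : ℝ) ^ (p - 1 + 1) < T ^ (10 / 13 : ℝ) :=
      not_le.1 (Nat.find_min hex (show p - 1 < Nat.find hex by omega))
    rw [show p - 1 + 1 = p by omega] at hlt
    have hUs : (U : ℝ) ≤ T ^ (5 / 13 : ℝ) := by
      refine le_of_pow_le_pow_left₀ two_ne_zero (by positivity) ?_
      rw [← Real.rpow_mul_natCast hT0.le]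
      exact (pow_le_pow_right₀ hU h).trans (hlt.le.trans (le_of_eq (by norm_num)))
    calc (U : ℝ) ^ (p + 1) = (U : ℝ) ^ p * U := pow_succ _ _
      _ ≤ T ^ (10 / 13 : ℝ) * T ^ (5 / 13 : ℝ) :=
          mul_le_mul hlt.le hUs (by positivity) (by positivity)
      _ = T ^ (15 / 13 : ℝ) := by rw [← Real.rpow_add hT0]; norm_num
      _ ≤ _ := le_mul_of_one_le_left (by positivity) (by norm_num)

/-- The zeros of a first class, with a power of the block. -/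
structure IsPowered (κ B σ T : ℝ) (U : ℕ) (c : ℕ → ℂ) (p : ℕ) (Z : Finset ℂ) : Prop where
  big : (2 : ℝ) ^ 300 ≤ T
  pos : 1 ≤ U
  exp : p ≤ 16
  low : T ^ (10 / 13 : ℝ) ≤ (U : ℝ) ^ (p + 1)
  high : (U : ℝ) ^ (p + 1) ≤ 4 * T ^ (15 / 13 : ℝ)
  coeff : ∀ n, ‖c n‖ ≤ B * n.divisors.card
  zeros : ∀ ρ ∈ Z, xiFn ρ = 0 ∧ |ρ.im| ≤ T ∧ σ ≤ ρ.re ∧
    1 ≤ κ * Real.log T * ‖piece U c ρ.re ρ.im‖

namespace IsPowered

variable {κ B σ T : ℝ} {U p : ℕ} {c : ℕ → ℂ} {Z : Finset ℂ} (h : IsPowered κ B σ T U c p Z)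

include h

theorem eleven_le : 11 ≤ T :=
  le_trans (le_trans (by norm_num : (11 : ℝ) ≤ 2 ^ 4)
    (pow_le_pow_right₀ one_le_two (by norm_num))) h.big

theorem two_le_log' : 2 ≤ Real.log T := two_le_log h.eleven_le

theorem pow_pos' : 1 ≤ U ^ (p + 1) := Nat.one_le_pow _ _ h.pos

theorem subset (Y : Finset ℂ) (hY : Y ⊆ Z) : IsPowered κ B σ T U c p Y :=
  ⟨h.big, h.pos, h.exp, h.low, h.high, h.coeff, fun ρ hρ => h.zeros ρ (hY hρ)⟩

theorem mono {σ' : ℝ} (hσ : σ' ≤ σ) : IsPowered κ B σ' T U c p Z :=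
  ⟨h.big, h.pos, h.exp, h.low, h.high, h.coeff, fun ρ hρ =>
    ⟨(h.zeros ρ hρ).1, (h.zeros ρ hρ).2.1, hσ.trans (h.zeros ρ hρ).2.2.1, (h.zeros ρ hρ).2.2.2⟩⟩

theorem two_pow_le : ((2 : ℝ) ^ (p + 1)) ≤ 2 ^ 17 :=
  pow_le_pow_right₀ one_le_two (by have := h.exp; omega)

/-- The coefficients of the power. -/
theorem norm_coeff_le (hB : 1 ≤ B) (n : ℕ) : ‖powCoeff U c p n‖ ≤ B ^ 17 * tauPow 33 n :=
  (norm_powCoeff_le (zero_le_one.trans hB) h.coeff p n).trans (mul_le_mul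
    (pow_le_pow_right₀ hB (by have := h.exp; omega))
    (tauPow_le_tauPow (by omega) (by have := h.exp; omega) n)
    (tauPow_nonneg _ n) (by positivity))

/-- The logarithms in range. -/
theorem logOne_le {n : ℕ} (hn : (n : ℝ) ≤ 2 ^ 20 * T ^ (15 / 13 : ℝ)) :
    logOne n ≤ 4 * Real.log T := by
  have hL := h.two_le_log'
  have hT0 : 0 < T := by linarith [h.eleven_le]
  rcases Nat.eq_zero_or_pos n with rfl | hn0
  · simp [logOne]; linarith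
  have h1 : Real.log n ≤ Real.log (T ^ 3) := by
    refine Real.log_le_log (Nat.cast_pos.2 hn0) (hn.trans ?_)
    have h2 : T ^ (15 / 13 : ℝ) ≤ T ^ 2 := by
      rw [← Real.rpow_natCast]
      exact Real.rpow_le_rpow_of_exponent_le (by linarith [h.eleven_le]) (by norm_num)
    rw [show T ^ 3 = T * T ^ 2 by ring]
    exact mul_le_mul (le_trans (pow_le_pow_right₀ one_le_two (by norm_num)) h.big) h2
      (by positivity) hT0.le
  rw [Real.log_pow] at h1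
  push_cast at h1
  rw [logOne]
  linarith

/-- The power is large at the zeros. -/
theorem big_sum (hκ : 1 ≤ κ) {ρ : ℂ} (hρ : ρ ∈ Z) :
    1 ≤ (κ * Real.log T) ^ 17 * ‖∑ n ∈ Ioc (U ^ (p + 1)) (U ^ (p + 1) * 2 ^ (p + 1)),
      powCoeff U c p n * (1 / (n : ℂ) ^ ρ)‖ := by
  have hκL : 1 ≤ κ * Real.log T :=
    one_le_mul_of_one_le_of_one_le hκ (by linarith [h.two_le_log'])
  have h1 := one_le_pow₀ (n := p + 1) (h.zeros ρ hρ).2.2.2
  rw [mul_pow, ← norm_pow, piece_pow, mul_pow 2 U, mul_comm (2 ^ (p + 1))] at h1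
  exact h1.trans (mul_le_mul_of_nonneg_right (pow_le_pow_right₀ hκL (by have := h.exp; omega))
    (norm_nonneg _))

/-- The dyadic pieces of the power. -/
theorem piece_len {i : ℕ} (hi : i < p + 1) :
    ((U ^ (p + 1) * 2 ^ i : ℕ) : ℝ) ≤ 2 ^ 18 * T ^ (15 / 13 : ℝ) := by
  push_cast
  calc (U : ℝ) ^ (p + 1) * 2 ^ i ≤ 4 * T ^ (15 / 13 : ℝ) * 2 ^ 16 :=
        mul_le_mul h.high (pow_le_pow_right₀ one_le_two (by have := h.exp; omega))
          (by positivity) (by have := h.eleven_le; positivity)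
    _ = _ := by ring

/-- The heights of the zeros, by integral parts, at most `T`. -/
theorem floor_le {ρ : ℂ} (hρ : ρ ∈ Z) : (⌊|ρ.im|⌋₊ : ℝ) ≤ T :=
  (Nat.floor_le (abs_nonneg _)).trans (h.zeros ρ hρ).2.1

end IsPowered

/-- The zeros through the integral parts of their heights. -/
theorem exists_weight_le : ∃ C, 0 ≤ C ∧ ∀ (T : ℝ) (Z : Finset ℂ), 11 ≤ T →
    (∀ ρ ∈ Z, xiFn ρ = 0 ∧ |ρ.im| ≤ T) →
      ∑ ρ ∈ Z, (zeroWeight ρ : ℝ) ≤
        C * Real.log T * (Z.image fun ρ => ⌊|ρ.im|⌋₊).card := by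
  obtain ⟨C, hC, hblocks⟩ := exists_sum_blocks
  refine ⟨C * 2, by positivity, fun T Z hT hZ => ?_⟩
  have h := hblocks Z (Z.image fun ρ => ⌊|ρ.im|⌋₊) (fun _ => 1) (fun _ => 1)
    (fun ρ hρ => ⟨(hZ ρ hρ).1, mem_image_of_mem _ hρ, le_rfl⟩) fun _ _ => zero_le_one
  simp only [mul_one] at h
  refine h.trans ?_
  rw [mul_assoc C, mul_assoc]
  refine mul_le_mul_of_nonneg_left ((sum_le_card_nsmul _ _ (2 * Real.log T) fun k hk => ?_).trans
    (le_of_eq (by rw [nsmul_eq_mul, mul_comm, mul_assoc]))) hC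
  obtain ⟨ρ, hρ, rfl⟩ := mem_image.1 hk
  refine le_trans (ell_mono ?_) (ell_le_two_log hT)
  rw [Nat.abs_cast, abs_of_pos (by linarith : (0 : ℝ) < T)]
  exact (Nat.floor_le (abs_nonneg _)).trans (hZ ρ hρ).2

/-- **The count by the mean value theorem.** -/
theorem exists_count_mean (κ B : ℝ) (hκ : 1 ≤ κ) (hB : 1 ≤ B) : ∃ C, 0 ≤ C ∧ ∃ A : ℕ,
    ∀ (U : ℕ) (c : ℕ → ℂ) (σ T : ℝ) (p : ℕ) (Z : Finset ℂ), IsPowered κ B σ T U c p Z →
      1 / 2 ≤ σ → σ ≤ 1 →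
      ∑ ρ ∈ Z, (zeroWeight ρ : ℝ) ≤ C * (((U : ℝ) ^ (p + 1)) ^ (2 - 2 * σ) +
        T * ((U : ℝ) ^ (p + 1)) ^ (1 - 2 * σ)) * Real.log T ^ A := by
  obtain ⟨Cs, hCs, hsamp⟩ := exists_piece_sample
  obtain ⟨E, hE⟩ : ∃ E : ℕ, E = 2 ^ (2 * 33) + 4 := ⟨_, rfl⟩
  obtain ⟨D, hD⟩ : ∃ D, D = B ^ 17 := ⟨_, rfl⟩
  have hD1 : 1 ≤ D := hD ▸ one_le_pow₀ hB
  refine ⟨κ ^ 34 * 17 * 17 * (Cs * 2 * (4 * D ^ 2 * 4 ^ E) * 2 ^ 17), by positivity, 34 + (E + 1),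
    fun U c σ T p Z h hσ hσ1 => ?_⟩
  obtain ⟨L, hL⟩ : ∃ L, L = Real.log T := ⟨_, rfl⟩
  have hL2 : 2 ≤ L := hL ▸ h.two_le_log'
  have hT11 := h.eleven_le
  have hT0 : 0 < T := by linarith
  obtain ⟨H, hH⟩ : ∃ H : ℕ, H = U ^ (p + 1) := ⟨_, rfl⟩
  have hHR : (U : ℝ) ^ (p + 1) = (H : ℝ) := by rw [hH]; push_cast; rfl
  have hH1 : 1 ≤ H := hH ▸ h.pow_pos'
  have hH0 : (0 : ℝ) < H := Nat.cast_pos.2 hH1
  rw [hHR, ← hL]
  obtain ⟨P, hP⟩ : ∃ P, P = (H : ℝ) ^ (2 - 2 * σ) + T * (H : ℝ) ^ (1 - 2 * σ) := ⟨_, rfl⟩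
  rw [← hP]
  obtain ⟨b, hb⟩ : ∃ b, b = powCoeff U c p := ⟨_, rfl⟩
  have hbn : ∀ n, ‖b n‖ ≤ D * tauPow 33 n := fun n => hb ▸ hD ▸ h.norm_coeff_le hB n
  have hblock : ∀ i ∈ range (p + 1), ∑ ρ ∈ Z, (zeroWeight ρ : ℝ) *
      ‖piece (H * 2 ^ i) b ρ.re ρ.im‖ ^ 2 ≤
        Cs * 2 * (4 * D ^ 2 * 4 ^ E) * 2 ^ 17 * P * L ^ (E + 1) := by
    intro i hi
    have hi' := mem_range.1 hi
    obtain ⟨V, hV⟩ : ∃ V : ℕ, V = H * 2 ^ i := ⟨_, rfl⟩
    rw [← hV]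
    have hHV : H ≤ V := hV ▸ Nat.le_mul_of_pos_right H (by positivity)
    have hV0 : (0 : ℝ) < V := Nat.cast_pos.2 (lt_of_lt_of_le hH1 hHV)
    have hVT : (V : ℝ) ≤ 2 ^ 18 * T ^ (15 / 13 : ℝ) := hV ▸ hH ▸ h.piece_len hi'
    have hVH : (V : ℝ) ≤ 2 ^ 16 * H := by
      rw [hV]; push_cast; rw [mul_comm]
      exact mul_le_mul_of_nonneg_right
        (pow_le_pow_right₀ one_le_two (by have := h.exp; omega)) hH0.le
    refine (hsamp V b σ T Z (by linarith) (fun ρ hρ => ⟨(h.zeros ρ hρ).1, (h.zeros ρ hρ).2.1,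
      (h.zeros ρ hρ).2.2.1⟩) (by linarith)).trans ?_
    have hbs : blockSum V b σ + blockSum V (fun n => -(Real.log n : ℂ) * b n) σ ≤
        4 * D ^ 2 * (4 * L) ^ E * (V : ℝ) ^ (1 - 2 * σ) := by
      refine (blockSum_tau_le (lt_of_lt_of_le hH1 hHV) (by linarith) hbn).trans ?_
      rw [← hE]
      refine mul_le_mul_of_nonneg_right (mul_le_mul_of_nonneg_left (pow_le_pow_left₀
        (zero_le_one.trans (one_le_logOne _)) (hL ▸ h.logOne_le ?_) E) (by positivity))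
        (by positivity)
      push_cast
      linarith [show 0 ≤ T ^ (15 / 13 : ℝ) by positivity]
    have e1 : (T + ((2 * V : ℕ) : ℝ)) * (V : ℝ) ^ (1 - 2 * σ) ≤ 2 ^ 17 * P := by
      push_cast
      have a1 : T * (V : ℝ) ^ (1 - 2 * σ) ≤ T * (H : ℝ) ^ (1 - 2 * σ) :=
        mul_le_mul_of_nonneg_left
          (Real.rpow_le_rpow_of_nonpos hH0 (Nat.cast_le.2 hHV) (by linarith)) hT0.le
      have a2 : (V : ℝ) * (V : ℝ) ^ (1 - 2 * σ) ≤ 2 ^ 16 * (H : ℝ) ^ (2 - 2 * σ) := by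
        rw [show (V : ℝ) * (V : ℝ) ^ (1 - 2 * σ) = (V : ℝ) ^ (2 - 2 * σ) by
          rw [show 2 - 2 * σ = 1 + (1 - 2 * σ) by ring, Real.rpow_add hV0, Real.rpow_one]]
        refine (Real.rpow_le_rpow hV0.le hVH (by linarith)).trans ?_
        rw [Real.mul_rpow (by positivity) hH0.le]
        exact mul_le_mul_of_nonneg_right
          (Real.rpow_le_self_of_one_le (one_le_pow₀ one_le_two) (by linarith)) (by positivity)
      rw [hP]
      linarith [show 0 ≤ T * (H : ℝ) ^ (1 - 2 * σ) by positivity,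
        show 0 ≤ (H : ℝ) ^ (2 - 2 * σ) by positivity]
    have hb0 := add_nonneg (blockSum_nonneg V b σ)
      (blockSum_nonneg V (fun n => -(Real.log n : ℂ) * b n) σ)
    calc Cs * ell T * ((T + ((2 * V : ℕ) : ℝ)) *
          (blockSum V b σ + blockSum V (fun n => -(Real.log n : ℂ) * b n) σ))
        ≤ Cs * (2 * L) * ((T + ((2 * V : ℕ) : ℝ)) *
            (4 * D ^ 2 * (4 * L) ^ E * (V : ℝ) ^ (1 - 2 * σ))) :=
          mul_le_mul (mul_le_mul_of_nonneg_left (hL ▸ ell_le_two_log hT11) hCs)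
            (mul_le_mul_of_nonneg_left hbs (by positivity))
            (mul_nonneg (by positivity) hb0) (by positivity)
      _ = Cs * 2 * (4 * D ^ 2 * 4 ^ E) * L ^ (E + 1) *
          ((T + ((2 * V : ℕ) : ℝ)) * (V : ℝ) ^ (1 - 2 * σ)) := by ring
      _ ≤ Cs * 2 * (4 * D ^ 2 * 4 ^ E) * L ^ (E + 1) * (2 ^ 17 * P) :=
          mul_le_mul_of_nonneg_left e1 (by positivity)
      _ = _ := by ring
  obtain ⟨W, hW⟩ : ∃ W, W = (κ * L) ^ 17 := ⟨_, rfl⟩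
  have hpt : ∀ ρ ∈ Z, (zeroWeight ρ : ℝ) ≤ W ^ 2 * (p + 1 : ℕ) *
      ∑ i ∈ range (p + 1), (zeroWeight ρ : ℝ) * ‖piece (H * 2 ^ i) b ρ.re ρ.im‖ ^ 2 := by
    intro ρ hρ
    rw [← mul_sum, mul_left_comm]
    refine le_mul_of_one_le_right (Nat.cast_nonneg _) ?_
    have hbig := h.big_sum hκ hρ
    rw [← hH, ← hb, ← hL, ← hW] at hbig
    refine (one_le_pow₀ (n := 2) hbig).trans ?_
    rw [mul_pow, mul_assoc]
    refine mul_le_mul_of_nonneg_left ?_ (sq_nonneg W)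
    rw [← sum_dyadic H (p + 1) fun n => b n * (1 / (n : ℂ) ^ ρ)]
    simp only [piece_eq]
    refine (pow_le_pow_left₀ (norm_nonneg _) (norm_sum_le _ _) 2).trans ?_
    exact sq_sum_le_card_mul_sum_sq.trans (le_of_eq (by rw [card_range]))
  refine ((sum_le_sum hpt).trans (le_of_eq (by rw [← mul_sum, sum_comm]))).trans ?_
  refine (mul_le_mul_of_nonneg_left ((sum_le_card_nsmul _ _ _ hblock).trans (le_of_eq
    (nsmul_eq_mul _ _))) (by positivity)).trans ?_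
  rw [card_range, hW]
  have hp17 : ((p + 1 : ℕ) : ℝ) ≤ 17 := by
    have := h.exp
    exact_mod_cast (show p + 1 ≤ 17 by omega)
  have hP0 : 0 ≤ P := hP ▸ by positivity
  calc ((κ * L) ^ 17) ^ 2 * ((p + 1 : ℕ) : ℝ) *
        (((p + 1 : ℕ) : ℝ) * (Cs * 2 * (4 * D ^ 2 * 4 ^ E) * 2 ^ 17 * P * L ^ (E + 1)))
      = κ ^ 34 * ((p + 1 : ℕ) : ℝ) * ((p + 1 : ℕ) : ℝ) *
          (Cs * 2 * (4 * D ^ 2 * 4 ^ E) * 2 ^ 17) * P * (L ^ 34 * L ^ (E + 1)) := by ring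
    _ ≤ κ ^ 34 * 17 * 17 * (Cs * 2 * (4 * D ^ 2 * 4 ^ E) * 2 ^ 17) * P *
          (L ^ 34 * L ^ (E + 1)) := by gcongr
    _ = _ := by rw [pow_add L 34]

end FA.GuthMaynard

end
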