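import Fermat.Agent.GuthMaynard.LargeValues
import Fermat.Agent.GuthMaynard.ZeroPower

/-!
# The first class by the large values theorem of Guth and Maynard

At a zero `β + i γ` the factor `(V / n) ^ β` on a dyadic piece is a short power series in
`log (n / V)`, so one of `O (log T)` polynomials with bounded coefficients has size
`V ^ (σ - ε)` at `γ`.
-/

set_option autoImplicit false

noncomputable section

namespace FA.GuthMaynard

open Finset Complex
open FA.Huxley (powCoeff)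
open FA.HuaCubes (tauPow)
open FA.Hoheisel (dpoly sum_dyadic)
open FA.RiemannMangoldt FA.ExplicitFormula
open scoped Real

/-- The coefficients of a dyadic piece times a power of `log (n / V)`, over `B`. -/
def zeroLogCoeff (b : ℕ → ℂ) (B : ℝ) (V k n : ℕ) : ℂ :=
  if n ∈ Ioc V (2 * V) then b n * ((Real.log ((n : ℝ) / V) ^ k / B : ℝ) : ℂ) else 0

theorem log_ratio_bounds {V n : ℕ} (hn : n ∈ Ioc V (2 * V)) :
    0 ≤ Real.log ((n : ℝ) / V) ∧ Real.log ((n : ℝ) / V) ≤ 7 / 10 := by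
  rw [mem_Ioc] at hn
  have hV : (0 : ℝ) < V := Nat.cast_pos.2 (by omega)
  refine ⟨Real.log_nonneg ?_, le_trans (Real.log_le_log ?_ ?_) (le_trans
    (le_of_lt Real.log_two_lt_d9) (by norm_num))⟩
  · rw [le_div_iff₀ hV, one_mul]; exact Nat.cast_le.2 hn.1.le
  · have : (0 : ℝ) < n := Nat.cast_pos.2 (by omega)
    positivity
  · rw [div_le_iff₀ hV]; exact_mod_cast hn.2

/-- A piece at `β + i t` through the polynomials with the powers of `log (n / V)`. -/
theorem norm_piece_le_series {b : ℕ → ℂ} {B : ℝ} (hB : 0 < B) {V K : ℕ} (hK : 2 ≤ K)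
    (hb : ∀ n ∈ Ioc V (2 * V), ‖b n‖ ≤ B) {ρ : ℂ} (h0 : 0 ≤ ρ.re) (h1 : ρ.re ≤ 1) :
    (V : ℝ) ^ ρ.re * ‖∑ n ∈ Ioc V (2 * V), b n * (1 / (n : ℂ) ^ ρ)‖ ≤
      B * ((∑ k ∈ range K, ‖dpoly (Ioc V (2 * V)) (zeroLogCoeff b B V k) ρ.im‖) +
        (V : ℝ) * (7 / 10) ^ K) := by
  rcases Nat.eq_zero_or_pos V with rfl | hV
  · simp only [Ioc_self, sum_empty, norm_zero, mul_zero]
    positivity
  obtain ⟨β, hβ⟩ : ∃ β, β = ρ.re := ⟨_, rfl⟩
  rw [← hβ] at h0 h1 ⊢
  have hV0 : (0 : ℝ) < V := Nat.cast_pos.2 hV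
  obtain ⟨x, hx⟩ : ∃ x : ℕ → ℝ, x = fun n : ℕ => Real.log ((n : ℝ) / V) := ⟨_, rfl⟩
  obtain ⟨G, hG⟩ : ∃ G : ℕ → ℝ, G = fun n =>
      Real.exp (-(β * x n)) - ∑ k ∈ range K, (-(β * x n)) ^ k / (Nat.factorial k : ℝ) := ⟨_, rfl⟩
  have hGle : ∀ n ∈ Ioc V (2 * V), |G n| ≤ (7 / 10) ^ K := fun n hn => by
    obtain ⟨a, a'⟩ := log_ratio_bounds hn
    have hab : |-(β * x n)| ≤ 7 / 10 := by
      rw [hx, abs_neg, abs_of_nonneg (mul_nonneg h0 a)]
      exact (mul_le_of_le_one_left a h1).trans a'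
    rw [hG]
    refine (Real.exp_bound (hab.trans (by norm_num)) (by omega)).trans ?_
    refine (mul_le_of_le_one_right (by positivity) ?_).trans
      (pow_le_pow_left₀ (abs_nonneg _) hab K)
    rw [div_le_one (by positivity)]
    have hf : 2 ≤ Nat.factorial K := le_trans hK (Nat.self_le_factorial K)
    have : (2 : ℝ) ≤ (Nat.factorial K : ℝ) := by exact_mod_cast hf
    have hK2 : (2 : ℝ) ≤ K := by exact_mod_cast hK
    push_cast
    nlinarith
  have hterm : ∀ n ∈ Ioc V (2 * V), (((V : ℝ) ^ β : ℝ) : ℂ) * (b n * (1 / (n : ℂ) ^ ρ)) =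
      (B : ℂ) * ((∑ k ∈ range K, (((-β) ^ k / (Nat.factorial k : ℝ) : ℝ) : ℂ) *
        (zeroLogCoeff b B V k n * (n : ℂ) ^ (-(I * (ρ.im : ℂ))))) +
          (((G n / B : ℝ)) : ℂ) * (b n * (n : ℂ) ^ (-(I * (ρ.im : ℂ))))) := by
    intro n hn
    have hn0 : (n : ℂ) ≠ 0 := Nat.cast_ne_zero.2 (by rw [mem_Ioc] at hn; omega)
    have hnR : (0 : ℝ) < n := Nat.cast_pos.2 (by rw [mem_Ioc] at hn; omega)
    have e1 : (1 / (n : ℂ) ^ ρ) =
        (((n : ℝ) ^ (-β) : ℝ) : ℂ) * (n : ℂ) ^ (-(I * (ρ.im : ℂ))) := by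
      rw [Complex.ofReal_cpow hnR.le, Complex.ofReal_natCast, ← Complex.cpow_add _ _ hn0, one_div,
        ← Complex.cpow_neg]
      congr 1
      apply Complex.ext <;> simp [hβ]
    have e2 : (V : ℝ) ^ β * (n : ℝ) ^ (-β) = Real.exp (-(β * x n)) := by
      rw [hx, Real.rpow_def_of_pos hV0, Real.rpow_def_of_pos hnR, ← Real.exp_add]
      simp only [Real.log_div hnR.ne' hV0.ne']
      ring_nf
    have e3 : ∀ k, (B : ℂ) * ((((-β) ^ k / (Nat.factorial k : ℝ) : ℝ) : ℂ) *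
        (zeroLogCoeff b B V k n * (n : ℂ) ^ (-(I * (ρ.im : ℂ))))) =
        (((-(β * x n)) ^ k / (Nat.factorial k : ℝ) : ℝ) : ℂ) *
          (b n * (n : ℂ) ^ (-(I * (ρ.im : ℂ)))) := fun k => by
      rw [zeroLogCoeff, if_pos hn, hx]
      simp only [show -(β * Real.log ((n : ℝ) / V)) = -β * Real.log ((n : ℝ) / V) by ring, mul_pow]
      have hB' : (B : ℂ) ≠ 0 := Complex.ofReal_ne_zero.2 hB.ne'
      push_cast
      field_simp
    rw [mul_add, mul_sum, sum_congr rfl fun k _ => e3 k, ← sum_mul, e1,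
      show (B : ℂ) * ((((G n / B : ℝ)) : ℂ) * (b n * (n : ℂ) ^ (-(I * (ρ.im : ℂ))))) =
        ((G n : ℝ) : ℂ) * (b n * (n : ℂ) ^ (-(I * (ρ.im : ℂ)))) by
      rw [← mul_assoc, ← Complex.ofReal_mul, mul_div_cancel₀ _ hB.ne'], ← add_mul,
      ← Complex.ofReal_sum, ← Complex.ofReal_add, hG]
    simp only [add_sub_cancel]
    rw [← e2]
    push_cast
    ring
  have hsum : (((V : ℝ) ^ β : ℝ) : ℂ) * ∑ n ∈ Ioc V (2 * V), b n * (1 / (n : ℂ) ^ ρ) =
      (B : ℂ) * ((∑ k ∈ range K, (((-β) ^ k / (Nat.factorial k : ℝ) : ℝ) : ℂ) *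
        dpoly (Ioc V (2 * V)) (zeroLogCoeff b B V k) ρ.im) +
        ∑ n ∈ Ioc V (2 * V), (((G n / B : ℝ)) : ℂ) * (b n * (n : ℂ) ^ (-(I * (ρ.im : ℂ))))) := by
    rw [mul_sum, sum_congr rfl hterm, ← mul_sum, sum_add_distrib, sum_comm]
    simp only [dpoly, mul_sum]
  have h := congrArg norm hsum
  rw [norm_mul, Complex.norm_real, Real.norm_of_nonneg (by positivity : (0 : ℝ) ≤ (V : ℝ) ^ β),
    norm_mul, Complex.norm_real, Real.norm_of_nonneg hB.le] at h
  rw [h]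
  refine mul_le_mul_of_nonneg_left ((norm_add_le _ _).trans (add_le_add ((norm_sum_le _ _).trans
    (sum_le_sum fun k _ => ?_)) ((norm_sum_le _ _).trans
    ((sum_le_card_nsmul _ _ ((7 / 10) ^ K) fun n hn => ?_).trans (le_of_eq ?_))))) hB.le
  · rw [norm_mul, Complex.norm_real, Real.norm_eq_abs]
    refine mul_le_of_le_one_left (norm_nonneg _) ?_
    rw [abs_div, abs_pow, abs_neg, Nat.abs_cast, div_le_one (by positivity)]
    exact (pow_le_one₀ (abs_nonneg _) (by rw [abs_of_nonneg h0]; exact h1)).trans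
      (Nat.one_le_cast.2 (Nat.factorial_pos k))
  · rw [norm_mul, norm_mul, Complex.norm_real, Real.norm_eq_abs, abs_div, abs_of_pos hB,
      Complex.norm_natCast_cpow_of_pos (by rw [mem_Ioc] at hn; omega)]
    simp only [neg_re, mul_re, I_re, ofReal_re, zero_mul, I_im, ofReal_im, mul_zero, sub_zero,
      neg_zero, Real.rpow_zero, mul_one]
    rw [div_mul_eq_mul_div, div_le_iff₀ hB]
    exact mul_le_mul (hGle n hn) (hb n hn) (norm_nonneg _) (by positivity)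
  · rw [Nat.card_Ioc, show 2 * V - V = V by omega, nsmul_eq_mul]

theorem norm_zeroLogCoeff_le {b : ℕ → ℂ} {B : ℝ} (hB : 0 < B) {V : ℕ}
    (hb : ∀ n ∈ Ioc V (2 * V), ‖b n‖ ≤ B) (k n : ℕ) : ‖zeroLogCoeff b B V k n‖ ≤ 1 := by
  rw [zeroLogCoeff]
  split_ifs with hn
  · obtain ⟨a, a'⟩ := log_ratio_bounds hn
    rw [norm_mul, Complex.norm_real, Real.norm_of_nonneg (by positivity), mul_div,
      div_le_one hB]
    refine le_trans (mul_le_of_le_one_right (norm_nonneg _) (pow_le_one₀ a ?_)) (hb n hn)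
    linarith
  · simp

/-- A power series of length a multiple of `log T` cuts `T ^ (-7)`. -/
theorem exists_series_length {δ : ℝ} (hδ : 0 < δ) : ∃ c, 0 ≤ c ∧ ∀ T : ℝ, 11 ≤ T →
    ∃ K : ℕ, 2 ≤ K ∧ (K : ℝ) ≤ c * Real.log T ∧ (7 / 10 : ℝ) ^ K * T ^ 7 ≤ δ := by
  obtain ⟨K₀, hK₀⟩ := exists_pow_lt_of_lt_one hδ (show (7 / 10 : ℝ) < 1 by norm_num)
  refine ⟨27 + K₀, by positivity, fun T hT => ?_⟩
  have hL : 2 ≤ Real.log T := FA.Huxley.two_le_log hT
  refine ⟨⌈24 * Real.log T⌉₊ + 2 + K₀, by omega, ?_, ?_⟩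
  · have := Nat.ceil_lt_add_one (show 0 ≤ 24 * Real.log T by linarith)
    push_cast
    nlinarith [Nat.cast_nonneg (α := ℝ) K₀]
  · rw [pow_add, mul_comm, ← mul_assoc]
    refine le_trans (mul_le_of_le_one_left (by positivity) ?_) hK₀.le
    have h1 : (7 / 10 : ℝ) ^ (⌈24 * Real.log T⌉₊ + 2) ≤ Real.exp (-(7 * Real.log T)) := by
      have h2 : (7 / 10 : ℝ) ≤ Real.exp (-(7 / 24)) := by
        have := Real.add_one_le_exp (-(7 / 24) : ℝ)
        linarith
      refine (pow_le_pow_left₀ (by norm_num) h2 _).trans ?_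
      rw [← Real.exp_nat_mul]
      refine Real.exp_le_exp.2 ?_
      have := Nat.le_ceil (24 * Real.log T)
      push_cast
      linarith
    refine (mul_le_mul_of_nonneg_left h1 (by positivity)).trans (le_of_eq ?_)
    rw [← Real.rpow_natCast T 7, Real.rpow_def_of_pos (by linarith), ← Real.exp_add]
    push_cast
    ring_nf
    exact Real.exp_zero

/-- **The count by the large values theorem.** -/
theorem exists_count_gm (κ B : ℝ) (hκ : 1 ≤ κ) (hB : 1 ≤ B) {η : ℝ} (hη : 0 < η)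
    (hη1 : η ≤ 1 / 100) : ∃ C, 0 ≤ C ∧ ∃ T₁ : ℝ,
    ∀ (U : ℕ) (c : ℕ → ℂ) (σ T : ℝ) (p : ℕ) (Z : Finset ℂ), IsPowered κ B σ T U c p Z → T₁ ≤ T →
      7 / 10 + 3 * η ≤ σ → σ ≤ 4 / 5 →
      ∑ ρ ∈ Z, (zeroWeight ρ : ℝ) ≤ C * T ^ (5 * η) *
        (((U : ℝ) ^ (p + 1)) ^ (18 / 5 - 4 * (σ - 3 * η)) +
          T * ((U : ℝ) ^ (p + 1)) ^ (12 / 5 - 4 * (σ - 3 * η))) := by
  obtain ⟨Cb, hCb, hwt⟩ := exists_weight_le
  obtain ⟨Cg, hCg, hgm⟩ := exists_largeValues_gm hη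
  obtain ⟨Cd, hCd, hdiv⟩ := exists_divisors_le (show 0 < η / 33 by positivity)
  obtain ⟨D, hD⟩ : ∃ D, D = B ^ 17 * Cd ^ 33 := ⟨_, rfl⟩
  have hD1 : 1 ≤ D := hD ▸ one_le_mul_of_one_le_of_one_le (one_le_pow₀ hB) (one_le_pow₀ hCd)
  obtain ⟨Cl, hCl⟩ : ∃ Cl : ℝ, Cl = (1 / (η / 18)) ^ 18 := ⟨_, rfl⟩
  obtain ⟨δ, hδ⟩ : ∃ δ : ℝ, δ = 1 / (34 * κ ^ 17 * Cl * D) := ⟨_, rfl⟩
  have hCl0 : 0 < Cl := hCl ▸ by positivity
  have hκ0 : 0 < κ := by linarith
  have hD0 : 0 < D := by linarith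
  obtain ⟨cK, hcK, hlen⟩ := exists_series_length (show 0 < δ from hδ ▸ by positivity)
  obtain ⟨C₅, hC₅⟩ : ∃ C₅ : ℝ, C₅ = 34 * κ ^ 17 * (cK + 1) * Cl * D + 1 := ⟨_, rfl⟩
  have hC5 : 1 ≤ C₅ := by rw [hC₅]; exact le_add_of_nonneg_left (by positivity)
  refine ⟨Cb * (2 * 17) * (cK + 1) * (1 / (η / 2)) ^ 2 * Cg * 2 ^ 34, by positivity,
    C₅ ^ (13 / (4 * η)), fun U c σ T p Z h hT hσ hσ1 => ?_⟩
  obtain ⟨L, hL⟩ : ∃ L, L = Real.log T := ⟨_, rfl⟩
  have hL2 : 2 ≤ L := hL ▸ h.two_le_log'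
  have hT11 := h.eleven_le
  have hT1 : 1 ≤ T := by linarith
  have hT0 : 0 < T := by linarith
  have hTη : 1 ≤ T ^ η := Real.one_le_rpow hT1 hη.le
  obtain ⟨H, hH⟩ : ∃ H : ℕ, H = U ^ (p + 1) := ⟨_, rfl⟩
  have hHR : (U : ℝ) ^ (p + 1) = (H : ℝ) := by rw [hH]; push_cast; rfl
  have hH1 : 1 ≤ H := hH ▸ h.pow_pos'
  have hH0 : (0 : ℝ) < H := Nat.cast_pos.2 hH1
  rw [hHR]
  obtain ⟨b, hb⟩ : ∃ b, b = powCoeff U c p := ⟨_, rfl⟩
  obtain ⟨D', hD'⟩ : ∃ D', D' = D * T ^ η := ⟨_, rfl⟩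
  have hD'0 : 0 < D' := hD' ▸ by positivity
  obtain ⟨K, hK2, hKL, hKT⟩ := hlen T hT11
  rw [← hL] at hKL
  have hV : ∀ i < p + 1, H ≤ H * 2 ^ i ∧ ((H * 2 ^ i : ℕ) : ℝ) ≤ 2 ^ 18 * T ^ (15 / 13 : ℝ) ∧
      ((H * 2 ^ i : ℕ) : ℝ) ≤ 2 ^ 16 * H ∧
      ∀ n ∈ Ioc (H * 2 ^ i) (2 * (H * 2 ^ i)), ‖b n‖ ≤ D' := fun i hi => by
    refine ⟨Nat.le_mul_of_pos_right H (by positivity), hH ▸ h.piece_len hi, ?_, fun n hn => ?_⟩
    · push_cast; rw [mul_comm]
      exact mul_le_mul_of_nonneg_right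
        (pow_le_pow_right₀ one_le_two (by have := h.exp; omega)) hH0.le
    have hn' : (n : ℝ) ≤ 64 * T ^ 4 := by
      refine ((Nat.cast_le.2 (mem_Ioc.1 hn).2).trans ?_)
      rw [hH, Nat.cast_mul]
      refine (mul_le_mul_of_nonneg_left (h.piece_len hi) (Nat.cast_nonneg _)).trans ?_
      have h2 : T ^ (15 / 13 : ℝ) ≤ T ^ 2 := by
        rw [← Real.rpow_natCast]
        exact Real.rpow_le_rpow_of_exponent_le hT1 (by norm_num)
      have h3 : (2 : ℝ) ^ 13 ≤ T ^ 2 := by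
        calc (2 : ℝ) ^ 13 ≤ 2 ^ 300 := pow_le_pow_right₀ one_le_two (by norm_num)
          _ ≤ T := h.big
          _ ≤ T ^ 2 := le_self_pow₀ hT1 two_ne_zero
      push_cast
      nlinarith [mul_le_mul h3 h2 (by positivity) (sq_nonneg T)]
    refine hb ▸ (h.norm_coeff_le hB n).trans ?_
    rw [hD', hD, mul_assoc (B ^ 17)]
    refine mul_le_mul_of_nonneg_left ?_ (by positivity)
    rw [tauPow]
    refine (pow_le_pow_left₀ (Nat.cast_nonneg _) (hdiv T hT1 n hn') 33).trans (le_of_eq ?_)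
    rw [mul_pow, ← Real.rpow_mul_natCast hT0.le]
    congr 2
    push_cast
    ring
  obtain ⟨W, hW⟩ : ∃ W, W = (κ * L) ^ 17 := ⟨_, rfl⟩
  have hW1 : 1 ≤ W := hW ▸ one_le_pow₀ (one_le_mul_of_one_le_of_one_le hκ (by linarith))
  obtain ⟨v, hv⟩ : ∃ v, v = σ - 3 * η := ⟨_, rfl⟩
  rw [← hv]
  -- a large polynomial at each zero
  have hlogs : L ^ 18 ≤ Cl * T ^ η := by
    rw [hCl]
    refine (pow_le_pow_left₀ (by linarith) (hL ▸ Real.log_le_rpow_div hT0.le
      (show 0 < η / 18 by positivity)) 18).trans (le_of_eq ?_)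
    rw [div_eq_mul_one_div, mul_pow, ← Real.rpow_mul_natCast hT0.le,
      show η / 18 * ((18 : ℕ) : ℝ) = η by push_cast; ring, mul_comm]
  have hbigT : C₅ ≤ T ^ (4 / 13 * η) := by
    refine le_trans (le_of_eq ?_) (Real.rpow_le_rpow (by positivity) hT (by positivity))
    rw [← Real.rpow_mul (by linarith),
      show 13 / (4 * η) * (4 / 13 * η) = 1 by field_simp, Real.rpow_one]
  have hpoint : ∀ ρ ∈ Z, ∃ q : ℕ × ℕ, q.1 < p + 1 ∧ q.2 < K ∧
      ((H * 2 ^ q.1 : ℕ) : ℝ) ^ v ≤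
        ‖dpoly (Ioc (H * 2 ^ q.1) (2 * (H * 2 ^ q.1))) (zeroLogCoeff b D' (H * 2 ^ q.1) q.2)
          ρ.im‖ := by
    intro ρ hρ
    obtain ⟨hx, -, hre, -⟩ := h.zeros ρ hρ
    obtain ⟨h0, h1⟩ := xiFn_zero_strip hx
    have hbig := h.big_sum hκ hρ
    rw [← hH, ← hb, ← hL, ← hW, ← sum_dyadic H (p + 1) fun n => b n * (1 / (n : ℂ) ^ ρ)] at hbig
    by_contra hne
    push Not at hne
    have hsmall : ∀ i ∈ range (p + 1),
        ‖∑ n ∈ Ioc (H * 2 ^ i) (2 * (H * 2 ^ i)), b n * (1 / (n : ℂ) ^ ρ)‖ < 1 / (17 * W) := by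
      intro i hi
      rw [mem_range] at hi
      obtain ⟨hi1, hi2, hi3, hi4⟩ := hV i hi
      obtain ⟨V, hVdef⟩ : ∃ V : ℕ, V = H * 2 ^ i := ⟨_, rfl⟩
      have hser := norm_piece_le_series hD'0 hK2 (hVdef ▸ hi4) (ρ := ρ) h0.le h1.le
      have hV1 : (1 : ℝ) ≤ V := Nat.one_le_cast.2 (hVdef ▸ hH1.trans hi1)
      have hsum : ∑ k ∈ range K, ‖dpoly (Ioc V (2 * V)) (zeroLogCoeff b D' V k) ρ.im‖ ≤
          (K : ℝ) * (V : ℝ) ^ v := by
        refine (sum_le_card_nsmul _ _ ((V : ℝ) ^ v) fun k hk => ?_).trans (le_of_eq ?_)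
        · exact hVdef ▸ (hne (i, k) hi (mem_range.1 hk)).le
        · rw [card_range, nsmul_eq_mul]
      rw [← hVdef]
      have hVσ : (V : ℝ) ^ σ ≤ (V : ℝ) ^ ρ.re := Real.rpow_le_rpow_of_exponent_le hV1 hre
      have hsplit : (V : ℝ) ^ σ = (V : ℝ) ^ v * (V : ℝ) ^ (3 * η) := by
        rw [← Real.rpow_add (by linarith), hv]; ring_nf
      have hgain : T ^ (2 * η) * C₅ ≤ (V : ℝ) ^ (3 * η) := by
        refine (mul_le_mul_of_nonneg_left hbigT (by positivity)).trans ?_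
        rw [← Real.rpow_add hT0, show 2 * η + 4 / 13 * η = 10 / 13 * (3 * η) by ring,
          Real.rpow_mul hT0.le]
        refine Real.rpow_le_rpow (by positivity) ((h.low.trans hHR.le).trans ?_) (by positivity)
        exact Nat.cast_le.2 (hVdef ▸ hi1)
      -- the two parts
      have hWl : W ≤ κ ^ 17 * L ^ 17 := by rw [hW, mul_pow]
      have hDT : D' = D * T ^ η := hD'
      have p1 : D' * ((K : ℝ) * (V : ℝ) ^ v) * (34 * W) < (V : ℝ) ^ σ := by
        have a1 : D' * (K : ℝ) * (34 * W) < T ^ (2 * η) * C₅ := by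
          have a2 : D' * (K : ℝ) * (34 * W) ≤ 34 * κ ^ 17 * (cK + 1) * Cl * D * T ^ (2 * η) := by
            calc D' * (K : ℝ) * (34 * W)
                ≤ D * T ^ η * ((cK + 1) * L) * (34 * (κ ^ 17 * L ^ 17)) := by
                  rw [hDT]
                  gcongr
                  exact hKL.trans (mul_le_mul_of_nonneg_right (by linarith) (by linarith))
              _ = 34 * κ ^ 17 * (cK + 1) * D * (T ^ η * L ^ 18) := by ring
              _ ≤ 34 * κ ^ 17 * (cK + 1) * D * (T ^ η * (Cl * T ^ η)) := by gcongr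
              _ = _ := by rw [two_mul η, Real.rpow_add hT0]; ring
          refine a2.trans_lt ?_
          rw [hC₅, mul_comm (T ^ (2 * η))]
          exact mul_lt_mul_of_pos_right (lt_add_one _) (Real.rpow_pos_of_pos hT0 _)
        rw [hsplit]
        calc D' * ((K : ℝ) * (V : ℝ) ^ v) * (34 * W) = D' * (K : ℝ) * (34 * W) * (V : ℝ) ^ v := by
              ring
          _ < T ^ (2 * η) * C₅ * (V : ℝ) ^ v :=
              mul_lt_mul_of_pos_right a1 (Real.rpow_pos_of_pos (by linarith) _)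
          _ ≤ _ := by rw [mul_comm ((V : ℝ) ^ v)]; gcongr
      have p2 : D' * ((V : ℝ) * (7 / 10) ^ K) * (34 * W) ≤ (V : ℝ) ^ σ := by
        refine le_trans ?_ (Real.one_le_rpow hV1 (by linarith))
        have hVT : (V : ℝ) ≤ T ^ 3 := by
          refine (hVdef ▸ hi2).trans ?_
          have h2 : T ^ (15 / 13 : ℝ) ≤ T ^ 2 := by
            rw [← Real.rpow_natCast]
            exact Real.rpow_le_rpow_of_exponent_le hT1 (by norm_num)
          rw [show T ^ 3 = T * T ^ 2 by ring]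
          exact mul_le_mul ((pow_le_pow_right₀ one_le_two (by norm_num)).trans h.big) h2
            (by positivity) hT0.le
        have hTp : T ^ η ≤ T := (Real.rpow_le_rpow_of_exponent_le hT1
          (by linarith : η ≤ 1)).trans (le_of_eq (Real.rpow_one T))
        have hW' : W ≤ κ ^ 17 * (Cl * T) := by
          refine hWl.trans (mul_le_mul_of_nonneg_left ?_ (by positivity))
          exact ((pow_le_pow_right₀ (by linarith) (by norm_num)).trans hlogs).trans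
            (mul_le_mul_of_nonneg_left hTp hCl0.le)
        calc D' * ((V : ℝ) * (7 / 10) ^ K) * (34 * W)
            ≤ D * T * (T ^ 3 * (7 / 10) ^ K) * (34 * (κ ^ 17 * (Cl * T))) := by
              rw [hDT]; gcongr
          _ = 34 * κ ^ 17 * Cl * D * ((7 / 10) ^ K * T ^ 5) := by ring
          _ ≤ 34 * κ ^ 17 * Cl * D * ((7 / 10) ^ K * T ^ 7) := by
              gcongr
              norm_num
          _ ≤ 34 * κ ^ 17 * Cl * D * δ := by gcongr
          _ = 1 := by rw [hδ]; field_simp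
      rw [lt_div_iff₀ (by positivity)]
      refine lt_of_mul_lt_mul_left ?_ (show (0 : ℝ) ≤ 2 * (V : ℝ) ^ ρ.re by positivity)
      rw [mul_one]
      have := mul_le_mul_of_nonneg_right (hser.trans (mul_le_mul_of_nonneg_left
        (add_le_add hsum le_rfl) hD'0.le)) (show 0 ≤ 34 * W by positivity)
      linarith
    have : W * ‖∑ i ∈ range (p + 1),
        ∑ n ∈ Ioc (H * 2 ^ i) (2 * (H * 2 ^ i)), b n * (1 / (n : ℂ) ^ ρ)‖ < 1 := by
      refine lt_of_le_of_lt (mul_le_mul_of_nonneg_left (norm_sum_le _ _) (by linarith)) ?_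
      have hlt := sum_lt_sum_of_nonempty (nonempty_range_iff.2 (Nat.succ_ne_zero p)) hsmall
      rw [sum_const, card_range, nsmul_eq_mul] at hlt
      refine (mul_lt_mul_of_pos_left hlt (by linarith)).trans_le ?_
      rw [mul_div, mul_one, mul_div, div_le_one (by positivity), mul_comm]
      refine mul_le_mul_of_nonneg_right ?_ (by linarith)
      have := h.exp
      exact_mod_cast (show p + 1 ≤ 17 by omega)
    linarith
  -- the sets of heights
  classical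
  obtain ⟨S, hS⟩ : ∃ S : Finset ℕ, S = Z.image fun ρ => ⌊|ρ.im|⌋₊ := ⟨_, rfl⟩
  have hex : ∀ k ∈ S, ∃ ρ, ρ ∈ Z ∧ ⌊|ρ.im|⌋₊ = k := fun k hk => by
    rw [hS, mem_image] at hk
    exact hk
  choose! s hs using hex
  choose! q hq using hpoint
  obtain ⟨g, hg⟩ : ∃ g : ℕ → ℕ × (ℕ × ℕ), g = fun k => (k % 2, q (s k)) := ⟨_, rfl⟩
  obtain ⟨F, hF⟩ : ∃ F : ℝ, F = (H : ℝ) ^ (18 / 5 - 4 * v) + T * (H : ℝ) ^ (12 / 5 - 4 * v) :=
    ⟨_, rfl⟩
  rw [← hF]
  have hfib : ∀ x ∈ range 2 ×ˢ (range (p + 1) ×ˢ range K),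
      ((S.filter fun k => g k = x).card : ℝ) ≤ Cg * 2 ^ 34 * T ^ (2 * η) * F := by
    rintro ⟨r, i, j⟩ hx
    simp only [mem_product, mem_range] at hx
    obtain ⟨hi1, hi2, hi3, hi4⟩ := hV i hx.2.1
    obtain ⟨V, hVdef⟩ : ∃ V : ℕ, V = H * 2 ^ i := ⟨_, rfl⟩
    rw [← hVdef] at hi1 hi2 hi3 hi4
    have hV1 : (1 : ℝ) ≤ V := Nat.one_le_cast.2 (hH1.trans hi1)
    have hinj : Set.InjOn (fun k => (s k).im) (S.filter fun k => g k = (r, i, j) : Finset ℕ) :=
      fun a ha a' ha' e => by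
        have e1 := (hs a (mem_filter.1 (mem_coe.1 ha)).1).2
        have e2 := (hs a' (mem_filter.1 (mem_coe.1 ha')).1).2
        simp only at e
        rw [← e1, ← e2, e]
    rw [← card_image_of_injOn hinj]
    refine (hgm T v _ V (zeroLogCoeff b D' V j) hT1 (by linarith) (by linarith) (hH1.trans hi1)
      (fun t ht => ?_) (fun t ht u hu hne => ?_) (norm_zeroLogCoeff_le hD'0 hi4 j)
      fun t ht => ?_).trans ?_
    · obtain ⟨k, hk, rfl⟩ := mem_image.1 ht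
      exact (h.zeros _ (hs k (mem_filter.1 hk).1).1).2.1
    · obtain ⟨k, hk, rfl⟩ := mem_image.1 ht
      obtain ⟨l, hl, rfl⟩ := mem_image.1 hu
      obtain ⟨hkS, hkg⟩ := mem_filter.1 hk
      obtain ⟨hlS, hlg⟩ := mem_filter.1 hl
      rw [hg] at hkg hlg
      have hkl : k ≠ l := fun e => hne (by rw [e])
      have hm : k % 2 = l % 2 := (congrArg Prod.fst hkg).trans (congrArg Prod.fst hlg).symm
      have h2 : k + 2 ≤ l ∨ l + 2 ≤ k := by omega
      have a1 := Nat.floor_le (abs_nonneg (s k).im)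
      have a2 := Nat.lt_floor_add_one |(s k).im|
      have b1 := Nat.floor_le (abs_nonneg (s l).im)
      have b2 := Nat.lt_floor_add_one |(s l).im|
      rw [(hs k hkS).2] at a1 a2
      rw [(hs l hlS).2] at b1 b2
      refine le_trans ?_ (abs_abs_sub_abs_le_abs_sub _ _)
      rcases h2 with h2 | h2
      · have : ((k : ℝ) + 2) ≤ l := by exact_mod_cast h2
        exact le_trans (by linarith) (neg_le_abs _)
      · have : ((l : ℝ) + 2) ≤ k := by exact_mod_cast h2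
        exact le_trans (by linarith) (le_abs_self _)
    · obtain ⟨k, hk, rfl⟩ := mem_image.1 ht
      obtain ⟨hkS, hkg⟩ := mem_filter.1 hk
      rw [hg] at hkg
      have hqe : q (s k) = (i, j) := congrArg Prod.snd hkg
      have := (hq (s k) (hs k hkS).1).2.2
      rwa [hqe, ← hVdef] at this
    · have e1 : (V : ℝ) ^ η ≤ 2 ^ 18 * T ^ (2 * η) := by
        refine (Real.rpow_le_rpow (by linarith) hi2 hη.le).trans ?_
        rw [Real.mul_rpow (by positivity) (by positivity), ← Real.rpow_mul hT0.le]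
        exact mul_le_mul (Real.rpow_le_self_of_one_le (one_le_pow₀ one_le_two) (by linarith))
          (Real.rpow_le_rpow_of_exponent_le hT1 (by linarith)) (by positivity) (by positivity)
      have e2 : (V : ℝ) ^ (18 / 5 - 4 * v) ≤ 2 ^ 16 * (H : ℝ) ^ (18 / 5 - 4 * v) := by
        refine (Real.rpow_le_rpow (by linarith) hi3 (by linarith)).trans ?_
        rw [Real.mul_rpow (by positivity) hH0.le]
        exact mul_le_mul_of_nonneg_right (Real.rpow_le_self_of_one_le (one_le_pow₀ one_le_two)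
          (by linarith)) (by positivity)
      have e3 : T * (V : ℝ) ^ (12 / 5 - 4 * v) ≤ T * (H : ℝ) ^ (12 / 5 - 4 * v) :=
        mul_le_mul_of_nonneg_left (Real.rpow_le_rpow_of_nonpos hH0 (Nat.cast_le.2 hi1)
          (by linarith)) hT0.le
      have hf1 : 0 ≤ T * (H : ℝ) ^ (12 / 5 - 4 * v) := by positivity
      calc Cg * (V : ℝ) ^ η * ((V : ℝ) ^ (18 / 5 - 4 * v) + T * (V : ℝ) ^ (12 / 5 - 4 * v))
          ≤ Cg * (2 ^ 18 * T ^ (2 * η)) * (2 ^ 16 * F) := by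
            refine mul_le_mul (mul_le_mul_of_nonneg_left e1 hCg) ?_ (by positivity) (by positivity)
            rw [hF]
            linarith
        _ = _ := by ring
  have hcard : (S.card : ℝ) ≤ (2 * 17 * ((cK + 1) * L)) * (Cg * 2 ^ 34 * T ^ (2 * η) * F) := by
    rw [card_eq_sum_card_fiberwise (f := g) (t := range 2 ×ˢ (range (p + 1) ×ˢ range K))
      fun k hk => by
        rw [hg]
        have := hq (s k) (hs k (mem_coe.1 hk)).1
        simp only [mem_coe, mem_product, mem_range]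
        exact ⟨Nat.mod_lt _ two_pos, this.1, this.2.1⟩]
    push_cast
    refine (sum_le_card_nsmul _ _ _ hfib).trans ?_
    rw [nsmul_eq_mul, card_product, card_product, card_range, card_range, card_range]
    push_cast
    have hp17 : ((p : ℝ) + 1) ≤ 17 := by
      have := h.exp
      exact_mod_cast (show p + 1 ≤ 17 by omega)
    have hF0 : 0 ≤ F := hF ▸ by positivity
    refine mul_le_mul_of_nonneg_right ?_ (by positivity)
    rw [mul_assoc]
    refine mul_le_mul_of_nonneg_left (mul_le_mul hp17 (hKL.trans ?_) (Nat.cast_nonneg _)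
      (by norm_num)) (by norm_num)
    exact mul_le_mul_of_nonneg_right (by linarith) (by linarith)
  have hw := hwt T Z hT11 fun ρ hρ => ⟨(h.zeros ρ hρ).1, (h.zeros ρ hρ).2.1⟩
  rw [← hS, ← hL] at hw
  refine hw.trans ((mul_le_mul_of_nonneg_left hcard (by positivity)).trans ?_)
  have hl2 : L ^ 2 ≤ (1 / (η / 2)) ^ 2 * T ^ η := by
    refine (pow_le_pow_left₀ (by linarith) (hL ▸ Real.log_le_rpow_div hT0.le
      (show 0 < η / 2 by positivity)) 2).trans (le_of_eq ?_)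
    rw [div_eq_mul_one_div, mul_pow, ← Real.rpow_mul_natCast hT0.le,
      show η / 2 * ((2 : ℕ) : ℝ) = η by push_cast; ring, mul_comm]
  have h3 : T ^ η * T ^ (2 * η) ≤ T ^ (5 * η) := by
    rw [← Real.rpow_add hT0]
    exact Real.rpow_le_rpow_of_exponent_le hT1 (by linarith)
  have hF0 : 0 ≤ F := hF ▸ by positivity
  calc Cb * L * (2 * 17 * ((cK + 1) * L) * (Cg * 2 ^ 34 * T ^ (2 * η) * F))
      = Cb * (2 * 17) * (cK + 1) * Cg * 2 ^ 34 * L ^ 2 * T ^ (2 * η) * F := by ring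
    _ ≤ Cb * (2 * 17) * (cK + 1) * Cg * 2 ^ 34 * ((1 / (η / 2)) ^ 2 * T ^ η) * T ^ (2 * η) * F := by
        gcongr
    _ = Cb * (2 * 17) * (cK + 1) * (1 / (η / 2)) ^ 2 * Cg * 2 ^ 34 * (T ^ η * T ^ (2 * η)) * F := by
        ring
    _ ≤ _ := by gcongr

end FA.GuthMaynard

end
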