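import Fermat.Agent.Huxley.Density
import Fermat.Agent.GuthMaynard.ZeroHuxley
import Fermat.Agent.GuthMaynard.ZeroLargeValues

/-!
# The zeros in a band

In `T/2 < |im ρ| ≤ T`, `re ρ ≥ σ ≥ 17/30`, with `X = T ^ (1/20)` and `Y = T ^ (15/26)` both classes
have at most `T ^ (30 (1 - σ) / 13)` zeros, up to logarithms for `σ ≤ 7/10` or `σ ≥ 4/5` and up to
`T ^ ε` between.
-/

set_option autoImplicit false

noncomputable section

namespace FA.GuthMaynard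

open Finset Complex
open FA.SelbergCLT (decay decay_nonneg exists_norm_cutoff_le)
open FA.RiemannMangoldt FA.ExplicitFormula
open FA.Hoheisel (piece piece_eq norm_molCoeff_le exponent_le_log)
open FA.Huxley (critAvg critAvg_nonneg quartAvg critAvg_pow_le exists_sum_quartAvg_le smoothCoeff
  smoothSum_eq_pieces exists_dichotomy_wide two_le_log)
open scoped Real

/-- **The count of the second class.** -/
theorem exists_classTwo_gm : ∃ C, 0 ≤ C ∧ ∀ (σ K : ℝ) (X : ℕ) (T : ℝ) (Z : Finset ℂ), 11 ≤ T →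
    0 ≤ K → (X : ℝ) ≤ T ^ (1 / 20 : ℝ) → (∀ ρ ∈ Z, xiFn ρ = 0 ∧ |ρ.im| ≤ T ∧
      T ^ (15 / 26 * (σ - 1 / 2)) ≤ K * √(X : ℝ) * critAvg ρ.im) →
      ∑ ρ ∈ Z, (zeroWeight ρ : ℝ) ≤
        C * K ^ 4 * T ^ (30 / 13 * (1 - σ)) * Real.log T ^ 5 := by
  obtain ⟨C, hC, h⟩ := exists_sum_quartAvg_le
  obtain ⟨J, hJ⟩ : ∃ J, J = ∫ v, decay 8 v := ⟨_, rfl⟩
  have hJ0 : 0 ≤ J := hJ ▸ MeasureTheory.integral_nonneg (decay_nonneg 8)
  refine ⟨C * J ^ 3, by positivity, fun σ K X T Z hT hK hX hZ => ?_⟩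
  have hT0 : 0 < T := by linarith
  obtain ⟨P, hP⟩ : ∃ P, P = T ^ (30 / 13 * (σ - 1 / 2)) := ⟨_, rfl⟩
  have hP0 : 0 < P := hP ▸ Real.rpow_pos_of_pos hT0 _
  have hpt : ∀ ρ ∈ Z, P ≤ K ^ 4 * T ^ (1 / 10 : ℝ) * (J ^ 3 * quartAvg ρ.im) := fun ρ hρ => by
    have h1 := pow_le_pow_left₀ (Real.rpow_nonneg hT0.le _) (hZ ρ hρ).2.2 4
    rw [← Real.rpow_mul_natCast hT0.le, mul_pow, mul_pow,
      show 15 / 26 * (σ - 1 / 2) * ((4 : ℕ) : ℝ) = 30 / 13 * (σ - 1 / 2) by push_cast; ring,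
      ← hP] at h1
    refine h1.trans (mul_le_mul (mul_le_mul_of_nonneg_left ?_ (by positivity))
      (hJ ▸ critAvg_pow_le ρ.im) (pow_nonneg (critAvg_nonneg _) 4) (by positivity))
    rw [show √(X : ℝ) ^ 4 = (√(X : ℝ) * √(X : ℝ)) ^ 2 by ring,
      Real.mul_self_sqrt (Nat.cast_nonneg X)]
    refine (pow_le_pow_left₀ (Nat.cast_nonneg X) hX 2).trans (le_of_eq ?_)
    rw [← Real.rpow_mul_natCast hT0.le]
    norm_num
  have hsum : P * ∑ ρ ∈ Z, (zeroWeight ρ : ℝ) ≤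
      K ^ 4 * T ^ (1 / 10 : ℝ) * (J ^ 3 * (C * (T * Real.log T ^ 5))) := by
    rw [mul_sum]
    refine (sum_le_sum (g := fun ρ => K ^ 4 * T ^ (1 / 10 : ℝ) *
      (J ^ 3 * ((zeroWeight ρ : ℝ) * quartAvg ρ.im))) fun ρ hρ => ?_).trans ?_
    · refine (mul_le_mul_of_nonneg_right (hpt ρ hρ) (Nat.cast_nonneg _)).trans (le_of_eq ?_)
      ring
    · rw [← mul_sum, ← mul_sum]
      exact mul_le_mul_of_nonneg_left (mul_le_mul_of_nonneg_left
        (h T Z hT fun ρ hρ => ⟨(hZ ρ hρ).1, (hZ ρ hρ).2.1⟩) (by positivity)) (by positivity)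
  refine le_of_mul_le_mul_left (hsum.trans ?_) hP0
  have e : T ^ (1 / 10 : ℝ) * T ≤ P * T ^ (30 / 13 * (1 - σ)) := by
    rw [hP, ← Real.rpow_add hT0, ← Real.rpow_add_one hT0.ne']
    exact Real.rpow_le_rpow_of_exponent_le (by linarith) (by linarith)
  have := mul_le_mul_of_nonneg_left e (show 0 ≤ C * J ^ 3 * K ^ 4 * Real.log T ^ 5 by
    have := two_le_log hT; positivity)
  linarith

/-- **The band through its first class.** -/
theorem exists_band_split : ∃ B, 1 ≤ B ∧ ∃ C, 0 ≤ C ∧ ∃ T₀ : ℝ, 1 ≤ T₀ ∧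
    ∀ σ T R : ℝ, T₀ ≤ T → 17 / 30 ≤ σ → σ ≤ 1 → 0 ≤ R →
      (∀ (U : ℕ) (c : ℕ → ℂ) (p : ℕ) (Z : Finset ℂ), IsPowered 9 B σ T U c p Z →
        ∑ ρ ∈ Z, (zeroWeight ρ : ℝ) ≤ R) →
      ∑ ρ ∈ ((zerosUpTo T).filter (fun ρ => σ ≤ ρ.re)).filter (fun ρ => T / 2 < |ρ.im|),
        (zeroWeight ρ : ℝ) ≤
          C * T ^ (30 / 13 * (1 - σ)) * Real.log T ^ 5 + 3 * Real.log T * R := by
  obtain ⟨K, hK, hdich⟩ := exists_dichotomy_wide
  obtain ⟨B, hB, hcut⟩ := exists_norm_cutoff_le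
  obtain ⟨C₂, hC₂, htwo⟩ := exists_classTwo_gm
  refine ⟨B, hB, C₂ * K ^ 4, by positivity, max ((2 : ℝ) ^ 300) (4 * K),
    le_max_of_le_left (one_le_pow₀ one_le_two), fun σ T R hT hσ hσ1 hR hone => ?_⟩
  have hTK : 4 * K ≤ T := (le_max_right _ _).trans hT
  have hT11 : 11 ≤ T := le_trans (le_trans (by norm_num : (11 : ℝ) ≤ 2 ^ 4)
    (pow_le_pow_right₀ one_le_two (by norm_num))) ((le_max_left _ _).trans hT)
  -- keep the numeral out of the sight of `linarith`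
  obtain ⟨Big, hBig⟩ : ∃ Q : Prop, Q = ((2 : ℝ) ^ 300 ≤ T) := ⟨_, rfl⟩
  have hT300 : Big := hBig ▸ (le_max_left _ _).trans hT
  clear hT
  have hT1 : 1 ≤ T := by linarith
  have hT0 : 0 < T := by linarith
  obtain ⟨L, hL⟩ : ∃ L, L = Real.log T := ⟨_, rfl⟩
  have hL2 : 2 ≤ L := hL ▸ two_le_log hT11
  rw [← hL]
  -- the parameters
  obtain ⟨X, hX⟩ : ∃ X, X = ⌊T ^ (1 / 20 : ℝ)⌋₊ := ⟨_, rfl⟩
  have hX2 : (X : ℝ) ≤ T ^ (1 / 20 : ℝ) := hX ▸ Nat.floor_le (by positivity)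
  have hX1 : 1 ≤ X := hX ▸ Nat.floor_pos.2 (Real.one_le_rpow hT1 (by norm_num))
  have hXlo : T ^ (1 / 20 : ℝ) / 2 ≤ X := by
    have h1 := Nat.lt_floor_add_one (T ^ (1 / 20 : ℝ))
    rw [← hX] at h1
    linarith [show (1 : ℝ) ≤ X from Nat.one_le_cast.2 hX1]
  obtain ⟨l, hl⟩ : ∃ l, l = 15 / 26 * L := ⟨_, rfl⟩
  have hel : Real.exp l = T ^ (15 / 26 : ℝ) := by
    rw [hl, hL, Real.rpow_def_of_pos hT0, mul_comm]
  obtain ⟨N, hN⟩ : ∃ N, N = ⌊Real.exp (l + 1 / 10)⌋₊ := ⟨_, rfl⟩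
  have hNlo : l + 1 / 10 ≤ Real.log (N + 1 : ℕ) := by
    rw [Real.le_log_iff_exp_le (by positivity)]
    push_cast
    exact (hN ▸ Nat.lt_floor_add_one _).le
  have hNhi : (N : ℝ) ≤ 2 * T ^ (15 / 26 : ℝ) := by
    refine (hN ▸ Nat.floor_le (Real.exp_pos _).le).trans ?_
    rw [Real.exp_add, hel, mul_comm]
    exact mul_le_mul_of_nonneg_right ((Real.exp_bound_div_one_sub_of_interval (by norm_num)
      (by norm_num)).trans (by norm_num)) (by positivity)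
  have hXN : X ≤ N := by
    rw [hN]
    refine Nat.le_floor (hX2.trans ((Real.rpow_le_rpow_of_exponent_le hT1
      (show (1 / 20 : ℝ) ≤ 15 / 26 by norm_num)).trans ?_))
    rw [← hel]
    exact Real.exp_le_exp.2 (by linarith)
  obtain ⟨J, hJ⟩ : ∃ J, J = Nat.log 2 (N / X) + 1 := ⟨_, rfl⟩
  have hJN : N ≤ X * 2 ^ J := by
    have h := Nat.lt_pow_succ_log_self one_lt_two (N / X)
    rw [← Nat.succ_eq_add_one] at hJ
    rw [hJ, mul_comm]
    exact ((Nat.div_lt_iff_lt_mul hX1).1 h).le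
  have hJL : (J : ℝ) ≤ 3 * L := by
    have h1 : 2 ^ Nat.log 2 (N / X) ≤ N :=
      (Nat.pow_log_le_self 2 (Nat.div_pos hXN hX1).ne').trans (Nat.div_le_self _ _)
    have h2 : T ^ (15 / 26 : ℝ) * 2 ≤ T := by
      have h3 : (2 : ℝ) ≤ T ^ (11 / 26 : ℝ) := by
        refine le_trans ?_ (Real.rpow_le_rpow (by positivity) (hBig ▸ hT300) (by norm_num))
        rw [← Real.rpow_natCast, ← Real.rpow_mul two_pos.le]
        exact (le_of_eq (Real.rpow_one 2).symm).trans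
          (Real.rpow_le_rpow_of_exponent_le one_le_two (by norm_num))
      calc T ^ (15 / 26 : ℝ) * 2 ≤ T ^ (15 / 26 : ℝ) * T ^ (11 / 26 : ℝ) := by gcongr
        _ = T := by rw [← Real.rpow_add hT0]; norm_num
    have h := exponent_le_log hT1 (m := 1) (n := Nat.log 2 (N / X)) (by
      rw [Real.rpow_one]
      have : (2 : ℝ) ^ Nat.log 2 (N / X) ≤ (N : ℝ) := by exact_mod_cast h1
      linarith)
    rw [hJ, hL]
    push_cast
    linarith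
  -- the classes
  obtain ⟨c, hc⟩ : ∃ c, c = smoothCoeff X N l := ⟨_, rfl⟩
  have hcB : ∀ n, ‖c n‖ ≤ B * n.divisors.card := fun n => by
    rw [hc, smoothCoeff, norm_mul, mul_comm B]
    exact mul_le_mul (norm_molCoeff_le X N n) (hcut _) (norm_nonneg _) (Nat.cast_nonneg _)
  classical
  obtain ⟨Z, hZdef⟩ : ∃ Z, Z = ((zerosUpTo T).filter (fun ρ => σ ≤ ρ.re)).filter
      (fun ρ => T / 2 < |ρ.im|) := ⟨_, rfl⟩
  rw [← hZdef]
  have hZ : ∀ ρ ∈ Z, xiFn ρ = 0 ∧ |ρ.im| ≤ T ∧ σ ≤ ρ.re ∧ T / 2 < |ρ.im| := fun ρ hρ => by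
    simp only [hZdef, Finset.mem_filter, mem_zerosUpTo] at hρ
    exact ⟨hρ.1.1.1, hρ.1.1.2, hρ.1.2, hρ.2⟩
  obtain ⟨Z₂, hZ₂⟩ : ∃ Z₂, Z₂ = Z.filter
      (fun ρ => T ^ (15 / 26 * (σ - 1 / 2)) ≤ K * √(X : ℝ) * critAvg ρ.im) := ⟨_, rfl⟩
  obtain ⟨Z₁, hZ₁⟩ : ∃ Z₁ : ℕ → Finset ℂ, ∀ j, Z₁ j = Z.filter
      (fun ρ => 1 ≤ 9 * Real.log T * ‖piece (X * 2 ^ j) c ρ.re ρ.im‖) := ⟨_, fun j => rfl⟩
  have hcover : ∀ ρ ∈ Z, ρ ∈ Z₂ ∨ ∃ j ∈ range J, ρ ∈ Z₁ j := fun ρ hρ => by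
    obtain ⟨hx, him, hre, hlow⟩ := hZ ρ hρ
    obtain ⟨h0, h1⟩ := xiFn_zero_strip hx
    have hne : ρ ≠ 1 := fun h => by rw [h] at h1; simp at h1
    have hz : riemannZeta ρ = 0 := (xiFn_eq_zero_iff h0 hne).1 hx
    have him1 : 1 ≤ |ρ.im| := by linarith
    have hpole : K * √(X : ℝ) * Real.exp l ≤ |ρ.im| ^ 2 := by
      have h2 : √(X : ℝ) * Real.exp l ≤ T := by
        calc √(X : ℝ) * Real.exp l ≤ T ^ (1 / 20 : ℝ) * T ^ (15 / 26 : ℝ) := by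
              rw [hel]
              refine mul_le_mul_of_nonneg_right (le_trans ?_ hX2) (by positivity)
              rw [Real.sqrt_le_iff]
              exact ⟨Nat.cast_nonneg X, le_self_pow₀ (Nat.one_le_cast.2 hX1) two_ne_zero⟩
          _ ≤ T := by
              rw [← Real.rpow_add hT0]
              exact (Real.rpow_le_rpow_of_exponent_le hT1 (by norm_num)).trans
                (le_of_eq (Real.rpow_one T))
      rw [mul_assoc]
      calc K * (√(X : ℝ) * Real.exp l) ≤ (T / 4) * T :=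
            mul_le_mul (by linarith) h2 (by positivity) (by positivity)
        _ = (T / 2) ^ 2 := by ring
        _ ≤ _ := pow_le_pow_left₀ (by linarith) hlow.le 2
    rcases hdich X N l ρ hX1 hXN (by rw [hl]; linarith) hNlo hz (le_trans (by linarith) hre) h1
      him1 hpole with hI | hII
    · right
      rw [smoothSum_eq_pieces hJN hNlo, ← hc] at hI
      have hI' := hI.trans (norm_sum_le _ _)
      obtain ⟨j, hj, hle⟩ := exists_le_of_sum_le (f := fun _ => 1 / (9 * L)) (s := range J)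
        (g := fun j => ‖piece (X * 2 ^ j) c ρ.re ρ.im‖)
        (nonempty_range_iff.2 (by rw [hJ]; exact Nat.succ_ne_zero _)) (by
          rw [sum_const, card_range, nsmul_eq_mul]
          refine le_trans ?_ hI'
          rw [mul_one_div, div_le_iff₀ (by positivity)]
          linarith)
      refine ⟨j, hj, ?_⟩
      rw [hZ₁, Finset.mem_filter, ← hL]
      refine ⟨hρ, ?_⟩
      rwa [div_le_iff₀' (by positivity)] at hle
    · left
      rw [hZ₂, Finset.mem_filter]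
      refine ⟨hρ, le_trans ?_ hII⟩
      rw [Real.rpow_def_of_pos hT0, ← hL, hl]
      refine Real.exp_le_exp.2 ?_
      nlinarith
  have hsplit : ∑ ρ ∈ Z, (zeroWeight ρ : ℝ) ≤ (∑ ρ ∈ Z₂, (zeroWeight ρ : ℝ)) +
      ∑ j ∈ range J, ∑ ρ ∈ Z₁ j, (zeroWeight ρ : ℝ) := by
    simp only [hZ₂, hZ₁, Finset.sum_filter]
    rw [Finset.sum_comm, ← Finset.sum_add_distrib]
    refine sum_le_sum fun ρ hρ => ?_
    have h0 : ∀ j ∈ range J, (0 : ℝ) ≤
        if 1 ≤ 9 * Real.log T * ‖piece (X * 2 ^ j) c ρ.re ρ.im‖ then (zeroWeight ρ : ℝ) else 0 :=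
      fun j _ => by split_ifs <;> simp
    rcases hcover ρ hρ with h | ⟨j, hj, h⟩
    · rw [hZ₂, Finset.mem_filter] at h
      rw [if_pos h.2]
      exact le_add_of_nonneg_right (sum_nonneg h0)
    · rw [hZ₁, Finset.mem_filter] at h
      refine le_trans ?_ (le_add_of_nonneg_left (by split_ifs <;> simp))
      refine le_trans (le_of_eq ?_) (single_le_sum h0 hj)
      rw [if_pos h.2]
  have hU : ∀ j ∈ range J, T ^ (1 / 20 : ℝ) / 2 ≤ ((X * 2 ^ j : ℕ) : ℝ) ∧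
      ((X * 2 ^ j : ℕ) : ℝ) ≤ 2 * T ^ (15 / 26 : ℝ) := fun j hj => by
    refine ⟨hXlo.trans (Nat.cast_le.2 (Nat.le_mul_of_pos_right X (by positivity))),
      le_trans (Nat.cast_le.2 ?_) hNhi⟩
    refine (Nat.mul_le_mul_left X ((Nat.pow_le_pow_right two_pos (show j ≤ Nat.log 2 (N / X) by
      have := mem_range.1 hj; omega)).trans (Nat.pow_log_le_self 2
        (Nat.div_pos hXN hX1).ne'))).trans ?_
    exact Nat.mul_div_le N X
  have h1 : ∀ j ∈ range J, ∑ ρ ∈ Z₁ j, (zeroWeight ρ : ℝ) ≤ R := fun j hj => by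
    obtain ⟨p, hp, hlo, hhi⟩ := exists_power_gm (hBig ▸ hT300) (hU j hj).1 (hU j hj).2
    refine hone (X * 2 ^ j) c p (Z₁ j) ⟨hBig ▸ hT300, Nat.one_le_iff_ne_zero.2 (Nat.mul_ne_zero
      (by omega) (by positivity)), hp, hlo, hhi, hcB, fun ρ hρ => ?_⟩
    rw [hZ₁, Finset.mem_filter] at hρ
    exact ⟨(hZ ρ hρ.1).1, (hZ ρ hρ.1).2.1, (hZ ρ hρ.1).2.2.1, hρ.2⟩
  have h2 : ∑ ρ ∈ Z₂, (zeroWeight ρ : ℝ) ≤
      C₂ * K ^ 4 * T ^ (30 / 13 * (1 - σ)) * L ^ 5 := by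
    rw [hL]
    refine htwo σ K X T Z₂ hT11 hK.le hX2 fun ρ hρ => ?_
    rw [hZ₂, Finset.mem_filter] at hρ
    exact ⟨(hZ ρ hρ.1).1, (hZ ρ hρ.1).2.1, hρ.2⟩
  refine hsplit.trans ((add_le_add h2 ((sum_le_card_nsmul _ _ _ h1).trans (le_of_eq
    (nsmul_eq_mul _ _)))).trans ?_)
  rw [card_range]
  exact add_le_add le_rfl (mul_le_mul_of_nonneg_right hJL hR)

/-- A negative power of the length. -/
theorem mul_rpow_len_le {T H a e y : ℝ} (hT : 1 ≤ T) (hH : T ^ a ≤ H) (he : e ≤ 0)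
    (h : 1 + a * e ≤ y) : T * H ^ e ≤ T ^ y := by
  have hT0 : 0 < T := by linarith
  refine (mul_le_mul_of_nonneg_left (Real.rpow_le_rpow_of_nonpos (by positivity) hH he)
    hT0.le).trans ?_
  rw [← Real.rpow_mul hT0.le]
  refine le_trans (le_of_eq ?_) (Real.rpow_le_rpow_of_exponent_le hT h)
  rw [Real.rpow_add hT0, Real.rpow_one]

/-- A positive power of the length. -/
theorem rpow_len_le {T H e y : ℝ} (hT : 1 ≤ T) (hH0 : 0 ≤ H) (hH : H ≤ 4 * T ^ (15 / 13 : ℝ))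
    (he : 0 ≤ e) (he1 : e ≤ 1) (h : 15 / 13 * e ≤ y) : H ^ e ≤ 4 * T ^ y := by
  refine (Real.rpow_le_rpow hH0 hH he).trans ?_
  rw [Real.mul_rpow (by norm_num) (by positivity), ← Real.rpow_mul (zero_le_one.trans hT)]
  exact mul_le_mul (Real.rpow_le_self_of_one_le (by norm_num) he1)
    (Real.rpow_le_rpow_of_exponent_le hT h) (by positivity) (by norm_num)

/-- The quadratic behind the choice between the two estimates. -/
theorem quad_nonneg (v : ℝ) :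
    18 / 5 - 4 * v ≤ 30 / 13 * (1 - v) * (13 / 5 - 2 * v) := by
  nlinarith [sq_nonneg (v - 43 / 60)]

/-- **The first class below `7/10` and above `4/5`.** -/
theorem exists_classOne_log (B : ℝ) (hB : 1 ≤ B) : ∃ C, 0 ≤ C ∧ ∃ A : ℕ,
    ∀ (U : ℕ) (c : ℕ → ℂ) (σ T : ℝ) (p : ℕ) (Z : Finset ℂ), IsPowered 9 B σ T U c p Z →
      17 / 30 ≤ σ → σ ≤ 1 → σ ≤ 7 / 10 ∨ 4 / 5 ≤ σ →
      ∑ ρ ∈ Z, (zeroWeight ρ : ℝ) ≤ C * T ^ (30 / 13 * (1 - σ)) * Real.log T ^ A := by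
  obtain ⟨Cm, hCm, Am, hmean⟩ := exists_count_mean 9 B (by norm_num) hB
  obtain ⟨Ch, hCh, Ah, hhux⟩ := exists_count_huxley 9 B (by norm_num) hB
  refine ⟨5 * Cm + 6 * Ch, by positivity, Am + Ah, fun U c σ T p Z h hσ hσ1 hcase => ?_⟩
  have hT1 : 1 ≤ T := by linarith [h.eleven_le]
  have hL1 : 1 ≤ Real.log T := by linarith [h.two_le_log']
  obtain ⟨H, hH⟩ : ∃ H : ℝ, H = (U : ℝ) ^ (p + 1) := ⟨_, rfl⟩
  obtain ⟨P, hP⟩ : ∃ P, P = T ^ (30 / 13 * (1 - σ)) := ⟨_, rfl⟩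
  have hP0 : 0 ≤ P := hP ▸ by positivity
  have hlo : T ^ (10 / 13 : ℝ) ≤ H := hH ▸ h.low
  have a3 : H ^ (2 - 2 * σ) ≤ 4 * P := hP ▸ rpow_len_le hT1 (hH ▸ by positivity) (hH ▸ h.high)
    (by linarith) (by linarith) (by linarith)
  rw [← hP]
  have hA1 : Real.log T ^ Am ≤ Real.log T ^ (Am + Ah) := pow_le_pow_right₀ hL1 (by omega)
  have hA2 : Real.log T ^ Ah ≤ Real.log T ^ (Am + Ah) := pow_le_pow_right₀ hL1 (by omega)
  rcases hcase with hlow | hhigh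
  · refine (hmean U c σ T p Z h (by linarith) hσ1).trans ?_
    rw [← hH]
    have a1 : T * H ^ (1 - 2 * σ) ≤ P :=
      hP ▸ mul_rpow_len_le hT1 hlo (by linarith) (by linarith)
    have := mul_le_mul (mul_le_mul_of_nonneg_left (show H ^ (2 - 2 * σ) +
      T * H ^ (1 - 2 * σ) ≤ 5 * P by linarith) hCm) hA1
      (by positivity) (by positivity)
    have : 0 ≤ 6 * Ch * P * Real.log T ^ (Am + Ah) := by positivity
    linarith
  · refine (hhux U c σ T p Z h (by linarith) hσ1).trans ?_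
    rw [← hH]
    have a1 : T * H ^ (4 - 6 * σ) ≤ P :=
      hP ▸ mul_rpow_len_le hT1 hlo (by linarith) (by linarith)
    have a2 : T * H ^ (2 - 4 * σ) ≤ P :=
      hP ▸ mul_rpow_len_le hT1 hlo (by linarith) (by linarith)
    have := mul_le_mul (mul_le_mul_of_nonneg_left (show H ^ (2 - 2 * σ) +
      T * H ^ (4 - 6 * σ) + T * H ^ (2 - 4 * σ) ≤ 6 * P by linarith) hCh) hA2
      (by positivity) (by positivity)
    have : 0 ≤ 5 * Cm * P * Real.log T ^ (Am + Ah) := by positivity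
    linarith

/-- A power of the logarithm through a small power. -/
theorem exists_log_pow_le (n : ℕ) {η : ℝ} (hη : 0 < η) : ∃ C, 0 ≤ C ∧ ∀ T : ℝ, 1 ≤ T →
    Real.log T ^ n ≤ C * T ^ η := by
  refine ⟨(((n : ℝ) + 1) / η) ^ n, by positivity, fun T hT => ?_⟩
  have hT0 : 0 < T := by linarith
  have h := pow_le_pow_left₀ (Real.log_nonneg hT)
    (Real.log_le_rpow_div hT0.le (show 0 < η / ((n : ℝ) + 1) by positivity)) n
  rw [div_pow, ← Real.rpow_mul_natCast hT0.le, div_eq_mul_inv, ← inv_pow, inv_div, mul_comm] at h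
  refine h.trans (mul_le_mul_of_nonneg_left (Real.rpow_le_rpow_of_exponent_le hT ?_)
    (by positivity))
  rw [div_mul_eq_mul_div, div_le_iff₀ (by positivity)]
  nlinarith

/-- **The first class, every abscissa.** -/
theorem exists_classOne_eps (B : ℝ) (hB : 1 ≤ B) {ε : ℝ} (hε : 0 < ε) : ∃ C, 0 ≤ C ∧ ∃ T₁ : ℝ,
    ∀ (U : ℕ) (c : ℕ → ℂ) (σ T : ℝ) (p : ℕ) (Z : Finset ℂ), IsPowered 9 B σ T U c p Z → T₁ ≤ T →
      17 / 30 ≤ σ → σ ≤ 1 →
      ∑ ρ ∈ Z, (zeroWeight ρ : ℝ) ≤ C * T ^ (30 / 13 * (1 - σ) + ε) := by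
  obtain ⟨η, hη⟩ : ∃ η, η = min (ε / 14) (1 / 100) := ⟨_, rfl⟩
  have hη0 : 0 < η := hη ▸ lt_min (by positivity) (by norm_num)
  have hη1 : η ≤ 1 / 100 := hη ▸ min_le_right _ _
  have hηε : η ≤ ε / 14 := hη ▸ min_le_left _ _
  obtain ⟨Cl, hCl, A, hlog⟩ := exists_classOne_log B hB
  obtain ⟨Cm, hCm, Am, hmean⟩ := exists_count_mean 9 B (by norm_num) hB
  obtain ⟨Cg, hCg, T₁, hgm⟩ := exists_count_gm 9 B (by norm_num) hB hη0 hη1
  obtain ⟨La, hLa, hla⟩ := exists_log_pow_le A hη0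
  obtain ⟨Lm, hLm, hlm⟩ := exists_log_pow_le Am hη0
  refine ⟨Cl * La + 5 * Cm * Lm + 2 * Cg, by positivity, T₁, fun U c σ T p Z h hT hσ hσ1 => ?_⟩
  have hT11 := h.eleven_le
  have hT1 : 1 ≤ T := by linarith
  have hT0 : 0 < T := by linarith
  obtain ⟨P, hP⟩ : ∃ P, P = T ^ (30 / 13 * (1 - σ) + ε) := ⟨_, rfl⟩
  rw [← hP]
  have hP0 : 0 ≤ P := hP ▸ by positivity
  have hfit : ∀ x y : ℝ, x + y ≤ 30 / 13 * (1 - σ) + ε → T ^ x * T ^ y ≤ P := fun x y hxy => by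
    rw [← Real.rpow_add hT0, hP]; exact Real.rpow_le_rpow_of_exponent_le hT1 hxy
  obtain ⟨H, hH⟩ : ∃ H : ℝ, H = (U : ℝ) ^ (p + 1) := ⟨_, rfl⟩
  have hlo : T ^ (10 / 13 : ℝ) ≤ H := hH ▸ h.low
  have hhi : H ≤ 4 * T ^ (15 / 13 : ℝ) := hH ▸ h.high
  have hH0 : 0 < H := lt_of_lt_of_le (by positivity) hlo
  have z1 : 0 ≤ Cl * La * P := by positivity
  have z2 : 0 ≤ 5 * Cm * Lm * P := by positivity
  have z3 : 0 ≤ 2 * Cg * P := by positivity
  rcases em (σ ≤ 7 / 10 ∨ 4 / 5 ≤ σ) with hcase | hcase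
  · refine (hlog U c σ T p Z h hσ hσ1 hcase).trans ?_
    calc Cl * T ^ (30 / 13 * (1 - σ)) * Real.log T ^ A
        ≤ Cl * T ^ (30 / 13 * (1 - σ)) * (La * T ^ η) := by gcongr; exact hla T hT1
      _ = Cl * La * (T ^ (30 / 13 * (1 - σ)) * T ^ η) := by ring
      _ ≤ Cl * La * P := mul_le_mul_of_nonneg_left (hfit _ _ (by linarith)) (by positivity)
      _ ≤ _ := by linarith
  rw [not_or, not_le, not_le] at hcase
  obtain ⟨hs1, hs2⟩ := hcase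
  -- the mean value estimate at an abscissa
  have hmeanP : ∀ v : ℝ, 7 / 10 ≤ v → v ≤ σ → 30 / 13 * (1 - v) ≤ 30 / 13 * (1 - σ) + 7 * η →
      T * H ^ (1 - 2 * v) ≤ T ^ (30 / 13 * (1 - v)) →
      ∑ ρ ∈ Z, (zeroWeight ρ : ℝ) ≤ (Cl * La + 5 * Cm * Lm + 2 * Cg) * P := by
    intro v hv1 hv2 hv3 hlowterm
    refine (hmean U c v T p Z (h.mono hv2) (by linarith) (by linarith)).trans ?_
    rw [← hH]
    have a3 : H ^ (2 - 2 * v) ≤ 4 * T ^ (30 / 13 * (1 - v)) :=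
      rpow_len_le hT1 hH0.le hhi (by linarith) (by linarith) (by linarith)
    calc Cm * (H ^ (2 - 2 * v) + T * H ^ (1 - 2 * v)) * Real.log T ^ Am
        ≤ Cm * (5 * T ^ (30 / 13 * (1 - v))) * (Lm * T ^ η) := by
          have := h.two_le_log'
          gcongr
          · linarith
          · exact hlm T hT1
      _ = 5 * Cm * Lm * (T ^ (30 / 13 * (1 - v)) * T ^ η) := by ring
      _ ≤ 5 * Cm * Lm * P := mul_le_mul_of_nonneg_left (hfit _ _ (by linarith)) (by positivity)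
      _ ≤ _ := by linarith
  rcases le_or_gt σ (7 / 10 + 3 * η) with hs3 | hs3
  · exact hmeanP (7 / 10) le_rfl hs1.le (by linarith)
      (mul_rpow_len_le hT1 hlo (by norm_num) (by norm_num))
  obtain ⟨v, hv⟩ : ∃ v, v = σ - 3 * η := ⟨_, rfl⟩
  obtain ⟨Q, hQ⟩ : ∃ Q, Q = 30 / 13 * (1 - v) := ⟨_, rfl⟩
  rcases le_or_gt (H ^ (18 / 5 - 4 * v)) (T ^ Q) with hsmall | hlarge
  · refine (hgm U c σ T p Z h hT hs3.le hs2.le).trans ?_
    rw [← hH, ← hv]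
    have a2 : T * H ^ (12 / 5 - 4 * v) ≤ T ^ Q :=
      mul_rpow_len_le hT1 hlo (by linarith) (by rw [hQ]; linarith)
    calc Cg * T ^ (5 * η) * (H ^ (18 / 5 - 4 * v) + T * H ^ (12 / 5 - 4 * v))
        ≤ Cg * T ^ (5 * η) * (2 * T ^ Q) := by gcongr; linarith
      _ = 2 * Cg * (T ^ (5 * η) * T ^ Q) := by ring
      _ ≤ 2 * Cg * P :=
          mul_le_mul_of_nonneg_left (hfit _ _ (by rw [hQ]; linarith)) (by positivity)
      _ ≤ _ := by linarith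
  · refine hmeanP v (by linarith) (by linarith) (by linarith) ?_
    rw [← hQ]
    have hden : 0 < 18 / 5 - 4 * v := by linarith
    refine mul_rpow_len_le (a := Q / (18 / 5 - 4 * v)) hT1 ?_ (by linarith) ?_
    · have h1 := Real.rpow_le_rpow (by positivity) hlarge.le (inv_nonneg.2 hden.le)
      rwa [← Real.rpow_mul hT0.le, Real.rpow_rpow_inv hH0.le hden.ne', ← div_eq_mul_inv] at h1
    · have h2 := quad_nonneg v
      rw [← hQ] at h2
      rw [div_mul_eq_mul_div, ← sub_nonneg,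
        show Q - (1 + Q * (1 - 2 * v) / (18 / 5 - 4 * v)) =
          (Q * (13 / 5 - 2 * v) - (18 / 5 - 4 * v)) / (18 / 5 - 4 * v) by
          rw [eq_div_iff hden.ne', sub_mul, add_mul, div_mul_cancel₀ _ hden.ne']; ring]
      exact div_nonneg (by linarith) hden.le

/-- **The band below `7/10` and above `4/5`.** -/
theorem exists_band_log : ∃ C, 0 ≤ C ∧ ∃ A : ℕ, ∃ T₀ : ℝ, 1 ≤ T₀ ∧ ∀ σ T : ℝ, T₀ ≤ T →
    17 / 30 ≤ σ → σ ≤ 1 → σ ≤ 7 / 10 ∨ 4 / 5 ≤ σ →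
    ∑ ρ ∈ ((zerosUpTo T).filter (fun ρ => σ ≤ ρ.re)).filter (fun ρ => T / 2 < |ρ.im|),
      (zeroWeight ρ : ℝ) ≤ C * T ^ (30 / 13 * (1 - σ)) * Real.log T ^ A := by
  obtain ⟨B, hB, C₂, hC₂, T₀, hT₀, hsplit⟩ := exists_band_split
  obtain ⟨C₁, hC₁, A, hone⟩ := exists_classOne_log B hB
  refine ⟨C₂ + 3 * C₁, by positivity, A + 5, max T₀ 11, le_max_of_le_left hT₀,
    fun σ T hT hσ hσ1 hcase => ?_⟩
  have hT11 : 11 ≤ T := (le_max_right _ _).trans hT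
  have hL : 1 ≤ Real.log T := by linarith [two_le_log hT11]
  refine (hsplit σ T (C₁ * T ^ (30 / 13 * (1 - σ)) * Real.log T ^ A) ((le_max_left _ _).trans hT)
    hσ hσ1 (by positivity) fun U c p Z hZ => hone U c σ T p Z hZ hσ hσ1 hcase).trans ?_
  calc C₂ * T ^ (30 / 13 * (1 - σ)) * Real.log T ^ 5 +
        3 * Real.log T * (C₁ * T ^ (30 / 13 * (1 - σ)) * Real.log T ^ A)
      = C₂ * T ^ (30 / 13 * (1 - σ)) * Real.log T ^ 5 +
          3 * C₁ * T ^ (30 / 13 * (1 - σ)) * Real.log T ^ (A + 1) := by ring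
    _ ≤ C₂ * T ^ (30 / 13 * (1 - σ)) * Real.log T ^ (A + 5) +
          3 * C₁ * T ^ (30 / 13 * (1 - σ)) * Real.log T ^ (A + 5) := by
        gcongr <;> omega
    _ = _ := by ring

/-- **The band, every abscissa.** -/
theorem exists_band_eps {ε : ℝ} (hε : 0 < ε) : ∃ C, 0 ≤ C ∧ ∃ T₀ : ℝ, 1 ≤ T₀ ∧
    ∀ σ T : ℝ, T₀ ≤ T → 17 / 30 ≤ σ → σ ≤ 1 →
    ∑ ρ ∈ ((zerosUpTo T).filter (fun ρ => σ ≤ ρ.re)).filter (fun ρ => T / 2 < |ρ.im|),
      (zeroWeight ρ : ℝ) ≤ C * T ^ (30 / 13 * (1 - σ) + ε) * Real.log T ^ 5 := by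
  obtain ⟨B, hB, C₂, hC₂, T₀, hT₀, hsplit⟩ := exists_band_split
  obtain ⟨C₁, hC₁, T₁, hone⟩ := exists_classOne_eps B hB hε
  refine ⟨C₂ + 3 * C₁, by positivity, max (max T₀ 11) T₁,
    le_max_of_le_left (le_max_of_le_left hT₀), fun σ T hT hσ hσ1 => ?_⟩
  have hT11 : 11 ≤ T := ((le_max_right _ _).trans (le_max_left _ _)).trans hT
  have hL : 1 ≤ Real.log T := by linarith [two_le_log hT11]
  refine (hsplit σ T (C₁ * T ^ (30 / 13 * (1 - σ) + ε))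
    (((le_max_left _ _).trans (le_max_left _ _)).trans hT) hσ hσ1 (by positivity)
    fun U c p Z hZ => hone U c σ T p Z hZ ((le_max_right _ _).trans hT) hσ hσ1).trans ?_
  calc C₂ * T ^ (30 / 13 * (1 - σ)) * Real.log T ^ 5 +
        3 * Real.log T * (C₁ * T ^ (30 / 13 * (1 - σ) + ε))
      ≤ C₂ * T ^ (30 / 13 * (1 - σ) + ε) * Real.log T ^ 5 +
          3 * Real.log T ^ 5 * (C₁ * T ^ (30 / 13 * (1 - σ) + ε)) := by
        gcongr
        · linarith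
        · linarith
        · exact le_self_pow₀ hL (by norm_num)
    _ = _ := by ring

end FA.GuthMaynard

end
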