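import Fermat.Agent.GuthMaynard.PairSum

/-!
# Majorants for weighted sums of squares of a Dirichlet polynomial

A sum `∑ w |D (s)|²` is at most `∑_{n,m} |∑ w exp (- i s log (n / m))|`, with equality when the
coefficients are one and this exponential sum is a square; the square at a point is at most an
average about any point at distance at most one.
-/

set_option autoImplicit false

noncomputable section

namespace FA.GuthMaynard

open Finset Complex MeasureTheory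
open FA.Hoheisel (dpoly hasDerivAt_dpoly continuous_dpoly)
open scoped Real ComplexConjugate

variable {ι : Type*}

/-- `|∑ exp (- i t θ)|` over the heights. -/
def charNorm (W : Finset ℝ) (θ : ℝ) : ℝ :=
  ‖∑ t ∈ W, Complex.exp (((-(t * θ) : ℝ) : ℂ) * I)‖

theorem charNorm_nonneg (W : Finset ℝ) (θ : ℝ) : 0 ≤ charNorm W θ := norm_nonneg _

theorem charSq_eq (W : Finset ℝ) (θ : ℝ) : charSq W θ = charNorm W θ ^ 2 := rfl

theorem charNorm_le_card (W : Finset ℝ) (θ : ℝ) : charNorm W θ ≤ W.card := by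
  refine (norm_sum_le _ _).trans (le_of_eq ?_)
  rw [sum_congr rfl fun t _ => Complex.norm_exp_ofReal_mul_I _, sum_const, nsmul_eq_mul, mul_one]

theorem weightedSum_eq {s : Finset ℕ} (hs : ∀ n ∈ s, 1 ≤ n) (I : Finset ι) (w x : ι → ℝ)
    (b : ℕ → ℂ) :
    ((∑ i ∈ I, w i * ‖dpoly s b (x i)‖ ^ 2 : ℝ) : ℂ) =
      ∑ n ∈ s, ∑ m ∈ s, b n * conj (b m) * ∑ i ∈ I, (w i : ℂ) *
        Complex.exp (((-(x i * (Real.log n - Real.log m)) : ℝ) : ℂ) * Complex.I) := by
  have hne : ∀ n ∈ s, n ≠ 0 := fun n hn => by have := hs n hn; omega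
  have hi : ∀ i ∈ I, (w i : ℂ) * ((‖dpoly s b (x i)‖ ^ 2 : ℝ) : ℂ) =
      ∑ n ∈ s, ∑ m ∈ s, b n * conj (b m) * ((w i : ℂ) *
        Complex.exp (((-(x i * (Real.log n - Real.log m)) : ℝ) : ℂ) * Complex.I)) := fun i _ => by
    rw [ofReal_pow, ← Complex.mul_conj', dpoly, map_sum, sum_mul_sum, mul_sum]
    refine sum_congr rfl fun n hn => ?_
    rw [mul_sum]
    refine sum_congr rfl fun m hm => ?_
    rw [natCast_cpow_eq (hne n hn), natCast_cpow_eq (hne m hm), map_mul, conj_exp_real_mul_I,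
      mul_mul_mul_comm, ← Complex.exp_add, mul_left_comm]
    congr 3
    push_cast
    ring
  rw [ofReal_sum, sum_congr rfl fun i hi' => (ofReal_mul _ _).trans (hi i hi'), sum_comm]
  refine sum_congr rfl fun n _ => ?_
  rw [sum_comm]
  exact sum_congr rfl fun m _ => (mul_sum _ _ _).symm

/-- **The majorant.** -/
theorem weightedSum_le {s : Finset ℕ} (hs : ∀ n ∈ s, 1 ≤ n) (I : Finset ι) (w x : ι → ℝ)
    {b : ℕ → ℂ} {B : ℝ} (hB : 0 ≤ B) (hb : ∀ n ∈ s, ‖b n‖ ≤ B) :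
    ∑ i ∈ I, w i * ‖dpoly s b (x i)‖ ^ 2 ≤ B ^ 2 * ∑ n ∈ s, ∑ m ∈ s,
      ‖∑ i ∈ I, (w i : ℂ) *
        Complex.exp (((-(x i * (Real.log n - Real.log m)) : ℝ) : ℂ) * Complex.I)‖ := by
  have h := congrArg norm (weightedSum_eq hs I w x b)
  rw [Complex.norm_real, Real.norm_eq_abs] at h
  refine (le_abs_self _).trans (h.trans_le ?_)
  rw [mul_sum]
  refine (norm_sum_le _ _).trans (sum_le_sum fun n hn => ?_)
  rw [mul_sum]
  refine (norm_sum_le _ _).trans (sum_le_sum fun m hm => ?_)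
  rw [norm_mul, norm_mul, Complex.norm_conj, sq]
  exact mul_le_mul_of_nonneg_right (mul_le_mul (hb n hn) (hb m hm) (norm_nonneg _) hB)
    (norm_nonneg _)

/-- For coefficients one the majorant is an equality on differences. -/
theorem weightedPairs_eq {s : Finset ℕ} (hs : ∀ n ∈ s, 1 ≤ n) (I : Finset ι) (w x : ι → ℝ) :
    ∑ i ∈ I, ∑ k ∈ I, w i * w k * ‖dpoly s (fun _ => 1) (x i - x k)‖ ^ 2 =
      ∑ n ∈ s, ∑ m ∈ s, ‖∑ i ∈ I, (w i : ℂ) *
        Complex.exp (((-(x i * (Real.log n - Real.log m)) : ℝ) : ℂ) * Complex.I)‖ ^ 2 := by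
  have h := weightedSum_eq hs (I ×ˢ I) (fun p => w p.1 * w p.2) (fun p => x p.1 - x p.2)
    (fun _ => 1)
  rw [sum_product] at h
  refine Complex.ofReal_injective (h.trans ?_)
  rw [ofReal_sum]
  refine sum_congr rfl fun n _ => ?_
  rw [ofReal_sum]
  refine sum_congr rfl fun m _ => ?_
  rw [ofReal_pow, ← Complex.mul_conj', map_sum, sum_mul_sum, sum_product, map_one, mul_one,
    one_mul]
  refine sum_congr rfl fun i _ => sum_congr rfl fun k _ => ?_
  rw [map_mul, conj_ofReal, conj_exp_real_mul_I, ofReal_mul, mul_mul_mul_comm, ← Complex.exp_add]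
  congr 2
  push_cast
  ring

/-- The coefficients of the derivative after a twist to the length `X`. -/
def logCoeff (X : ℕ) (b : ℕ → ℂ) (n : ℕ) : ℂ :=
  -(Complex.I * ((Real.log n - Real.log X : ℝ) : ℂ)) * b n

/-- The average about a point. -/
def shiftAvg (X : ℕ) (s : Finset ℕ) (b : ℕ → ℂ) (d : ℝ) : ℝ :=
  ∫ τ in (-1 : ℝ)..1,
    (2 * ‖dpoly s b (d + τ)‖ ^ 2 + ‖dpoly s (logCoeff X b) (d + τ)‖ ^ 2)

theorem shiftAvg_nonneg (X : ℕ) (s : Finset ℕ) (b : ℕ → ℂ) (d : ℝ) : 0 ≤ shiftAvg X s b d :=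
  intervalIntegral.integral_nonneg (by norm_num) fun τ _ => by positivity

theorem norm_sq_le_shiftAvg {s : Finset ℕ} (hs : ∀ n ∈ s, 1 ≤ n) (X : ℕ) (b : ℕ → ℂ) {x d : ℝ}
    (h : |x - d| ≤ 1) : ‖dpoly s b x‖ ^ 2 ≤ shiftAvg X s b d := by
  obtain ⟨F, hF⟩ : ∃ F : ℝ → ℂ, F = fun t =>
      Complex.exp (((t * Real.log X : ℝ) : ℂ) * Complex.I) * dpoly s b t := ⟨_, rfl⟩
  obtain ⟨F', hF'⟩ : ∃ F' : ℝ → ℂ, F' = fun t =>
      Complex.exp (((t * Real.log X : ℝ) : ℂ) * Complex.I) * dpoly s (logCoeff X b) t :=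
    ⟨_, rfl⟩
  have hd : ∀ t, HasDerivAt F (F' t) t := fun t => by
    rw [hF, hF']
    refine ((((hasDerivAt_id t).mul_const (Real.log X)).ofReal_comp.mul_const Complex.I).cexp.mul
      (hasDerivAt_dpoly hs b t)).congr_deriv ?_
    simp only [id, one_mul, dpoly, logCoeff, mul_sum, ← sum_add_distrib]
    refine sum_congr rfl fun n _ => ?_
    push_cast
    ring
  have hF'c : Continuous F' := by
    rw [hF']
    exact Continuous.mul (by fun_prop) (continuous_dpoly hs _)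
  have hnF : ∀ t, ‖F t‖ = ‖dpoly s b t‖ := fun t => by
    rw [hF, norm_mul, Complex.norm_exp_ofReal_mul_I, one_mul]
  have hnF' : ∀ t, ‖F' t‖ = ‖dpoly s (logCoeff X b) t‖ := fun t => by
    rw [hF', norm_mul, Complex.norm_exp_ofReal_mul_I, one_mul]
  have hcont : Continuous fun t => 2 * ‖dpoly s b t‖ ^ 2 + ‖dpoly s (logCoeff X b) t‖ ^ 2 := by
    have := continuous_dpoly hs b
    have := continuous_dpoly hs (logCoeff X b)
    fun_prop
  rw [abs_le] at h
  rw [shiftAvg, intervalIntegral.integral_comp_add_left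
    (fun t => 2 * ‖dpoly s b t‖ ^ 2 + ‖dpoly s (logCoeff X b) t‖ ^ 2) d, ← hnF]
  obtain ⟨a, ha1, ha2, hxa⟩ : ∃ a, d + -1 ≤ a ∧ a + 1 ≤ d + 1 ∧ x ∈ Set.Icc a (a + 1) := by
    rcases le_total d x with hdx | hdx
    · exact ⟨d, by linarith, le_rfl, hdx, by linarith⟩
    · exact ⟨d + -1, le_rfl, by linarith, by linarith, by linarith⟩
  refine (FA.Hoheisel.norm_sq_le_unit_integral hd hF'c hxa).trans ?_
  simp only [hnF, hnF']
  exact intervalIntegral.integral_mono_interval ha1 (by linarith) ha2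
    (Filter.Eventually.of_forall fun t => by positivity) (hcont.intervalIntegrable _ _)

/-- **The majorant of averages.** -/
theorem sum_shiftAvg_le {s : Finset ℕ} (hs : ∀ n ∈ s, 1 ≤ n) (X : ℕ) {b : ℕ → ℂ} {M : ℝ}
    (hb : ∀ n ∈ s, ‖b n‖ ≤ 1) (hM : ∀ n ∈ s, |Real.log n - Real.log X| ≤ M) (hM0 : 0 ≤ M)
    (J : Finset ι) (d : ι → ℝ) :
    ∑ j ∈ J, shiftAvg X s b (d j) ≤ 2 * (2 + M ^ 2) * ∑ n ∈ s, ∑ m ∈ s,
      ‖∑ j ∈ J, Complex.exp (((-(d j * (Real.log n - Real.log m)) : ℝ) : ℂ) * Complex.I)‖ := by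
  obtain ⟨Q, hQ⟩ : ∃ Q, Q = ∑ n ∈ s, ∑ m ∈ s,
      ‖∑ j ∈ J, Complex.exp (((-(d j * (Real.log n - Real.log m)) : ℝ) : ℂ) * Complex.I)‖ :=
    ⟨_, rfl⟩
  rw [← hQ]
  have hmaj : ∀ (c : ℕ → ℂ) (B τ : ℝ), 0 ≤ B → (∀ n ∈ s, ‖c n‖ ≤ B) →
      ∑ j ∈ J, ‖dpoly s c (d j + τ)‖ ^ 2 ≤ B ^ 2 * Q := fun c B τ hB hc => by
    have h := weightedSum_le hs J (fun _ => 1) (fun j => d j + τ) hB hc
    simp only [one_mul, ofReal_one] at h
    refine h.trans (mul_le_mul_of_nonneg_left (le_of_eq ?_) (sq_nonneg B))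
    rw [hQ]
    refine sum_congr rfl fun n _ => sum_congr rfl fun m _ => ?_
    rw [sum_congr rfl fun j _ => show
      Complex.exp (((-((d j + τ) * (Real.log n - Real.log m)) : ℝ) : ℂ) * Complex.I) =
        Complex.exp (((-(τ * (Real.log n - Real.log m)) : ℝ) : ℂ) * Complex.I) *
          Complex.exp (((-(d j * (Real.log n - Real.log m)) : ℝ) : ℂ) * Complex.I) by
        rw [← Complex.exp_add]; congr 1; push_cast; ring,
      ← mul_sum, norm_mul, Complex.norm_exp_ofReal_mul_I, one_mul]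
  have hc : ∀ c : ℕ → ℂ, Continuous fun t => dpoly s c t := fun c => continuous_dpoly hs c
  have hi : ∀ j ∈ J, IntervalIntegrable (fun τ : ℝ =>
      2 * ‖dpoly s b (d j + τ)‖ ^ 2 + ‖dpoly s (logCoeff X b) (d j + τ)‖ ^ 2) volume (-1) 1 :=
    fun j _ => by
      have := hc b
      have := hc (logCoeff X b)
      exact Continuous.intervalIntegrable (by fun_prop) _ _
  simp only [shiftAvg]
  rw [← intervalIntegral.integral_finsetSum hi]
  refine (intervalIntegral.integral_mono_on (g := fun _ => (2 + M ^ 2) * Q) (by norm_num) ?_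
    intervalIntegrable_const fun τ _ => ?_).trans (le_of_eq ?_)
  · have h := IntervalIntegrable.sum J hi
    simpa [Finset.sum_fn] using h
  · rw [sum_add_distrib, ← mul_sum]
    have h1 := hmaj b 1 τ zero_le_one hb
    have h2 := hmaj (logCoeff X b) M τ hM0 fun n hn => by
      rw [logCoeff, norm_mul, norm_neg, norm_mul, Complex.norm_I, Complex.norm_real, one_mul]
      exact (mul_le_mul (hM n hn) (hb n hn) (norm_nonneg _) hM0).trans (le_of_eq (mul_one M))
    linarith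
  · rw [intervalIntegral.integral_const, smul_eq_mul]
    ring

end FA.GuthMaynard

end
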