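import Fermat.Agent.Hoheisel.DPoly
import Fermat.Agent.Forms3.RepresentationBound

/-!
# Sums over pairs of heights

For a set `W` of heights, `∑ |D (t - u)|²` over `t, u ∈ W` is monotone in the size of the
coefficients of `D`; hence the sum for a block is at most, up to the divisor function, that for
blocks further out, and its square at most `|W|²` times that for the blocks at twice the exponent.
-/

set_option autoImplicit false

noncomputable section

namespace FA.GuthMaynard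

open Finset Complex
open FA.Hoheisel (dpoly)
open scoped Real ComplexConjugate

/-- At distance at least one from each other. -/
def Separated (W : Finset ℝ) : Prop := ∀ t ∈ W, ∀ u ∈ W, t ≠ u → 1 ≤ |t - u|

/-- The sum over pairs of heights of the square of a Dirichlet polynomial at the difference. -/
def pairSum (W : Finset ℝ) (s : Finset ℕ) (b : ℕ → ℂ) : ℝ :=
  ∑ t ∈ W, ∑ u ∈ W, ‖dpoly s b (t - u)‖ ^ 2

/-- `|∑ exp (- i t x)|²` over the heights `t`. -/
def charSq (W : Finset ℝ) (x : ℝ) : ℝ :=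
  ‖∑ t ∈ W, Complex.exp (((-(t * x) : ℝ) : ℂ) * I)‖ ^ 2

/-- The sum for the block `(L, 2L]` with coefficients one, over `L`. -/
def blockMean (W : Finset ℝ) (L : ℕ) : ℝ := pairSum W (Ioc L (2 * L)) (fun _ => 1) / L

theorem pairSum_nonneg (W : Finset ℝ) (s : Finset ℕ) (b : ℕ → ℂ) : 0 ≤ pairSum W s b :=
  sum_nonneg fun _ _ => sum_nonneg fun _ _ => sq_nonneg _

theorem charSq_nonneg (W : Finset ℝ) (x : ℝ) : 0 ≤ charSq W x := sq_nonneg _

theorem blockMean_nonneg (W : Finset ℝ) (L : ℕ) : 0 ≤ blockMean W L :=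
  div_nonneg (pairSum_nonneg _ _ _) (Nat.cast_nonneg _)

theorem natCast_cpow_eq {n : ℕ} (hn : n ≠ 0) (t : ℝ) :
    (n : ℂ) ^ (-(I * (t : ℂ))) = Complex.exp (((-(t * Real.log n) : ℝ) : ℂ) * I) := by
  rw [Complex.cpow_def_of_ne_zero (Nat.cast_ne_zero.2 hn), ← Complex.natCast_log]
  congr 1
  push_cast
  ring

theorem conj_exp_real_mul_I (θ : ℝ) :
    conj (Complex.exp ((θ : ℂ) * I)) = Complex.exp (((-θ : ℝ) : ℂ) * I) := by
  rw [← Complex.exp_conj, map_mul, conj_ofReal, conj_I]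
  congr 1
  push_cast
  ring

theorem pairSum_eq {s : Finset ℕ} (hs : ∀ n ∈ s, 1 ≤ n) (W : Finset ℝ) (b : ℕ → ℂ) :
    (pairSum W s b : ℂ) =
      ∑ n ∈ s, ∑ m ∈ s, b n * conj (b m) * (charSq W (Real.log n - Real.log m) : ℂ) := by
  have hne : ∀ n ∈ s, n ≠ 0 := fun n hn => by have := hs n hn; omega
  rw [pairSum]
  conv_rhs => rw [sum_comm]
  simp only [charSq, ofReal_sum, ofReal_pow, ← Complex.mul_conj', dpoly, map_sum, map_mul,
    mul_sum, sum_mul]
  rw [sum_congr rfl fun t _ => sum_comm, sum_comm]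
  refine sum_congr rfl fun n hn => ?_
  rw [sum_congr rfl fun t _ => sum_comm, sum_comm]
  refine sum_congr rfl fun m hm => ?_
  conv_lhs => rw [sum_comm]
  refine sum_congr rfl fun t _ => sum_congr rfl fun u _ => ?_
  rw [natCast_cpow_eq (hne n hn), natCast_cpow_eq (hne m hm), conj_exp_real_mul_I,
    conj_exp_real_mul_I, mul_mul_mul_comm, ← Complex.exp_add, ← Complex.exp_add]
  congr 2
  push_cast
  ring

theorem pairSum_real {s : Finset ℕ} (hs : ∀ n ∈ s, 1 ≤ n) (W : Finset ℝ) (r : ℕ → ℝ) :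
    pairSum W s (fun n => (r n : ℂ)) =
      ∑ n ∈ s, ∑ m ∈ s, r n * r m * charSq W (Real.log n - Real.log m) := by
  have h := pairSum_eq hs W (fun n => (r n : ℂ))
  simp only [conj_ofReal] at h
  exact_mod_cast h

theorem pairSum_one {s : Finset ℕ} (hs : ∀ n ∈ s, 1 ≤ n) (W : Finset ℝ) :
    pairSum W s (fun _ => 1) = ∑ n ∈ s, ∑ m ∈ s, charSq W (Real.log n - Real.log m) := by
  simpa using pairSum_real hs W fun _ => 1

/-- **Monotony in the size of the coefficients.** -/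
theorem pairSum_le_real {s : Finset ℕ} (hs : ∀ n ∈ s, 1 ≤ n) (W : Finset ℝ) {b : ℕ → ℂ}
    {r : ℕ → ℝ} (h : ∀ n ∈ s, ‖b n‖ ≤ r n) :
    pairSum W s b ≤ pairSum W s (fun n => (r n : ℂ)) := by
  rw [pairSum_real hs]
  have e := congrArg norm (pairSum_eq hs W b)
  rw [Complex.norm_real, Real.norm_of_nonneg (pairSum_nonneg _ _ _)] at e
  rw [e]
  refine (norm_sum_le _ _).trans (sum_le_sum fun n hn => (norm_sum_le _ _).trans
    (sum_le_sum fun m hm => ?_))
  rw [norm_mul, norm_mul, Complex.norm_conj, Complex.norm_real,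
    Real.norm_of_nonneg (charSq_nonneg _ _)]
  exact mul_le_mul_of_nonneg_right (mul_le_mul (h n hn) (h m hm) (norm_nonneg _)
    ((norm_nonneg _).trans (h n hn))) (charSq_nonneg _ _)

theorem pairSum_le_one {s : Finset ℕ} (hs : ∀ n ∈ s, 1 ≤ n) (W : Finset ℝ) {b : ℕ → ℂ} {r : ℝ}
    (h : ∀ n ∈ s, ‖b n‖ ≤ r) : pairSum W s b ≤ r ^ 2 * pairSum W s (fun _ => 1) := by
  refine (pairSum_le_real hs W h).trans (le_of_eq ?_)
  rw [pairSum_real hs, pairSum_one hs, mul_sum]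
  exact sum_congr rfl fun n _ => by rw [mul_sum]; exact sum_congr rfl fun m _ => by ring

theorem pairSum_mono {s s' : Finset ℕ} (hs' : ∀ n ∈ s', 1 ≤ n) (h : s ⊆ s') (W : Finset ℝ) :
    pairSum W s (fun _ => 1) ≤ pairSum W s' (fun _ => 1) := by
  rw [pairSum_one hs', pairSum_one fun n hn => hs' n (h hn)]
  exact (sum_le_sum fun n _ => sum_le_sum_of_subset_of_nonneg h fun m _ _ =>
    charSq_nonneg _ _).trans (sum_le_sum_of_subset_of_nonneg h fun n _ _ =>
      sum_nonneg fun m _ => charSq_nonneg _ _)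

theorem one_le_of_mem_block {L : ℕ} {n : ℕ} (hn : n ∈ Ioc L (2 * L)) : 1 ≤ n := by
  rw [mem_Ioc] at hn; omega

/-- A block of ratio four as two dyadic blocks. -/
theorem pairSum_four_le (W : Finset ℝ) (X : ℕ) :
    pairSum W (Ioc X (4 * X)) (fun _ => 1) ≤
      2 * X * (blockMean W X + 2 * blockMean W (2 * X)) := by
  rcases Nat.eq_zero_or_pos X with rfl | hX
  · simp [pairSum, dpoly]
  have e : ∀ x : ℝ, dpoly (Ioc X (4 * X)) (fun _ => 1) x =
      dpoly (Ioc X (2 * X)) (fun _ => 1) x + dpoly (Ioc (2 * X) (2 * (2 * X))) (fun _ => 1) x := by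
    intro x
    rw [dpoly, dpoly, dpoly, ← sum_union (Ioc_disjoint_Ioc_of_le le_rfl),
      Ioc_union_Ioc_eq_Ioc (by omega) (by omega), show 2 * (2 * X) = 4 * X by ring]
  have h : pairSum W (Ioc X (4 * X)) (fun _ => 1) ≤ 2 * (pairSum W (Ioc X (2 * X)) (fun _ => 1) +
      pairSum W (Ioc (2 * X) (2 * (2 * X))) (fun _ => 1)) := by
    simp only [pairSum, ← sum_add_distrib, mul_sum]
    refine sum_le_sum fun t _ => sum_le_sum fun u _ => ?_
    rw [e]
    refine (pow_le_pow_left₀ (norm_nonneg _) (norm_add_le _ _) 2).trans ?_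
    nlinarith [sq_nonneg (‖dpoly (Ioc X (2 * X)) (fun _ => 1) (t - u)‖ -
      ‖dpoly (Ioc (2 * X) (2 * (2 * X))) (fun _ => 1) (t - u)‖)]
  refine h.trans (le_of_eq ?_)
  rw [blockMean, blockMean]
  have : (X : ℝ) ≠ 0 := Nat.cast_ne_zero.2 hX.ne'
  push_cast
  field_simp

/-- **Moving a block out.** -/
theorem blockMean_le_mul (W : Finset ℝ) {L K : ℕ} {D : ℝ} (hL : 1 ≤ L) (hK : 1 ≤ K)
    (hD : ∀ n ≤ 4 * (K * L), (n.divisors.card : ℝ) ≤ D) :
    blockMean W L ≤ 2 * D * (blockMean W (K * L) + 2 * blockMean W (2 * (K * L))) := by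
  obtain ⟨ρ, hρ⟩ : ∃ ρ : ℕ → ℕ → ℝ, ρ = fun a b : ℕ => charSq W (Real.log a - Real.log b) :=
    ⟨_, rfl⟩
  obtain ⟨I, hI⟩ : ∃ I, I = Ioc L (2 * L) := ⟨_, rfl⟩
  obtain ⟨J, hJ⟩ : ∃ J, J = Ioc (K * L) (4 * (K * L)) := ⟨_, rfl⟩
  obtain ⟨P, hP⟩ : ∃ P, P = Ioc K (2 * K) ×ˢ (I ×ˢ I) := ⟨_, rfl⟩
  have hρ0 : ∀ a b, 0 ≤ ρ a b := fun a b => hρ ▸ charSq_nonneg _ _
  have hD0 : 0 ≤ D := (Nat.cast_nonneg _).trans (hD 0 (Nat.zero_le _))
  have hkey : (K : ℝ) * pairSum W I (fun _ => 1) ≤ D * pairSum W J (fun _ => 1) := by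
    have h1 : (K : ℝ) * pairSum W I (fun _ => 1) =
        ∑ x ∈ P, ρ (x.1 * x.2.1) (x.1 * x.2.2) := by
      rw [hI, pairSum_one (fun n => one_le_of_mem_block), hP, sum_product]
      simp only [sum_product]
      rw [show (K : ℝ) = ((Ioc K (2 * K)).card : ℕ) by rw [Nat.card_Ioc]; congr 1; omega,
        ← nsmul_eq_mul, ← sum_const, hI]
      refine sum_congr rfl fun k hk => sum_congr rfl fun n hn => sum_congr rfl fun m hm => ?_
      have hk0 : (k : ℝ) ≠ 0 := Nat.cast_ne_zero.2 (by rw [mem_Ioc] at hk; omega)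
      have hn0 : (n : ℝ) ≠ 0 := Nat.cast_ne_zero.2 (by have := one_le_of_mem_block hn; omega)
      have hm0 : (m : ℝ) ≠ 0 := Nat.cast_ne_zero.2 (by have := one_le_of_mem_block hm; omega)
      rw [hρ]
      simp only [Nat.cast_mul]
      rw [Real.log_mul hk0 hn0, Real.log_mul hk0 hm0]
      ring_nf
    rw [h1, pairSum_one (fun n hn => by rw [hJ, mem_Ioc] at hn; omega), ← sum_product']
    classical
    have hmaps : ∀ x ∈ P, (x.1 * x.2.1, x.1 * x.2.2) ∈ J ×ˢ J := fun x hx => by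
      simp only [hP, hI, hJ, mem_product, mem_Ioc] at hx ⊢
      obtain ⟨⟨hk1, hk2⟩, ⟨hn1, hn2⟩, hm1, hm2⟩ := hx
      refine ⟨⟨Nat.mul_lt_mul'' hk1 hn1, ?_⟩, Nat.mul_lt_mul'' hk1 hm1, ?_⟩
      · calc x.1 * x.2.1 ≤ 2 * K * (2 * L) := Nat.mul_le_mul hk2 hn2
          _ = _ := by ring
      · calc x.1 * x.2.2 ≤ 2 * K * (2 * L) := Nat.mul_le_mul hk2 hm2
          _ = _ := by ring
    rw [← sum_fiberwise_of_maps_to (g := fun x : ℕ × ℕ × ℕ => (x.1 * x.2.1, x.1 * x.2.2)) hmaps,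
      mul_sum]
    refine sum_le_sum fun y hy => ?_
    rw [sum_congr rfl (g := fun _ => ρ y.1 y.2) fun x hx => by
      rw [mem_filter] at hx
      rw [← hx.2], sum_const, nsmul_eq_mul]
    rw [show charSq W (Real.log y.1 - Real.log y.2) = ρ y.1 y.2 by rw [hρ]]
    refine mul_le_mul_of_nonneg_right ?_ (hρ0 _ _)
    have hy1 : y.1 ∈ J := (mem_product.1 hy).1
    refine le_trans (Nat.cast_le.2 (card_le_card_of_injOn (fun x => x.1) (fun x hx => ?_)
      fun x hx z hz hxz => ?_)) (hD y.1 (by rw [hJ, mem_Ioc] at hy1; exact hy1.2))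
    · simp only [mem_coe, mem_filter] at hx ⊢
      rw [Nat.mem_divisors]
      exact ⟨⟨x.2.1, (congrArg Prod.fst hx.2).symm⟩, by rw [hJ, mem_Ioc] at hy1; omega⟩
    · simp only [mem_coe, mem_filter] at hx hz
      have hk : 0 < x.1 := by
        have := hx.1
        simp only [hP, mem_product, mem_Ioc] at this
        omega
      have e1 := (congrArg Prod.fst hx.2).trans (congrArg Prod.fst hz.2).symm
      have e2 := (congrArg Prod.snd hx.2).trans (congrArg Prod.snd hz.2).symm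
      simp only [← hxz] at e1 e2
      exact Prod.ext hxz (Prod.ext (Nat.eq_of_mul_eq_mul_left hk e1)
        (Nat.eq_of_mul_eq_mul_left hk e2))
  have h4 : D * pairSum W J (fun _ => 1) ≤
      D * (2 * ((K * L : ℕ) : ℝ) * (blockMean W (K * L) + 2 * blockMean W (2 * (K * L)))) :=
    mul_le_mul_of_nonneg_left (hJ ▸ pairSum_four_le W (K * L)) hD0
  have hLR : (0 : ℝ) < L := Nat.cast_pos.2 hL
  have hKR : (0 : ℝ) < K := Nat.cast_pos.2 hK
  rw [blockMean, ← hI, div_le_iff₀ hLR]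
  refine le_of_mul_le_mul_left ((hkey.trans h4).trans (le_of_eq ?_)) hKR
  push_cast
  ring

/-- **The square of a block.** -/
theorem sq_blockMean_le (W : Finset ℝ) {M : ℕ} {D : ℝ} (hM : 1 ≤ M)
    (hD : ∀ n ≤ 4 * (M * M), (n.divisors.card : ℝ) ≤ D) :
    blockMean W M ^ 2 ≤
      2 * (W.card : ℝ) ^ 2 * D ^ 2 * (blockMean W (M * M) + 2 * blockMean W (2 * (M * M))) := by
  obtain ⟨I, hI⟩ : ∃ I, I = Ioc M (2 * M) := ⟨_, rfl⟩
  obtain ⟨J, hJ⟩ : ∃ J, J = Ioc (M * M) (4 * (M * M)) := ⟨_, rfl⟩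
  classical
  obtain ⟨c, hc⟩ : ∃ c : ℕ → ℕ, c = fun k => ((I ×ˢ I).filter fun x => x.1 * x.2 = k).card :=
    ⟨_, rfl⟩
  have hIne : ∀ n ∈ I, n ≠ 0 := fun n hn => by rw [hI, mem_Ioc] at hn; omega
  have hJ1 : ∀ k ∈ J, 1 ≤ k := fun k hk => by rw [hJ, mem_Ioc] at hk; omega
  have hsq : ∀ x : ℝ, dpoly I (fun _ => 1) x ^ 2 = dpoly J (fun k => (c k : ℂ)) x := by
    intro x
    simp only [dpoly, sq, sum_mul_sum, one_mul]
    rw [← sum_product', ← sum_fiberwise_of_maps_to (g := fun x : ℕ × ℕ => x.1 * x.2) (t := J)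
      fun y hy => by
        simp only [hI, hJ, mem_product, mem_Ioc] at hy ⊢
        refine ⟨Nat.mul_lt_mul'' hy.1.1 hy.2.1, ?_⟩
        calc y.1 * y.2 ≤ 2 * M * (2 * M) := Nat.mul_le_mul hy.1.2 hy.2.2
          _ = _ := by ring]
    refine sum_congr rfl fun k _ => ?_
    rw [sum_congr rfl (g := fun _ => (k : ℂ) ^ (-(Complex.I * (x : ℂ)))) fun y hy => by
      rw [mem_filter, mem_product] at hy
      rw [← hy.2, Nat.cast_mul, Complex.natCast_mul_natCast_cpow], sum_const, nsmul_eq_mul, hc]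
  have h1 : pairSum W I (fun _ => 1) ^ 2 ≤
      (W.card : ℝ) ^ 2 * pairSum W J (fun k => (c k : ℂ)) := by
    simp only [pairSum]
    rw [← sum_product', ← sum_product']
    refine (sq_sum_le_card_mul_sum_sq).trans (le_of_eq ?_)
    rw [card_product, Nat.cast_mul, ← sq]
    refine congrArg _ (sum_congr rfl fun p _ => ?_)
    rw [← hsq, norm_pow]
  have h2 : pairSum W J (fun k => (c k : ℂ)) ≤ D ^ 2 * pairSum W J (fun _ => 1) := by
    refine pairSum_le_one hJ1 W fun k hk => ?_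
    rw [Complex.norm_natCast, hc]
    refine le_trans (Nat.cast_le.2 (card_le_card_of_injOn (fun x => x.1) (fun x hx => ?_)
      fun x hx z hz hxz => ?_)) (hD k (by rw [hJ, mem_Ioc] at hk; exact hk.2))
    · simp only [mem_coe, mem_filter] at hx ⊢
      rw [Nat.mem_divisors]
      exact ⟨⟨x.2, hx.2.symm⟩, by have := hJ1 k hk; omega⟩
    · simp only [mem_coe, mem_filter, mem_product] at hx hz
      have e := hx.2.trans hz.2.symm
      simp only [← hxz] at e
      exact Prod.ext hxz (Nat.eq_of_mul_eq_mul_left (Nat.pos_of_ne_zero (hIne _ hx.1.1)) e)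
  have h3 := h1.trans (mul_le_mul_of_nonneg_left (h2.trans (mul_le_mul_of_nonneg_left
    (hJ ▸ pairSum_four_le W (M * M)) (sq_nonneg D))) (sq_nonneg _))
  have hMR : (0 : ℝ) < M := Nat.cast_pos.2 hM
  rw [blockMean, ← hI, div_pow, div_le_iff₀ (by positivity)]
  refine h3.trans (le_of_eq ?_)
  push_cast
  ring

/-- **The divisor bound below a power of `T`.** -/
theorem exists_divisors_le {η : ℝ} (hη : 0 < η) : ∃ C, 1 ≤ C ∧ ∀ T : ℝ, 1 ≤ T → ∀ n : ℕ,
    (n : ℝ) ≤ 64 * T ^ 4 → (n.divisors.card : ℝ) ≤ C * T ^ η := by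
  obtain ⟨C, hC, h⟩ := FA.RepresentationBound.card_divisors_isBigO (η / 4) (by positivity)
  have h64 : (1 : ℝ) ≤ (64 : ℝ) ^ (η / 4) := Real.one_le_rpow (by norm_num) (by positivity)
  refine ⟨C * (64 : ℝ) ^ (η / 4), one_le_mul_of_one_le_of_one_le hC h64, fun T hT n hn => ?_⟩
  rcases eq_or_ne n 0 with rfl | hn0
  · simp only [Nat.divisors_zero, card_empty, Nat.cast_zero]
    positivity
  refine (h n hn0).trans ?_
  rw [mul_assoc]
  refine mul_le_mul_of_nonneg_left ?_ (by linarith)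
  refine (Real.rpow_le_rpow (Nat.cast_nonneg _) hn (by positivity)).trans (le_of_eq ?_)
  rw [Real.mul_rpow (by norm_num) (by positivity), ← Real.rpow_natCast_mul (by linarith)]
  push_cast
  ring_nf

/-- At most `5 T` separated heights up to `T`. -/
theorem card_le_five_mul {W : Finset ℝ} (hW : Separated W) {T : ℝ} (hT : 1 ≤ T)
    (hb : ∀ t ∈ W, |t| ≤ T) : (W.card : ℝ) ≤ 5 * T := by
  have h : W.card ≤ (Finset.Icc (⌊-T⌋) ⌊T⌋).card := by
    refine card_le_card_of_injOn (fun t => ⌊t⌋) (fun t ht => ?_) fun t ht u hu htu => ?_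
    · rw [mem_coe] at ht ⊢
      rw [Finset.mem_Icc]
      exact ⟨Int.floor_mono (abs_le.1 (hb t ht)).1, Int.floor_mono (abs_le.1 (hb t ht)).2⟩
    · by_contra hne
      exact absurd (Int.abs_sub_lt_one_of_floor_eq_floor htu) (not_lt.2 (hW t ht u hu hne))
  refine (Nat.cast_le.2 h).trans ?_
  rw [Int.card_Icc]
  have h1 : ⌊T⌋ + 1 - ⌊-T⌋ ≤ ⌈5 * T⌉ ∧ 0 ≤ ⌊T⌋ + 1 - ⌊-T⌋ := by
    refine ⟨?_, by have := Int.floor_mono (show -T ≤ T by linarith); omega⟩
    rw [← Int.cast_le (R := ℝ)]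
    push_cast
    linarith [Int.floor_le T, Int.lt_floor_add_one (-T), Int.le_ceil (5 * T)]
  rw [← Int.cast_natCast (R := ℝ), Int.toNat_of_nonneg h1.2]
  push_cast
  linarith [Int.floor_le T, Int.lt_floor_add_one (-T)]

end FA.GuthMaynard

end
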