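import Fermat.Agent.GuthMaynard.MellinKernel
import Fermat.Agent.GuthMaynard.PairSum

/-!
# The reflection of a block

By Poisson summation the smoothed block at length `L` is the dual sum over `m` up to `T / L` of
Fourier transforms, so its sum over pairs of heights up to `T` is, up to `T ^ ε`, at most
`L² W + L W²` and `L` times the means of the dual blocks.
-/

set_option autoImplicit false

noncomputable section

namespace FA.GuthMaynard

open Finset Complex MeasureTheory Filter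
open FA.SelbergCLT (decay decay_nonneg decay_le_one integrable_decay continuous_decay)
open FA.Hoheisel (dpoly)
open scoped Topology ContDiff Real FourierTransform SchwartzMap ComplexConjugate

theorem fourier_comp_div {g : ℝ → ℂ} {L : ℝ} (hL : 0 < L) (ξ : ℝ) :
    𝓕 (fun x => g (x / L)) ξ = (L : ℂ) * 𝓕 g (L * ξ) := by
  have h := Measure.integral_comp_div
    (fun y : ℝ => Complex.exp ((↑(-2 * π * y * (L * ξ)) : ℂ) * I) • g y) L
  rw [Real.fourier_real_eq_integral_exp_smul, Real.fourier_real_eq_integral_exp_smul]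
  rw [abs_of_pos hL, Complex.real_smul] at h
  rw [← h]
  refine integral_congr_ae (Eventually.of_forall fun v => ?_)
  simp only
  congr 2
  have := Complex.ofReal_ne_zero.2 hL.ne'
  push_cast
  field_simp

theorem IsCut.contDiff_phase_div {φ : ℝ → ℂ} (hφ : IsCut φ) (u L : ℝ) :
    ContDiff ℝ ∞ fun x => phase φ u (x / L) :=
  (hφ.phase_smooth u).comp (contDiff_id.div_const L)

theorem IsCut.compact_phase_div {φ : ℝ → ℂ} (hφ : IsCut φ) (u : ℝ) {L : ℝ} (hL : 0 < L) :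
    HasCompactSupport fun x => phase φ u (x / L) :=
  HasCompactSupport.intro (isCompact_Icc (a := L / 2) (b := 5 * L / 2)) fun x hx => by
    refine hφ.phase_zero u ?_
    rw [Set.mem_Icc, not_and_or, not_le, not_le] at hx
    rcases hx with hx | hx
    · left; rw [div_lt_iff₀ hL]; linarith
    · right; rw [lt_div_iff₀ hL]; linarith

/-- The positive integers `m` with `2 ^ j / 2 < m ≤ 2 ^ j`. -/
def dualPiece (j : ℕ) : Finset ℕ := Ioc (2 ^ j / 2) (2 ^ j)

/-- The positive integers up to `2 ^ J`. -/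
def dualRange (J : ℕ) : Finset ℕ := Ioc 0 (2 ^ J)

/-- The weight of `n` in the block at `L`, as a coefficient. -/
def blockWeight (L n : ℕ) : ℝ := bump ((n : ℝ) / L)

theorem blockWeight_nonneg (L n : ℕ) : 0 ≤ blockWeight L n := bump.nonneg

theorem blockWeight_le_one (L n : ℕ) : blockWeight L n ≤ 1 := bump.le_one

theorem blockWeight_eq_one {L n : ℕ} (hn : n ∈ Ioc L (2 * L)) : blockWeight L n = 1 := by
  rw [mem_Ioc] at hn
  have hL : (0 : ℝ) < L := Nat.cast_pos.2 (by omega)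
  refine bump_eq_one ?_ ?_
  · rw [le_div_iff₀ hL, one_mul]; exact Nat.cast_le.2 hn.1.le
  · rw [div_le_iff₀ hL]; exact_mod_cast hn.2

theorem blockWeight_eq_zero {L n : ℕ} (hL : 1 ≤ L) (hn : n ∉ Icc 1 (3 * L)) :
    blockWeight L n = 0 := by
  have hL0 : (0 : ℝ) < L := Nat.cast_pos.2 hL
  have hn' : n = 0 ∨ 3 * L < n := by rw [Finset.mem_Icc] at hn; omega
  refine bump.zero_of_le_dist ?_
  rw [Real.dist_eq]
  show (1 : ℝ) ≤ _
  rcases hn' with rfl | hn'
  · norm_num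
  · have h : (3 : ℝ) < n / L := by
      rw [lt_div_iff₀ hL0]; exact_mod_cast hn'
    rw [abs_of_nonneg (by linarith)]
    linarith

/-- **Poisson summation for the smoothed block.** -/
theorem dpoly_blockWeight_eq {L : ℕ} (hL : 1 ≤ L) (v : ℝ) :
    dpoly (Icc 1 (3 * L)) (fun n => (blockWeight L n : ℂ)) (-v) =
      Complex.exp (((v * Real.log L : ℝ) : ℂ) * I) *
        ((L : ℂ) * ∑' m : ℤ, 𝓕 (phase weight v) ((m : ℝ) * L)) := by
  have hL0 : (0 : ℝ) < L := Nat.cast_pos.2 hL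
  obtain ⟨f, hf⟩ : ∃ f : 𝓢(ℝ, ℂ), (f : ℝ → ℂ) = fun x => phase weight v (x / L) :=
    ⟨(isCut_weight.compact_phase_div v hL0).toSchwartzMap (isCut_weight.contDiff_phase_div v L),
      rfl⟩
  have hF : ∀ ξ, (𝓕 f : 𝓢(ℝ, ℂ)) ξ = (L : ℂ) * 𝓕 (phase weight v) (L * ξ) := fun ξ => by
    rw [SchwartzMap.fourier_coe, hf, fourier_comp_div hL0]
    norm_num
  have h := SchwartzMap.tsum_eq_tsum_fourier f 0
  simp only [zero_add, QuotientAddGroup.mk_zero, fourier_eval_zero, mul_one, hF] at h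
  rw [tsum_mul_left, tsum_eq_sum (s := (Icc 1 (3 * L)).map Nat.castEmbedding) fun n hn => ?_,
    sum_map] at h
  · have e : ∑' m : ℤ, 𝓕 (phase weight v) ((L : ℝ) * m) =
        ∑' m : ℤ, 𝓕 (phase weight v) ((m : ℝ) * L) := by simp only [mul_comm (L : ℝ)]
    rw [e, hf] at h
    rw [← h, dpoly, mul_sum]
    refine sum_congr rfl fun n hn => ?_
    have hn0 : n ≠ 0 := by rw [Finset.mem_Icc] at hn; omega
    simp only [Nat.castEmbedding_apply, Int.cast_natCast, phase, weight, blockWeight]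
    rw [natCast_cpow_eq hn0, Real.log_div (Nat.cast_ne_zero.2 hn0) hL0.ne', mul_left_comm _
      ((bump ((n : ℝ) / L) : ℝ) : ℂ), ← Complex.exp_add]
    congr 2
    push_cast
    ring
  · rw [hf]
    refine isCut_weight.phase_zero v ?_
    rw [Finset.mem_map, not_exists] at hn
    by_contra hne
    rw [not_or, not_lt, not_lt] at hne
    obtain ⟨h1, h2⟩ := hne
    rw [le_div_iff₀ hL0] at h1
    rw [div_le_iff₀ hL0] at h2
    have hn1 : 1 ≤ n := by
      have h4 : ((0 : ℤ) : ℝ) < (n : ℝ) := by push_cast; linarith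
      have : 0 < n := Int.cast_lt.1 h4
      omega
    have hn2 : n ≤ 3 * (L : ℤ) := by
      have h4 : (n : ℝ) ≤ ((3 * (L : ℤ) : ℤ) : ℝ) := by push_cast; linarith
      exact Int.cast_le.1 h4
    exact hn n.toNat ⟨Finset.mem_Icc.2 (by omega), by
      simp only [Nat.castEmbedding_apply]; omega⟩

theorem norm_dpoly_blockWeight {L : ℕ} (hL : 1 ≤ L) (v : ℝ) :
    ‖dpoly (Icc 1 (3 * L)) (fun n => (blockWeight L n : ℂ)) (-v)‖ =
      L * ‖∑' m : ℤ, 𝓕 (phase weight v) ((m : ℝ) * L)‖ := by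
  rw [dpoly_blockWeight_eq hL, norm_mul, Complex.norm_exp_ofReal_mul_I, one_mul, norm_mul,
    Complex.norm_natCast]

/-- The sums over pairs of the smoothed block majorise those of the sharp one. -/
theorem pairSum_le_blockWeight (W : Finset ℝ) {L : ℕ} :
    pairSum W (Ioc L (2 * L)) (fun _ => 1) ≤
      pairSum W (Icc 1 (3 * L)) (fun n => (blockWeight L n : ℂ)) := by
  have hs : ∀ n ∈ Icc 1 (3 * L), 1 ≤ n := fun n hn => (Finset.mem_Icc.1 hn).1
  have hsub : Ioc L (2 * L) ⊆ Icc 1 (3 * L) := fun n hn => by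
    rw [mem_Ioc] at hn; rw [Finset.mem_Icc]; omega
  rw [pairSum_real hs, pairSum_one fun n => one_le_of_mem_block]
  refine (sum_le_sum fun n hn => (sum_le_sum fun m hm => le_of_eq ?_).trans
    (sum_le_sum_of_subset_of_nonneg hsub fun m _ _ => ?_)).trans
    (sum_le_sum_of_subset_of_nonneg hsub fun n _ _ => sum_nonneg fun m _ => ?_)
  · rw [blockWeight_eq_one hn, blockWeight_eq_one hm, one_mul, one_mul]
  all_goals
    exact mul_nonneg (mul_nonneg (blockWeight_nonneg _ _) (blockWeight_nonneg _ _))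
      (charSq_nonneg _ _)

/-- **The pairs of heights within a block of the dual sum.** -/
theorem exists_block_pair_le {φ : ℝ → ℂ} (hφ : IsCut φ) : ∃ C, 0 ≤ C ∧
    ∀ (W : Finset ℝ) (L r : ℝ) (s : Finset ℕ), 0 < L → (∀ m ∈ s, 1 ≤ m ∧ (√(m : ℝ))⁻¹ ≤ r) →
      ∑ t ∈ W, ∑ u ∈ W, (L * ‖∑ m ∈ s, 𝓕 (phase φ (t - u)) ((m : ℝ) * L)‖) ^ 2 ≤
        C * L * (r ^ 2 * pairSum W s (fun _ => 1)) := by
  obtain ⟨C, hC, h⟩ := hφ.exists_block_le
  have hJ : 0 ≤ ∫ w, decay 4 w := integral_nonneg (decay_nonneg 4)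
  refine ⟨C * ∫ w, decay 4 w, mul_nonneg hC hJ, fun W L r s hL hs => ?_⟩
  have hs1 : ∀ m ∈ s, 1 ≤ m := fun m hm => (hs m hm).1
  obtain ⟨A, hA⟩ : ∃ A, A = r ^ 2 * pairSum W s (fun _ => 1) := ⟨_, rfl⟩
  rw [← hA]
  have hpt : ∀ w : ℝ, ∑ t ∈ W, ∑ u ∈ W, ‖dpoly s invSqrt (t - u - w)‖ ^ 2 ≤ A := fun w => by
    refine le_trans (le_of_eq ?_) (hA ▸ pairSum_le_one hs1 W
      (b := fun m => invSqrt m * Complex.exp (((w * Real.log m : ℝ) : ℂ) * I)) (r := r)
      fun m hm => ?_)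
    · refine sum_congr rfl fun t _ => sum_congr rfl fun u _ => ?_
      congr 2
      refine sum_congr rfl fun m hm => ?_
      rw [natCast_cpow_eq (by have := hs1 m hm; omega),
        natCast_cpow_eq (by have := hs1 m hm; omega), mul_assoc, ← Complex.exp_add]
      congr 2
      push_cast
      ring
    · rw [norm_mul, Complex.norm_exp_ofReal_mul_I, mul_one, invSqrt, Complex.norm_real,
        Real.norm_of_nonneg (inv_nonneg.2 (Real.sqrt_nonneg _))]
      exact (hs m hm).2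
  have hint : ∀ p : ℝ, Integrable fun w => decay 4 w * ‖dpoly s invSqrt (p - w)‖ ^ 2 := fun p => by
    refine ((integrable_decay (show 2 ≤ 4 by norm_num)).mul_const
      ((∑ m ∈ s, ‖invSqrt m‖) ^ 2)).mono' (((continuous_decay 4).mul
        (((FA.Hoheisel.continuous_dpoly hs1 _).comp (by fun_prop)).norm.pow 2))
          |>.aestronglyMeasurable)
      (Eventually.of_forall fun w => ?_)
    rw [Real.norm_of_nonneg (mul_nonneg (decay_nonneg _ _) (sq_nonneg _))]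
    refine mul_le_mul_of_nonneg_left (pow_le_pow_left₀ (norm_nonneg _)
      ((norm_sum_le _ _).trans (le_of_eq (sum_congr rfl fun m hm => ?_))) 2) (decay_nonneg _ _)
    rw [norm_mul, Complex.norm_natCast_cpow_of_pos (hs1 m hm)]
    simp
  calc ∑ t ∈ W, ∑ u ∈ W, (L * ‖∑ m ∈ s, 𝓕 (phase φ (t - u)) ((m : ℝ) * L)‖) ^ 2
      ≤ ∑ t ∈ W, ∑ u ∈ W, L * (C * ∫ w, decay 4 w * ‖dpoly s invSqrt (t - u - w)‖ ^ 2) :=
        sum_le_sum fun t _ => sum_le_sum fun u _ => by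
          rw [mul_pow, sq, mul_assoc]
          exact mul_le_mul_of_nonneg_left (h (t - u) L s hL hs1) hL.le
    _ = L * C * ∫ w, decay 4 w * ∑ t ∈ W, ∑ u ∈ W, ‖dpoly s invSqrt (t - u - w)‖ ^ 2 := by
        simp only [mul_sum]
        rw [integral_finsetSum _ fun t _ => integrable_finsetSum _ fun u _ => hint (t - u), mul_sum]
        refine sum_congr rfl fun t _ => ?_
        rw [integral_finsetSum _ fun u _ => hint (t - u), mul_sum]
        exact sum_congr rfl fun u _ => (mul_assoc _ _ _).symm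
    _ ≤ L * C * ∫ w, decay 4 w * A := by
        refine mul_le_mul_of_nonneg_left (integral_mono ?_
          ((integrable_decay (show 2 ≤ 4 by norm_num)).mul_const A) fun w =>
            mul_le_mul_of_nonneg_left (hpt w) (decay_nonneg 4 w)) (mul_nonneg hL.le hC)
        simp only [mul_sum]
        exact integrable_finsetSum _ fun t _ => integrable_finsetSum _ fun u _ => hint (t - u)
    _ = _ := by rw [integral_mul_const]; ring

/-- The dyadic pieces of `(0, 2 ^ J]`. -/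
theorem sum_halves (f : ℕ → ℂ) : ∀ J : ℕ,
    ∑ j ∈ range (J + 1), ∑ m ∈ dualPiece j, f m = ∑ m ∈ Ioc 0 (2 ^ J), f m
  | 0 => by simp [dualPiece]
  | J + 1 => by
    rw [sum_range_succ, sum_halves f J, dualPiece, show 2 ^ (J + 1) / 2 = 2 ^ J by
      rw [pow_succ, Nat.mul_div_cancel _ two_pos], ← sum_union (Ioc_disjoint_Ioc_of_le le_rfl),
      Ioc_union_Ioc_eq_Ioc (Nat.zero_le _) (by rw [pow_succ]; omega)]

/-- A sum over the positive integers with polynomial decay, beyond `K`. -/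
theorem norm_tsum_tail_le {f : ℕ → ℂ} {A : ℝ} {n K : ℕ} (hA : 0 ≤ A) (hK : 1 ≤ K)
    (hf : ∀ i : ℕ, ‖f i‖ ≤ A / ((i : ℝ) + 1) ^ (n + 2)) :
    Summable f ∧ ‖∑' i, f i - ∑ i ∈ range K, f i‖ ≤
      A / (K : ℝ) ^ n * ∑' i : ℕ, 1 / ((i : ℝ) + 1) ^ 2 := by
  have hz : Summable fun i : ℕ => 1 / ((i : ℝ) + 1) ^ 2 := by
    have := (summable_nat_add_iff 1).2 (Real.summable_one_div_nat_pow.2 one_lt_two)
    simpa using this
  have hs : Summable f := Summable.of_norm_bounded (hz.mul_left A) fun i => (hf i).trans (by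
    rw [mul_one_div]
    exact div_le_div_of_nonneg_left hA (by positivity)
      (pow_le_pow_right₀ (by linarith [Nat.cast_nonneg (α := ℝ) i]) (by omega)))
  refine ⟨hs, ?_⟩
  rw [← hs.sum_add_tsum_nat_add K, add_sub_cancel_left, ← tsum_mul_left]
  have hK' : (1 : ℝ) ≤ K := Nat.one_le_cast.2 hK
  refine tsum_of_norm_bounded ((hz.mul_left _).hasSum) fun i => (hf (i + K)).trans ?_
  rw [div_mul_div_comm, mul_one]
  push_cast
  have hi : (0 : ℝ) ≤ i := Nat.cast_nonneg i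
  refine div_le_div_of_nonneg_left hA (by positivity) ?_
  rw [pow_add]
  exact mul_le_mul (pow_le_pow_left₀ (by linarith) (by linarith) n)
    (pow_le_pow_left₀ (by linarith) (by linarith) 2) (by positivity) (by positivity)

/-- The heights near a point. -/
theorem card_near_le {W : Finset ℝ} (hW : Separated W) {R : ℝ} (hR : 1 ≤ R) (c : ℝ) :
    ((W.filter fun u => |u - c| ≤ R).card : ℝ) ≤ 5 * R := by
  classical
  have h := card_le_five_mul (W := (W.filter fun u => |u - c| ≤ R).image fun u => u - c)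
    (T := R) (fun a ha b hb hab => ?_) hR fun a ha => ?_
  · rwa [card_image_of_injective _ sub_left_injective] at h
  · simp only [mem_image, mem_filter] at ha hb
    obtain ⟨x, ⟨hx, -⟩, rfl⟩ := ha
    obtain ⟨y, ⟨hy, -⟩, rfl⟩ := hb
    rw [sub_sub_sub_cancel_right]
    exact hW x hx y hy fun e => hab (by rw [e])
  · simp only [mem_image, mem_filter] at ha
    obtain ⟨x, ⟨-, hx⟩, rfl⟩ := ha
    exact hx

/-- Beyond a negligible error the dual sum is its first `2 ^ J` terms on either side. -/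
theorem exists_dual_tail_le (n : ℕ) {η : ℝ} : ∃ C, 0 ≤ C ∧
    ∀ (T v : ℝ) (L J : ℕ), 2 ≤ T → T ^ η ≤ |v| → |v| ≤ 2 * T → 1 ≤ L →
      T ^ (1 + η) ≤ (2 : ℝ) ^ J * L →
      ‖(∑' m : ℤ, 𝓕 (phase weight v) ((m : ℝ) * L)) -
          ((∑ m ∈ dualRange J, 𝓕 (phase weight v) ((m : ℝ) * L)) +
            conj (∑ m ∈ dualRange J, 𝓕 (phase weight (-v)) ((m : ℝ) * L)))‖ ≤
        C * T ^ (-(η * n)) * ((T / L) ^ 2 + 1) := by
  obtain ⟨C₁, hC₁, hdec⟩ := isCut_weight.exists_fourier_phase_le (n + 2)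
  obtain ⟨C₀, hC₀, hzero⟩ := isCut_weight.exists_integral_phase_le n
  obtain ⟨Z, hZ⟩ : ∃ Z : ℝ, Z = ∑' i : ℕ, 1 / ((i : ℝ) + 1) ^ 2 := ⟨_, rfl⟩
  have hZ0 : 0 ≤ Z := hZ ▸ tsum_nonneg fun i => by positivity
  refine ⟨2 * (C₁ * 3 ^ (n + 2) * Z) + C₀, by positivity, fun T v L J hT hv hv2 hL hJ => ?_⟩
  have hT0 : 0 < T := by linarith
  have hL1 : (1 : ℝ) ≤ L := Nat.one_le_cast.2 hL
  obtain ⟨K, hK⟩ : ∃ K : ℕ, K = 2 ^ J := ⟨_, rfl⟩
  have hK1 : 1 ≤ K := hK ▸ Nat.one_le_pow _ _ two_pos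
  have hKR : (K : ℝ) = 2 ^ J := by rw [hK]; push_cast; rfl
  obtain ⟨A, hA⟩ : ∃ A, A = C₁ * ((3 * T) / L) ^ (n + 2) := ⟨_, rfl⟩
  have hA0 : 0 ≤ A := hA ▸ by positivity
  have hbd : ∀ (w : ℝ), |w| ≤ 2 * T → ∀ i : ℕ,
      ‖𝓕 (phase weight w) (((i : ℝ) + 1) * L)‖ ≤ A / ((i : ℝ) + 1) ^ (n + 2) := by
    intro w hw i
    have h := hdec w (((i : ℝ) + 1) * L)
    rw [abs_of_pos (by positivity)] at h
    rw [hA, le_div_iff₀ (by positivity), div_pow, mul_div_assoc', le_div_iff₀ (by positivity)]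
    refine le_trans (le_trans ?_ h) (mul_le_mul_of_nonneg_left
      (pow_le_pow_left₀ (by positivity) (by linarith) _) hC₁)
    rw [mul_assoc, ← mul_pow, mul_comm]
    refine mul_le_mul_of_nonneg_right (pow_le_pow_left₀ (by positivity) ?_ _) (norm_nonneg _)
    have := Real.pi_gt_three
    nlinarith [show (0 : ℝ) ≤ ((i : ℝ) + 1) * L by positivity]
  have htail : A / (K : ℝ) ^ n * Z ≤ C₁ * 3 ^ (n + 2) * Z * (T ^ (-(η * n)) * (T / L) ^ 2) := by
    have h1 : A / (K : ℝ) ^ n = C₁ * 3 ^ (n + 2) * ((T / ((K : ℝ) * L)) ^ n * (T / L) ^ 2) := by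
      rw [hA, pow_add, pow_add, div_pow, div_pow, div_pow, div_pow, mul_pow, mul_pow, mul_pow]
      field_simp
    have h2 : (T / ((K : ℝ) * L)) ^ n ≤ T ^ (-(η * n)) := by
      have h3 : T / ((K : ℝ) * L) ≤ T ^ (-η) := by
        rw [div_le_iff₀ (by positivity), hKR]
        refine le_trans (le_of_eq ?_) (mul_le_mul_of_nonneg_left hJ (Real.rpow_nonneg hT0.le _))
        rw [← Real.rpow_add hT0]
        simp
      refine (pow_le_pow_left₀ (by positivity) h3 n).trans (le_of_eq ?_)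
      rw [← Real.rpow_mul_natCast hT0.le, neg_mul]
    rw [h1]
    calc C₁ * 3 ^ (n + 2) * ((T / ((K : ℝ) * L)) ^ n * (T / L) ^ 2) * Z
        ≤ C₁ * 3 ^ (n + 2) * (T ^ (-(η * n)) * (T / L) ^ 2) * Z := by gcongr
      _ = _ := by ring
  -- the two halves
  have hhalf : ∀ w : ℝ, |w| ≤ 2 * T →
      Summable (fun i : ℕ => 𝓕 (phase weight w) (((i : ℝ) + 1) * L)) ∧
      ‖(∑' i : ℕ, 𝓕 (phase weight w) (((i : ℝ) + 1) * L)) -
          ∑ m ∈ dualRange J, 𝓕 (phase weight w) ((m : ℝ) * L)‖ ≤ A / (K : ℝ) ^ n * Z := by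
    intro w hw
    obtain ⟨hs, hb⟩ := norm_tsum_tail_le hA0 hK1 (hbd w hw)
    refine ⟨hs, ?_⟩
    have e : ∑ i ∈ range K, 𝓕 (phase weight w) (((i : ℝ) + 1) * L) =
        ∑ m ∈ dualRange J, 𝓕 (phase weight w) ((m : ℝ) * L) := by
      rw [dualRange, ← hK,
        show Ioc 0 K = Ico 1 (K + 1) by ext m; simp only [mem_Ioc, mem_Ico]; omega,
        sum_Ico_eq_sum_range, Nat.add_sub_cancel]
      exact sum_congr rfl fun i _ => by push_cast; rw [add_comm (1 : ℝ)]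
    rw [← hZ, e] at hb
    exact hb
  obtain ⟨hs1, hb1⟩ := hhalf v hv2
  obtain ⟨hs2, hb2⟩ := hhalf (-v) (by rwa [abs_neg])
  obtain ⟨F, hF⟩ : ∃ F : ℤ → ℂ, F = fun m : ℤ => 𝓕 (phase weight v) ((m : ℝ) * L) := ⟨_, rfl⟩
  have hneg : (fun i : ℕ => F (-((i : ℤ) + 1))) =
      fun i : ℕ => conj (𝓕 (phase weight (-v)) (((i : ℝ) + 1) * L)) := funext fun i => by
    rw [hF]
    simp only [Int.cast_neg, Int.cast_add, Int.cast_natCast, Int.cast_one, neg_mul]
    exact fourier_phase_neg conj_weight v _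
  have hpos : (fun i : ℕ => F ((i : ℤ) + 1)) =
      fun i : ℕ => 𝓕 (phase weight v) (((i : ℝ) + 1) * L) := funext fun i => by
    rw [hF]; simp only [Int.cast_add, Int.cast_natCast, Int.cast_one]
  have hdecomp := tsum_of_add_one_of_neg_add_one (f := F) (hpos ▸ hs1) (hneg ▸ hs2.star)
  rw [hpos, hneg, ← Complex.conj_tsum] at hdecomp
  have h00 : ‖F 0‖ ≤ C₀ * T ^ (-(η * n)) := by
    have h := hzero v
    have h0 : F 0 = ∫ x, phase weight v x := by
      simp [hF, Real.fourier_real_eq]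
    rw [h0, Real.rpow_neg hT0.le, ← div_eq_mul_inv, le_div_iff₀ (by positivity), mul_comm]
    refine le_trans (mul_le_mul_of_nonneg_right ?_ (norm_nonneg _)) h
    refine le_trans (le_of_eq ?_) (pow_le_pow_left₀ (Real.rpow_nonneg hT0.le _) hv n)
    rw [← Real.rpow_mul_natCast hT0.le]
  rw [← hF, hdecomp]
  obtain ⟨X, hX⟩ : ∃ X, X = ∑' i : ℕ, 𝓕 (phase weight v) (((i : ℝ) + 1) * L) := ⟨_, rfl⟩
  obtain ⟨Y, hY⟩ : ∃ Y, Y = ∑' i : ℕ, 𝓕 (phase weight (-v)) (((i : ℝ) + 1) * L) := ⟨_, rfl⟩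
  obtain ⟨p, hp⟩ : ∃ p, p = ∑ m ∈ dualRange J, 𝓕 (phase weight v) ((m : ℝ) * L) := ⟨_, rfl⟩
  obtain ⟨q, hq⟩ : ∃ q, q = ∑ m ∈ dualRange J, 𝓕 (phase weight (-v)) ((m : ℝ) * L) := ⟨_, rfl⟩
  rw [← hX, ← hp] at hb1 ⊢
  rw [← hY, ← hq] at hb2 ⊢
  rw [show X + F 0 + conj Y - (p + conj q) = (X - p) + F 0 + conj (Y - q) by
    rw [map_sub]; ring]
  refine norm_add₃_le.trans ?_
  rw [Complex.norm_conj]
  have : 0 ≤ C₁ * 3 ^ (n + 2) * Z * T ^ (-(η * n)) := by positivity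
  have : 0 ≤ C₀ * T ^ (-(η * n)) * (T / L) ^ 2 := by positivity
  linarith

/-- The dual sum through its dyadic pieces. -/
theorem exists_dual_le {η : ℝ} (n : ℕ) (hn : 2 ≤ η * n) : ∃ C, 0 ≤ C ∧
    ∀ (T v : ℝ) (L J : ℕ), 2 ≤ T → T ^ η ≤ |v| → |v| ≤ 2 * T → 1 ≤ L →
      T ^ (1 + η) ≤ (2 : ℝ) ^ J * L →
      (L : ℝ) * ‖∑' m : ℤ, 𝓕 (phase weight v) ((m : ℝ) * L)‖ ≤
        C + C * L / T + ∑ j ∈ range (J + 1),
          ((L : ℝ) * ‖∑ m ∈ dualPiece j, 𝓕 (phase weight v) ((m : ℝ) * L)‖ +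
            (L : ℝ) * ‖∑ m ∈ dualPiece j, 𝓕 (phase weight (-v)) ((m : ℝ) * L)‖) := by
  obtain ⟨C, hC, h⟩ := exists_dual_tail_le n (η := η)
  refine ⟨C, hC, fun T v L J hT hv hv2 hL hJ => ?_⟩
  have hT0 : 0 < T := by linarith
  have hL1 : (1 : ℝ) ≤ L := Nat.one_le_cast.2 hL
  have hpow : T ^ (-(η * n)) ≤ (T ^ 2)⁻¹ := by
    rw [← Real.rpow_natCast T 2, ← Real.rpow_neg hT0.le]
    exact Real.rpow_le_rpow_of_exponent_le (by linarith) (by push_cast; linarith)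
  have htail : (L : ℝ) * (C * T ^ (-(η * n)) * ((T / L) ^ 2 + 1)) ≤ C + C * L / T := by
    calc (L : ℝ) * (C * T ^ (-(η * n)) * ((T / L) ^ 2 + 1))
        ≤ (L : ℝ) * (C * (T ^ 2)⁻¹ * ((T / L) ^ 2 + 1)) := by gcongr
      _ = C / L + C * L / T / T := by field_simp
      _ ≤ _ := add_le_add (div_le_self hC hL1) (div_le_self (by positivity) (by linarith))
  obtain ⟨X, hX⟩ : ∃ X, X = ∑' m : ℤ, 𝓕 (phase weight v) ((m : ℝ) * L) := ⟨_, rfl⟩
  obtain ⟨p, hp⟩ : ∃ p, p = ∑ m ∈ dualRange J, 𝓕 (phase weight v) ((m : ℝ) * L) := ⟨_, rfl⟩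
  obtain ⟨q, hq⟩ : ∃ q, q = ∑ m ∈ dualRange J, 𝓕 (phase weight (-v)) ((m : ℝ) * L) := ⟨_, rfl⟩
  have h' := h T v L J hT hv hv2 hL hJ
  rw [← hX, ← hp, ← hq] at h'
  have hpq : ‖p‖ + ‖q‖ ≤ ∑ j ∈ range (J + 1),
      (‖∑ m ∈ dualPiece j, 𝓕 (phase weight v) ((m : ℝ) * L)‖ +
        ‖∑ m ∈ dualPiece j, 𝓕 (phase weight (-v)) ((m : ℝ) * L)‖) := by
    rw [hp, hq, dualRange, ← sum_halves (fun m => 𝓕 (phase weight v) ((m : ℝ) * L)) J,
      ← sum_halves (fun m => 𝓕 (phase weight (-v)) ((m : ℝ) * L)) J, sum_add_distrib]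
    exact add_le_add (norm_sum_le _ _) (norm_sum_le _ _)
  have hX' : ‖X‖ ≤ ‖X - (p + conj q)‖ + (‖p‖ + ‖q‖) := by
    refine le_trans ?_ (add_le_add le_rfl ((norm_add_le p (conj q)).trans
      (le_of_eq (by rw [Complex.norm_conj]))))
    refine le_trans (le_of_eq ?_) (norm_add_le _ _)
    rw [sub_add_cancel]
  simp only [← mul_add, ← mul_sum]
  rw [← hX]
  nlinarith [mul_le_mul_of_nonneg_left (hX'.trans (add_le_add h' hpq)) (Nat.cast_nonneg L)]

/-- **The reflection.** -/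
theorem exists_reflection {η : ℝ} (hη : 0 < η) (hη1 : η ≤ 1) : ∃ C, 0 ≤ C ∧
    ∀ (T : ℝ) (W : Finset ℝ) (L : ℕ) (B : ℝ), 2 ≤ T → (∀ t ∈ W, |t| ≤ T) → Separated W →
      1 ≤ L → 0 ≤ B → (∀ j : ℕ, (2 : ℝ) ^ j * L ≤ T ^ (1 + η) → blockMean W (2 ^ j) ≤ B) →
      blockMean W L ≤ C * T ^ η * (L * W.card + (W.card : ℝ) ^ 2 + B) := by
  obtain ⟨n, hn⟩ : ∃ n : ℕ, 2 ≤ η * n := by
    obtain ⟨n, hn⟩ := exists_nat_gt (2 / η)
    exact ⟨n, by rw [div_lt_iff₀ hη] at hn; linarith⟩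
  obtain ⟨C, hC, hdual⟩ := exists_dual_le n hn
  obtain ⟨Cb, hCb, hblock⟩ := exists_block_pair_le isCut_weight
  obtain ⟨c, hc⟩ : ∃ c : ℝ, c = 2 / (η / 2 * Real.log 2) + 2 := ⟨_, rfl⟩
  have hc0 : 0 ≤ c := hc ▸ by positivity
  refine ⟨45 + 30 * C ^ 2 + 8 * c ^ 2 * Cb, by positivity,
    fun T W L B hT hbd hW hL hB hB' => ?_⟩
  have hT0 : 0 < T := by linarith
  have hTη : 1 ≤ T ^ η := Real.one_le_rpow (by linarith) hη.le
  have hL1 : (1 : ℝ) ≤ L := Nat.one_le_cast.2 hL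
  obtain ⟨w, hw⟩ : ∃ w : ℝ, w = W.card := ⟨_, rfl⟩
  have hw0 : 0 ≤ w := hw ▸ Nat.cast_nonneg _
  have hwT : w ≤ 5 * T := hw ▸ card_le_five_mul hW (by linarith) hbd
  rw [← hw]
  -- the number of pieces
  have hex : ∃ J : ℕ, T ^ (1 + η) ≤ (2 : ℝ) ^ J * L := by
    obtain ⟨J, hJ⟩ := pow_unbounded_of_one_lt (T ^ (1 + η)) one_lt_two
    exact ⟨J, hJ.le.trans (le_mul_of_one_le_right (by positivity) hL1)⟩
  classical
  obtain ⟨J, hJ⟩ : ∃ J, J = Nat.find hex := ⟨_, rfl⟩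
  have hJ1 : T ^ (1 + η) ≤ (2 : ℝ) ^ J * L := hJ ▸ Nat.find_spec hex
  have hJ2 : ∀ j < J, (2 : ℝ) ^ j * L ≤ T ^ (1 + η) := fun j hj =>
    (not_le.1 (Nat.find_min hex (hJ ▸ hj))).le
  have hJc : ((J : ℝ) + 1) ^ 2 ≤ c ^ 2 * T ^ η := by
    have hTh : 1 ≤ T ^ (η / 2) := Real.one_le_rpow (by linarith) (by positivity)
    have hJl : (J : ℝ) + 1 ≤ c * T ^ (η / 2) := by
      rcases Nat.eq_zero_or_pos J with h0 | h0
      · rw [h0, Nat.cast_zero, zero_add]
        exact le_trans (by norm_num : (1 : ℝ) ≤ 1 * 1) (mul_le_mul (by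
          rw [hc]; linarith [show 0 ≤ 2 / (η / 2 * Real.log 2) by positivity]) hTh zero_le_one hc0)
      have h1 : (2 : ℝ) ^ (J - 1) ≤ T ^ (1 + η) :=
        (le_mul_of_one_le_right (by positivity) hL1).trans (hJ2 _ (by omega))
      have h2 := Real.log_le_log (by positivity) h1
      rw [Real.log_pow, Real.log_rpow hT0, Nat.cast_sub h0, Nat.cast_one] at h2
      have h3 := Real.log_le_rpow_div hT0.le (show 0 < η / 2 by positivity)
      have hl2 : 0 < Real.log 2 := Real.log_pos one_lt_two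
      have h4 : (J : ℝ) - 1 ≤ 2 / (η / 2 * Real.log 2) * T ^ (η / 2) := by
        refine le_of_mul_le_mul_right (h2.trans ?_) hl2
        refine (mul_le_mul (show 1 + η ≤ 2 by linarith) h3 (Real.log_nonneg (by linarith))
          zero_le_two).trans (le_of_eq ?_)
        field_simp
      rw [hc]
      nlinarith
    refine (pow_le_pow_left₀ (by positivity) hJl 2).trans (le_of_eq ?_)
    rw [mul_pow, ← Real.rpow_mul_natCast hT0.le]
    push_cast
    ring_nf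
  -- the pieces
  obtain ⟨p, hp⟩ : ∃ p : ℕ → ℝ → ℝ, p = fun j v =>
      (L : ℝ) * ‖∑ m ∈ dualPiece j, 𝓕 (phase weight v) ((m : ℝ) * L)‖ := ⟨_, rfl⟩
  have hpiece : ∀ j ∈ range (J + 1),
      ∑ t ∈ W, ∑ u ∈ W, p j (t - u) ^ 2 ≤ Cb * L * (w ^ 2 + B) := by
    intro j hj
    rw [hp]
    rcases Nat.eq_zero_or_pos j with rfl | hj0
    · refine (hblock W L 1 _ (by linarith) fun m hm => ?_).trans
        (mul_le_mul_of_nonneg_left ?_ (by positivity))
      · simp only [dualPiece, pow_zero, mem_Ioc] at hm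
        have : m = 1 := by omega
        subst this
        simp
      · refine le_trans (le_of_eq ?_) (le_add_of_nonneg_right hB)
        rw [show dualPiece 0 = {1} by decide]
        simp [pairSum, dpoly, hw, sq]
    · obtain ⟨k, rfl⟩ : ∃ k, j = k + 1 := ⟨j - 1, by omega⟩
      have e : 2 ^ (k + 1) / 2 = 2 ^ k := by rw [pow_succ, Nat.mul_div_cancel _ two_pos]
      have hk : (0 : ℝ) < ((2 ^ k : ℕ) : ℝ) := by positivity
      refine (hblock W L ((√((2 ^ k : ℕ) : ℝ))⁻¹) _ (by linarith) fun m hm => ?_).trans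
        (mul_le_mul_of_nonneg_left ?_ (by positivity))
      · rw [dualPiece, mem_Ioc, e] at hm
        exact ⟨by omega, inv_anti₀ (Real.sqrt_pos.2 hk)
          (Real.sqrt_le_sqrt (Nat.cast_le.2 hm.1.le))⟩
      · refine le_trans ?_ (le_add_of_nonneg_left (sq_nonneg w))
        rw [dualPiece, e, inv_pow, Real.sq_sqrt hk.le, pow_succ' 2 k, ← div_eq_inv_mul]
        exact hB' k (hJ2 k (by rw [mem_range] at hj; omega))
  have hsymm : ∀ j : ℕ, ∑ t ∈ W, ∑ u ∈ W, p j (-(t - u)) ^ 2 =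
      ∑ t ∈ W, ∑ u ∈ W, p j (t - u) ^ 2 := fun j => by
    rw [sum_comm]; simp only [neg_sub]
  -- each pair
  obtain ⟨S, hS⟩ : ∃ S : ℝ → ℝ, S = fun v =>
      ‖dpoly (Icc 1 (3 * L)) (fun n => (blockWeight L n : ℂ)) v‖ ^ 2 := ⟨_, rfl⟩
  have hpair : ∀ t ∈ W, ∀ u ∈ W, S (t - u) ≤
      (if |u - t| ≤ T ^ η then 9 * (L : ℝ) ^ 2 else 0) +
        (2 * C ^ 2 * (1 + L / T) ^ 2 + 4 * ((J : ℝ) + 1) * ∑ j ∈ range (J + 1),
          (p j (t - u) ^ 2 + p j (-(t - u)) ^ 2)) := by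
    intro t ht u hu
    have hnn : 0 ≤ 2 * C ^ 2 * (1 + L / T) ^ 2 + 4 * ((J : ℝ) + 1) * ∑ j ∈ range (J + 1),
        (p j (t - u) ^ 2 + p j (-(t - u)) ^ 2) := by
      have : 0 ≤ ∑ j ∈ range (J + 1), (p j (t - u) ^ 2 + p j (-(t - u)) ^ 2) :=
        sum_nonneg fun j _ => by positivity
      positivity
    rw [hS]
    by_cases hnear : |u - t| ≤ T ^ η
    · rw [if_pos hnear]
      refine le_trans ?_ (le_add_of_nonneg_right hnn)
      refine le_trans (pow_le_pow_left₀ (norm_nonneg _) ((norm_sum_le _ _).trans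
        ((sum_le_card_nsmul _ _ 1 fun m hm => ?_).trans (le_of_eq ?_))) 2)
        (le_of_eq (show (3 * (L : ℝ)) ^ 2 = 9 * (L : ℝ) ^ 2 by ring))
      · rw [Finset.mem_Icc] at hm
        rw [norm_mul, Complex.norm_real, Real.norm_of_nonneg (blockWeight_nonneg _ _),
          Complex.norm_natCast_cpow_of_pos (show 0 < m by omega)]
        simp [blockWeight_le_one]
      · rw [Nat.card_Icc, Nat.add_sub_cancel, nsmul_eq_mul, mul_one]; push_cast; rfl
    · rw [if_neg hnear, zero_add, show t - u = -(u - t) by ring]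
      simp only
      rw [norm_dpoly_blockWeight hL]
      have h := hdual T (u - t) L J hT (not_le.1 hnear).le (by
        have h1 := abs_le.1 (hbd t ht); have h2 := abs_le.1 (hbd u hu)
        rw [abs_le]; constructor <;> linarith) hL hJ1
      obtain ⟨a, ha⟩ : ∃ a, a = C + C * L / T := ⟨_, rfl⟩
      obtain ⟨Y, hY⟩ : ∃ Y, Y = ∑ j ∈ range (J + 1), (p j (u - t) + p j (-(u - t))) := ⟨_, rfl⟩
      have hY' : Y ^ 2 ≤ ((J : ℝ) + 1) * (2 * ∑ j ∈ range (J + 1),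
          (p j (-(u - t)) ^ 2 + p j (- -(u - t)) ^ 2)) := by
        rw [hY, mul_sum]
        refine sq_sum_le_card_mul_sum_sq.trans ?_
        rw [card_range, Nat.cast_add, Nat.cast_one]
        refine mul_le_mul_of_nonneg_left (sum_le_sum fun j _ => ?_) (by positivity)
        rw [neg_neg]
        nlinarith [sq_nonneg (p j (u - t) - p j (-(u - t)))]
      have h' : (L : ℝ) * ‖∑' m : ℤ, 𝓕 (phase weight (u - t)) ((m : ℝ) * L)‖ ≤ a + Y := by
        rw [ha, hY, hp]; exact h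
      refine (pow_le_pow_left₀ (by positivity) h' 2).trans ?_
      rw [show 2 * C ^ 2 * (1 + (L : ℝ) / T) ^ 2 = 2 * a ^ 2 by rw [ha]; ring]
      nlinarith [sq_nonneg (a - Y)]
  -- adding up
  have hnearsum : ∀ t ∈ W, ∑ u ∈ W, (if |u - t| ≤ T ^ η then 9 * (L : ℝ) ^ 2 else 0) ≤
      45 * T ^ η * (L : ℝ) ^ 2 := fun t _ => by
    rw [← sum_filter, sum_const, nsmul_eq_mul]
    refine (mul_le_mul_of_nonneg_right (card_near_le hW hTη t) (by positivity)).trans
      (le_of_eq ?_)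
    ring
  have htot : pairSum W (Icc 1 (3 * L)) (fun n => (blockWeight L n : ℂ)) ≤
      45 * T ^ η * (L : ℝ) ^ 2 * w + (2 * C ^ 2 * (1 + L / T) ^ 2 * w ^ 2 +
        4 * ((J : ℝ) + 1) * (((J : ℝ) + 1) * (2 * (Cb * L * (w ^ 2 + B))))) := by
    calc pairSum W (Icc 1 (3 * L)) (fun n => (blockWeight L n : ℂ))
        = ∑ t ∈ W, ∑ u ∈ W, S (t - u) := by rw [hS]; rfl
      _ ≤ _ := sum_le_sum fun t ht => sum_le_sum fun u hu => hpair t ht u hu
      _ ≤ _ := by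
          simp only [sum_add_distrib, ← mul_sum]
          refine add_le_add ((sum_le_card_nsmul _ _ _ hnearsum).trans (le_of_eq ?_))
            (add_le_add (le_of_eq ?_) (mul_le_mul_of_nonneg_left ?_ (by positivity)))
          · rw [nsmul_eq_mul, hw]; ring
          · simp only [sum_const, nsmul_eq_mul, hw]; ring
          · rw [sum_congr rfl fun t _ => sum_comm, sum_comm,
              sum_congr rfl fun t _ => sum_comm (s := W) (t := range (J + 1)),
              sum_comm (s := W) (t := range (J + 1))]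
            rw [← sum_add_distrib]
            refine (sum_le_card_nsmul _ _ (2 * (Cb * L * (w ^ 2 + B))) fun j hj => ?_).trans
              (le_of_eq ?_)
            · rw [hsymm]; linarith [hpiece j hj]
            · rw [card_range, nsmul_eq_mul]; push_cast; rfl
  rw [blockMean, div_le_iff₀ (by linarith)]
  refine ((pairSum_le_blockWeight W).trans htot).trans ?_
  have h1 : (1 + (L : ℝ) / T) ^ 2 * w ^ 2 ≤ 3 * L * w ^ 2 + 5 * (L : ℝ) ^ 2 * w := by
    have h2 : ((L : ℝ) / T) ^ 2 * w ≤ 5 * (L : ℝ) ^ 2 := by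
      rw [div_pow, div_mul_eq_mul_div, div_le_iff₀ (by positivity)]
      have := mul_le_mul_of_nonneg_left hwT (sq_nonneg (L : ℝ))
      nlinarith [mul_nonneg (sq_nonneg (L : ℝ)) (show 0 ≤ T * (T - 1) by nlinarith)]
    have h3 : (L : ℝ) / T ≤ L := div_le_self (by linarith) (by linarith)
    have h4 := mul_le_mul_of_nonneg_right h2 hw0
    nlinarith [mul_le_mul_of_nonneg_right h3 (sq_nonneg w), mul_nonneg (sq_nonneg w)
      (show (0 : ℝ) ≤ L - 1 by linarith)]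
  have h5 := mul_le_mul_of_nonneg_left h1 (show 0 ≤ 2 * C ^ 2 by positivity)
  have h6 := mul_le_mul_of_nonneg_right hJc (show 0 ≤ 8 * (Cb * L * (w ^ 2 + B)) by positivity)
  have h7 : 2 * C ^ 2 * (3 * L * w ^ 2 + 5 * (L : ℝ) ^ 2 * w) ≤
      30 * C ^ 2 * T ^ η * (L * w + w ^ 2 + B) * L := by
    have : 0 ≤ 30 * C ^ 2 * (L * w + w ^ 2 + B) * L := by positivity
    have e1 : 0 ≤ C ^ 2 * (L : ℝ) ^ 2 * w := by positivity
    have e2 : 0 ≤ C ^ 2 * (L : ℝ) * w ^ 2 := by positivity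
    have e3 : 0 ≤ C ^ 2 * (L : ℝ) * B := by positivity
    nlinarith [mul_le_mul_of_nonneg_left hTη this]
  have h8 : 0 ≤ 45 * T ^ η * (w ^ 2 + B) * L := by positivity
  have h9 : 0 ≤ 8 * c ^ 2 * Cb * T ^ η * (L * w) * L := by positivity
  nlinarith

end FA.GuthMaynard

end
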