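import Mathlib.Analysis.Complex.ExponentialBounds
import Fermat.Agent.GuthMaynard.LargeSieve
import Fermat.Agent.GuthMaynard.Majorant
import Fermat.Agent.GuthMaynard.Reflection

/-!
# Ratios by height

A sum over `N < n, m ≤ 2N` of a function of `n / m` is the diagonal and, for each `H = 2 ^ j ≤ N`,
at most `N / H` times the sum over reduced fractions with terms in `(H, 4H]`; their logarithms are
`1 / (16 H²)`-separated.
-/

set_option autoImplicit false

noncomputable section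

namespace FA.GuthMaynard

open Finset Complex
open scoped Real

/-- The energy of a set of heights: the quadruples with `|t₁ + t₂ - t₃ - t₄| ≤ 1`. -/
def energy (W : Finset ℝ) : ℕ := closePairs (W ×ˢ W) fun p => p.1 + p.2

/-- Coprime pairs in `(H, 4 H]`. -/
def fareyPairs (H : ℕ) : Finset (ℕ × ℕ) :=
  ((Ioc H (4 * H)) ×ˢ (Ioc H (4 * H))).filter fun p => p.1.Coprime p.2

theorem mem_fareyPairs {H : ℕ} {p : ℕ × ℕ} :
    p ∈ fareyPairs H ↔ (H < p.1 ∧ p.1 ≤ 4 * H) ∧ (H < p.2 ∧ p.2 ≤ 4 * H) ∧ p.1.Coprime p.2 := by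
  simp only [fareyPairs, mem_filter, mem_product, mem_Ioc, and_assoc]

/-- The logarithm of the ratio of a pair. -/
def logRatio (p : ℕ × ℕ) : ℝ := Real.log p.2 - Real.log p.1

theorem abs_logRatio_le {H : ℕ} {p : ℕ × ℕ} (hp : p ∈ fareyPairs H) : |logRatio p| ≤ 2 := by
  obtain ⟨⟨a1, a2⟩, ⟨b1, b2⟩, -⟩ := mem_fareyPairs.1 hp
  have hH : 0 < H := by omega
  have h4 : Real.log ((4 * H : ℕ) : ℝ) = 2 * Real.log 2 + Real.log H := by
    push_cast
    rw [Real.log_mul (by norm_num) (Nat.cast_ne_zero.2 hH.ne'),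
      show (4 : ℝ) = 2 ^ 2 by norm_num, Real.log_pow]
    norm_num
  have key : ∀ a : ℕ, H < a → a ≤ 4 * H →
      Real.log H ≤ Real.log a ∧ Real.log a ≤ 2 * Real.log 2 + Real.log H := fun a h1 h2 =>
    ⟨Real.log_le_log (Nat.cast_pos.2 hH) (Nat.cast_le.2 h1.le),
      h4 ▸ Real.log_le_log (Nat.cast_pos.2 (by omega)) (Nat.cast_le.2 h2)⟩
  obtain ⟨x1, x2⟩ := key _ a1 a2
  obtain ⟨y1, y2⟩ := key _ b1 b2
  rw [logRatio, abs_le]
  constructor <;> linarith [Real.log_two_lt_d9]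

theorem inv_le_abs_log_sub {x y B : ℕ} (hx : 0 < x) (hy : 0 < y) (hxB : x ≤ B) (hyB : y ≤ B)
    (hne : x ≠ y) : (B : ℝ)⁻¹ ≤ |Real.log x - Real.log y| := by
  wlog h : x < y generalizing x y
  · rw [abs_sub_comm]
    exact this hy hx hyB hxB (Ne.symm hne) (lt_of_le_of_ne (not_lt.1 h) (Ne.symm hne))
  have hx0 : (0 : ℝ) < x := Nat.cast_pos.2 hx
  have hy0 : (0 : ℝ) < y := Nat.cast_pos.2 hy
  have hxy : (x : ℝ) + 1 ≤ y := by exact_mod_cast h
  rw [abs_sub_comm, ← Real.log_div hy0.ne' hx0.ne']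
  refine le_trans ?_ (le_abs_self _)
  refine le_trans ?_ (Real.one_sub_inv_le_log_of_pos (by positivity))
  rw [inv_div, one_sub_div hy0.ne', inv_eq_one_div, div_le_div_iff₀ (by
    exact_mod_cast (lt_of_lt_of_le hy hyB)) hy0, one_mul]
  calc (y : ℝ) ≤ B := Nat.cast_le.2 hyB
    _ ≤ ((y : ℝ) - x) * B := le_mul_of_one_le_left (Nat.cast_nonneg _) (by linarith)

/-- **The separation of the reduced fractions.** -/
theorem logRatio_separated {H : ℕ} {p q : ℕ × ℕ} (hp : p ∈ fareyPairs H) (hq : q ∈ fareyPairs H)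
    (h : p ≠ q) : (16 * (H : ℝ) ^ 2)⁻¹ ≤ |logRatio p - logRatio q| := by
  obtain ⟨⟨a1, a2⟩, ⟨b1, b2⟩, hc⟩ := mem_fareyPairs.1 hp
  obtain ⟨⟨c1, c2⟩, ⟨d1, d2⟩, hd⟩ := mem_fareyPairs.1 hq
  have hne : p.2 * q.1 ≠ p.1 * q.2 := fun he => by
    have h1 : p.1 ∣ q.1 := hc.dvd_of_dvd_mul_left ⟨q.2, he⟩
    have h2 : q.1 ∣ p.1 := hd.dvd_of_dvd_mul_right ⟨p.2, by rw [← he, mul_comm]⟩
    have e1 : p.1 = q.1 := Nat.dvd_antisymm h1 h2
    rw [← e1, mul_comm] at he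
    exact h (Prod.ext e1 (Nat.eq_of_mul_eq_mul_left (by omega) he))
  have hB : ∀ a b : ℕ, a ≤ 4 * H → b ≤ 4 * H → a * b ≤ 16 * H ^ 2 := fun a b ha hb =>
    (Nat.mul_le_mul ha hb).trans (le_of_eq (by ring))
  have h' := inv_le_abs_log_sub (Nat.mul_pos (by omega) (by omega))
    (Nat.mul_pos (by omega) (by omega)) (hB _ _ b2 c2) (hB _ _ a2 d2) hne
  push_cast at h'
  rw [Real.log_mul (Nat.cast_ne_zero.2 (by omega)) (Nat.cast_ne_zero.2 (by omega)),
    Real.log_mul (Nat.cast_ne_zero.2 (by omega)) (Nat.cast_ne_zero.2 (by omega))] at h'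
  refine h'.trans (le_of_eq ?_)
  rw [logRatio, logRatio]
  congr 1
  ring

/-- **The decomposition by height.** -/
theorem sum_ratio_le {N : ℕ} (f : ℕ → ℕ → ℝ) (hf : ∀ a b, 0 ≤ f a b)
    (hscale : ∀ g a b : ℕ, 0 < g → 0 < a → 0 < b → f (g * a) (g * b) = f a b) :
    ∑ n ∈ Ioc N (2 * N), ∑ m ∈ Ioc N (2 * N), f n m ≤ N * f 1 1 +
      ∑ j ∈ range (Nat.log 2 N + 1), (N : ℝ) / 2 ^ j * ∑ p ∈ fareyPairs (2 ^ j), f p.1 p.2 := by
  classical
  obtain ⟨I, hI⟩ : ∃ I, I = Ioc N (2 * N) := ⟨_, rfl⟩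
  obtain ⟨P, hP⟩ : ∃ P, P = (I ×ˢ I).filter fun x => x.1 ≠ x.2 := ⟨_, rfl⟩
  rw [← hI, ← sum_product', ← sum_filter_add_sum_filter_not (I ×ˢ I) (fun x => x.1 = x.2)]
  refine add_le_add (le_of_eq ?_) ?_
  · rw [sum_congr rfl (g := fun _ => f 1 1) fun x hx => ?_, sum_const, nsmul_eq_mul]
    · congr 2
      rw [card_bij (t := I) (fun x _ => x.1) (fun x hx => (mem_product.1 (mem_filter.1 hx).1).1)
        (fun x hx y hy hxy => Prod.ext hxy
          ((mem_filter.1 hx).2.symm.trans (hxy.trans (mem_filter.1 hy).2)))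
        (fun a ha => ⟨(a, a), mem_filter.2 ⟨mem_product.2 ⟨ha, ha⟩, rfl⟩, rfl⟩), hI,
        Nat.card_Ioc]
      omega
    · rw [mem_filter, mem_product, hI, mem_Ioc] at hx
      rw [← hx.2]
      have := hscale x.1 1 1 (by omega) one_pos one_pos
      rwa [mul_one] at this
  rw [show (I ×ˢ I).filter (fun x => ¬x.1 = x.2) = P from hP.symm]
  have hgcd : ∀ x ∈ P, 0 < x.1.gcd x.2 ∧ x.1.gcd x.2 < N := fun x hx => by
    simp only [hP, hI, mem_filter, mem_product, mem_Ioc] at hx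
    refine ⟨Nat.gcd_pos_of_pos_left _ (by omega), ?_⟩
    rcases Nat.lt_or_gt_of_ne hx.2 with hlt | hlt
    · have h1 := Nat.le_of_dvd (by omega)
        (Nat.dvd_sub (Nat.gcd_dvd_right x.1 x.2) (Nat.gcd_dvd_left x.1 x.2))
      omega
    · have h1 := Nat.le_of_dvd (by omega)
        (Nat.dvd_sub (Nat.gcd_dvd_left x.1 x.2) (Nat.gcd_dvd_right x.1 x.2))
      omega
  rw [← sum_fiberwise_of_maps_to (g := fun x : ℕ × ℕ => Nat.log 2 (N / x.1.gcd x.2))
    (t := range (Nat.log 2 N + 1)) fun x _ =>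
      mem_range.2 (Nat.lt_succ_of_le (Nat.log_mono_right (Nat.div_le_self _ _)))]
  refine sum_le_sum fun j _ => ?_
  obtain ⟨H, hH⟩ : ∃ H, H = 2 ^ j := ⟨_, rfl⟩
  have hH0 : 0 < H := hH ▸ Nat.two_pow_pos j
  rw [← hH, show (2 : ℝ) ^ j = (H : ℝ) by rw [hH]; push_cast; rfl]
  have hfib : ∀ x ∈ P.filter (fun x => Nat.log 2 (N / x.1.gcd x.2) = j),
      x.1.gcd x.2 ∈ Finset.Icc 1 (N / H) ∧
        (x.1 / x.1.gcd x.2, x.2 / x.1.gcd x.2) ∈ fareyPairs H := by
    intro x hx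
    rw [mem_filter] at hx
    obtain ⟨hg0, hgN⟩ := hgcd x hx.1
    have hq : N / x.1.gcd x.2 ≠ 0 := (Nat.div_pos hgN.le hg0).ne'
    have h1 : H * x.1.gcd x.2 ≤ N := by
      refine (Nat.le_div_iff_mul_le hg0).1 ?_
      rw [hH, ← hx.2]
      exact Nat.pow_log_le_self 2 hq
    have h2 : N < 2 * H * x.1.gcd x.2 := by
      refine (Nat.div_lt_iff_lt_mul hg0).1 ?_
      rw [hH, ← pow_succ', ← hx.2]
      exact Nat.lt_pow_succ_log_self one_lt_two _
    refine ⟨Finset.mem_Icc.2 ⟨hg0, (Nat.le_div_iff_mul_le hH0).2 (by linarith)⟩, ?_⟩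
    simp only [hP, hI, mem_filter, mem_product, mem_Ioc] at hx
    obtain ⟨⟨⟨hn, hm⟩, -⟩, -⟩ := hx
    rw [mem_fareyPairs]
    refine ⟨⟨?_, ?_⟩, ⟨?_, ?_⟩, Nat.coprime_div_gcd_div_gcd hg0⟩
    · refine Nat.lt_of_mul_lt_mul_right (a := x.1.gcd x.2) ?_
      rw [Nat.div_mul_cancel (Nat.gcd_dvd_left _ _)]; omega
    · refine Nat.le_of_mul_le_mul_right (c := x.1.gcd x.2) ?_ hg0
      rw [Nat.div_mul_cancel (Nat.gcd_dvd_left _ _)]; linarith
    · refine Nat.lt_of_mul_lt_mul_right (a := x.1.gcd x.2) ?_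
      rw [Nat.div_mul_cancel (Nat.gcd_dvd_right _ _)]; omega
    · refine Nat.le_of_mul_le_mul_right (c := x.1.gcd x.2) ?_ hg0
      rw [Nat.div_mul_cancel (Nat.gcd_dvd_right _ _)]; linarith
  obtain ⟨Φ, hΦ⟩ : ∃ Φ : ℕ × ℕ → ℕ × ℕ × ℕ,
      Φ = fun x => (x.1.gcd x.2, x.1 / x.1.gcd x.2, x.2 / x.1.gcd x.2) := ⟨_, rfl⟩
  have hinj : Set.InjOn Φ (P.filter fun x => Nat.log 2 (N / x.1.gcd x.2) = j) := fun x _ y _ h => by
    simp only [hΦ, Prod.mk.injEq] at h
    refine Prod.ext ?_ ?_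
    · rw [← Nat.div_mul_cancel (Nat.gcd_dvd_left x.1 x.2), h.2.1, h.1,
        Nat.div_mul_cancel (Nat.gcd_dvd_left y.1 y.2)]
    · rw [← Nat.div_mul_cancel (Nat.gcd_dvd_right x.1 x.2), h.2.2, h.1,
        Nat.div_mul_cancel (Nat.gcd_dvd_right y.1 y.2)]
  calc ∑ x ∈ P.filter (fun x => Nat.log 2 (N / x.1.gcd x.2) = j), f x.1 x.2
      = ∑ x ∈ P.filter (fun x => Nat.log 2 (N / x.1.gcd x.2) = j),
          f (Φ x).2.1 (Φ x).2.2 := by
        refine sum_congr rfl fun x hx => ?_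
        have hg := (hfib x hx).1
        obtain ⟨⟨ha, -⟩, ⟨hb, -⟩, -⟩ := mem_fareyPairs.1 (hfib x hx).2
        rw [Finset.mem_Icc] at hg
        rw [hΦ]
        simp only
        rw [← hscale (x.1.gcd x.2) (x.1 / x.1.gcd x.2) (x.2 / x.1.gcd x.2) (by omega) (by omega)
          (by omega),
          Nat.mul_div_cancel' (Nat.gcd_dvd_left _ _), Nat.mul_div_cancel' (Nat.gcd_dvd_right _ _)]
    _ = ∑ y ∈ (P.filter fun x => Nat.log 2 (N / x.1.gcd x.2) = j).image Φ, f y.2.1 y.2.2 :=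
        (sum_image (g := Φ) (f := fun y : ℕ × ℕ × ℕ => f y.2.1 y.2.2) hinj).symm
    _ ≤ ∑ y ∈ Finset.Icc 1 (N / H) ×ˢ fareyPairs H, f y.2.1 y.2.2 :=
        sum_le_sum_of_subset_of_nonneg (image_subset_iff.2 fun x hx =>
          mem_product.2 (hΦ ▸ hfib x hx)) fun y _ _ => hf _ _
    _ ≤ _ := by
        rw [sum_product]
        dsimp only
        rw [sum_const, Nat.card_Icc, Nat.add_sub_cancel, nsmul_eq_mul]
        exact mul_le_mul_of_nonneg_right Nat.cast_div_le (sum_nonneg fun y _ => hf _ _)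

theorem closePairs_id_le {W : Finset ℝ} (hW : Separated W) :
    (closePairs W id : ℝ) ≤ 5 * W.card := by
  classical
  rw [closePairs, card_filter, sum_product, Nat.cast_sum]
  refine (sum_le_card_nsmul _ _ 5 fun t ht => ?_).trans (le_of_eq (by rw [nsmul_eq_mul, mul_comm]))
  rw [← card_filter]
  refine le_trans (le_of_eq ?_) ((card_near_le hW le_rfl t).trans (le_of_eq (by norm_num)))
  exact congrArg _ (congrArg _ (filter_congr fun u _ => by simp [abs_sub_comm]))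

/-- **The large sieve at the reduced fractions.** -/
theorem exists_farey_le : ∃ C, 0 ≤ C ∧ ∀ (T : ℝ) (W : Finset ℝ) (H : ℕ), 1 ≤ T →
    (∀ t ∈ W, |t| ≤ T) → Separated W → 1 ≤ H →
      ∑ p ∈ fareyPairs H, charNorm W (Real.log p.1 - Real.log p.2) ^ 2 ≤
          C * (T + (H : ℝ) ^ 2) * W.card ∧
      ∑ p ∈ fareyPairs H, charNorm W (Real.log p.1 - Real.log p.2) ^ 4 ≤
          C * (T + (H : ℝ) ^ 2) * energy W := by
  obtain ⟨C, hC, h⟩ := exists_large_sieve_le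
  refine ⟨16 * C * 5, by positivity, fun T W H hT hb hW hH => ?_⟩
  classical
  have hH1 : (1 : ℝ) ≤ H := Nat.one_le_cast.2 hH
  have hδ0 : 0 < (16 * (H : ℝ) ^ 2)⁻¹ := by positivity
  have hδ1 : (16 * (H : ℝ) ^ 2)⁻¹ ≤ 1 := inv_le_one_of_one_le₀ (by nlinarith)
  have hinj : Set.InjOn logRatio (fareyPairs H) := fun p hp q hq hpq => by
    by_contra hne
    have := logRatio_separated hp hq hne
    rw [hpq, sub_self, abs_zero] at this
    linarith
  have hX : ∀ x ∈ (fareyPairs H).image logRatio, |x| ≤ 2 := fun x hx => by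
    obtain ⟨p, hp, rfl⟩ := mem_image.1 hx
    exact abs_logRatio_le hp
  have hsep : ∀ x ∈ (fareyPairs H).image logRatio, ∀ y ∈ (fareyPairs H).image logRatio,
      x ≠ y → (16 * (H : ℝ) ^ 2)⁻¹ ≤ |x - y| := fun x hx y hy hxy => by
    obtain ⟨p, hp, rfl⟩ := mem_image.1 hx
    obtain ⟨q, hq, rfl⟩ := mem_image.1 hy
    exact logRatio_separated hp hq fun e => hxy (by rw [e])
  have hchar : ∀ p : ℕ × ℕ, charNorm W (Real.log p.1 - Real.log p.2) =
      ‖∑ t ∈ W, Complex.exp (((t * logRatio p : ℝ) : ℂ) * Complex.I)‖ := fun p => by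
    refine congrArg norm (sum_congr rfl fun t _ => ?_)
    rw [logRatio]
    congr 2
    push_cast
    ring
  constructor
  · have h2 := h W id T _ _ hT hδ0 hδ1 hb hX hsep
    rw [sum_image hinj] at h2
    simp only [hchar]
    refine h2.trans ?_
    rw [one_div, inv_inv]
    calc C * (T + 16 * (H : ℝ) ^ 2) * closePairs W id
        ≤ C * (16 * (T + (H : ℝ) ^ 2)) * (5 * W.card) :=
          mul_le_mul (mul_le_mul_of_nonneg_left (by linarith) hC) (closePairs_id_le hW)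
            (Nat.cast_nonneg _) (by positivity)
      _ = _ := by ring
  · have h4 := h (W ×ˢ W) (fun p => p.1 + p.2) (2 * T) _ _ (by linarith) hδ0 hδ1
      (fun p hp => (abs_add_le _ _).trans (by
        linarith [hb p.1 (mem_product.1 hp).1, hb p.2 (mem_product.1 hp).2])) hX hsep
    rw [sum_image hinj] at h4
    refine le_trans (le_of_eq (sum_congr rfl fun p _ => ?_)) (h4.trans ?_)
    · rw [hchar, show (4 : ℕ) = 2 * 2 from rfl, pow_mul, ← norm_pow, sq (∑ t ∈ W, _),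
        sum_mul_sum, sum_product]
      congr 2
      refine sum_congr rfl fun t _ => sum_congr rfl fun u _ => ?_
      rw [← Complex.exp_add]
      congr 1
      push_cast
      ring
    · rw [one_div, inv_inv, energy]
      refine mul_le_mul_of_nonneg_right ?_ (Nat.cast_nonneg _)
      calc C * (2 * T + 16 * (H : ℝ) ^ 2) ≤ C * (80 * (T + (H : ℝ) ^ 2)) :=
            mul_le_mul_of_nonneg_left (by nlinarith) hC
        _ = _ := by ring

end FA.GuthMaynard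

end
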