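import Fermat.Agent.GuthMaynard.HeathBrown
import Fermat.Agent.GuthMaynard.Farey

/-!
# The energy of large values

If a Dirichlet polynomial of length `N` with bounded coefficients is at least `V` on a separated
set `W` of heights up to `T` then the energy `E` of `W` satisfies `E V² = O (T ^ ε N (|W|³ +
N (|W| E) ^ (1/2) + T ^ (1/4) |W| ^ (21/8) + E ^ (3/8) (T ^ (1/4) |W| ^ (3/2) + T ^ (1/2)
|W| ^ (9/8))))`: reduced fractions of height at least `√T` by the large sieve, the others by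
Heath-Brown's double sum.
-/

set_option autoImplicit false

noncomputable section

namespace FA.GuthMaynard

open Finset Complex
open FA.Hoheisel (dpoly)
open scoped Real ComplexConjugate

/-- A logarithm below a power of `T`. -/
theorem exists_log_le {η : ℝ} (hη : 0 < η) : ∃ C, 1 ≤ C ∧ ∀ (T : ℝ) (k : ℕ), 1 ≤ T →
    (2 : ℝ) ^ k ≤ 64 * T ^ 4 → (k : ℝ) + 1 ≤ C * T ^ η := by
  refine ⟨7 + 4 / (η * Real.log 2), by
    have : 0 ≤ 4 / (η * Real.log 2) := by positivity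
    linarith, fun T k hT hk => ?_⟩
  have hl2 : 0 < Real.log 2 := Real.log_pos one_lt_two
  have h := Real.log_le_log (by positivity) hk
  rw [Real.log_mul (by norm_num) (by positivity), show (64 : ℝ) = 2 ^ 6 by norm_num, Real.log_pow,
    Real.log_pow, Real.log_pow] at h
  push_cast at h
  have h1 := Real.log_le_rpow_div (show 0 ≤ T by linarith) hη
  have h2 : 1 ≤ T ^ η := Real.one_le_rpow hT hη.le
  have h3 : (k : ℝ) ≤ 6 + 4 * (T ^ η / η) / Real.log 2 := by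
    refine le_of_mul_le_mul_right ?_ hl2
    rw [add_mul, div_mul_cancel₀ _ hl2.ne']
    linarith
  have e : 4 * (T ^ η / η) / Real.log 2 = 4 / (η * Real.log 2) * T ^ η := by
    field_simp
  rw [e] at h3
  linarith

theorem energy_le_cube {W : Finset ℝ} (hW : Separated W) :
    (energy W : ℝ) ≤ 5 * (W.card : ℝ) ^ 3 := by
  classical
  rw [energy, closePairs, card_filter, sum_product, Nat.cast_sum]
  refine (sum_le_card_nsmul _ _ (5 * (W.card : ℝ)) fun p _ => ?_).trans (le_of_eq ?_)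
  · rw [sum_product, Nat.cast_sum]
    refine (sum_le_card_nsmul _ _ 5 fun t _ => ?_).trans (le_of_eq ?_)
    · rw [← card_filter]
      refine le_trans (le_of_eq ?_) ((card_near_le hW le_rfl (p.1 + p.2 - t)).trans
        (le_of_eq (by norm_num)))
      refine congrArg _ (congrArg _ (filter_congr fun u _ => ?_))
      rw [abs_sub_comm, show t + u - (p.1 + p.2) = u - (p.1 + p.2 - t) by ring]
    · rw [nsmul_eq_mul, mul_comm]
  · rw [card_product, nsmul_eq_mul]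
    push_cast
    ring

theorem charNorm_exp_triple (W : Finset ℝ) (θ : ℝ) :
    ‖∑ j ∈ (W ×ˢ W) ×ˢ W,
      Complex.exp (((-((j.1.1 + j.1.2 - j.2) * θ) : ℝ) : ℂ) * Complex.I)‖ = charNorm W θ ^ 3 := by
  obtain ⟨F, hF⟩ : ∃ F : ℂ, F = ∑ t ∈ W, Complex.exp (((-(t * θ) : ℝ) : ℂ) * Complex.I) :=
    ⟨_, rfl⟩
  have e : ∑ j ∈ (W ×ˢ W) ×ˢ W,
      Complex.exp (((-((j.1.1 + j.1.2 - j.2) * θ) : ℝ) : ℂ) * Complex.I) = F * F * conj F := by
    rw [hF, map_sum, sum_mul_sum, sum_product, sum_product, sum_mul]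
    refine sum_congr rfl fun t _ => ?_
    rw [sum_mul]
    refine sum_congr rfl fun u _ => ?_
    rw [mul_sum]
    refine sum_congr rfl fun v _ => ?_
    rw [conj_exp_real_mul_I, ← Complex.exp_add, ← Complex.exp_add]
    congr 1
    push_cast
    ring
  rw [e, norm_mul, norm_mul, Complex.norm_conj, charNorm, hF]
  ring

/-- **The energy through the ratios.** -/
theorem energy_mul_sq_le {W : Finset ℝ} (hW : Separated W) {N : ℕ} {b : ℕ → ℂ} {V : ℝ}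
    (hV : 0 ≤ V) (hb : ∀ n, ‖b n‖ ≤ 1)
    (hbig : ∀ t ∈ W, V ≤ ‖dpoly (Ioc N (2 * N)) b t‖) :
    (energy W : ℝ) * V ^ 2 ≤ 30 * ∑ n ∈ Ioc N (2 * N), ∑ m ∈ Ioc N (2 * N),
      charNorm W (Real.log n - Real.log m) ^ 3 := by
  classical
  obtain ⟨s, hs⟩ : ∃ s, s = Ioc N (2 * N) := ⟨_, rfl⟩
  have hs1 : ∀ n ∈ s, 1 ≤ n := fun n hn => one_le_of_mem_block (hs ▸ hn)
  rw [← hs] at hbig ⊢
  obtain ⟨Q, hQ⟩ : ∃ Q, Q = ((W ×ˢ W) ×ˢ (W ×ˢ W)).filter
      fun x => |(x.1.1 + x.1.2) - (x.2.1 + x.2.2)| ≤ 1 := ⟨_, rfl⟩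
  obtain ⟨J, hJ⟩ : ∃ J, J = (W ×ˢ W) ×ˢ W := ⟨_, rfl⟩
  have hlog : ∀ n ∈ s, |Real.log n - Real.log N| ≤ 1 := fun n hn => by
    rw [hs, mem_Ioc] at hn
    have hN : (0 : ℝ) < N := Nat.cast_pos.2 (by omega)
    have h1 : Real.log N ≤ Real.log n := Real.log_le_log hN (Nat.cast_le.2 hn.1.le)
    have h2 : Real.log n ≤ Real.log 2 + Real.log N := by
      rw [← Real.log_mul two_ne_zero hN.ne']
      exact Real.log_le_log (Nat.cast_pos.2 (by omega)) (by exact_mod_cast hn.2)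
    rw [abs_le]
    constructor <;> linarith [Real.log_two_lt_d9]
  have h1 : (energy W : ℝ) * V ^ 2 ≤
      ∑ x ∈ Q, shiftAvg N s b (x.1.1 + x.1.2 - x.2.1) := by
    rw [energy, closePairs, ← nsmul_eq_mul, hQ]
    refine card_nsmul_le_sum _ _ _ fun x hx => ?_
    rw [mem_filter, mem_product, mem_product, mem_product] at hx
    refine le_trans (pow_le_pow_left₀ hV (hbig _ hx.1.2.2) 2) (norm_sq_le_shiftAvg hs1 N b ?_)
    rw [abs_sub_comm]
    refine le_trans (le_of_eq ?_) hx.2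
    ring_nf
  have h2 : ∑ x ∈ Q, shiftAvg N s b (x.1.1 + x.1.2 - x.2.1) ≤
      5 * ∑ j ∈ J, shiftAvg N s b (j.1.1 + j.1.2 - j.2) := by
    rw [hQ, hJ, sum_filter, sum_product, sum_product (s := W ×ˢ W) (t := W), mul_sum]
    refine sum_le_sum fun p _ => ?_
    rw [sum_product, mul_sum]
    refine sum_le_sum fun t _ => ?_
    dsimp only
    rw [← sum_filter, sum_const, nsmul_eq_mul]
    refine mul_le_mul_of_nonneg_right ?_ (shiftAvg_nonneg _ _ _ _)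
    refine le_trans (le_of_eq ?_) ((card_near_le hW le_rfl (p.1 + p.2 - t)).trans
      (le_of_eq (by norm_num)))
    refine congrArg _ (congrArg _ (filter_congr fun u _ => ?_))
    rw [abs_sub_comm, show t + u - (p.1 + p.2) = u - (p.1 + p.2 - t) by ring]
  have h3 := sum_shiftAvg_le hs1 N (fun n _ => hb n) hlog zero_le_one J
    fun j => j.1.1 + j.1.2 - j.2
  simp only [hJ, charNorm_exp_triple] at h3 h2
  refine h1.trans (h2.trans ?_)
  linarith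

/-- Heath-Brown's double sum for a block of ratio four. -/
theorem exists_four_le {η : ℝ} (hη : 0 < η) : ∃ C, 0 ≤ C ∧
    ∀ (T : ℝ) (W : Finset ℝ) (H : ℕ), 2 ≤ T → (∀ t ∈ W, |t| ≤ 3 * T) → Separated W → 1 ≤ H →
      pairSum W (Ioc H (4 * H)) (fun _ => 1) ≤ C * T ^ η * H *
        (H * W.card + (W.card : ℝ) ^ 2 + (W.card : ℝ) ^ (5 / 4 : ℝ) * √T) := by
  obtain ⟨C, hC, h⟩ := exists_blockMean_le hη
  refine ⟨24 * C * (3 : ℝ) ^ η, by positivity, fun T W H hT hb hW hH => ?_⟩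
  have hT0 : 0 < T := by linarith
  obtain ⟨w, hw⟩ : ∃ w : ℝ, w = W.card := ⟨_, rfl⟩
  have hw0 : 0 ≤ w := hw ▸ Nat.cast_nonneg _
  obtain ⟨Z, hZ⟩ : ∃ Z, Z = (H : ℝ) * w + w ^ 2 + w ^ (5 / 4 : ℝ) * √T := ⟨_, rfl⟩
  rw [← hw, ← hZ]
  have h3T : √(3 * T) ≤ 2 * √T := by
    rw [Real.sqrt_le_iff]
    exact ⟨by positivity, by rw [mul_pow, Real.sq_sqrt hT0.le]; linarith⟩
  have hw54 : 0 ≤ w ^ (5 / 4 : ℝ) := Real.rpow_nonneg hw0 _
  have h1 : ∀ M : ℕ, 1 ≤ M → M ≤ 2 * H →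
      blockMean W M ≤ 4 * C * (3 : ℝ) ^ η * T ^ η * Z := fun M hM hMH => by
    refine (h (3 * T) W M (by linarith) hb hW hM).trans ?_
    rw [← hw, Real.mul_rpow (by norm_num) hT0.le, ← mul_assoc, hZ]
    have hM' : (M : ℝ) ≤ 2 * H := by exact_mod_cast hMH
    calc C * (3 : ℝ) ^ η * T ^ η * (M * w + w ^ 2 + w ^ (5 / 4 : ℝ) * √(3 * T))
        ≤ C * (3 : ℝ) ^ η * T ^ η * (4 * (H * w + w ^ 2 + w ^ (5 / 4 : ℝ) * √T)) := by
          refine mul_le_mul_of_nonneg_left ?_ (by positivity)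
          nlinarith [mul_le_mul_of_nonneg_right hM' hw0, mul_le_mul_of_nonneg_left h3T hw54,
            mul_nonneg hw54 (Real.sqrt_nonneg T), sq_nonneg w,
            mul_nonneg (Nat.cast_nonneg (α := ℝ) H) hw0]
      _ = _ := by ring
  refine (pairSum_four_le W H).trans ?_
  have hH0 : (0 : ℝ) ≤ 2 * H := by positivity
  refine (mul_le_mul_of_nonneg_left (add_le_add (h1 H hH (by omega))
    (mul_le_mul_of_nonneg_left (h1 (2 * H) (by omega) le_rfl) zero_le_two)) hH0).trans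
    (le_of_eq ?_)
  ring

/-- The squares of the fibres of the integral part. -/
theorem sum_sq_fiber_le {ι : Type*} (I : Finset ι) (s : ι → ℝ) (U : Finset ℤ) :
    ∑ j ∈ U, ((I.filter fun i => ⌊s i⌋ = j).card : ℝ) ^ 2 ≤ closePairs I s := by
  classical
  calc ∑ j ∈ U, ((I.filter fun i => ⌊s i⌋ = j).card : ℝ) ^ 2
      = ∑ j ∈ U, ∑ _i ∈ I.filter (fun i => ⌊s i⌋ = j),
          ((I.filter fun i => ⌊s i⌋ = j).card : ℝ) :=
        sum_congr rfl fun j _ => by rw [sum_const, nsmul_eq_mul, sq]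
    _ = ∑ j ∈ U, ∑ i ∈ I.filter (fun i => ⌊s i⌋ = j),
          ((I.filter fun k => ⌊s k⌋ = ⌊s i⌋).card : ℝ) :=
        sum_congr rfl fun j _ => sum_congr rfl fun i hi => by rw [(mem_filter.1 hi).2]
    _ ≤ ∑ i ∈ I, ((I.filter fun k => ⌊s k⌋ = ⌊s i⌋).card : ℝ) := by
        rw [← sum_biUnion fun a _ b _ hab => disjoint_left.2 fun x hx hx' =>
          hab ((mem_filter.1 hx).2.symm.trans (mem_filter.1 hx').2)]
        exact sum_le_sum_of_subset_of_nonneg (biUnion_subset.2 fun j _ => filter_subset _ _)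
          fun i _ _ => Nat.cast_nonneg _
    _ ≤ _ := by
        rw [closePairs, card_filter, sum_product, Nat.cast_sum]
        refine sum_le_sum fun i _ => ?_
        rw [← card_filter]
        exact Nat.cast_le.2 (card_le_card fun k hk => by
          simp only [mem_filter] at hk ⊢
          exact ⟨hk.1, (Int.abs_sub_lt_one_of_floor_eq_floor hk.2.symm).le⟩)

/-- **The fourth moment at fractions of small height.** -/
theorem exists_quart_ratio_le {η : ℝ} (hη : 0 < η) : ∃ C, 0 ≤ C ∧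
    ∀ (T : ℝ) (W : Finset ℝ) (H : ℕ), 2 ≤ T → (∀ t ∈ W, |t| ≤ T) → Separated W → 1 ≤ H →
      ∑ p ∈ fareyPairs H, charNorm W (Real.log p.1 - Real.log p.2) ^ 4 ≤ C * T ^ η * H *
        (H * energy W + (W.card : ℝ) ^ 4 + √T * W.card * (energy W : ℝ) ^ (3 / 4 : ℝ)) := by
  obtain ⟨Cf, hCf, hfour⟩ := exists_four_le (show 0 < η / 3 by positivity)
  obtain ⟨c, hc, hlog⟩ := exists_log_le (show 0 < η / 3 by positivity)
  refine ⟨96 * c ^ 2 * Cf, by positivity, fun T W H hT hbd hW hH => ?_⟩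
  classical
  have hT0 : 0 < T := by linarith
  obtain ⟨I, hI⟩ : ∃ I, I = W ×ˢ W := ⟨_, rfl⟩
  obtain ⟨σ, hσ⟩ : ∃ σ : ℝ × ℝ → ℝ, σ = fun p => p.1 + p.2 := ⟨_, rfl⟩
  obtain ⟨w, hw⟩ : ∃ w : ℝ, w = W.card := ⟨_, rfl⟩
  obtain ⟨E, hE⟩ : ∃ E : ℝ, E = energy W := ⟨_, rfl⟩
  have hw0 : 0 ≤ w := hw ▸ Nat.cast_nonneg _
  have hE0 : 0 ≤ E := hE ▸ Nat.cast_nonneg _
  rw [← hw, ← hE]
  obtain ⟨S, hS⟩ : ∃ S, S = Ioc H (4 * H) := ⟨_, rfl⟩
  have hS1 : ∀ n ∈ S, 1 ≤ n := fun n hn => by rw [hS, mem_Ioc] at hn; omega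
  have hlogS : ∀ n ∈ S, |Real.log n - Real.log H| ≤ 2 := fun n hn => by
    rw [hS, mem_Ioc] at hn
    have hH0 : (0 : ℝ) < H := Nat.cast_pos.2 hH
    have h1 : Real.log H ≤ Real.log n := Real.log_le_log hH0 (Nat.cast_le.2 hn.1.le)
    have h2 : Real.log n ≤ 2 * Real.log 2 + Real.log H := by
      rw [show 2 * Real.log 2 = Real.log 4 by
          rw [show (4 : ℝ) = 2 ^ 2 by norm_num, Real.log_pow]; norm_num,
        ← Real.log_mul (by norm_num) hH0.ne']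
      exact Real.log_le_log (Nat.cast_pos.2 (by omega)) (by exact_mod_cast hn.2)
    rw [abs_le]
    constructor <;> linarith [Real.log_two_lt_d9]
  obtain ⟨J, hJ⟩ : ∃ J, J = I.image fun i => ⌊σ i⌋ := ⟨_, rfl⟩
  obtain ⟨r, hr⟩ : ∃ r : ℤ → ℕ, r = fun j => (I.filter fun i => ⌊σ i⌋ = j).card := ⟨_, rfl⟩
  obtain ⟨F, hF⟩ : ∃ F : Finset ℤ → ℝ → ℂ, F = fun U θ =>
      ∑ j ∈ U, ((r j : ℝ) : ℂ) * Complex.exp (((-((j : ℝ) * θ) : ℝ) : ℂ) * Complex.I) :=
    ⟨_, rfl⟩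
  -- to the integral parts
  have step1 : ∑ p ∈ fareyPairs H, charNorm W (Real.log p.1 - Real.log p.2) ^ 4 ≤
      12 * ∑ n ∈ S, ∑ m ∈ S, ‖F J (Real.log n - Real.log m)‖ ^ 2 := by
    calc ∑ p ∈ fareyPairs H, charNorm W (Real.log p.1 - Real.log p.2) ^ 4
        ≤ ∑ n ∈ S, ∑ m ∈ S, charNorm W (Real.log n - Real.log m) ^ 4 := by
          rw [fareyPairs, ← hS, ← sum_product']
          exact sum_le_sum_of_subset_of_nonneg (filter_subset _ _) fun x _ _ =>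
            pow_nonneg (charNorm_nonneg _ _) 4
      _ = ∑ i ∈ I, ∑ k ∈ I, ‖dpoly S (fun _ => 1) (σ i - σ k)‖ ^ 2 := by
          have h := weightedPairs_eq hS1 I (fun _ => (1 : ℝ)) σ
          simp only [one_mul, ofReal_one] at h
          rw [h]
          refine sum_congr rfl fun n _ => sum_congr rfl fun m _ => ?_
          rw [charNorm, show (4 : ℕ) = 2 * 2 from rfl, pow_mul, ← norm_pow, sq (∑ t ∈ W, _),
            sum_mul_sum, hI, sum_product]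
          congr 2
          refine sum_congr rfl fun t _ => sum_congr rfl fun u _ => ?_
          rw [hσ, ← Complex.exp_add]
          congr 1
          push_cast
          ring
      _ ≤ ∑ x ∈ I ×ˢ I, shiftAvg H S (fun _ => 1) ((⌊σ x.1⌋ : ℝ) - ⌊σ x.2⌋) := by
          rw [sum_product]
          refine sum_le_sum fun i _ => sum_le_sum fun k _ => norm_sq_le_shiftAvg hS1 H _ ?_
          rw [abs_le]
          constructor <;> linarith [Int.floor_le (σ i), Int.lt_floor_add_one (σ i),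
            Int.floor_le (σ k), Int.lt_floor_add_one (σ k)]
      _ ≤ _ := by
          refine (sum_shiftAvg_le hS1 H (fun n _ => by simp) hlogS zero_le_two (I ×ˢ I)
            fun x => (⌊σ x.1⌋ : ℝ) - ⌊σ x.2⌋).trans (le_of_eq ?_)
          rw [show (2 : ℝ) * (2 + 2 ^ 2) = 12 by norm_num]
          congr 1
          refine sum_congr rfl fun n _ => sum_congr rfl fun m _ => ?_
          obtain ⟨θ, hθ⟩ : ∃ θ, θ = Real.log n - Real.log m := ⟨_, rfl⟩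
          rw [← hθ]
          have e : ∑ i ∈ I, Complex.exp (((-((⌊σ i⌋ : ℝ) * θ) : ℝ) : ℂ) * Complex.I) = F J θ := by
            rw [hF, hJ, sum_comp (fun j : ℤ =>
              Complex.exp (((-((j : ℝ) * θ) : ℝ) : ℂ) * Complex.I)) fun i => ⌊σ i⌋]
            refine sum_congr rfl fun j _ => ?_
            rw [nsmul_eq_mul, hr, Complex.ofReal_natCast]
          have e2 : ∑ x ∈ I ×ˢ I, Complex.exp
              (((-(((⌊σ x.1⌋ : ℝ) - ⌊σ x.2⌋) * θ) : ℝ) : ℂ) * Complex.I) =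
              F J θ * conj (F J θ) := by
            rw [← e, map_sum, sum_mul_sum, sum_product]
            refine sum_congr rfl fun i _ => sum_congr rfl fun k _ => ?_
            rw [conj_exp_real_mul_I, ← Complex.exp_add]
            congr 1
            push_cast
            ring
          rw [e2, norm_mul, Complex.norm_conj, sq]
  -- levels
  obtain ⟨K, hK⟩ : ∃ K, K = Nat.log 2 I.card + 1 := ⟨_, rfl⟩
  have hwT : w ≤ 5 * T := hw ▸ card_le_five_mul hW (by linarith) hbd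
  have hKle : (K : ℝ) ≤ c * T ^ (η / 3) := by
    rw [hK]
    push_cast
    rcases Nat.eq_zero_or_pos I.card with h0 | h0
    · rw [h0, Nat.log_zero_right, Nat.cast_zero, zero_add]
      exact one_le_mul_of_one_le_of_one_le hc (Real.one_le_rpow (by linarith) (by positivity))
    refine hlog T _ (by linarith) ?_
    calc (2 : ℝ) ^ Nat.log 2 I.card ≤ (I.card : ℝ) := by
          exact_mod_cast Nat.pow_log_le_self 2 h0.ne'
      _ = w ^ 2 := by rw [hI, card_product, hw]; push_cast; ring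
      _ ≤ 64 * T ^ 4 := by
          have h4 : T ^ 2 ≤ T ^ 4 := pow_le_pow_right₀ (by linarith) (by norm_num)
          nlinarith [pow_le_pow_left₀ hw0 hwT 2]
  obtain ⟨U, hU⟩ : ∃ U : ℕ → Finset ℤ, U = fun k => J.filter fun j => Nat.log 2 (r j) = k :=
    ⟨_, rfl⟩
  have hlevel : ∀ θ : ℝ, ‖F J θ‖ ^ 2 ≤ K * ∑ k ∈ range K, ‖F (U k) θ‖ ^ 2 := fun θ => by
    have e : F J θ = ∑ k ∈ range K, F (U k) θ := by
      rw [hF, hU]
      refine (sum_fiberwise_of_maps_to (fun j hj => ?_) _).symm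
      rw [mem_range, hK, hr]
      exact Nat.lt_succ_of_le (Nat.log_mono_right (card_le_card (filter_subset _ _)))
    rw [e]
    refine (pow_le_pow_left₀ (norm_nonneg _) (norm_sum_le _ _) 2).trans ?_
    refine sq_sum_le_card_mul_sum_sq.trans (le_of_eq ?_)
    rw [card_range]
  obtain ⟨Z, hZ⟩ : ∃ Z, Z = (H : ℝ) * E + w ^ 4 + √T * w * E ^ (3 / 4 : ℝ) := ⟨_, rfl⟩
  rw [← hZ]
  have hZ0 : 0 ≤ Z := hZ ▸ by positivity
  have step2 : ∀ k ∈ range K, ∑ n ∈ S, ∑ m ∈ S, ‖F (U k) (Real.log n - Real.log m)‖ ^ 2 ≤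
      8 * Cf * T ^ (η / 3) * H * Z := by
    intro k _
    obtain ⟨B, hB⟩ : ∃ B : ℝ, B = 2 ^ (k + 1) := ⟨_, rfl⟩
    have hB0 : 0 ≤ B := hB ▸ by positivity
    have hmemU : ∀ j ∈ U k, (r j : ℝ) ≤ B ∧ B ≤ 2 * r j ∧ |(j : ℝ)| ≤ 3 * T := fun j hj => by
      rw [hU, mem_filter, hJ, mem_image] at hj
      obtain ⟨⟨i, hi, hij⟩, hlk⟩ := hj
      have hr1 : 1 ≤ r j := by
        rw [hr]
        exact card_pos.2 ⟨i, mem_filter.2 ⟨hi, hij⟩⟩
      refine ⟨?_, ?_, ?_⟩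
      · rw [hB]
        exact_mod_cast (hlk ▸ (Nat.lt_pow_succ_log_self one_lt_two (r j)).le)
      · rw [hB, pow_succ', ← hlk]
        exact_mod_cast Nat.mul_le_mul_left 2 (Nat.pow_log_le_self 2 (by omega : r j ≠ 0))
      · rw [hI, mem_product] at hi
        have h1 := abs_le.1 (hbd _ hi.1)
        have h2 := abs_le.1 (hbd _ hi.2)
        have h3 : (⌊σ i⌋ : ℝ) ≤ σ i := Int.floor_le _
        have h4 : σ i < ⌊σ i⌋ + 1 := Int.lt_floor_add_one _
        rw [hij, hσ] at h3 h4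
        rw [abs_le]
        constructor <;> linarith
    have h := weightedPairs_eq hS1 (U k) (fun j => (r j : ℝ)) (fun j : ℤ => (j : ℝ))
    simp only [hF]
    rw [← h]
    obtain ⟨V', hV'⟩ : ∃ V', V' = (U k).image fun j : ℤ => (j : ℝ) := ⟨_, rfl⟩
    have hcard : (V'.card : ℝ) = (U k).card := by
      rw [hV', card_image_of_injective _ Int.cast_injective]
    have hsep : Separated V' := fun a ha b hb hab => by
      rw [hV', mem_image] at ha hb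
      obtain ⟨i, -, rfl⟩ := ha
      obtain ⟨j, -, rfl⟩ := hb
      have : i - j ≠ 0 := sub_ne_zero.2 fun e => hab (by rw [e])
      exact_mod_cast Int.one_le_abs this
    have hbd' : ∀ a ∈ V', |a| ≤ 3 * T := fun a ha => by
      rw [hV', mem_image] at ha
      obtain ⟨i, hi, rfl⟩ := ha
      exact (hmemU i hi).2.2
    have h4 := hfour T V' H hT hbd' hsep hH
    rw [hcard, ← hS, pairSum, hV', sum_image Int.cast_injective.injOn] at h4
    simp only [sum_image Int.cast_injective.injOn] at h4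
    refine ((sum_le_sum fun i hi => sum_le_sum fun l hl => mul_le_mul_of_nonneg_right
      (mul_le_mul (hmemU i hi).1 (hmemU l hl).1 (Nat.cast_nonneg _) hB0) (sq_nonneg _)).trans ?_)
    simp only [← mul_sum]
    refine (mul_le_mul_of_nonneg_left h4 (mul_nonneg hB0 hB0)).trans ?_
    obtain ⟨u, hu⟩ : ∃ u : ℝ, u = (U k).card := ⟨_, rfl⟩
    rw [← hu]
    have hu0 : 0 ≤ u := hu ▸ Nat.cast_nonneg _
    have a1 : B * u ≤ 2 * w ^ 2 := by
      have h1 : B * u ≤ ∑ j ∈ U k, 2 * (r j : ℝ) := by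
        rw [hu, mul_comm, ← nsmul_eq_mul]
        exact card_nsmul_le_sum _ _ _ fun j hj => (hmemU j hj).2.1
      refine h1.trans ?_
      rw [← mul_sum]
      refine mul_le_mul_of_nonneg_left ?_ zero_le_two
      have h2 : ∑ j ∈ J, (r j : ℝ) = I.card := by
        rw [hJ, card_eq_sum_card_image (fun i => ⌊σ i⌋) I, hr]
        push_cast
        rfl
      refine (sum_le_sum_of_subset_of_nonneg (show U k ⊆ J from hU ▸ filter_subset _ _)
        fun j _ _ => Nat.cast_nonneg _).trans (le_of_eq ?_)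
      rw [h2, hI, card_product, hw]
      push_cast
      ring
    have a2 : B * B * u ≤ 4 * E := by
      have h1 : B * B * u ≤ ∑ j ∈ U k, 4 * (r j : ℝ) ^ 2 := by
        rw [hu, mul_comm, ← nsmul_eq_mul]
        refine card_nsmul_le_sum _ _ _ fun j hj => ?_
        nlinarith [(hmemU j hj).2.1]
      refine h1.trans ?_
      rw [← mul_sum]
      refine mul_le_mul_of_nonneg_left ?_ (by norm_num)
      rw [hr, hE, energy, ← hI, hσ]
      exact sum_sq_fiber_le I _ (U k)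
    have a3 : B * B * u ^ (5 / 4 : ℝ) ≤ 8 * w * E ^ (3 / 4 : ℝ) := by
      have e1 : B * B * u ^ (5 / 4 : ℝ) =
          (B * u) ^ (1 / 2 : ℝ) * (B * B * u) ^ (3 / 4 : ℝ) := by
        rw [Real.mul_rpow hB0 hu0, Real.mul_rpow (mul_nonneg hB0 hB0) hu0,
          Real.mul_rpow hB0 hB0]
        rw [show B ^ (1 / 2 : ℝ) * u ^ (1 / 2 : ℝ) *
            (B ^ (3 / 4 : ℝ) * B ^ (3 / 4 : ℝ) * u ^ (3 / 4 : ℝ)) =
            B ^ (1 / 2 : ℝ) * (B ^ (3 / 4 : ℝ) * B ^ (3 / 4 : ℝ)) *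
              (u ^ (1 / 2 : ℝ) * u ^ (3 / 4 : ℝ)) by ring,
          ← Real.rpow_add' hB0 (by norm_num), ← Real.rpow_add' hB0 (by norm_num),
          ← Real.rpow_add' hu0 (by norm_num)]
        norm_num [sq]
      rw [e1]
      refine (mul_le_mul (Real.rpow_le_rpow (by positivity) a1 (by norm_num))
        (Real.rpow_le_rpow (by positivity) a2 (by norm_num)) (by positivity) (by positivity)).trans
        ?_
      rw [Real.mul_rpow zero_le_two (sq_nonneg w), Real.mul_rpow (by norm_num : (0 : ℝ) ≤ 4) hE0,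
        ← Real.sqrt_eq_rpow (w ^ 2), Real.sqrt_sq hw0]
      have c1 : (2 : ℝ) ^ (1 / 2 : ℝ) ≤ 2 := Real.rpow_le_self_of_one_le one_le_two (by norm_num)
      have c2 : (4 : ℝ) ^ (3 / 4 : ℝ) ≤ 4 :=
        Real.rpow_le_self_of_one_le (by norm_num) (by norm_num)
      calc (2 : ℝ) ^ (1 / 2 : ℝ) * w * ((4 : ℝ) ^ (3 / 4 : ℝ) * E ^ (3 / 4 : ℝ))
          ≤ 2 * w * (4 * E ^ (3 / 4 : ℝ)) := by gcongr
        _ = _ := by ring
    have a4 : B * B * u ^ 2 ≤ 4 * w ^ 4 := by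
      calc B * B * u ^ 2 = (B * u) ^ 2 := by ring
        _ ≤ (2 * w ^ 2) ^ 2 := pow_le_pow_left₀ (by positivity) a1 2
        _ = _ := by ring
    have hpre : 0 ≤ Cf * T ^ (η / 3) * H := by positivity
    calc B * B * (Cf * T ^ (η / 3) * H * (H * u + u ^ 2 + u ^ (5 / 4 : ℝ) * √T))
        = Cf * T ^ (η / 3) * H *
          (H * (B * B * u) + B * B * u ^ 2 + B * B * u ^ (5 / 4 : ℝ) * √T) := by ring
      _ ≤ Cf * T ^ (η / 3) * H *
          (H * (4 * E) + 4 * w ^ 4 + 8 * w * E ^ (3 / 4 : ℝ) * √T) := by gcongr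
      _ ≤ Cf * T ^ (η / 3) * H * (8 * Z) := by
          refine mul_le_mul_of_nonneg_left ?_ hpre
          rw [hZ]
          nlinarith [mul_nonneg (Nat.cast_nonneg (α := ℝ) H) hE0, pow_nonneg hw0 4]
      _ = _ := by ring
  refine step1.trans ?_
  calc 12 * ∑ n ∈ S, ∑ m ∈ S, ‖F J (Real.log n - Real.log m)‖ ^ 2
      ≤ 12 * ∑ n ∈ S, ∑ m ∈ S, (K : ℝ) *
          ∑ k ∈ range K, ‖F (U k) (Real.log n - Real.log m)‖ ^ 2 := by
        gcongr with n _ m _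
        exact hlevel _
    _ = 12 * ((K : ℝ) * ∑ k ∈ range K,
          ∑ n ∈ S, ∑ m ∈ S, ‖F (U k) (Real.log n - Real.log m)‖ ^ 2) := by
        simp only [← mul_sum]
        rw [sum_congr rfl fun n _ => sum_comm, sum_comm]
    _ ≤ 12 * ((K : ℝ) * ((K : ℝ) * (8 * Cf * T ^ (η / 3) * H * Z))) := by
        gcongr
        refine (sum_le_card_nsmul _ _ _ step2).trans (le_of_eq ?_)
        rw [card_range, nsmul_eq_mul]
    _ ≤ 12 * (c * T ^ (η / 3) * (c * T ^ (η / 3) * (8 * Cf * T ^ (η / 3) * H * Z))) := by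
        gcongr
    _ = 96 * c ^ 2 * Cf * (T ^ (η / 3)) ^ 3 * H * Z := by ring
    _ = _ := by
        rw [← Real.rpow_mul_natCast hT0.le]
        push_cast
        ring_nf

theorem ratio_product_le {N h a g τ : ℝ} (hh : 0 ≤ h) (hhN : h ≤ N) (hhτ : h ≤ τ ^ 2) (ha : 1 ≤ a)
    (hg : 0 ≤ g) (hga : g ≤ 2 * a ^ 3) (hτ : 0 ≤ τ) :
    (h * a ^ 8 + a ^ 16 + τ ^ 2 * a ^ 10) * (h * g ^ 8 + a ^ 32 + τ ^ 2 * a ^ 8 * g ^ 6) ≤
      (4 * (N * a ^ 4 * g ^ 4 + a ^ 24 + τ * a ^ 21 +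
        g ^ 3 * (τ * a ^ 12 + τ ^ 2 * a ^ 9))) ^ 2 := by
  have hN : 0 ≤ N := hh.trans hhN
  have ha0 : 0 ≤ a := by linarith
  have hg2 : g ^ 2 ≤ 4 * a ^ 6 := by
    refine (pow_le_pow_left₀ hg hga 2).trans (le_of_eq ?_)
    ring
  obtain ⟨R₁, hR₁⟩ : ∃ R₁, R₁ = N * a ^ 4 * g ^ 4 := ⟨_, rfl⟩
  obtain ⟨R₂, hR₂⟩ : ∃ R₂, R₂ = a ^ 24 := ⟨_, rfl⟩
  obtain ⟨R₃, hR₃⟩ : ∃ R₃, R₃ = τ * a ^ 21 := ⟨_, rfl⟩
  obtain ⟨R₄, hR₄⟩ : ∃ R₄, R₄ = g ^ 3 * (τ * a ^ 12) := ⟨_, rfl⟩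
  obtain ⟨R₅, hR₅⟩ : ∃ R₅, R₅ = g ^ 3 * (τ ^ 2 * a ^ 9) := ⟨_, rfl⟩
  rw [mul_add (g ^ 3), ← hR₁, ← hR₂, ← hR₃, ← hR₄, ← hR₅]
  have hp : ∀ i j : ℕ, i ≤ j → a ^ i ≤ a ^ j := fun i j h => pow_le_pow_right₀ ha h
  have t1 : h * a ^ 8 * (h * g ^ 8) ≤ R₁ ^ 2 := by
    calc h * a ^ 8 * (h * g ^ 8) = h ^ 2 * (a ^ 8 * g ^ 8) := by ring
      _ ≤ N ^ 2 * (a ^ 8 * g ^ 8) := by gcongr
      _ = _ := by rw [hR₁]; ring
  have t2 : h * a ^ 8 * a ^ 32 ≤ R₃ ^ 2 := by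
    calc h * a ^ 8 * a ^ 32 = h * a ^ 40 := by ring
      _ ≤ τ ^ 2 * a ^ 42 := by gcongr; norm_num
      _ = _ := by rw [hR₃]; ring
  have t3 : h * a ^ 8 * (τ ^ 2 * a ^ 8 * g ^ 6) ≤ R₅ ^ 2 := by
    calc h * a ^ 8 * (τ ^ 2 * a ^ 8 * g ^ 6) = h * τ ^ 2 * g ^ 6 * a ^ 16 := by ring
      _ ≤ τ ^ 2 * τ ^ 2 * g ^ 6 * a ^ 18 := by gcongr; norm_num
      _ = _ := by rw [hR₅]; ring
  have t4 : a ^ 16 * (h * g ^ 8) ≤ 4 * R₄ ^ 2 := by
    calc a ^ 16 * (h * g ^ 8) = h * g ^ 6 * a ^ 16 * g ^ 2 := by ring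
      _ ≤ τ ^ 2 * g ^ 6 * a ^ 18 * (4 * a ^ 6) := by gcongr; norm_num
      _ = _ := by rw [hR₄]; ring
  have t5 : a ^ 16 * a ^ 32 = R₂ ^ 2 := by rw [hR₂]; ring
  have t6 : a ^ 16 * (τ ^ 2 * a ^ 8 * g ^ 6) = R₄ ^ 2 := by rw [hR₄]; ring
  have t7 : τ ^ 2 * a ^ 10 * (h * g ^ 8) ≤ 4 * R₅ ^ 2 := by
    calc τ ^ 2 * a ^ 10 * (h * g ^ 8) = h * τ ^ 2 * g ^ 6 * a ^ 10 * g ^ 2 := by ring
      _ ≤ τ ^ 2 * τ ^ 2 * g ^ 6 * a ^ 12 * (4 * a ^ 6) := by gcongr; norm_num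
      _ = _ := by rw [hR₅]; ring
  have t8 : τ ^ 2 * a ^ 10 * a ^ 32 = R₃ ^ 2 := by rw [hR₃]; ring
  have t9 : τ ^ 2 * a ^ 10 * (τ ^ 2 * a ^ 8 * g ^ 6) = R₅ ^ 2 := by rw [hR₅]; ring
  have n1 : 0 ≤ R₁ := hR₁ ▸ by positivity
  have n2 : 0 ≤ R₂ := hR₂ ▸ by positivity
  have n3 : 0 ≤ R₃ := hR₃ ▸ by positivity
  have n4 : 0 ≤ R₄ := hR₄ ▸ by positivity
  have n5 : 0 ≤ R₅ := hR₅ ▸ by positivity
  nlinarith [mul_nonneg n1 n2, mul_nonneg n1 n3, mul_nonneg n1 n4, mul_nonneg n1 n5,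
    mul_nonneg n2 n3, mul_nonneg n2 n4, mul_nonneg n2 n5, mul_nonneg n3 n4, mul_nonneg n3 n5,
    mul_nonneg n4 n5]

/-- The bound for the energy times the square of the large value, without `T ^ ε` and `N`. -/
def energyMajorant (T w E : ℝ) (N : ℕ) : ℝ :=
  w ^ 3 + N * √(w * E) + T ^ (1 / 4 : ℝ) * w ^ (21 / 8 : ℝ) +
    E ^ (3 / 8 : ℝ) * (T ^ (1 / 4 : ℝ) * w ^ (3 / 2 : ℝ) + √T * w ^ (9 / 8 : ℝ))

theorem energyMajorant_nonneg {T w E : ℝ} (hT : 0 ≤ T) (hw : 0 ≤ w) (hE : 0 ≤ E) (N : ℕ) :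
    0 ≤ energyMajorant T w E N := by
  unfold energyMajorant
  positivity

/-- The product of the two moments through `energyMajorant`. -/
theorem moments_le_majorant {T w E : ℝ} {N H : ℕ} (hT : 0 ≤ T) (hw : 1 ≤ w) (hE : 0 ≤ E)
    (hEw : E ≤ 5 * w ^ 3) (hHN : H ≤ N) (hHT : (H : ℝ) ^ 2 ≤ T) :
    √((H * w + w ^ 2 + w ^ (5 / 4 : ℝ) * √T) *
      (H * E + w ^ 4 + √T * w * E ^ (3 / 4 : ℝ))) ≤ 4 * energyMajorant T w E N := by
  have hw0 : 0 ≤ w := by linarith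
  obtain ⟨a, ha⟩ : ∃ a, a = w ^ (1 / 8 : ℝ) := ⟨_, rfl⟩
  obtain ⟨g, hg⟩ : ∃ g, g = E ^ (1 / 8 : ℝ) := ⟨_, rfl⟩
  obtain ⟨τ, hτ⟩ : ∃ τ, τ = T ^ (1 / 4 : ℝ) := ⟨_, rfl⟩
  have pw : ∀ k : ℕ, a ^ k = w ^ ((k : ℝ) / 8) := fun k => by
    rw [ha, ← Real.rpow_mul_natCast hw0]; ring_nf
  have pg : ∀ k : ℕ, g ^ k = E ^ ((k : ℝ) / 8) := fun k => by
    rw [hg, ← Real.rpow_mul_natCast hE]; ring_nf
  have pt : τ ^ 2 = √T := by
    rw [hτ, ← Real.rpow_mul_natCast hT, Real.sqrt_eq_rpow]; norm_num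
  have w1 : w = a ^ 8 := by rw [pw]; norm_num
  have w2 : w ^ 2 = a ^ 16 := by rw [pw]; norm_num
  have w3 : w ^ 3 = a ^ 24 := by rw [pw]; norm_num
  have w4 : w ^ 4 = a ^ 32 := by rw [pw]; norm_num
  have w54 : w ^ (5 / 4 : ℝ) = a ^ 10 := by rw [pw]; norm_num
  have w218 : w ^ (21 / 8 : ℝ) = a ^ 21 := by rw [pw]; norm_num
  have w32 : w ^ (3 / 2 : ℝ) = a ^ 12 := by rw [pw]; norm_num
  have w98 : w ^ (9 / 8 : ℝ) = a ^ 9 := by rw [pw]; norm_num
  have e1 : E = g ^ 8 := by rw [pg]; norm_num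
  have e34 : E ^ (3 / 4 : ℝ) = g ^ 6 := by rw [pg]; norm_num
  have e38 : E ^ (3 / 8 : ℝ) = g ^ 3 := by rw [pg]; norm_num
  have ha1 : 1 ≤ a := ha ▸ Real.one_le_rpow hw (by norm_num)
  have hg0 : 0 ≤ g := hg ▸ Real.rpow_nonneg hE _
  have hga : g ≤ 2 * a ^ 3 := by
    refine le_of_pow_le_pow_left₀ (show (8 : ℕ) ≠ 0 by norm_num) (by positivity) ?_
    rw [← e1]
    refine hEw.trans ?_
    rw [w3, mul_pow, ← pow_mul]
    gcongr
    norm_num
  have hsq : √(w * E) = a ^ 4 * g ^ 4 := by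
    rw [w1, e1, show a ^ 8 * g ^ 8 = (a ^ 4 * g ^ 4) ^ 2 by ring, Real.sqrt_sq (by positivity)]
  have hHτ : (H : ℝ) ≤ τ ^ 2 := by rw [pt]; exact Real.le_sqrt_of_sq_le hHT
  rw [energyMajorant, hsq, ← hτ, w2, w3, w4, w54, w218, w32, w98, e34, e38, ← pt, w1, e1,
    Real.sqrt_le_iff]
  have ha0 : 0 ≤ a := by linarith
  have hτ0 : 0 ≤ τ := hτ ▸ Real.rpow_nonneg hT _
  refine ⟨by positivity, ?_⟩
  refine le_trans (le_of_eq ?_) ((ratio_product_le (Nat.cast_nonneg H)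
    (Nat.cast_le (α := ℝ).2 hHN) hHτ ha1 hg0 hga (hτ ▸ Real.rpow_nonneg hT _)).trans
      (le_of_eq ?_))
  · ring
  · ring

/-- **The energy of large values.** -/
theorem exists_energy_le {η : ℝ} (hη : 0 < η) : ∃ C, 0 ≤ C ∧
    ∀ (T V : ℝ) (W : Finset ℝ) (N : ℕ) (b : ℕ → ℂ), 2 ≤ T → 0 ≤ V → (∀ t ∈ W, |t| ≤ T) →
      Separated W → (∀ n, ‖b n‖ ≤ 1) → (∀ t ∈ W, V ≤ ‖dpoly (Ioc N (2 * N)) b t‖) →
      (energy W : ℝ) * V ^ 2 ≤ C * T ^ η * N * energyMajorant T W.card (energy W) N := by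
  obtain ⟨Cl, hCl, hlarge⟩ := exists_farey_le
  obtain ⟨Cf, hCf, hfour⟩ := exists_four_le (show 0 < η / 2 by positivity)
  obtain ⟨Cq, hCq, hquart⟩ := exists_quart_ratio_le (show 0 < η / 2 by positivity)
  obtain ⟨c, hc, hlog⟩ := exists_log_le (show 0 < η / 2 by positivity)
  refine ⟨30 * (1 + 4 * Cl + 4 * c * √(Cf * Cq)), by positivity,
    fun T V W N b hT hV hbd hW hb hbig => ?_⟩
  have hT0 : 0 < T := by linarith
  obtain ⟨E, hE⟩ : ∃ E : ℝ, E = energy W := ⟨_, rfl⟩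
  obtain ⟨w, hw⟩ : ∃ w : ℝ, w = W.card := ⟨_, rfl⟩
  rcases W.eq_empty_or_nonempty with rfl | hne
  · simp only [energy, closePairs, product_empty, empty_product, filter_empty, card_empty,
      Nat.cast_zero, zero_mul]
    exact mul_nonneg (by positivity) (energyMajorant_nonneg hT0.le le_rfl le_rfl N)
  have hw1 : 1 ≤ w := hw ▸ Nat.one_le_cast.2 hne.card_pos
  have hw0 : 0 ≤ w := by linarith
  have hE0 : 0 ≤ E := hE ▸ Nat.cast_nonneg _
  have hEw : E ≤ 5 * w ^ 3 := hE ▸ hw ▸ energy_le_cube hW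
  rw [← hE, ← hw]
  obtain ⟨R, hR⟩ : ∃ R, R = energyMajorant T w E N := ⟨_, rfl⟩
  rw [← hR]
  have hR0 : 0 ≤ R := hR ▸ energyMajorant_nonneg hT0.le hw0 hE0 N
  have hTη : 1 ≤ T ^ η := Real.one_le_rpow (by linarith) hη.le
  obtain ⟨f, hf⟩ : ∃ f : ℕ → ℕ → ℝ, f = fun a b : ℕ => charNorm W (Real.log a - Real.log b) ^ 3 :=
    ⟨_, rfl⟩
  have h1 := energy_mul_sq_le hW hV hb hbig
  have h2 := sum_ratio_le (N := N) f (fun a b => hf ▸ pow_nonneg (charNorm_nonneg _ _) 3)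
    fun g a b hg ha hb => by
      rw [hf]
      simp only [Nat.cast_mul]
      rw [Real.log_mul (Nat.cast_ne_zero.2 hg.ne') (Nat.cast_ne_zero.2 ha.ne'),
        Real.log_mul (Nat.cast_ne_zero.2 hg.ne') (Nat.cast_ne_zero.2 hb.ne'),
        add_sub_add_left_eq_sub]
  rw [hf] at h2
  simp only at h2
  rcases Nat.eq_zero_or_pos N with hN0 | hN0
  · subst hN0
    rw [hE]
    simpa using h1
  have hN1 : (1 : ℝ) ≤ N := Nat.one_le_cast.2 hN0
  -- the pieces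
  have hpiece : ∀ j ∈ range (Nat.log 2 N + 1),
      (N : ℝ) / 2 ^ j * ∑ p ∈ fareyPairs (2 ^ j), charNorm W (Real.log p.1 - Real.log p.2) ^ 3 ≤
        2 * Cl * N * √(w * E) * 2 ^ j +
          (if ((2 : ℝ) ^ j) ^ 2 < T then 4 * √(Cf * Cq) * T ^ (η / 2) * N * R else 0) := by
    intro j hj
    obtain ⟨H, hH⟩ : ∃ H : ℕ, H = 2 ^ j := ⟨_, rfl⟩
    have hH1 : 1 ≤ H := hH ▸ Nat.one_le_pow _ _ two_pos
    have hHN : H ≤ N := hH ▸ (Nat.pow_le_pow_right two_pos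
      (Nat.lt_succ_iff.1 (mem_range.1 hj))).trans (Nat.pow_log_le_self 2 (by omega))
    have hHR : (2 : ℝ) ^ j = H := by rw [hH]; push_cast; rfl
    have hH0 : (0 : ℝ) < H := Nat.cast_pos.2 hH1
    rw [← hH, hHR]
    obtain ⟨P, hP⟩ : ∃ P, P =
        ∑ p ∈ fareyPairs H, charNorm W (Real.log p.1 - Real.log p.2) ^ 3 := ⟨_, rfl⟩
    rw [← hP]
    have hP0 : 0 ≤ P := hP ▸ sum_nonneg fun p _ => pow_nonneg (charNorm_nonneg _ _) 3
    have hcs : P ^ 2 ≤ (∑ p ∈ fareyPairs H, charNorm W (Real.log p.1 - Real.log p.2) ^ 2) *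
        ∑ p ∈ fareyPairs H, charNorm W (Real.log p.1 - Real.log p.2) ^ 4 := by
      rw [hP]
      refine le_trans (le_of_eq ?_) ((sum_mul_sq_le_sq_mul_sq (fareyPairs H)
        (fun p : ℕ × ℕ => charNorm W (Real.log p.1 - Real.log p.2))
        (fun p : ℕ × ℕ => charNorm W (Real.log p.1 - Real.log p.2) ^ 2)).trans (le_of_eq ?_))
      · exact congrArg (· ^ 2) (sum_congr rfl fun p _ => by ring)
      · congr 1
        exact sum_congr rfl fun p _ => by ring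
    by_cases hsmall : (H : ℝ) ^ 2 < T
    · rw [if_pos hsmall]
      refine le_trans ?_ (le_add_of_nonneg_left (by positivity))
      have s2 : ∑ p ∈ fareyPairs H, charNorm W (Real.log p.1 - Real.log p.2) ^ 2 ≤
          Cf * T ^ (η / 2) * H * (H * w + w ^ 2 + w ^ (5 / 4 : ℝ) * √T) := by
        refine le_trans ?_ (hw ▸ hfour T W H hT (fun t ht => (hbd t ht).trans (by linarith)) hW hH1)
        rw [pairSum_one fun n hn => by rw [mem_Ioc] at hn; omega, fareyPairs, ← sum_product']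
        refine (sum_le_sum_of_subset_of_nonneg (filter_subset _ _) fun x _ _ => sq_nonneg _).trans
          (le_of_eq (sum_congr rfl fun x _ => rfl))
      have s4 := hquart T W H hT hbd hW hH1
      rw [← hE, ← hw] at s4
      have hX := hR ▸ moments_le_majorant hT0.le hw1 hE0 hEw hHN hsmall.le
      obtain ⟨X, hXd⟩ : ∃ X, X = (H * w + w ^ 2 + w ^ (5 / 4 : ℝ) * √T) *
        (H * E + w ^ 4 + √T * w * E ^ (3 / 4 : ℝ)) := ⟨_, rfl⟩
      rw [← hXd] at hX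
      have hX0 : 0 ≤ X := hXd ▸ by positivity
      have hPle : P ≤ √(Cf * Cq) * T ^ (η / 2) * H * √X := by
        refine le_of_pow_le_pow_left₀ two_ne_zero (by positivity) (hcs.trans ((mul_le_mul s2 s4
          (sum_nonneg fun p _ => pow_nonneg (charNorm_nonneg _ _) 4) (by positivity)).trans
            (le_of_eq ?_)))
        rw [mul_pow, mul_pow, mul_pow, Real.sq_sqrt (mul_nonneg hCf hCq), Real.sq_sqrt hX0, hXd]
        ring
      calc (N : ℝ) / H * P ≤ (N : ℝ) / H * (√(Cf * Cq) * T ^ (η / 2) * H * √X) :=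
            mul_le_mul_of_nonneg_left hPle (by positivity)
        _ = √(Cf * Cq) * T ^ (η / 2) * N * √X := by field_simp
        _ ≤ √(Cf * Cq) * T ^ (η / 2) * N * (4 * R) :=
            mul_le_mul_of_nonneg_left hX (by positivity)
        _ = _ := by ring
    · rw [if_neg hsmall, add_zero]
      obtain ⟨s2, s4⟩ := hlarge T W H (by linarith) hbd hW hH1
      rw [← hE] at s4
      rw [← hw] at s2
      have hTH : T + (H : ℝ) ^ 2 ≤ 2 * (H : ℝ) ^ 2 := by linarith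
      have hPle : P ≤ 2 * Cl * (H : ℝ) ^ 2 * √(w * E) := by
        refine le_of_pow_le_pow_left₀ two_ne_zero (by positivity) (hcs.trans ((mul_le_mul
          (s2.trans (mul_le_mul_of_nonneg_right (mul_le_mul_of_nonneg_left hTH hCl) hw0))
          (s4.trans (mul_le_mul_of_nonneg_right (mul_le_mul_of_nonneg_left hTH hCl) hE0))
          (sum_nonneg fun p _ => pow_nonneg (charNorm_nonneg _ _) 4) (by positivity)).trans
            (le_of_eq ?_)))
        rw [mul_pow _ √(w * E), Real.sq_sqrt (mul_nonneg hw0 hE0)]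
        ring
      calc (N : ℝ) / H * P ≤ (N : ℝ) / H * (2 * Cl * (H : ℝ) ^ 2 * √(w * E)) :=
            mul_le_mul_of_nonneg_left hPle (by positivity)
        _ = _ := by field_simp
  have hgeom : ∑ j ∈ range (Nat.log 2 N + 1), (2 : ℝ) ^ j ≤ 2 * N := by
    refine (le_of_eq (geom_sum_eq (by norm_num) _)).trans ?_
    rw [pow_succ]
    have : (2 : ℝ) ^ Nat.log 2 N ≤ N := by exact_mod_cast Nat.pow_log_le_self 2 (by omega : N ≠ 0)
    norm_num
    linarith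
  have hcount : (((range (Nat.log 2 N + 1)).filter fun j => ((2 : ℝ) ^ j) ^ 2 < T).card : ℝ) ≤
      c * T ^ (η / 2) := by
    rcases ((range (Nat.log 2 N + 1)).filter fun j => ((2 : ℝ) ^ j) ^ 2 < T).eq_empty_or_nonempty
      with h0 | h0
    · rw [h0, card_empty, Nat.cast_zero]; positivity
    obtain ⟨j, hj, hmax⟩ := exists_max_image _ (fun j => j) h0
    rw [mem_filter] at hj
    refine le_trans ?_ (hlog T j (by linarith) ?_)
    · have : ((range (Nat.log 2 N + 1)).filter fun j => ((2 : ℝ) ^ j) ^ 2 < T) ⊆ range (j + 1) :=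
        fun i hi => mem_range.2 (Nat.lt_succ_of_le (hmax i hi))
      exact_mod_cast (card_le_card this).trans (card_range _).le
    · have h2 : (2 : ℝ) ^ j ≤ ((2 : ℝ) ^ j) ^ 2 :=
        le_self_pow₀ (one_le_pow₀ one_le_two) two_ne_zero
      have h3 : T ≤ T ^ 4 := le_self_pow₀ (by linarith) (by norm_num)
      linarith
  have hdiag : charNorm W (Real.log (1 : ℕ) - Real.log (1 : ℕ)) ^ 3 ≤ R := by
    refine le_trans (pow_le_pow_left₀ (charNorm_nonneg _ _) (charNorm_le_card _ _) 3) ?_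
    rw [← hw, hR, energyMajorant]
    have : 0 ≤ N * √(w * E) + T ^ (1 / 4 : ℝ) * w ^ (21 / 8 : ℝ) +
        E ^ (3 / 8 : ℝ) * (T ^ (1 / 4 : ℝ) * w ^ (3 / 2 : ℝ) + √T * w ^ (9 / 8 : ℝ)) := by
      positivity
    linarith
  have hNR : (N : ℝ) * √(w * E) ≤ R := by
    rw [hR, energyMajorant]
    have : 0 ≤ w ^ 3 + T ^ (1 / 4 : ℝ) * w ^ (21 / 8 : ℝ) +
        E ^ (3 / 8 : ℝ) * (T ^ (1 / 4 : ℝ) * w ^ (3 / 2 : ℝ) + √T * w ^ (9 / 8 : ℝ)) := by
      positivity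
    linarith
  rw [← hE] at h1
  refine h1.trans ((mul_le_mul_of_nonneg_left (h2.trans (add_le_add
    (mul_le_mul_of_nonneg_left hdiag (Nat.cast_nonneg N)) (sum_le_sum hpiece))) (by norm_num)).trans
      ?_)
  rw [sum_add_distrib, ← mul_sum, ← sum_filter, sum_const, nsmul_eq_mul]
  calc 30 * ((N : ℝ) * R + (2 * Cl * N * √(w * E) * ∑ j ∈ range (Nat.log 2 N + 1), (2 : ℝ) ^ j +
        (((range (Nat.log 2 N + 1)).filter fun j => ((2 : ℝ) ^ j) ^ 2 < T).card : ℝ) *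
          (4 * √(Cf * Cq) * T ^ (η / 2) * N * R)))
      ≤ 30 * ((N : ℝ) * R + (2 * Cl * N * √(w * E) * (2 * N) +
          c * T ^ (η / 2) * (4 * √(Cf * Cq) * T ^ (η / 2) * N * R))) := by gcongr
    _ = 30 * (N : ℝ) * (R + 4 * Cl * ((N : ℝ) * √(w * E)) +
          4 * c * √(Cf * Cq) * (T ^ (η / 2) * T ^ (η / 2)) * R) := by ring
    _ ≤ 30 * (N : ℝ) * (R * T ^ η + 4 * Cl * (R * T ^ η) + 4 * c * √(Cf * Cq) * T ^ η * R) := by
        have h4 : R ≤ R * T ^ η := le_mul_of_one_le_right hR0 hTη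
        rw [show T ^ (η / 2) * T ^ (η / 2) = T ^ η by rw [← Real.rpow_add hT0]; ring_nf]
        refine mul_le_mul_of_nonneg_left (add_le_add (add_le_add h4
          (mul_le_mul_of_nonneg_left (hNR.trans h4) (by positivity))) le_rfl) (by positivity)
    _ = _ := by ring

end FA.GuthMaynard

end
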