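import Fermat.Agent.GuthMaynard.Energy

/-!
# The energy of large values, solved

The implicit inequality for the energy solved for it.
-/

set_option autoImplicit false

noncomputable section

namespace FA.GuthMaynard

open Finset
open FA.Hoheisel (dpoly)

/-- Solving `x ^ (5/8) ≤ K r`. -/
theorem le_rpow_eight_fifths {x K r : ℝ} (hx : 0 ≤ x) (hK : 1 ≤ K) (hr : 0 ≤ r)
    (h : x ≤ K * r * x ^ (3 / 8 : ℝ)) : x ≤ K ^ 2 * r ^ (8 / 5 : ℝ) := by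
  rcases hx.lt_or_eq with hx0 | rfl
  swap
  · positivity
  have h1 : x ^ (5 / 8 : ℝ) ≤ K * r := by
    refine le_of_mul_le_mul_right ?_ (Real.rpow_pos_of_pos hx0 (3 / 8))
    rw [← Real.rpow_add hx0]
    norm_num
    exact h
  have h2 := Real.rpow_le_rpow (by positivity) h1 (show (0 : ℝ) ≤ 8 / 5 by norm_num)
  rw [← Real.rpow_mul hx, Real.mul_rpow (by linarith) hr] at h2
  norm_num at h2
  refine h2.trans (mul_le_mul_of_nonneg_right ?_ (by positivity))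
  exact (Real.rpow_le_rpow_of_exponent_le hK (by norm_num)).trans (le_of_eq (Real.rpow_two K))

/-- **The energy of large values.** -/
theorem exists_energy_explicit {ε : ℝ} (hε : 0 < ε) : ∃ C, 0 ≤ C ∧
    ∀ (T V : ℝ) (W : Finset ℝ) (N : ℕ) (b : ℕ → ℂ), 2 ≤ T → 0 < V → (∀ t ∈ W, |t| ≤ T) →
      Separated W → (∀ n, ‖b n‖ ≤ 1) → (∀ t ∈ W, V ≤ ‖dpoly (Ioc N (2 * N)) b t‖) →
      (energy W : ℝ) ≤ C * T ^ ε * ((N : ℝ) ^ 4 * W.card / V ^ 4 +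
        N * (W.card : ℝ) ^ 3 / V ^ 2 + N * T ^ (1 / 4 : ℝ) * (W.card : ℝ) ^ (21 / 8 : ℝ) / V ^ 2 +
        (N * T ^ (1 / 4 : ℝ) * (W.card : ℝ) ^ (3 / 2 : ℝ) / V ^ 2) ^ (8 / 5 : ℝ) +
        (N * √T * (W.card : ℝ) ^ (9 / 8 : ℝ) / V ^ 2) ^ (8 / 5 : ℝ)) := by
  obtain ⟨C, hC, h⟩ := exists_energy_le (show 0 < ε / 2 by positivity)
  refine ⟨25 * (max C 1) ^ 2, by positivity, fun T V W N b hT hV hbd hW hb hbig => ?_⟩
  have hT0 : 0 < T := by linarith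
  obtain ⟨w, hw⟩ : ∃ w : ℝ, w = W.card := ⟨_, rfl⟩
  obtain ⟨x, hx⟩ : ∃ x : ℝ, x = energy W := ⟨_, rfl⟩
  have hw0 : 0 ≤ w := hw ▸ Nat.cast_nonneg _
  have hx0 : 0 ≤ x := hx ▸ Nat.cast_nonneg _
  have h1 := h T V W N b hT hV.le hbd hW hb hbig
  rw [← hw, ← hx] at h1 ⊢
  obtain ⟨K, hK⟩ : ∃ K, K = 5 * (max C 1 * T ^ (ε / 2)) := ⟨_, rfl⟩
  have hK1 : 1 ≤ K := by
    have := one_le_mul_of_one_le_of_one_le (le_max_right C 1)
      (Real.one_le_rpow (show 1 ≤ T by linarith) (show 0 ≤ ε / 2 by positivity))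
    rw [hK]; linarith
  have hKsq : K ^ 2 = 25 * (max C 1) ^ 2 * T ^ ε := by
    rw [hK, mul_pow, mul_pow, ← Real.rpow_mul_natCast hT0.le]
    push_cast
    ring_nf
  have hKle : K ≤ K ^ 2 := le_self_pow₀ hK1 two_ne_zero
  rw [← hKsq]
  obtain ⟨a, ha⟩ : ∃ a : ℝ, a = N * w ^ 3 / V ^ 2 := ⟨_, rfl⟩
  obtain ⟨g, hg⟩ : ∃ g : ℝ, g = (N : ℝ) ^ 2 * √w / V ^ 2 := ⟨_, rfl⟩
  obtain ⟨d, hd⟩ : ∃ d : ℝ, d = N * T ^ (1 / 4 : ℝ) * w ^ (21 / 8 : ℝ) / V ^ 2 := ⟨_, rfl⟩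
  obtain ⟨p, hp⟩ : ∃ p : ℝ, p = N * T ^ (1 / 4 : ℝ) * w ^ (3 / 2 : ℝ) / V ^ 2 := ⟨_, rfl⟩
  obtain ⟨q, hq⟩ : ∃ q : ℝ, q = N * √T * w ^ (9 / 8 : ℝ) / V ^ 2 := ⟨_, rfl⟩
  have hg2 : g ^ 2 = (N : ℝ) ^ 4 * w / V ^ 4 := by
    rw [hg, div_pow, mul_pow, Real.sq_sqrt hw0]; ring
  rw [← ha, ← hd, ← hp, ← hq, ← hg2]
  have n1 : 0 ≤ a := ha ▸ by positivity
  have n2 : 0 ≤ g := hg ▸ by positivity
  have n3 : 0 ≤ d := hd ▸ by positivity
  have n4 : 0 ≤ p := hp ▸ by positivity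
  have n5 : 0 ≤ q := hq ▸ by positivity
  have hmain : x ≤ K / 5 * (a + g * √x + d + p * x ^ (3 / 8 : ℝ) + q * x ^ (3 / 8 : ℝ)) := by
    have h2 : x * V ^ 2 ≤ max C 1 * T ^ (ε / 2) * N * energyMajorant T w x N :=
      h1.trans (by
        have := energyMajorant_nonneg hT0.le hw0 hx0 N
        gcongr
        exact le_max_left C 1)
    rw [← le_div_iff₀ (by positivity), energyMajorant, Real.sqrt_mul hw0] at h2
    refine h2.trans (le_of_eq ?_)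
    rw [hK, ha, hg, hd, hp, hq]
    ring
  have hs : (√x) ^ 2 = x := Real.sq_sqrt hx0
  have hK0 : 0 ≤ K := by linarith
  -- one of the five terms dominates
  rcases le_or_gt x (K * a) with c1 | c1
  · have : 0 ≤ K ^ 2 * (g ^ 2 + d + p ^ (8 / 5 : ℝ) + q ^ (8 / 5 : ℝ)) := by positivity
    nlinarith [mul_le_mul_of_nonneg_right hKle n1]
  rcases le_or_gt x (K * g * √x) with c2 | c2
  · have h3 : x ≤ K ^ 2 * g ^ 2 := by
      have h4 : √x ≤ K * g := by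
        rcases (Real.sqrt_nonneg x).lt_or_eq with h0 | h0
        · exact le_of_mul_le_mul_right (by rw [Real.mul_self_sqrt hx0]; exact c2) h0
        · rw [← h0]; positivity
      calc x = (√x) ^ 2 := hs.symm
        _ ≤ (K * g) ^ 2 := pow_le_pow_left₀ (Real.sqrt_nonneg x) h4 2
        _ = _ := by ring
    have : 0 ≤ K ^ 2 * (a + d + p ^ (8 / 5 : ℝ) + q ^ (8 / 5 : ℝ)) := by positivity
    linarith
  rcases le_or_gt x (K * d) with c3 | c3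
  · have : 0 ≤ K ^ 2 * (g ^ 2 + a + p ^ (8 / 5 : ℝ) + q ^ (8 / 5 : ℝ)) := by positivity
    nlinarith [mul_le_mul_of_nonneg_right hKle n3]
  rcases le_or_gt x (K * p * x ^ (3 / 8 : ℝ)) with c4 | c4
  · have h3 := le_rpow_eight_fifths hx0 hK1 n4 c4
    have : 0 ≤ K ^ 2 * (g ^ 2 + a + d + q ^ (8 / 5 : ℝ)) := by positivity
    linarith
  have c5 : x ≤ K * q * x ^ (3 / 8 : ℝ) := by linarith
  have h3 := le_rpow_eight_fifths hx0 hK1 n5 c5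
  have : 0 ≤ K ^ 2 * (g ^ 2 + a + d + p ^ (8 / 5 : ℝ)) := by positivity
  linarith

end FA.GuthMaynard

end
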