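import Fermat.Agent.GuthMaynard.Reflection

/-!
# Heath-Brown's double sum

For `W` separated heights up to `T` and a Dirichlet polynomial `D` of length `N` with bounded
coefficients, `∑ |D (t - u)|²` over pairs in `W` is
`O (T ^ ε (N² |W| + N |W|² + N |W| ^ (5/4) T ^ (1/2)))`: the longest blocks below `T ^ (1/2 + ε)`
are moved out to `T ^ (1/2 + ε) |W| ^ (1/4)`, reflected and squared.
-/

set_option autoImplicit false

noncomputable section

namespace FA.GuthMaynard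

open Finset
open FA.Hoheisel (dpoly)

/-- The mean of a block is the largest below `√T`, reflected. -/
theorem blockMean_le_reflect {T η Λ Y : ℝ} {W : Finset ℝ} (hT : 2 ≤ T) (hY : 0 ≤ Y)
    (href : ∀ (L : ℕ) (B : ℝ), 1 ≤ L → 0 ≤ B →
      (∀ j : ℕ, (2 : ℝ) ^ j * L ≤ T ^ (1 + η) → blockMean W (2 ^ j) ≤ B) →
      blockMean W L ≤ Λ * (L * W.card + (W.card : ℝ) ^ 2 + B))
    (hmax : ∀ L : ℕ, 1 ≤ L → (L : ℝ) ≤ T ^ (1 / 2 + η) → blockMean W L ≤ Y) (hη : 0 ≤ η)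
    (hΛ : 1 ≤ Λ) {N : ℕ} (hN : 1 ≤ N) :
    blockMean W N ≤ Λ * (N * W.card + (W.card : ℝ) ^ 2 + Y) := by
  rcases le_or_gt (N : ℝ) (T ^ (1 / 2 + η)) with h | h
  · refine (hmax N hN h).trans ?_
    nlinarith [show 0 ≤ (N : ℝ) * W.card + (W.card : ℝ) ^ 2 by positivity]
  refine href N Y hN hY fun j hj => hmax _ (Nat.one_le_pow _ _ two_pos) ?_
  push_cast
  have hT0 : 0 < T := by linarith
  have h1 : (2 : ℝ) ^ j * T ^ (1 / 2 + η) ≤ T ^ (1 / 2 : ℝ) * T ^ (1 / 2 + η) := by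
    refine ((mul_le_mul_of_nonneg_left h.le (by positivity)).trans hj).trans (le_of_eq ?_)
    rw [← Real.rpow_add hT0]; norm_num; ring_nf
  refine (le_of_mul_le_mul_right h1 (Real.rpow_pos_of_pos hT0 _)).trans ?_
  exact Real.rpow_le_rpow_of_exponent_le (by linarith) (by linarith)

/-- **Heath-Brown's double sum for a block.** -/
theorem exists_blockMean_le {ε : ℝ} (hε : 0 < ε) : ∃ C, 0 ≤ C ∧
    ∀ (T : ℝ) (W : Finset ℝ) (N : ℕ), 2 ≤ T → (∀ t ∈ W, |t| ≤ T) → Separated W → 1 ≤ N →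
      blockMean W N ≤ C * T ^ ε *
        (N * W.card + (W.card : ℝ) ^ 2 + (W.card : ℝ) ^ (5 / 4 : ℝ) * √T) := by
  obtain ⟨η, hη⟩ : ∃ η, η = min (ε / 9) (1 / 4) := ⟨_, rfl⟩
  have hη0 : 0 < η := hη ▸ lt_min (by positivity) (by norm_num)
  have hη4 : η ≤ 1 / 4 := hη ▸ min_le_right _ _
  obtain ⟨Cr, hCr, hrefl⟩ := exists_reflection hη0 (by linarith)
  obtain ⟨Cd, hCd, hdiv⟩ := exists_divisors_le hη0
  obtain ⟨C₀, hC₀⟩ : ∃ C₀, C₀ = Cr + Cd + 1 := ⟨_, rfl⟩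
  refine ⟨502 * C₀ ^ 9, by rw [hC₀]; positivity, fun T W N hT hbd hW hN => ?_⟩
  have hT0 : 0 < T := by linarith
  have hT1 : 1 ≤ T := by linarith
  rcases W.eq_empty_or_nonempty with rfl | hne
  · simp [blockMean, pairSum]
  obtain ⟨w, hw⟩ : ∃ w : ℝ, w = W.card := ⟨_, rfl⟩
  have hw1 : 1 ≤ w := hw ▸ Nat.one_le_cast.2 hne.card_pos
  have hw0 : 0 ≤ w := by linarith
  have hwT : w ≤ 5 * T := hw ▸ card_le_five_mul hW hT1 hbd
  rw [← hw]
  obtain ⟨Λ, hΛ⟩ : ∃ Λ, Λ = C₀ * T ^ η := ⟨_, rfl⟩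
  have hTη : 1 ≤ T ^ η := Real.one_le_rpow hT1 hη0.le
  have hΛ1 : 1 ≤ Λ := hΛ ▸ one_le_mul_of_one_le_of_one_le (by rw [hC₀]; linarith) hTη
  have hΛT : T ^ η ≤ Λ := hΛ ▸ le_mul_of_one_le_left (by positivity) (by rw [hC₀]; linarith)
  have href : ∀ (L : ℕ) (B : ℝ), 1 ≤ L → 0 ≤ B →
      (∀ j : ℕ, (2 : ℝ) ^ j * L ≤ T ^ (1 + η) → blockMean W (2 ^ j) ≤ B) →
      blockMean W L ≤ Λ * (L * W.card + (W.card : ℝ) ^ 2 + B) := fun L B hL hB h =>
    (hrefl T W L B hT hbd hW hL hB h).trans (mul_le_mul_of_nonneg_right (hΛ ▸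
      mul_le_mul_of_nonneg_right (by rw [hC₀]; linarith) (by positivity)) (by positivity))
  have hD : ∀ n : ℕ, (n : ℝ) ≤ 64 * T ^ 4 → (n.divisors.card : ℝ) ≤ Λ := fun n hn =>
    (hdiv T hT1 n hn).trans (hΛ ▸ mul_le_mul_of_nonneg_right (by rw [hC₀]; linarith)
      (by positivity))
  -- the largest short block
  obtain ⟨P, hP⟩ : ∃ P, P = T ^ (1 / 2 + η) := ⟨_, rfl⟩
  have hP1 : 1 ≤ P := hP ▸ Real.one_le_rpow hT1 (by linarith)
  have hPT : P ≤ T ^ (3 / 4 : ℝ) :=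
    hP ▸ Real.rpow_le_rpow_of_exponent_le hT1 (by linarith)
  obtain ⟨L₀, hL₀, hmax'⟩ := exists_max_image (Finset.Icc 1 ⌊P⌋₊) (fun L => blockMean W L)
    ⟨1, Finset.mem_Icc.2 ⟨le_rfl, Nat.floor_pos.2 hP1⟩⟩
  obtain ⟨Y, hY⟩ : ∃ Y, Y = blockMean W L₀ := ⟨_, rfl⟩
  have hY0 : 0 ≤ Y := hY ▸ blockMean_nonneg _ _
  have hmax : ∀ L : ℕ, 1 ≤ L → (L : ℝ) ≤ T ^ (1 / 2 + η) → blockMean W L ≤ Y := fun L h1 h2 =>
    hY ▸ hmax' L (Finset.mem_Icc.2 ⟨h1, Nat.le_floor (hP ▸ h2)⟩)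
  obtain ⟨A, hA⟩ : ∃ A, A = w ^ (5 / 4 : ℝ) * √T := ⟨_, rfl⟩
  have hA0 : 0 ≤ A := hA ▸ by positivity
  obtain ⟨q, hq⟩ : ∃ q, q = w ^ (1 / 4 : ℝ) := ⟨_, rfl⟩
  have hq1 : 1 ≤ q := hq ▸ Real.one_le_rpow hw1 (by norm_num)
  have hqT : q ≤ 2 * T ^ (1 / 4 : ℝ) := by
    rw [hq]
    refine (Real.rpow_le_rpow hw0 hwT (by norm_num)).trans ?_
    rw [Real.mul_rpow (by norm_num) hT0.le]
    refine mul_le_mul_of_nonneg_right ?_ (by positivity)
    calc (5 : ℝ) ^ (1 / 4 : ℝ) ≤ (16 : ℝ) ^ (1 / 4 : ℝ) :=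
          Real.rpow_le_rpow (by norm_num) (by norm_num) (by norm_num)
      _ = 2 := by
          rw [show (16 : ℝ) = 2 ^ (4 : ℝ) by norm_num, ← Real.rpow_mul two_pos.le]
          norm_num
  have hqw : q * w = w ^ (5 / 4 : ℝ) := by
    rw [hq, ← Real.rpow_add_one' hw0 (by norm_num)]; norm_num
  -- the blocks out at `P q`
  have hlong : ∀ L : ℕ, 1 ≤ L → P * q ≤ L → (L : ℝ) ≤ 8 * (P * q) →
      blockMean W L ≤ Λ * (8 * Λ * A + w ^ 2 + 3 * Λ ^ 2 * (2 * A + w ^ 2 + w * √Y)) := by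
    intro L hL1 hLlo hLhi
    have hB0 : 0 ≤ 3 * Λ ^ 2 * (2 * A + w ^ 2 + w * √Y) := by positivity
    refine (href L _ hL1 hB0 fun j hj => ?_).trans
      (mul_le_mul_of_nonneg_left ?_ (by linarith))
    · obtain ⟨M, hM⟩ : ∃ M : ℕ, M = 2 ^ j := ⟨_, rfl⟩
      have hM1 : 1 ≤ M := hM ▸ Nat.one_le_pow _ _ two_pos
      rw [← hM]
      have hMR : (M : ℝ) = (2 : ℝ) ^ j := by rw [hM]; push_cast; rfl
      have hMq : (M : ℝ) * q ≤ √T := by
        rw [← hMR] at hj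
        have h1 : (M : ℝ) * (P * q) ≤ T ^ (1 + η) :=
          (mul_le_mul_of_nonneg_left hLlo (by positivity)).trans hj
        rw [show T ^ (1 + η) = √T * P by
          rw [hP, Real.sqrt_eq_rpow, ← Real.rpow_add hT0]; ring_nf] at h1
        exact le_of_mul_le_mul_right (by linarith) (show 0 < P by linarith)
      have hMM : (M : ℝ) * M ≤ T := by
        calc (M : ℝ) * M ≤ √T * √T := by
              have : (M : ℝ) ≤ √T := (le_mul_of_one_le_right (by positivity) hq1).trans hMq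
              exact mul_le_mul this this (by positivity) (Real.sqrt_nonneg T)
          _ = T := Real.mul_self_sqrt hT0.le
      have hsq := sq_blockMean_le W hM1 (D := Λ) fun n hn => hD n (by
        have h4 : T ≤ T ^ 4 := le_self_pow₀ hT1 (by norm_num)
        refine (Nat.cast_le.2 hn).trans ?_
        push_cast
        linarith)
      rw [← hw] at hsq
      have hw2 : (M : ℝ) * M * w ≤ T * √w := by
        have h1 : (M : ℝ) * q * ((M : ℝ) * q) ≤ T := by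
          refine (mul_le_mul hMq hMq (by positivity) (Real.sqrt_nonneg T)).trans (le_of_eq ?_)
          exact Real.mul_self_sqrt hT0.le
        have h2 : q * q = √w := by
          rw [hq, ← Real.rpow_add (by linarith), Real.sqrt_eq_rpow]; norm_num
        calc (M : ℝ) * M * w = (M : ℝ) * q * ((M : ℝ) * q) * √w := by
              rw [show (M : ℝ) * q * ((M : ℝ) * q) = (M : ℝ) * M * (q * q) by ring, h2,
                mul_assoc ((M : ℝ) * M) √w,
                Real.mul_self_sqrt hw0]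
          _ ≤ T * √w := mul_le_mul_of_nonneg_right h1 (Real.sqrt_nonneg w)
      have hQ : ∀ M' : ℕ, 1 ≤ M' → (M' : ℝ) * w ≤ 2 * (T * √w) →
          blockMean W M' ≤ Λ * (2 * (T * √w) + w ^ 2 + Y) := fun M' h1 h2 => by
        refine (blockMean_le_reflect hT hY0 href hmax hη0.le hΛ1 h1).trans ?_
        rw [← hw]
        exact mul_le_mul_of_nonneg_left (by linarith) (by linarith)
      have hQ1 := hQ (M * M) (Nat.one_le_iff_ne_zero.2 (by positivity)) (by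
        push_cast; linarith [show 0 ≤ T * √w by positivity])
      have hQ2 := hQ (2 * (M * M)) (Nat.one_le_iff_ne_zero.2 (by positivity)) (by
        push_cast; linarith)
      refine le_of_pow_le_pow_left₀ two_ne_zero hB0 (hsq.trans ?_)
      obtain ⟨s, hs⟩ : ∃ s, s = √Y := ⟨_, rfl⟩
      have hsY : s ^ 2 = Y := hs ▸ Real.sq_sqrt hY0
      have hs0 : 0 ≤ s := hs ▸ Real.sqrt_nonneg _
      have hA2 : A ^ 2 = w ^ 2 * (T * √w) := by
        rw [hA, ← hqw, mul_pow, mul_pow, Real.sq_sqrt hT0.le, hq, ← Real.rpow_mul_natCast hw0,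
          Real.sqrt_eq_rpow]
        push_cast
        ring_nf
      rw [← hs]
      refine (mul_le_mul_of_nonneg_left (add_le_add hQ1 (mul_le_mul_of_nonneg_left hQ2 zero_le_two))
        (by positivity)).trans ?_
      calc 2 * w ^ 2 * Λ ^ 2 * (Λ * (2 * (T * √w) + w ^ 2 + Y) +
            2 * (Λ * (2 * (T * √w) + w ^ 2 + Y)))
          = 6 * Λ ^ 3 * (2 * A ^ 2 + (w ^ 2) ^ 2 + (w * s) ^ 2) := by rw [hA2, ← hsY]; ring
        _ ≤ 9 * Λ ^ 4 * (2 * A + w ^ 2 + w * s) ^ 2 := by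
            refine mul_le_mul ?_ ?_ (by positivity) (by positivity)
            · nlinarith [show 0 ≤ Λ ^ 3 by positivity]
            · nlinarith [mul_nonneg hA0 (sq_nonneg w), mul_nonneg hA0 (mul_nonneg hw0 hs0),
                mul_nonneg (sq_nonneg w) (mul_nonneg hw0 hs0)]
        _ = _ := by ring
    · rw [← hw]
      have h1 : (L : ℝ) * w ≤ 8 * Λ * A := by
        have hPs : P ≤ √T * Λ := by
          rw [hP, Real.rpow_add hT0, Real.sqrt_eq_rpow]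
          exact mul_le_mul_of_nonneg_left hΛT (by positivity)
        calc (L : ℝ) * w ≤ 8 * (P * q) * w := mul_le_mul_of_nonneg_right hLhi hw0
          _ ≤ 8 * (√T * Λ * q) * w := by gcongr
          _ = _ := by rw [hA, ← hqw]; ring
      linarith
  -- moving out
  have hfix : Y ≤ 500 * Λ ^ 8 * (A + w ^ 2) := by
    rw [Finset.mem_Icc] at hL₀
    obtain ⟨hL1, hLP⟩ := hL₀
    have hLR : (L₀ : ℝ) ≤ P := (Nat.cast_le.2 hLP).trans (Nat.floor_le (by linarith))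
    have hL0' : (0 : ℝ) < L₀ := Nat.cast_pos.2 hL1
    have hPq : P ≤ P * q := le_mul_of_one_le_right (by linarith) hq1
    obtain ⟨K, hK⟩ : ∃ K : ℕ, K = ⌈P * q / L₀⌉₊ := ⟨_, rfl⟩
    have hK1 : 1 ≤ K := hK ▸ Nat.one_le_iff_ne_zero.2 (Nat.ceil_pos.2 (by positivity)).ne'
    have hlo : P * q ≤ ((K * L₀ : ℕ) : ℝ) := by
      push_cast
      exact (div_le_iff₀ hL0').1 (hK ▸ Nat.le_ceil _)
    have hhi : ((K * L₀ : ℕ) : ℝ) ≤ 2 * (P * q) := by
      push_cast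
      have h := Nat.ceil_lt_add_one (show 0 ≤ P * q / L₀ by positivity)
      rw [← hK] at h
      have h2 := mul_le_mul_of_nonneg_right h.le hL0'.le
      rw [add_mul, div_mul_cancel₀ _ hL0'.ne', one_mul] at h2
      linarith
    have hPq4 : P * q ≤ 2 * T := by
      refine (mul_le_mul hPT hqT (by linarith) (by positivity)).trans (le_of_eq ?_)
      rw [mul_left_comm, ← Real.rpow_add hT0]
      norm_num
    have h4 : T ≤ T ^ 4 := le_self_pow₀ hT1 (by norm_num)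
    have hmove := blockMean_le_mul W hL1 hK1 (D := Λ) fun n hn => hD n (by
      refine (Nat.cast_le.2 hn).trans ?_
      push_cast at hhi ⊢
      linarith)
    rw [← hY] at hmove
    have e1 := hlong (K * L₀) (Nat.one_le_iff_ne_zero.2 (by positivity)) hlo (by linarith)
    have e2 := hlong (2 * (K * L₀)) (Nat.one_le_iff_ne_zero.2 (by positivity))
      (by push_cast at hlo ⊢; linarith [show (0 : ℝ) ≤ K * L₀ by positivity])
      (by push_cast at hhi ⊢; linarith)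
    obtain ⟨s, hs⟩ : ∃ s, s = √Y := ⟨_, rfl⟩
    have hsY : s ^ 2 = Y := hs ▸ Real.sq_sqrt hY0
    have hs0 : 0 ≤ s := hs ▸ Real.sqrt_nonneg _
    rw [← hs] at e1 e2
    have hX : Y ≤ 84 * Λ ^ 4 * (A + w ^ 2) + 18 * Λ ^ 4 * w * s := by
      refine hmove.trans ((mul_le_mul_of_nonneg_left (add_le_add e1
        (mul_le_mul_of_nonneg_left e2 zero_le_two)) (by linarith)).trans ?_)
      have hl4 : Λ ^ 3 ≤ Λ ^ 4 := pow_le_pow_right₀ hΛ1 (by norm_num)
      have hl2 : Λ ^ 2 ≤ Λ ^ 4 := pow_le_pow_right₀ hΛ1 (by norm_num)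
      have a1 := mul_le_mul_of_nonneg_right hl4 hA0
      have a2 := mul_le_mul_of_nonneg_right hl2 (sq_nonneg w)
      have a3 : 0 ≤ Λ ^ 4 * A := by positivity
      have a4 : 0 ≤ Λ ^ 4 * w ^ 2 := by positivity
      nlinarith
    have h8 : Λ ^ 4 ≤ Λ ^ 8 := pow_le_pow_right₀ hΛ1 (by norm_num)
    have b1 := mul_le_mul_of_nonneg_right h8 hA0
    have b2 := mul_le_mul_of_nonneg_right h8 (sq_nonneg w)
    have b3 : 0 ≤ Λ ^ 8 * A := by positivity
    nlinarith [sq_nonneg (s - 18 * Λ ^ 4 * w)]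
  have hfin := blockMean_le_reflect hT hY0 href hmax hη0.le hΛ1 hN
  rw [← hw] at hfin
  refine hfin.trans ((mul_le_mul_of_nonneg_left (add_le_add le_rfl hfix) (by linarith)).trans ?_)
  have h9 : Λ ^ 9 ≤ C₀ ^ 9 * T ^ ε := by
    rw [hΛ, mul_pow, ← Real.rpow_mul_natCast hT0.le]
    refine mul_le_mul_of_nonneg_left (Real.rpow_le_rpow_of_exponent_le hT1 ?_)
      (by rw [hC₀]; positivity)
    rw [hη]
    push_cast
    linarith [min_le_left (ε / 9) (1 / 4)]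
  have h1 : Λ ≤ Λ ^ 9 := le_self_pow₀ hΛ1 (by norm_num)
  have hNw : 0 ≤ (N : ℝ) * w := by positivity
  rw [← hA]
  calc Λ * (N * w + w ^ 2 + 500 * Λ ^ 8 * (A + w ^ 2))
      ≤ 502 * Λ ^ 9 * (N * w + w ^ 2 + A) := by
        nlinarith [mul_le_mul_of_nonneg_right h1 hNw, mul_le_mul_of_nonneg_right h1 (sq_nonneg w),
          mul_nonneg (pow_nonneg (show 0 ≤ Λ by linarith) 9) hNw,
          mul_nonneg (pow_nonneg (show 0 ≤ Λ by linarith) 9) hA0,
          mul_nonneg (pow_nonneg (show 0 ≤ Λ by linarith) 9) (sq_nonneg w)]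
    _ ≤ 502 * (C₀ ^ 9 * T ^ ε) * (N * w + w ^ 2 + A) := by gcongr
    _ = _ := by ring

/-- **Heath-Brown's double sum.** -/
theorem exists_pairSum_le {ε : ℝ} (hε : 0 < ε) : ∃ C, 0 ≤ C ∧
    ∀ (T : ℝ) (W : Finset ℝ) (N : ℕ) (a : ℕ → ℂ), 2 ≤ T → (∀ t ∈ W, |t| ≤ T) → Separated W →
      (∀ n, ‖a n‖ ≤ 1) →
      pairSum W (Ioc N (2 * N)) a ≤ C * T ^ ε * ((N : ℝ) ^ 2 * W.card + N * (W.card : ℝ) ^ 2 +
        N * (W.card : ℝ) ^ (5 / 4 : ℝ) * √T) := by
  obtain ⟨C, hC, h⟩ := exists_blockMean_le hε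
  refine ⟨C, hC, fun T W N a hT hbd hW ha => ?_⟩
  rcases Nat.eq_zero_or_pos N with rfl | hN
  · simp [pairSum, dpoly]
  have h1 := h T W N hT hbd hW hN
  rw [blockMean, div_le_iff₀ (Nat.cast_pos.2 hN)] at h1
  refine (pairSum_le_one (fun n => one_le_of_mem_block) W fun n _ => ha n).trans ?_
  rw [one_pow, one_mul]
  exact h1.trans (le_of_eq (by ring))

end FA.GuthMaynard

end
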