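import Fermat.Agent.GuthMaynard.LargeValuesCore

/-!
# The large values estimate

A polynomial of length `N` with bounded coefficients has size `N ^ σ`, `7/10 ≤ σ ≤ 4/5`, at no more
than `N ^ ε (N ^ (18/5 - 4 σ) + T N ^ (12/5 - 4 σ))` heights one apart in `[-T, T]`.
-/

set_option autoImplicit false

noncomputable section

namespace FA.GuthMaynard

open Finset Complex
open FA.Hoheisel (dpoly)
open scoped Real

/-- **The critical height.** -/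
theorem exists_critical_le {ε : ℝ} (hε : 0 < ε) : ∃ C, 0 ≤ C ∧
    ∀ (σ : ℝ) (W : Finset ℝ) (N : ℕ) (b : ℕ → ℂ), 2 ≤ N → 7 / 10 ≤ σ → σ ≤ 4 / 5 →
      (∀ t ∈ W, |t| ≤ (N : ℝ) ^ (6 / 5 : ℝ)) → Separated W → (∀ n, ‖b n‖ ≤ 1) →
      (∀ t ∈ W, (N : ℝ) ^ σ ≤ ‖dpoly (Ioc N (2 * N)) b t‖) →
      (W.card : ℝ) ≤ C * (N : ℝ) ^ ε * (N : ℝ) ^ (18 / 5 - 4 * σ) := by
  obtain ⟨η, hη⟩ : ∃ η, η = min (ε / 12) (1 / 2) := ⟨_, rfl⟩
  have hη0 : 0 < η := hη ▸ lt_min (by positivity) (by norm_num)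
  have hη1 : η ≤ 1 / 2 := hη ▸ min_le_right _ _
  have hηε : η ≤ ε / 12 := hη ▸ min_le_left _ _
  obtain ⟨C, hC, h⟩ := exists_spaced_le hη0 hη1
  refine ⟨3 * C, by positivity, fun σ W N b hN hσ1 hσ2 hbd hW hb hbig => ?_⟩
  have hN1 : (1 : ℝ) ≤ N := Nat.one_le_cast.2 (by omega)
  have hN0 : (0 : ℝ) < N := by linarith
  obtain ⟨T, hT⟩ : ∃ T : ℝ, T = (N : ℝ) ^ (6 / 5 : ℝ) := ⟨_, rfl⟩
  rw [← hT] at hbd
  have hT1 : 1 ≤ T := hT ▸ Real.one_le_rpow hN1 (by norm_num)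
  have hTη : 1 ≤ T ^ η := Real.one_le_rpow hT1 hη0.le
  obtain ⟨k, hk⟩ : ∃ k : ℕ, k = ⌈T ^ η⌉₊ + 1 := ⟨_, rfl⟩
  have hk1 : T ^ η + 1 ≤ k := by rw [hk]; push_cast; linarith [Nat.le_ceil (T ^ η)]
  have hk3 : (k : ℝ) ≤ 3 * T ^ η := by
    have := Nat.ceil_lt_add_one (zero_le_one.trans hTη)
    rw [hk]; push_cast; linarith
  have hkpos : (0 : ℤ) < k := by rw [hk]; push_cast; positivity
  classical
  obtain ⟨B, hB⟩ : ∃ B : ℝ, B = C * T ^ (8 * η) * (N : ℝ) ^ (18 / 5 - 4 * σ) := ⟨_, rfl⟩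
  have hclass : ∀ i : ℤ, ((W.filter fun t => ⌊t⌋ % (k : ℤ) = i).card : ℝ) ≤ B := fun i => by
    refine hB ▸ h T σ _ N b hN hT hσ1 hσ2 (fun t ht => hbd t (mem_filter.1 ht).1)
      (fun t ht s hs hne => ?_) hb fun t ht => hbig t (mem_filter.1 ht).1
    obtain ⟨htW, hti⟩ := mem_filter.1 ht
    obtain ⟨hsW, hsi⟩ := mem_filter.1 hs
    have hfl : ⌊t⌋ ≠ ⌊s⌋ := fun e => absurd (Int.abs_sub_lt_one_of_floor_eq_floor e)
      (not_lt.2 (hW t htW s hsW hne))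
    have hdvd : (k : ℤ) ∣ ⌊t⌋ - ⌊s⌋ := Int.dvd_of_emod_eq_zero (by
      rw [Int.sub_emod, hti, hsi, sub_self, Int.zero_emod])
    have hle : (k : ℤ) ≤ |⌊t⌋ - ⌊s⌋| :=
      Int.le_of_dvd (abs_pos.2 (sub_ne_zero.2 hfl)) ((dvd_abs _ _).2 hdvd)
    have hle' : (k : ℝ) ≤ |(⌊t⌋ : ℝ) - ⌊s⌋| := by
      have h' : ((k : ℤ) : ℝ) ≤ ((|⌊t⌋ - ⌊s⌋| : ℤ) : ℝ) := Int.cast_le.2 hle
      rw [Int.cast_abs, Int.cast_sub, Int.cast_natCast] at h'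
      exact h'
    have h1 := Int.floor_le t
    have h2 := Int.lt_floor_add_one t
    have h3 := Int.floor_le s
    have h4 := Int.lt_floor_add_one s
    rcases abs_cases ((⌊t⌋ : ℝ) - ⌊s⌋) with ⟨e, -⟩ | ⟨e, -⟩ <;> rw [e] at hle'
    · exact le_trans (by linarith) (le_abs_self _)
    · exact le_trans (by linarith) (neg_le_abs _)
  have hB0 : 0 ≤ B := hB ▸ by positivity
  rw [card_eq_sum_card_fiberwise (f := fun t : ℝ => ⌊t⌋ % (k : ℤ)) (t := Finset.Ico (0 : ℤ) k)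
    fun t _ => Finset.mem_Ico.2 ⟨Int.emod_nonneg _ hkpos.ne', Int.emod_lt_of_pos _ hkpos⟩]
  push_cast
  refine (sum_le_card_nsmul _ _ B fun i _ => hclass i).trans ?_
  rw [Int.card_Ico, sub_zero, Int.toNat_natCast, nsmul_eq_mul]
  refine (mul_le_mul_of_nonneg_right hk3 hB0).trans ?_
  rw [hB, show 3 * T ^ η * (C * T ^ (8 * η) * (N : ℝ) ^ (18 / 5 - 4 * σ)) =
    3 * C * (T ^ η * T ^ (8 * η)) * (N : ℝ) ^ (18 / 5 - 4 * σ) by ring]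
  refine mul_le_mul_of_nonneg_right (mul_le_mul_of_nonneg_left ?_ (by positivity)) (by positivity)
  rw [← Real.rpow_add (by linarith), hT, ← Real.rpow_mul hN0.le]
  exact Real.rpow_le_rpow_of_exponent_le hN1 (by linarith)

/-- **The large values theorem.** -/
theorem exists_largeValues_gm {ε : ℝ} (hε : 0 < ε) : ∃ C, 0 ≤ C ∧
    ∀ (T σ : ℝ) (W : Finset ℝ) (N : ℕ) (b : ℕ → ℂ), 1 ≤ T → 7 / 10 ≤ σ → σ ≤ 4 / 5 → 1 ≤ N →
      (∀ t ∈ W, |t| ≤ T) → Separated W → (∀ n, ‖b n‖ ≤ 1) →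
      (∀ t ∈ W, (N : ℝ) ^ σ ≤ ‖dpoly (Ioc N (2 * N)) b t‖) →
      (W.card : ℝ) ≤ C * (N : ℝ) ^ ε *
        ((N : ℝ) ^ (18 / 5 - 4 * σ) + T * (N : ℝ) ^ (12 / 5 - 4 * σ)) := by
  obtain ⟨C, hC, h⟩ := exists_critical_le hε
  refine ⟨2 * C + 5, by positivity, fun T σ W N b hT hσ1 hσ2 hN hbd hW hb hbig => ?_⟩
  rcases Nat.lt_or_ge N 2 with hN2 | hN2
  · obtain rfl : N = 1 := by omega
    simp only [Nat.cast_one, Real.one_rpow, mul_one]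
    have := card_le_five_mul hW hT hbd
    nlinarith
  have hN1 : (1 : ℝ) ≤ N := Nat.one_le_cast.2 hN
  have hN0 : (0 : ℝ) < N := by linarith
  obtain ⟨T₀, hT₀⟩ : ∃ T₀ : ℝ, T₀ = (N : ℝ) ^ (6 / 5 : ℝ) := ⟨_, rfl⟩
  have hT₀1 : 1 ≤ T₀ := hT₀ ▸ Real.one_le_rpow hN1 (by norm_num)
  obtain ⟨τ, hτ⟩ : ∃ τ, τ = 18 / 5 - 4 * σ := ⟨_, rfl⟩
  rw [← hτ]
  obtain ⟨B, hB⟩ : ∃ B : ℝ, B = C * (N : ℝ) ^ ε * (N : ℝ) ^ τ := ⟨_, rfl⟩
  have hB0 : 0 ≤ B := hB ▸ by positivity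
  classical
  have hwin : ∀ j : ℤ, ((W.filter fun t => ⌊t / T₀⌋ = j).card : ℝ) ≤ B := fun j => by
    obtain ⟨c, hc⟩ : ∃ c : ℝ, c = (j : ℝ) * T₀ := ⟨_, rfl⟩
    have hcard : ((W.filter fun t => ⌊t / T₀⌋ = j).image fun t => t - c).card =
        (W.filter fun t => ⌊t / T₀⌋ = j).card := card_image_of_injective _ sub_left_injective
    rw [← hcard, hB, hτ]
    refine h σ _ N (fun n => b n * Complex.exp (((-(c * Real.log n) : ℝ) : ℂ) * I)) hN2 hσ1 hσ2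
      (fun t ht => ?_) (fun t ht u hu hne => ?_) (fun n => ?_) fun t ht => ?_
    · obtain ⟨x, hx, rfl⟩ := mem_image.1 ht
      obtain ⟨-, hxj⟩ := mem_filter.1 hx
      rw [← hT₀]
      rw [Int.floor_eq_iff, le_div_iff₀ (by linarith), div_lt_iff₀ (by linarith)] at hxj
      rw [hc, abs_le]
      constructor <;> linarith [hxj.1, hxj.2]
    · obtain ⟨x, hx, rfl⟩ := mem_image.1 ht
      obtain ⟨y, hy, rfl⟩ := mem_image.1 hu
      rw [sub_sub_sub_cancel_right]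
      exact hW x (mem_filter.1 hx).1 y (mem_filter.1 hy).1 fun e => hne (by rw [e])
    · rw [norm_mul, Complex.norm_exp_ofReal_mul_I, mul_one]
      exact hb n
    · obtain ⟨x, hx, rfl⟩ := mem_image.1 ht
      refine (hbig x (mem_filter.1 hx).1).trans (le_of_eq (congrArg norm ?_))
      unfold dpoly
      refine sum_congr rfl fun n hn => ?_
      have hn0 : n ≠ 0 := by rw [mem_Ioc] at hn; omega
      rw [natCast_cpow_eq hn0, natCast_cpow_eq hn0, mul_assoc, ← Complex.exp_add]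
      congr 2
      push_cast
      ring
  rw [card_eq_sum_card_fiberwise (f := fun t : ℝ => ⌊t / T₀⌋)
    (t := Finset.Icc ⌊-T / T₀⌋ ⌊T / T₀⌋) fun t ht => Finset.mem_Icc.2
      ⟨Int.floor_mono (by gcongr; exact (abs_le.1 (hbd t ht)).1),
        Int.floor_mono (by gcongr; exact (abs_le.1 (hbd t ht)).2)⟩]
  push_cast
  refine (sum_le_card_nsmul _ _ B fun j _ => hwin j).trans ?_
  rw [Int.card_Icc, nsmul_eq_mul]
  have hnn : 0 ≤ ⌊T / T₀⌋ + 1 - ⌊-T / T₀⌋ := by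
    have : ⌊-T / T₀⌋ ≤ ⌊T / T₀⌋ := Int.floor_mono (by gcongr; linarith)
    omega
  have hcast : (((⌊T / T₀⌋ + 1 - ⌊-T / T₀⌋).toNat : ℕ) : ℝ) ≤ 2 * (T / T₀) + 2 := by
    rw [← Int.cast_natCast, Int.toNat_of_nonneg hnn]
    push_cast
    have := Int.floor_le (T / T₀)
    have := Int.sub_one_lt_floor (-T / T₀)
    rw [neg_div] at *
    linarith
  refine (mul_le_mul_of_nonneg_right hcast hB0).trans ?_
  have e : T / T₀ * (N : ℝ) ^ τ = T * (N : ℝ) ^ (12 / 5 - 4 * σ) := by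
    rw [hT₀, div_mul_eq_mul_div, mul_div_assoc, ← Real.rpow_sub hN0, hτ]
    congr 2
    ring
  rw [hB, show (2 * (T / T₀) + 2) * (C * (N : ℝ) ^ ε * (N : ℝ) ^ τ) =
    2 * C * (N : ℝ) ^ ε * ((N : ℝ) ^ τ + T / T₀ * (N : ℝ) ^ τ) by ring, e]
  exact mul_le_mul_of_nonneg_right (mul_le_mul_of_nonneg_right (by linarith) (by positivity))
    (by positivity)

end FA.GuthMaynard

end
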