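import Mathlib.Algebra.Order.BigOperators.Ring.Finset
import Mathlib.Analysis.Complex.Basic
import Mathlib.Tactic.Ring
import Mathlib.Tactic.Linarith

/-!
# The cube of a form through traces

For a Gram matrix `A* A` with constant diagonal `d` the off-diagonal part `E` satisfies
`⟨x, E x⟩³ ≤ |x|⁶ (tr E³ + d tr E²)`: by the Cauchy–Schwarz inequality for `A x` and `A E x`,
without spectral theory.
-/

set_option autoImplicit false

noncomputable section

namespace FA.GuthMaynard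

open Finset Complex
open scoped ComplexConjugate

variable {ι κ : Type*}

/-- The off-diagonal entries of the Gram matrix of the columns of `a`. -/
def offGram [DecidableEq ι] (J : Finset κ) (a : κ → ι → ℂ) (t s : ι) : ℂ :=
  if t = s then 0 else ∑ n ∈ J, conj (a n t) * a n s

theorem conj_offGram [DecidableEq ι] (J : Finset κ) (a : κ → ι → ℂ) (t s : ι) :
    conj (offGram J a t s) = offGram J a s t := by
  unfold offGram
  rcases eq_or_ne t s with h | h
  · rw [if_pos h, if_pos h.symm, map_zero]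
  · rw [if_neg h, if_neg h.symm, map_sum]
    exact sum_congr rfl fun n _ => by rw [map_mul, Complex.conj_conj, mul_comm]

variable [DecidableEq ι] {S : Finset ι} {J : Finset κ} {a : κ → ι → ℂ} {d : ℝ}

theorem gram_apply (hd : ∀ t ∈ S, ∑ n ∈ J, ‖a n t‖ ^ 2 = d) {t : ι} (ht : t ∈ S) (x : ι → ℂ) :
    ∑ n ∈ J, conj (a n t) * ∑ s ∈ S, a n s * x s =
      (d : ℂ) * x t + ∑ s ∈ S, offGram J a t s * x s := by
  simp only [mul_sum]
  rw [sum_comm, ← sum_erase_add S _ ht, ← sum_erase_add (f := fun s => offGram J a t s * x s) S ht,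
    add_comm ((d : ℂ) * x t), add_assoc]
  congr 1
  · refine sum_congr rfl fun s hs => ?_
    rw [offGram, if_neg (ne_of_mem_erase hs).symm, sum_mul]
    exact sum_congr rfl fun n _ => (mul_assoc _ _ _).symm
  · rw [offGram, if_pos rfl, zero_mul, zero_add, ← hd t ht, ofReal_sum, sum_mul]
    refine sum_congr rfl fun n _ => ?_
    rw [ofReal_pow, ← Complex.conj_mul', ← mul_assoc]

theorem inner_gram (hd : ∀ t ∈ S, ∑ n ∈ J, ‖a n t‖ ^ 2 = d) (z x : ι → ℂ) :
    ∑ n ∈ J, conj (∑ t ∈ S, a n t * z t) * (∑ s ∈ S, a n s * x s) =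
      (d : ℂ) * ∑ t ∈ S, conj (z t) * x t +
        ∑ t ∈ S, conj (z t) * ∑ s ∈ S, offGram J a t s * x s := by
  calc ∑ n ∈ J, conj (∑ t ∈ S, a n t * z t) * (∑ s ∈ S, a n s * x s)
      = ∑ t ∈ S, conj (z t) * ∑ n ∈ J, conj (a n t) * ∑ s ∈ S, a n s * x s := by
        simp only [map_sum, sum_mul, map_mul]
        rw [sum_comm]
        refine sum_congr rfl fun t _ => ?_
        rw [mul_sum]
        exact sum_congr rfl fun n _ => by ring
    _ = _ := by
        rw [mul_sum, ← sum_add_distrib]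
        refine sum_congr rfl fun t ht => ?_
        rw [gram_apply hd ht]
        ring

/-- **The cube of a quadratic form of the off-diagonal part.** -/
theorem cube_offdiag_le (hd : ∀ t ∈ S, ∑ n ∈ J, ‖a n t‖ ^ 2 = d) (hd0 : 0 ≤ d) (x : ι → ℂ)
    {e : ℝ} (he : 0 ≤ e)
    (hee : (e : ℂ) = ∑ t ∈ S, conj (x t) * ∑ s ∈ S, offGram J a t s * x s) :
    e ^ 3 ≤ (∑ t ∈ S, ‖x t‖ ^ 2) ^ 3 * (d * ∑ t ∈ S, ∑ s ∈ S, ‖offGram J a t s‖ ^ 2 +
      ‖∑ t ∈ S, ∑ u ∈ S, ∑ s ∈ S, offGram J a t u * offGram J a u s * offGram J a s t‖) := by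
  obtain ⟨X, hX⟩ : ∃ X, X = ∑ t ∈ S, ‖x t‖ ^ 2 := ⟨_, rfl⟩
  obtain ⟨z, hz⟩ : ∃ z : ι → ℂ, z = fun t => ∑ s ∈ S, offGram J a t s * x s := ⟨_, rfl⟩
  obtain ⟨Z, hZ⟩ : ∃ Z, Z = ∑ t ∈ S, ‖z t‖ ^ 2 := ⟨_, rfl⟩
  obtain ⟨P, hP⟩ : ∃ P, P = ∑ n ∈ J, ‖∑ s ∈ S, a n s * x s‖ ^ 2 := ⟨_, rfl⟩
  obtain ⟨Q, hQ⟩ : ∃ Q, Q = ∑ n ∈ J, ‖∑ s ∈ S, a n s * z s‖ ^ 2 := ⟨_, rfl⟩
  obtain ⟨K, hK⟩ : ∃ K, K = ∑ n ∈ J, ∑ s ∈ S, ‖∑ t ∈ S, a n t * offGram J a t s‖ ^ 2 := ⟨_, rfl⟩
  rw [← hX]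
  have hX0 : 0 ≤ X := hX ▸ sum_nonneg fun _ _ => sq_nonneg _
  have hQ0 : 0 ≤ Q := hQ ▸ sum_nonneg fun _ _ => sq_nonneg _
  have hP' : P = d * X + e := by
    refine Complex.ofReal_injective ?_
    have h := inner_gram hd x x
    rw [← hee] at h
    rw [hP, hX]
    push_cast
    simp only [← Complex.conj_mul']
    exact h
  have hzx : ∑ t ∈ S, conj (z t) * x t = (e : ℂ) := by
    rw [← Complex.conj_ofReal e, hee, map_sum, hz]
    refine sum_congr rfl fun t _ => ?_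
    rw [map_mul, Complex.conj_conj, mul_comm]
  have hcross : (((Z + d * e : ℝ)) : ℂ) =
      ∑ n ∈ J, conj (∑ t ∈ S, a n t * z t) * (∑ s ∈ S, a n s * x s) := by
    rw [inner_gram hd z x, hzx, hZ, hz]
    push_cast
    simp only [← Complex.conj_mul']
    ring
  have hcs1 : (Z + d * e) ^ 2 ≤ Q * P := by
    have h : Z + d * e ≤ ∑ n ∈ J, ‖∑ t ∈ S, a n t * z t‖ * ‖∑ s ∈ S, a n s * x s‖ := by
      have h1 := congrArg norm hcross
      rw [Complex.norm_real, Real.norm_eq_abs] at h1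
      refine (le_abs_self _).trans (h1.trans_le ((norm_sum_le _ _).trans (le_of_eq ?_)))
      exact sum_congr rfl fun n _ => by rw [norm_mul, Complex.norm_conj]
    have hZ0 : 0 ≤ Z + d * e := add_nonneg (hZ ▸ sum_nonneg fun _ _ => sq_nonneg _)
      (mul_nonneg hd0 he)
    rw [hQ, hP]
    exact (pow_le_pow_left₀ hZ0 h 2).trans (sum_mul_sq_le_sq_mul_sq _ _ _)
  have hcs2 : e ^ 2 ≤ X * Z := by
    have h1 := congrArg norm hee
    rw [Complex.norm_real, Real.norm_of_nonneg he] at h1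
    have h : e ≤ ∑ t ∈ S, ‖x t‖ * ‖z t‖ := by
      refine h1.trans_le ((norm_sum_le _ _).trans (le_of_eq ?_))
      exact sum_congr rfl fun t _ => by rw [norm_mul, Complex.norm_conj, hz]
    rw [hX, hZ]
    exact (pow_le_pow_left₀ he h 2).trans (sum_mul_sq_le_sq_mul_sq _ _ _)
  have hQK : Q ≤ K * X := by
    rw [hQ, hK, sum_mul]
    refine sum_le_sum fun n _ => ?_
    rw [show ∑ s ∈ S, a n s * z s = ∑ s ∈ S, (∑ t ∈ S, a n t * offGram J a t s) * x s by
      rw [hz]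
      simp only [mul_sum, sum_mul]
      rw [sum_comm]
      exact sum_congr rfl fun s _ => sum_congr rfl fun t _ => (mul_assoc _ _ _).symm, hX]
    refine (pow_le_pow_left₀ (norm_nonneg _) ((norm_sum_le _ _).trans (le_of_eq
      (sum_congr rfl fun s _ => norm_mul _ _))) 2).trans (sum_mul_sq_le_sq_mul_sq _ _ _)
  have hKle : K ≤ d * ∑ t ∈ S, ∑ s ∈ S, ‖offGram J a t s‖ ^ 2 +
      ‖∑ t ∈ S, ∑ u ∈ S, ∑ s ∈ S, offGram J a t u * offGram J a u s * offGram J a s t‖ := by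
    have hh : (K : ℂ) = (d : ℂ) * ((∑ t ∈ S, ∑ s ∈ S, ‖offGram J a t s‖ ^ 2 : ℝ) : ℂ) +
        ∑ t ∈ S, ∑ u ∈ S, ∑ s ∈ S, offGram J a t u * offGram J a u s * offGram J a s t := by
      rw [hK]
      push_cast
      simp only [← Complex.conj_mul']
      rw [sum_comm (s := J), sum_congr rfl fun s _ => inner_gram hd (fun t => offGram J a t s)
        (fun t => offGram J a t s), sum_add_distrib, ← mul_sum, sum_comm (s := S) (t := S)]
      congr 1
      refine sum_congr rfl fun s _ => sum_congr rfl fun t _ => ?_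
      rw [conj_offGram, mul_sum]
      exact sum_congr rfl fun u _ => (mul_assoc _ _ _).symm
    have h2 : K ≤ ‖(K : ℂ)‖ := by
      rw [Complex.norm_real]
      exact Real.le_norm_self K
    rw [hh] at h2
    refine h2.trans ((norm_add_le _ _).trans (add_le_add (le_of_eq ?_) le_rfl))
    rw [norm_mul, Complex.norm_real, Complex.norm_real, Real.norm_of_nonneg hd0,
      Real.norm_of_nonneg (sum_nonneg fun _ _ => sum_nonneg fun _ _ => sq_nonneg _)]
  -- assembling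
  rcases he.lt_or_eq with he0 | he0
  swap
  · rw [← he0, zero_pow three_ne_zero]
    exact mul_nonneg (pow_nonneg hX0 3) (add_nonneg (mul_nonneg hd0
      (sum_nonneg fun _ _ => sum_nonneg fun _ _ => sq_nonneg _)) (norm_nonneg _))
  have hXpos : 0 < X := by
    rcases hX0.lt_or_eq with h | h
    · exact h
    · rw [← h, zero_mul] at hcs2
      nlinarith
  have h1 : (e ^ 2 + d * e * X) ^ 2 ≤ X ^ 2 * (Q * (d * X + e)) := by
    refine (pow_le_pow_left₀ (by positivity) (show e ^ 2 + d * e * X ≤ X * (Z + d * e) by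
      nlinarith) 2).trans ?_
    rw [mul_pow, ← hP']
    exact mul_le_mul_of_nonneg_left hcs1 (sq_nonneg X)
  have h2 : e ^ 2 * (e + d * X) ≤ X ^ 2 * Q := by
    refine le_of_mul_le_mul_right (le_trans (le_of_eq ?_) (h1.trans (le_of_eq ?_)))
      (show 0 < d * X + e by positivity)
    · ring
    · ring
  calc e ^ 3 ≤ e ^ 2 * (e + d * X) := by
        nlinarith [mul_nonneg (mul_nonneg (sq_nonneg e) hd0) hX0]
    _ ≤ X ^ 2 * Q := h2
    _ ≤ X ^ 2 * (K * X) := mul_le_mul_of_nonneg_left hQK (sq_nonneg X)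
    _ ≤ X ^ 2 * ((d * ∑ t ∈ S, ∑ s ∈ S, ‖offGram J a t s‖ ^ 2 +
        ‖∑ t ∈ S, ∑ u ∈ S, ∑ s ∈ S, offGram J a t u * offGram J a u s * offGram J a s t‖) * X) :=
        mul_le_mul_of_nonneg_left (mul_le_mul_of_nonneg_right hKle hX0) (sq_nonneg X)
    _ = _ := by ring

end FA.GuthMaynard

end
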