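import Fermat.Agent.GuthMaynard.Triple
import Fermat.Agent.GuthMaynard.Energy

/-!
# The sum over all triples

Up to `T ^ ε`, the sum over `0 < |mᵢ| ≤ P` of the sums over triples of heights is
`(P ^ 2 W ^ (3/2) + P √(W E)) / N + 1`, where `E` is the energy.
-/

set_option autoImplicit false

noncomputable section

namespace FA.GuthMaynard

open Finset Complex MeasureTheory Filter
open scoped Topology ContDiff Real

/-- **The square integral of the affine images of the line weight.** -/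
theorem exists_affineReal_le {η : ℝ} (hη : 0 < η) (hη1 : η ≤ 1) : ∃ C, 0 ≤ C ∧
    ∀ (T z : ℝ) (W : Finset ℝ) (M : ℕ), 2 ≤ T → (∀ t ∈ W, |t| ≤ T) → Separated W → 1 ≤ M →
      (M : ℝ) ≤ T ^ 4 → ∫ v, affineReal M (lineSq W) z v ^ 2 ≤
        C * T ^ (6 * η) * ((M : ℝ) ^ 6 * (W.card : ℝ) ^ 2 + (M : ℝ) ^ 4 * energy W) := by
  obtain ⟨n, hn⟩ : ∃ n : ℕ, 4 ≤ η * n := by
    obtain ⟨n, hn⟩ := exists_nat_gt (4 / η)
    exact ⟨n, by rw [div_lt_iff₀ hη] at hn; linarith⟩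
  obtain ⟨Ca, hCa, haff⟩ := exists_affine_le n
  obtain ⟨Cn, hCn, hnorms⟩ := exists_lineSq_norms
  obtain ⟨Cd, hCd, hdiv⟩ := exists_divisors_le hη
  refine ⟨Ca * (1 + 4 / η) ^ 2 * (Cn ^ 2 + Cd ^ 2 * Cn + 25 * Cn), by positivity,
    fun T z W M hT hbd hW hM hMT => ?_⟩
  have hT0 : 0 < T := by linarith
  have hM0 : (0 : ℝ) ≤ M := Nat.cast_nonneg M
  obtain ⟨w, hw⟩ : ∃ w : ℝ, w = W.card := ⟨_, rfl⟩
  have hw0 : 0 ≤ w := hw ▸ Nat.cast_nonneg _
  have hwT : w ≤ 5 * T := hw ▸ card_le_five_mul hW (by linarith) hbd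
  obtain ⟨n1, n2, n3⟩ := hnorms W T hW (by linarith) hbd
  obtain ⟨f, hf⟩ : ∃ f : ℝ → ℂ, f = fun x => (lineSq W x : ℂ) := ⟨_, rfl⟩
  have hfd : ∀ x, deriv (fun x => ((lineSq W x : ℝ) : ℂ)) x =
      ((deriv (lineSq W) x : ℝ) : ℂ) := fun x =>
    ((((lineSq_smooth W).differentiable (by simp)) x).hasDerivAt.ofReal_comp).deriv
  have hTη : 1 ≤ T ^ η := Real.one_le_rpow (by linarith) hη.le
  have h := haff M (T ^ η) (T ^ 2) (Cd * T ^ η) f z hM hTη (by positivity)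
    (one_le_mul_of_one_le_of_one_le hCd hTη)
    (hMT.trans (by
      rw [← Real.rpow_natCast T 4, ← Real.rpow_mul_natCast hT0.le]
      exact Real.rpow_le_rpow_of_exponent_le (by linarith) (by push_cast; linarith)))
    (fun l hl => hdiv T (by linarith) l (hl.trans (by
      have : T ^ η ≤ T ^ (1 : ℝ) := Real.rpow_le_rpow_of_exponent_le (by linarith) hη1
      rw [Real.rpow_one] at this
      have h2 : T ^ 2 ≤ T ^ 4 := pow_le_pow_right₀ (by linarith) (by norm_num)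
      nlinarith)))
    (hf ▸ Complex.ofRealCLM.contDiff.comp (lineSq_smooth W))
    (fun x hx => by
      rw [hf]
      simp only
      rw [lineSq_eq_zero W, Complex.ofReal_zero]
      rcases abs_cases x with ⟨e, -⟩ | ⟨e, -⟩ <;> rw [e] at hx
      · right; linarith
      · left; linarith)
  simp only [hfd, hf, affineSum_ofReal, Complex.norm_real, Real.norm_eq_abs, sq_abs,
    abs_of_nonneg (lineSq_nonneg W _)] at h
  refine h.trans ?_
  have hlog : (1 + Real.log M) ^ 2 ≤ (1 + 4 / η) ^ 2 * T ^ (2 * η) := by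
    have h0 : 0 ≤ Real.log M := Real.log_nonneg (Nat.one_le_cast.2 hM)
    have h1 : Real.log M ≤ 4 * (T ^ η / η) := by
      refine (Real.log_le_log (Nat.cast_pos.2 hM) hMT).trans ?_
      rw [Real.log_pow]
      push_cast
      linarith [Real.log_le_rpow_div hT0.le hη]
    have e : T ^ (2 * η) = (T ^ η) ^ 2 := by
      rw [← Real.rpow_mul_natCast hT0.le]; push_cast; rw [mul_comm]
    rw [e, ← mul_pow]
    refine pow_le_pow_left₀ (by linarith) ?_ 2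
    have : 4 * (T ^ η / η) = 4 / η * T ^ η := by ring
    linarith
  rw [← hw] at n1 n3 ⊢
  have hF0 : 0 ≤ ∫ x, lineSq W x := integral_nonneg (lineSq_nonneg W)
  have hE0 : (0 : ℝ) ≤ energy W := Nat.cast_nonneg _
  obtain ⟨A, hA⟩ : ∃ A : ℝ, A = (M : ℝ) ^ 6 * w ^ 2 := ⟨_, rfl⟩
  obtain ⟨B, hB⟩ : ∃ B : ℝ, B = (M : ℝ) ^ 4 * energy W := ⟨_, rfl⟩
  have hA0 : 0 ≤ A := hA ▸ by positivity
  have hB0 : 0 ≤ B := hB ▸ by positivity
  have e4 : T ^ (4 * η) = (T ^ η) ^ 4 := by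
    rw [← Real.rpow_mul_natCast hT0.le]; push_cast; rw [mul_comm]
  have hq : 1 ≤ (T ^ η) ^ 4 := one_le_pow₀ hTη
  have t1 : T ^ η * (M : ℝ) ^ 6 * (∫ x, lineSq W x) ^ 2 ≤ (T ^ η) ^ 4 * (Cn ^ 2 * A) := by
    calc T ^ η * (M : ℝ) ^ 6 * (∫ x, lineSq W x) ^ 2
        ≤ (T ^ η) ^ 4 * (M : ℝ) ^ 6 * (Cn * w) ^ 2 := by
          gcongr
          exact le_self_pow₀ hTη (by norm_num)
      _ = _ := by rw [hA]; ring
  have t2 : (M : ℝ) ^ 4 * (T ^ η * (Cd * T ^ η)) ^ 2 * (∫ x, lineSq W x ^ 2) ≤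
      (T ^ η) ^ 4 * (Cd ^ 2 * Cn * B) := by
    calc (M : ℝ) ^ 4 * (T ^ η * (Cd * T ^ η)) ^ 2 * (∫ x, lineSq W x ^ 2)
        ≤ (M : ℝ) ^ 4 * (T ^ η * (Cd * T ^ η)) ^ 2 * (Cn * energy W) :=
          mul_le_mul_of_nonneg_left n2 (by positivity)
      _ = _ := by rw [hB]; ring
  have t3 : (M : ℝ) ^ 6 / (T ^ 2) ^ 2 * (∫ x, deriv (lineSq W) x ^ 2) ≤
      (T ^ η) ^ 4 * (25 * Cn * A) := by
    calc (M : ℝ) ^ 6 / (T ^ 2) ^ 2 * (∫ x, deriv (lineSq W) x ^ 2)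
        ≤ (M : ℝ) ^ 6 / (T ^ 2) ^ 2 * (Cn * T ^ 2 * w ^ 4) :=
          mul_le_mul_of_nonneg_left n3 (by positivity)
      _ = Cn * (M : ℝ) ^ 6 * w ^ 2 * (w / T) ^ 2 := by field_simp
      _ ≤ Cn * (M : ℝ) ^ 6 * w ^ 2 * 5 ^ 2 := by
          refine mul_le_mul_of_nonneg_left (pow_le_pow_left₀ (by positivity) ?_ 2) (by positivity)
          rw [div_le_iff₀ hT0]
          exact hwT
      _ ≤ _ := by
          rw [hA]
          have : 0 ≤ Cn * (M : ℝ) ^ 6 * w ^ 2 := by positivity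
          nlinarith
  refine (mul_le_mul (mul_le_mul_of_nonneg_left hlog hCa) (add_le_add (add_le_add t1 t2) t3)
    (by positivity) (by positivity)).trans ?_
  rw [show 6 * η = 2 * η + 4 * η by ring, Real.rpow_add hT0, e4, ← hA, ← hB]
  have : 0 ≤ Ca * (1 + 4 / η) ^ 2 * T ^ (2 * η) * (T ^ η) ^ 4 := by positivity
  have : 0 ≤ Cn ^ 2 * B + Cd ^ 2 * Cn * A + 25 * Cn * B := by positivity
  nlinarith

/-- **All triples.** -/
theorem exists_tripleCube_le {η : ℝ} (hη : 0 < η) (hη1 : η ≤ 1) : ∃ C, 0 ≤ C ∧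
    ∀ (T N : ℝ) (W : Finset ℝ) (J : ℕ), 2 ≤ T → (∀ t ∈ W, |t| ≤ T) → Separated W → 0 < N →
      (2 : ℝ) ^ J ≤ T ^ 4 →
      ∑ m ∈ tripleCube (2 ^ J), ‖tripleSum W N m‖ ≤
        C * T ^ (5 * η) * (((2 : ℝ) ^ J) ^ 2 * ((W.card : ℝ) * √(W.card : ℝ)) / N +
          (2 : ℝ) ^ J * √((W.card : ℝ) * energy W) / N + 1) := by
  obtain ⟨n, hn⟩ : ∃ n : ℕ, 20 ≤ η * n := by
    obtain ⟨n, hn⟩ := exists_nat_gt (20 / η)
    exact ⟨n, by rw [div_lt_iff₀ hη] at hn; linarith⟩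
  obtain ⟨Ct, hCt, htri⟩ := exists_tripleClass_le n
  obtain ⟨Cz, hCz, hz⟩ := exists_affineReal_le hη hη1
  obtain ⟨Cn, hCn, hnorms⟩ := exists_lineSq_norms
  obtain ⟨Cl, hCl, hlog⟩ := exists_log_le hη
  refine ⟨3 * Cl * Ct * (√(Cn * Cz) + 125), by positivity,
    fun T N W J hT hbd hW hN hJ => ?_⟩
  have hT0 : 0 < T := by linarith
  obtain ⟨w, hw⟩ : ∃ w : ℝ, w = W.card := ⟨_, rfl⟩
  have hw0 : 0 ≤ w := hw ▸ Nat.cast_nonneg _
  have hwT : w ≤ 5 * T := hw ▸ card_le_five_mul hW (by linarith) hbd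
  obtain ⟨E, hE⟩ : ∃ E : ℝ, E = energy W := ⟨_, rfl⟩
  have hE0 : 0 ≤ E := hE ▸ Nat.cast_nonneg _
  rw [← hw, ← hE]
  obtain ⟨P, hP⟩ : ∃ P : ℝ, P = (2 : ℝ) ^ J := ⟨_, rfl⟩
  rw [← hP] at hJ ⊢
  have hP0 : 0 ≤ P := hP ▸ by positivity
  obtain ⟨F, hF⟩ : ∃ F : ℝ, F = P ^ 2 * (w * √w) / N + P * √(w * E) / N + 1 := ⟨_, rfl⟩
  have hF0 : 0 ≤ F := hF ▸ by positivity
  rw [← hF]
  have hone : ∀ j ∈ range (J + 1), ∑ m ∈ tripleClass (2 ^ j), ‖tripleSum W N m‖ ≤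
      Ct * (√(Cn * Cz) + 125) * T ^ (4 * η) * F := fun j hj => by
    obtain ⟨M, hM⟩ : ∃ M : ℕ, M = 2 ^ j := ⟨_, rfl⟩
    have hM1 : 1 ≤ M := hM ▸ Nat.one_le_pow _ _ two_pos
    have hMR : (M : ℝ) = 2 ^ j := by rw [hM]; push_cast; rfl
    have hMP : (M : ℝ) ≤ P := by
      rw [hMR, hP]; exact pow_le_pow_right₀ one_le_two (Nat.lt_succ_iff.1 (mem_range.1 hj))
    have hM0 : (0 : ℝ) < M := Nat.cast_pos.2 hM1
    rw [← hM]
    refine (htri W N (T ^ η) _ M hN (Real.one_le_rpow (by linarith) hη.le) hM1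
      fun z => hz T z W M hT hbd hW hM1 (hMP.trans hJ)).trans ?_
    rw [← hw, ← hE]
    have hF1 : ∫ y, lineSq W y ≤ Cn * w := hw ▸ (hnorms W T hW (by linarith) hbd).1
    have hroot : √((∫ y, lineSq W y) * (Cz * T ^ (6 * η) *
        ((M : ℝ) ^ 6 * w ^ 2 + (M : ℝ) ^ 4 * E))) ≤
        √(Cn * Cz) * T ^ (3 * η) * ((M : ℝ) ^ 3 * (w * √w) + (M : ℝ) ^ 2 * √(w * E)) := by
      refine (Real.sqrt_le_iff.2 ⟨by positivity, ?_⟩)
      have e : (T ^ (3 * η)) ^ 2 = T ^ (6 * η) := by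
        rw [← Real.rpow_mul_natCast hT0.le]; push_cast; ring_nf
      rw [mul_pow, mul_pow, e, Real.sq_sqrt (by positivity), add_sq, mul_pow, mul_pow, mul_pow,
        Real.sq_sqrt hw0, Real.sq_sqrt (mul_nonneg hw0 hE0)]
      refine (mul_le_mul_of_nonneg_right hF1 (by positivity)).trans ?_
      have : 0 ≤ Cn * Cz * T ^ (6 * η) *
          (2 * ((M : ℝ) ^ 3 * (w * √w)) * ((M : ℝ) ^ 2 * √(w * E))) := by positivity
      linarith
    have hmain : T ^ η / (N * M) * √((∫ y, lineSq W y) * (Cz * T ^ (6 * η) *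
        ((M : ℝ) ^ 6 * w ^ 2 + (M : ℝ) ^ 4 * E))) ≤ √(Cn * Cz) * T ^ (4 * η) * F := by
      refine (mul_le_mul_of_nonneg_left hroot (by positivity)).trans ?_
      rw [show 4 * η = η + 3 * η by ring, Real.rpow_add hT0, hF]
      calc T ^ η / (N * M) * (√(Cn * Cz) * T ^ (3 * η) *
            ((M : ℝ) ^ 3 * (w * √w) + (M : ℝ) ^ 2 * √(w * E)))
          = √(Cn * Cz) * (T ^ η * T ^ (3 * η)) *
              ((M : ℝ) ^ 2 * (w * √w) / N + (M : ℝ) * √(w * E) / N) := by field_simp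
        _ ≤ _ := by
            refine mul_le_mul_of_nonneg_left ?_ (by positivity)
            have h1 : (M : ℝ) ^ 2 * (w * √w) / N ≤ P ^ 2 * (w * √w) / N := by gcongr
            have h2 : (M : ℝ) * √(w * E) / N ≤ P * √(w * E) / N := by gcongr
            linarith
    have hrest : ((T ^ η) ^ n)⁻¹ * (M : ℝ) ^ 3 * w ^ 3 ≤ 125 * T ^ (4 * η) * F := by
      have h1 : ((T ^ η) ^ n)⁻¹ ≤ (T ^ 15)⁻¹ := by
        refine inv_anti₀ (by positivity) ?_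
        rw [← Real.rpow_natCast T 15, ← Real.rpow_mul_natCast hT0.le]
        exact Real.rpow_le_rpow_of_exponent_le (by linarith) (by push_cast; linarith)
      calc ((T ^ η) ^ n)⁻¹ * (M : ℝ) ^ 3 * w ^ 3 ≤ (T ^ 15)⁻¹ * (T ^ 4) ^ 3 * (5 * T) ^ 3 := by
            gcongr
            exact hMP.trans hJ
        _ = 125 := by field_simp; ring
        _ ≤ _ := by
            rw [mul_assoc]
            refine le_mul_of_one_le_right (by norm_num) (one_le_mul_of_one_le_of_one_le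
              (Real.one_le_rpow (by linarith) (by positivity)) ?_)
            rw [hF]
            exact le_add_of_nonneg_left (by positivity)
    calc Ct * (T ^ η / (N * M) * √((∫ y, lineSq W y) * (Cz * T ^ (6 * η) *
          ((M : ℝ) ^ 6 * w ^ 2 + (M : ℝ) ^ 4 * E))) + ((T ^ η) ^ n)⁻¹ * (M : ℝ) ^ 3 * w ^ 3)
        ≤ Ct * (√(Cn * Cz) * T ^ (4 * η) * F + 125 * T ^ (4 * η) * F) :=
          mul_le_mul_of_nonneg_left (add_le_add hmain hrest) hCt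
      _ = _ := by ring
  refine (sum_tripleCube_le W N J).trans ((mul_le_mul_of_nonneg_left
    (sum_le_card_nsmul _ _ _ hone) (by norm_num)).trans ?_)
  rw [card_range, nsmul_eq_mul, Nat.cast_add, Nat.cast_one]
  have hJ' : ((J : ℝ) + 1) ≤ Cl * T ^ η :=
    hlog T J (by linarith) (by rw [← hP]; nlinarith [pow_nonneg hT0.le 4])
  have hz0 : 0 ≤ Ct * (√(Cn * Cz) + 125) * T ^ (4 * η) * F := by positivity
  refine (mul_le_mul_of_nonneg_left (mul_le_mul_of_nonneg_right hJ' hz0) (by norm_num)).trans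
    (le_of_eq ?_)
  rw [show 5 * η = η + 4 * η by ring, Real.rpow_add hT0]
  ring

end FA.GuthMaynard

end
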