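import Fermat.Agent.GuthMaynard.ShortMean
import Fermat.Agent.GuthMaynard.Trace
import Fermat.Agent.GuthMaynard.TripleBound

/-!
# The off-diagonal Gram matrix of a block

For heights `T ^ η` apart the entries of the Gram matrix of a smoothed block of length `N` are, up
to a negligible error, dual sums of length `T ^ (1 + η) / N`. Hence both the square sum of the
entries and the trace of the third power are small.
-/

set_option autoImplicit false

noncomputable section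

namespace FA.GuthMaynard

open Finset Complex
open FA.Hoheisel (dpoly)
open scoped Real FourierTransform ComplexConjugate

/-- The entries of the matrix of the smoothed block. -/
def gramEntry (N n : ℕ) (t : ℝ) : ℂ :=
  ((√(blockWeight N n) : ℝ) : ℂ) * (n : ℂ) ^ (-(I * (t : ℂ)))

/-- The diagonal of its Gram matrix. -/
def blockMass (N : ℕ) : ℝ := ∑ n ∈ Icc 1 (3 * N), blockWeight N n

theorem blockMass_nonneg (N : ℕ) : 0 ≤ blockMass N := sum_nonneg fun _ _ => blockWeight_nonneg _ _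

theorem blockMass_le (N : ℕ) : blockMass N ≤ 3 * N := by
  refine (sum_le_card_nsmul _ _ 1 fun n _ => blockWeight_le_one N n).trans (le_of_eq ?_)
  simp

theorem le_blockMass (N : ℕ) : (N : ℝ) ≤ blockMass N := by
  refine le_trans (le_of_eq ?_) (sum_le_sum_of_subset_of_nonneg (s := Ioc N (2 * N))
    (fun n hn => ?_) fun n _ _ => blockWeight_nonneg _ _)
  · rw [sum_congr rfl fun n hn => blockWeight_eq_one hn]
    simp [two_mul]
  · rw [mem_Ioc] at hn; rw [Finset.mem_Icc]; omega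

theorem sum_norm_gramEntry (N : ℕ) (t : ℝ) :
    ∑ n ∈ Icc 1 (3 * N), ‖gramEntry N n t‖ ^ 2 = blockMass N :=
  sum_congr rfl fun n hn => by
    rw [gramEntry, norm_mul, Complex.norm_real, Real.norm_of_nonneg (Real.sqrt_nonneg _),
      Complex.norm_natCast_cpow_of_pos (Finset.mem_Icc.1 hn).1]
    simp [Real.sq_sqrt (blockWeight_nonneg N n)]

theorem offGram_gramEntry_eq {N : ℕ} (hN : 1 ≤ N) {t s : ℝ} (h : t ≠ s) :
    offGram (Icc 1 (3 * N)) (gramEntry N) t s =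
      Complex.exp ((((t - s) * Real.log N : ℝ) : ℂ) * I) *
        ((N : ℂ) * ∑' m : ℤ, 𝓕 (phase weight (t - s)) ((m : ℝ) * N)) := by
  rw [← dpoly_blockWeight_eq hN, offGram, if_neg h, dpoly]
  refine sum_congr rfl fun n hn => ?_
  have hn0 : n ≠ 0 := by have := (Finset.mem_Icc.1 hn).1; omega
  have e : ((√(blockWeight N n) : ℝ) : ℂ) * ((√(blockWeight N n) : ℝ) : ℂ) =
      (blockWeight N n : ℂ) := by
    rw [← Complex.ofReal_mul, Real.mul_self_sqrt (blockWeight_nonneg _ _)]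
  rw [gramEntry, gramEntry, map_mul, conj_ofReal, natCast_cpow_eq hn0, natCast_cpow_eq hn0,
    natCast_cpow_eq hn0, conj_exp_real_mul_I, mul_mul_mul_comm, e, ← Complex.exp_add]
  congr 2
  push_cast
  ring

theorem sum_nonzeroRange_eq (J : ℕ) (v : ℝ) (N : ℝ) :
    ∑ m ∈ nonzeroRange (2 ^ J), 𝓕 (phase weight v) ((m : ℝ) * N) =
      (∑ m ∈ dualRange J, 𝓕 (phase weight v) ((m : ℝ) * N)) +
        conj (∑ m ∈ dualRange J, 𝓕 (phase weight (-v)) ((m : ℝ) * N)) := by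
  classical
  have e : nonzeroRange (2 ^ J) = (dualRange J).image (fun m : ℕ => (m : ℤ)) ∪
      (dualRange J).image (fun m : ℕ => -(m : ℤ)) := by
    ext a
    simp only [mem_nonzeroRange, mem_union, mem_image, dualRange, mem_Ioc, abs_le]
    constructor
    · rintro ⟨h1, h2⟩
      rcases lt_or_gt_of_ne h1 with h | h
      · exact Or.inr ⟨a.natAbs, by omega, by omega⟩
      · exact Or.inl ⟨a.natAbs, by omega, by omega⟩
    · rintro (⟨m, hm, rfl⟩ | ⟨m, hm, rfl⟩) <;> omega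
  rw [e, sum_union (disjoint_left.2 fun a ha ha' => by
      simp only [mem_image, dualRange, mem_Ioc] at ha ha'
      obtain ⟨x, hx, rfl⟩ := ha
      obtain ⟨y, hy, hxy⟩ := ha'
      omega), sum_image (fun x _ y _ h => Nat.cast_injective h),
    sum_image (fun x _ y _ h => Nat.cast_injective (neg_injective h)), map_sum]
  congr 1
  refine sum_congr rfl fun m _ => ?_
  simp only [Int.cast_neg, Int.cast_natCast, neg_mul]
  exact fourier_phase_neg conj_weight v _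

theorem exists_dual_length {T η : ℝ} (hT : 1 ≤ T) (hη : 0 ≤ η) {N : ℕ} (hN : 1 ≤ N)
    (hNT : (N : ℝ) ≤ T) : ∃ J : ℕ, T ^ (1 + η) ≤ (2 : ℝ) ^ J * N ∧
      (2 : ℝ) ^ J * N ≤ 2 * T ^ (1 + η) ∧ ∀ j < J, (2 : ℝ) ^ j * N ≤ T ^ (1 + η) := by
  classical
  have hN1 : (1 : ℝ) ≤ N := Nat.one_le_cast.2 hN
  have hex : ∃ J : ℕ, T ^ (1 + η) ≤ (2 : ℝ) ^ J * N := by
    obtain ⟨J, hJ⟩ := pow_unbounded_of_one_lt (T ^ (1 + η)) one_lt_two
    exact ⟨J, hJ.le.trans (le_mul_of_one_le_right (by positivity) hN1)⟩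
  obtain ⟨J, hJ⟩ : ∃ J, J = Nat.find hex := ⟨_, rfl⟩
  have h2 : ∀ j < J, (2 : ℝ) ^ j * N ≤ T ^ (1 + η) := fun j hj =>
    (not_le.1 (Nat.find_min hex (hJ ▸ hj))).le
  refine ⟨J, hJ ▸ Nat.find_spec hex, ?_, h2⟩
  rcases Nat.eq_zero_or_pos J with h0 | h0
  · have : T ^ (1 : ℝ) ≤ T ^ (1 + η) := Real.rpow_le_rpow_of_exponent_le hT (by linarith)
    rw [Real.rpow_one] at this
    rw [h0, pow_zero, one_mul]
    linarith
  · obtain ⟨i, rfl⟩ : ∃ i, J = i + 1 := ⟨J - 1, by omega⟩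
    rw [pow_succ]
    linarith [h2 i (by omega)]

theorem norm_prod_three_sub_le {a b c a' b' c' : ℂ} {L ε : ℝ} (ha : ‖a‖ ≤ L) (hb : ‖b‖ ≤ L)
    (hb' : ‖b'‖ ≤ L) (hc' : ‖c'‖ ≤ L) (ha' : ‖a'‖ ≤ L) (h1 : ‖a - a'‖ ≤ ε)
    (h2 : ‖b - b'‖ ≤ ε) (h3 : ‖c - c'‖ ≤ ε) : ‖a * b * c - a' * b' * c'‖ ≤ 3 * L ^ 2 * ε := by
  have hL : 0 ≤ L := (norm_nonneg a).trans ha
  have hε : 0 ≤ ε := (norm_nonneg _).trans h1
  rw [show a * b * c - a' * b' * c' =
    a * b * (c - c') + a * (b - b') * c' + (a - a') * b' * c' by ring]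
  refine norm_add₃_le.trans ?_
  simp only [norm_mul]
  have e1 : ‖a‖ * ‖b‖ * ‖c - c'‖ ≤ L * L * ε := by gcongr
  have e2 : ‖a‖ * ‖b - b'‖ * ‖c'‖ ≤ L * ε * L := by gcongr
  have e3 : ‖a - a'‖ * ‖b'‖ * ‖c'‖ ≤ ε * L * L := by gcongr
  nlinarith

/-- The square sum of the off-diagonal entries. -/
theorem exists_offdiag_sq_le {η : ℝ} (hη : 0 < η) (hη1 : η ≤ 1 / 2) : ∃ C, 0 ≤ C ∧
    ∀ (T : ℝ) (W : Finset ℝ) (N : ℕ), 2 ≤ T → (∀ t ∈ W, |t| ≤ T) →
      (∀ t ∈ W, ∀ s ∈ W, t ≠ s → T ^ η ≤ |t - s|) → 1 ≤ N → (N : ℝ) ≤ T → T ≤ (N : ℝ) ^ 2 →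
      ∑ t ∈ W, ∑ s ∈ W, ‖offGram (Icc 1 (3 * N)) (gramEntry N) t s‖ ^ 2 ≤
        C * T ^ (5 * η) * N * ((W.card : ℝ) ^ 2 + T / N * (W.card : ℝ) ^ (7 / 4 : ℝ) +
          T ^ (1 / 8 : ℝ) * (W.card : ℝ) ^ (29 / 16 : ℝ)) := by
  obtain ⟨n, hn⟩ : ∃ n : ℕ, 2 ≤ η * n := by
    obtain ⟨n, hn⟩ := exists_nat_gt (2 / η)
    exact ⟨n, by rw [div_lt_iff₀ hη] at hn; linarith⟩
  obtain ⟨C, hC, hdual⟩ := exists_dual_le n hn
  obtain ⟨Cb, hCb, hblock⟩ := exists_block_pair_le isCut_weight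
  obtain ⟨Ce, hCe, hshort⟩ := exists_blockMean_short_le hη
  obtain ⟨Cl, hCl, hlog⟩ := exists_log_le hη
  refine ⟨8 * C ^ 2 + 8 * Cl ^ 2 * Cb * (1 + 2 * Ce), by positivity,
    fun T W N hT hbd hsep hN hNT hTN => ?_⟩
  have hT0 : 0 < T := by linarith
  have hTη : 1 ≤ T ^ η := Real.one_le_rpow (by linarith) hη.le
  have hW : Separated W := fun t ht s hs hne => hTη.trans (hsep t ht s hs hne)
  have hN1 : (1 : ℝ) ≤ N := Nat.one_le_cast.2 hN
  obtain ⟨J, hJ1, hJ2, hJ3⟩ := exists_dual_length (by linarith) hη.le hN hNT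
  obtain ⟨w, hw⟩ : ∃ w : ℝ, w = W.card := ⟨_, rfl⟩
  have hw0 : 0 ≤ w := hw ▸ Nat.cast_nonneg _
  rw [← hw]
  obtain ⟨F, hF⟩ : ∃ F : ℝ, F = w ^ 2 + T / N * w ^ (7 / 4 : ℝ) +
      T ^ (1 / 8 : ℝ) * w ^ (29 / 16 : ℝ) := ⟨_, rfl⟩
  rw [← hF]
  have hF0 : 0 ≤ F := hF ▸ by positivity
  have hwF : w ^ 2 ≤ F := by
    have : 0 ≤ T / N * w ^ (7 / 4 : ℝ) + T ^ (1 / 8 : ℝ) * w ^ (29 / 16 : ℝ) := by positivity
    rw [hF]; linarith
  have hNη : T ^ η ≤ N := by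
    refine (Real.rpow_le_rpow_of_exponent_le (by linarith) hη1).trans ?_
    rw [← Real.sqrt_eq_rpow]
    exact Real.sqrt_le_iff.2 ⟨by linarith, hTN⟩
  -- the short blocks
  have hB : ∀ k : ℕ, (2 : ℝ) ^ k * N ≤ T ^ (1 + η) →
      blockMean W (2 ^ k) ≤ 2 * Ce * T ^ (3 * η) * F := by
    intro k hk
    rw [Real.rpow_add hT0, Real.rpow_one] at hk
    have hkT : ((2 ^ k : ℕ) : ℝ) ≤ T := by
      push_cast
      refine le_of_mul_le_mul_right (hk.trans ?_) (show (0 : ℝ) < N by linarith)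
      exact mul_le_mul_of_nonneg_left hNη hT0.le
    refine (hshort T W (2 ^ k) hT hbd hW (Nat.one_le_pow _ _ two_pos) hkT).trans ?_
    rw [← hw]
    push_cast
    have h1 : (2 : ℝ) ^ k * w ^ (7 / 4 : ℝ) ≤ T ^ η * (T / N * w ^ (7 / 4 : ℝ)) := by
      rw [← mul_assoc]
      refine mul_le_mul_of_nonneg_right ?_ (by positivity)
      rw [mul_div, le_div_iff₀ (by linarith)]
      linarith
    rw [show 3 * η = 2 * η + η by ring, Real.rpow_add hT0]
    have h2 : (2 : ℝ) ^ k * w ^ (7 / 4 : ℝ) + w ^ 2 + w ^ (29 / 16 : ℝ) * T ^ (1 / 8 : ℝ) ≤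
        T ^ η * F := by
      rw [hF]
      nlinarith [mul_nonneg (sub_nonneg.2 hTη) (show 0 ≤ w ^ 2 by positivity),
        mul_nonneg (sub_nonneg.2 hTη)
          (show 0 ≤ T ^ (1 / 8 : ℝ) * w ^ (29 / 16 : ℝ) by positivity)]
    refine (mul_le_mul_of_nonneg_left h2 (by positivity)).trans ?_
    have : 0 ≤ Ce * (T ^ (2 * η) * T ^ η) * F := by positivity
    nlinarith
  -- the pieces
  obtain ⟨p, hp⟩ : ∃ p : ℕ → ℝ → ℝ, p = fun j v =>
      (N : ℝ) * ‖∑ m ∈ dualPiece j, 𝓕 (phase weight v) ((m : ℝ) * N)‖ := ⟨_, rfl⟩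
  obtain ⟨G, hG⟩ : ∃ G : ℝ, G = (1 + 2 * Ce) * T ^ (3 * η) * F := ⟨_, rfl⟩
  have hG0 : 0 ≤ G := hG ▸ by positivity
  have hpiece : ∀ j ∈ range (J + 1), ∑ t ∈ W, ∑ u ∈ W, p j (t - u) ^ 2 ≤ Cb * N * G := by
    intro j hj
    rw [hp]
    have h3 : 1 ≤ T ^ (3 * η) := Real.one_le_rpow (by linarith) (by positivity)
    rcases Nat.eq_zero_or_pos j with rfl | hj0
    · refine (hblock W N 1 _ (by linarith) fun m hm => ?_).trans
        (mul_le_mul_of_nonneg_left ?_ (by positivity))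
      · simp only [dualPiece, pow_zero, mem_Ioc] at hm
        have : m = 1 := by omega
        subst this
        simp
      · refine le_trans (le_of_eq ?_) (le_trans hwF ?_)
        · rw [show dualPiece 0 = {1} by decide]
          simp [pairSum, dpoly, hw, sq]
        · rw [hG]
          exact le_mul_of_one_le_left hF0 (one_le_mul_of_one_le_of_one_le (by linarith) h3)
    · obtain ⟨k, rfl⟩ : ∃ k, j = k + 1 := ⟨j - 1, by omega⟩
      have e : 2 ^ (k + 1) / 2 = 2 ^ k := by rw [pow_succ, Nat.mul_div_cancel _ two_pos]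
      have hk : (0 : ℝ) < ((2 ^ k : ℕ) : ℝ) := by positivity
      refine (hblock W N ((√((2 ^ k : ℕ) : ℝ))⁻¹) _ (by linarith) fun m hm => ?_).trans
        (mul_le_mul_of_nonneg_left ?_ (by positivity))
      · rw [dualPiece, mem_Ioc, e] at hm
        exact ⟨by omega, inv_anti₀ (Real.sqrt_pos.2 hk)
          (Real.sqrt_le_sqrt (Nat.cast_le.2 hm.1.le))⟩
      · rw [dualPiece, e, inv_pow, Real.sq_sqrt hk.le, pow_succ' 2 k, ← div_eq_inv_mul]
        refine le_trans (hB k (hJ3 k (by rw [mem_range] at hj; omega))) ?_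
        rw [hG]
        nlinarith [mul_nonneg (zero_le_one.trans h3) hF0]
  have hsymm : ∀ j : ℕ, ∑ t ∈ W, ∑ u ∈ W, p j (-(t - u)) ^ 2 =
      ∑ t ∈ W, ∑ u ∈ W, p j (t - u) ^ 2 := fun j => by
    rw [sum_comm]; simp only [neg_sub]
  have hpair : ∀ t ∈ W, ∀ u ∈ W, ‖offGram (Icc 1 (3 * N)) (gramEntry N) t u‖ ^ 2 ≤
      8 * C ^ 2 + 4 * ((J : ℝ) + 1) * ∑ j ∈ range (J + 1),
        (p j (t - u) ^ 2 + p j (-(t - u)) ^ 2) := by
    intro t ht u hu
    rcases eq_or_ne t u with h | h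
    · rw [offGram, if_pos h, norm_zero, zero_pow two_ne_zero]
      have : 0 ≤ ∑ j ∈ range (J + 1), (p j (t - u) ^ 2 + p j (-(t - u)) ^ 2) :=
        sum_nonneg fun j _ => by positivity
      positivity
    · rw [offGram_gramEntry_eq hN h, norm_mul, Complex.norm_exp_ofReal_mul_I, one_mul, norm_mul,
        Complex.norm_natCast]
      obtain ⟨Y, hY⟩ : ∃ Y, Y = ∑ j ∈ range (J + 1), (p j (t - u) + p j (-(t - u))) := ⟨_, rfl⟩
      have h' : (N : ℝ) * ‖∑' m : ℤ, 𝓕 (phase weight (t - u)) ((m : ℝ) * N)‖ ≤ 2 * C + Y := by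
        refine (hdual T (t - u) N J hT (hsep t ht u hu h) (by
          have h1 := abs_le.1 (hbd t ht); have h2 := abs_le.1 (hbd u hu)
          rw [abs_le]; constructor <;> linarith) hN hJ1).trans ?_
        rw [hY, hp]
        refine add_le_add ?_ le_rfl
        have : C * N / T ≤ C := by
          rw [div_le_iff₀ hT0]; exact mul_le_mul_of_nonneg_left hNT hC
        linarith
      refine (pow_le_pow_left₀ (by positivity) h' 2).trans ?_
      have hY' : Y ^ 2 ≤ ((J : ℝ) + 1) * (2 * ∑ j ∈ range (J + 1),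
          (p j (t - u) ^ 2 + p j (-(t - u)) ^ 2)) := by
        rw [hY, mul_sum]
        refine sq_sum_le_card_mul_sum_sq.trans ?_
        rw [card_range, Nat.cast_add, Nat.cast_one]
        refine mul_le_mul_of_nonneg_left (sum_le_sum fun j _ => ?_) (by positivity)
        nlinarith [sq_nonneg (p j (t - u) - p j (-(t - u)))]
      nlinarith [sq_nonneg (2 * C - Y)]
  refine (sum_le_sum fun t ht => sum_le_sum fun u hu => hpair t ht u hu).trans ?_
  have htot : ∑ t ∈ W, ∑ u ∈ W, (8 * C ^ 2 + 4 * ((J : ℝ) + 1) * ∑ j ∈ range (J + 1),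
      (p j (t - u) ^ 2 + p j (-(t - u)) ^ 2)) ≤
      8 * C ^ 2 * w ^ 2 + 8 * ((J : ℝ) + 1) ^ 2 * (Cb * N * G) := by
    simp only [sum_add_distrib, ← mul_sum]
    refine add_le_add (le_of_eq ?_) ?_
    · simp only [sum_const, nsmul_eq_mul, hw]; ring
    · rw [sum_congr rfl fun t _ => sum_comm, sum_comm,
        sum_congr rfl fun t _ => sum_comm (s := W) (t := range (J + 1)),
        sum_comm (s := W) (t := range (J + 1)), ← sum_add_distrib]
      refine (mul_le_mul_of_nonneg_left ((sum_le_card_nsmul _ _ (2 * (Cb * N * G)) fun j hj => by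
        rw [hsymm]; linarith [hpiece j hj]).trans (le_of_eq (nsmul_eq_mul _ _)))
        (by positivity)).trans (le_of_eq ?_)
      rw [card_range]
      push_cast
      ring
  refine htot.trans ?_
  have hJl : ((J : ℝ) + 1) ^ 2 ≤ Cl ^ 2 * T ^ (2 * η) := by
    have h := hlog T J (by linarith) (by
      have : T ^ (1 + η) ≤ T ^ (2 : ℝ) :=
        Real.rpow_le_rpow_of_exponent_le (by linarith) (by linarith)
      rw [Real.rpow_two] at this
      have h2 : T ^ 2 ≤ T ^ 4 := pow_le_pow_right₀ (by linarith) (by norm_num)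
      nlinarith [le_mul_of_one_le_right (show (0 : ℝ) ≤ 2 ^ J by positivity) hN1])
    refine (pow_le_pow_left₀ (by positivity) h 2).trans (le_of_eq ?_)
    rw [mul_pow, ← Real.rpow_mul_natCast hT0.le]
    push_cast
    ring_nf
  have h5 : 1 ≤ T ^ (5 * η) := Real.one_le_rpow (by linarith) (by positivity)
  have t1 : 8 * C ^ 2 * w ^ 2 ≤ 8 * C ^ 2 * T ^ (5 * η) * N * F := by
    calc 8 * C ^ 2 * w ^ 2 = 8 * C ^ 2 * 1 * 1 * w ^ 2 := by ring
      _ ≤ _ := by gcongr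
  have t2 : 8 * ((J : ℝ) + 1) ^ 2 * (Cb * N * G) ≤
      8 * Cl ^ 2 * Cb * (1 + 2 * Ce) * T ^ (5 * η) * N * F := by
    refine (mul_le_mul_of_nonneg_right (mul_le_mul_of_nonneg_left hJl (by norm_num))
      (by positivity)).trans (le_of_eq ?_)
    rw [hG, show 5 * η = 2 * η + 3 * η by ring, Real.rpow_add hT0]
    ring
  linarith

/-- The trace of the third power. -/
theorem exists_offdiag_cube_le {η : ℝ} (hη : 0 < η) (hη1 : η ≤ 1 / 2) : ∃ C, 0 ≤ C ∧
    ∀ (T : ℝ) (W : Finset ℝ) (N : ℕ), 2 ≤ T → (∀ t ∈ W, |t| ≤ T) →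
      (∀ t ∈ W, ∀ s ∈ W, t ≠ s → T ^ η ≤ |t - s|) → 1 ≤ N → (N : ℝ) ≤ T → T ≤ (N : ℝ) ^ 2 →
      ‖∑ t ∈ W, ∑ u ∈ W, ∑ s ∈ W, offGram (Icc 1 (3 * N)) (gramEntry N) t u *
          offGram (Icc 1 (3 * N)) (gramEntry N) u s * offGram (Icc 1 (3 * N)) (gramEntry N) s t‖ ≤
        C * T ^ (7 * η) * (T ^ 2 * ((W.card : ℝ) * √(W.card : ℝ)) +
          T * N * √((W.card : ℝ) * energy W) + (N : ℝ) ^ 3) := by
  obtain ⟨n, hn⟩ : ∃ n : ℕ, 11 ≤ η * n := by
    obtain ⟨n, hn⟩ := exists_nat_gt (11 / η)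
    exact ⟨n, by rw [div_lt_iff₀ hη] at hn; linarith⟩
  obtain ⟨Ct, hCt, htail⟩ := exists_dual_tail_le n (η := η)
  obtain ⟨C₀, hC₀, hF0⟩ := isCut_weight.exists_fourier_phase_le 0
  obtain ⟨Ck, hCk, hFk⟩ := isCut_weight.exists_fourier_phase_le 23
  obtain ⟨Cc, hCc, hcube⟩ := exists_tripleCube_le hη (by linarith)
  obtain ⟨Ke, hKe⟩ : ∃ Ke, Ke = 2 * Ct + 4 * Ck := ⟨_, rfl⟩
  have hKe0 : 0 ≤ Ke := hKe ▸ by positivity
  obtain ⟨L, hL⟩ : ∃ L, L = Ke + 4 * C₀ := ⟨_, rfl⟩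
  refine ⟨4 * Cc + 375 * L ^ 2 * Ke, by positivity, fun T W N hT hbd hsep hN hNT hTN => ?_⟩
  have hT0 : 0 < T := by linarith
  have hTη : 1 ≤ T ^ η := Real.one_le_rpow (by linarith) hη.le
  have hW : Separated W := fun t ht s hs hne => hTη.trans (hsep t ht s hs hne)
  have hN1 : (1 : ℝ) ≤ N := Nat.one_le_cast.2 hN
  obtain ⟨J, hJ1, hJ2, -⟩ := exists_dual_length (by linarith) hη.le hN hNT
  obtain ⟨P, hP⟩ : ∃ P : ℝ, P = (2 : ℝ) ^ J := ⟨_, rfl⟩
  rw [← hP] at hJ2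
  have hP0 : 0 ≤ P := hP ▸ by positivity
  have hPN : P * N ≤ 2 * (T * T ^ η) := by rwa [Real.rpow_add hT0, Real.rpow_one] at hJ2
  have hPT : P ≤ 2 * T ^ 2 := by
    refine (le_mul_of_one_le_right hP0 hN1).trans (hJ2.trans ?_)
    rw [← Real.rpow_natCast T 2]
    exact mul_le_mul_of_nonneg_left
      (Real.rpow_le_rpow_of_exponent_le (by linarith) (by push_cast; linarith)) zero_le_two
  obtain ⟨Q, hQ⟩ : ∃ Q : ℝ → ℂ, Q = fun v =>
      ∑ m ∈ nonzeroRange (2 ^ J), 𝓕 (phase weight v) ((m : ℝ) * N) := ⟨_, rfl⟩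
  have hcardR : ((nonzeroRange (2 ^ J)).card : ℝ) ≤ 2 * P :=
    (card_nonzeroRange_le _).trans (le_of_eq (by rw [hP]; push_cast; rfl))
  have hQle : ∀ v, ‖Q v‖ ≤ 2 * P * C₀ := fun v => by
    rw [hQ]
    refine (norm_sum_le _ _).trans ((sum_le_card_nsmul _ _ C₀ fun m _ => ?_).trans ?_)
    · simpa using hF0 v ((m : ℝ) * N)
    · rw [nsmul_eq_mul]; exact mul_le_mul_of_nonneg_right hcardR hC₀
  obtain ⟨G, hG⟩ : ∃ G : ℝ → ℂ, G = fun v =>
      Complex.exp (((v * Real.log N : ℝ) : ℂ) * I) * ((N : ℂ) * Q v) := ⟨_, rfl⟩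
  have hGle : ∀ v, ‖G v‖ ≤ 4 * C₀ * T ^ 3 := fun v => by
    rw [hG, norm_mul, Complex.norm_exp_ofReal_mul_I, one_mul, norm_mul, Complex.norm_natCast]
    calc (N : ℝ) * ‖Q v‖ ≤ T * (2 * (2 * T ^ 2) * C₀) :=
          mul_le_mul hNT ((hQle v).trans (by gcongr)) (norm_nonneg _) hT0.le
      _ = _ := by ring
  -- the entries through the dual sums
  have hclose : ∀ t ∈ W, ∀ s ∈ W,
      ‖offGram (Icc 1 (3 * N)) (gramEntry N) t s - G (t - s)‖ ≤ Ke / T ^ 9 := by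
    intro t ht s hs
    rcases eq_or_ne t s with h | h
    · rw [offGram, if_pos h, h, sub_self, zero_sub, norm_neg, hG, norm_mul,
        Complex.norm_exp_ofReal_mul_I, one_mul, norm_mul, Complex.norm_natCast, hQ]
      have hm : ∀ m ∈ nonzeroRange (2 ^ J),
          ‖𝓕 (phase weight 0) ((m : ℝ) * N)‖ ≤ Ck / (N : ℝ) ^ 23 := fun m hm => by
        rw [le_div_iff₀ (by positivity), mul_comm]
        refine le_trans (mul_le_mul_of_nonneg_right (pow_le_pow_left₀ (Nat.cast_nonneg _) ?_ 23)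
          (norm_nonneg _)) ((hFk 0 ((m : ℝ) * N)).trans (le_of_eq (by simp)))
        rw [abs_mul, Nat.abs_cast]
        have h1 := (abs_cast_bounds hm).1
        have := Real.two_le_pi
        nlinarith [mul_le_mul_of_nonneg_right h1 (Nat.cast_nonneg (α := ℝ) N)]
      refine (mul_le_mul_of_nonneg_left ((norm_sum_le _ _).trans
        ((sum_le_card_nsmul _ _ _ hm).trans (le_of_eq (nsmul_eq_mul _ _))))
          (by positivity)).trans ?_
      have hpow : T ^ 11 ≤ (N : ℝ) ^ 22 := by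
        rw [show (22 : ℕ) = 2 * 11 from rfl, pow_mul]
        exact pow_le_pow_left₀ hT0.le hTN 11
      calc (N : ℝ) * ((nonzeroRange (2 ^ J)).card * (Ck / (N : ℝ) ^ 23))
          ≤ (N : ℝ) * ((2 * (2 * T ^ 2)) * (Ck / (N : ℝ) ^ 23)) := by
            gcongr
            exact hcardR.trans (by gcongr)
        _ = 4 * Ck * (T ^ 2 / (N : ℝ) ^ 22) := by field_simp; ring
        _ ≤ 4 * Ck * (T ^ 2 / T ^ 11) := by gcongr
        _ = 4 * Ck / T ^ 9 := by field_simp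
        _ ≤ _ := by
            gcongr
            rw [hKe]; linarith
    · rw [offGram_gramEntry_eq hN h, hG]
      simp only
      rw [← mul_sub, norm_mul, Complex.norm_exp_ofReal_mul_I, one_mul, ← mul_sub, norm_mul,
        Complex.norm_natCast, hQ]
      simp only
      rw [sum_nonzeroRange_eq]
      refine (mul_le_mul_of_nonneg_left (htail T (t - s) N J hT (hsep t ht s hs h) (by
        have h1 := abs_le.1 (hbd t ht); have h2 := abs_le.1 (hbd s hs)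
        rw [abs_le]; constructor <;> linarith) hN hJ1) (by positivity)).trans ?_
      have hp : T ^ (-(η * n)) ≤ (T ^ 11)⁻¹ := by
        rw [← Real.rpow_natCast T 11, ← Real.rpow_neg hT0.le]
        exact Real.rpow_le_rpow_of_exponent_le (by linarith) (by push_cast; linarith)
      calc (N : ℝ) * (Ct * T ^ (-(η * n)) * ((T / N) ^ 2 + 1))
          = Ct * T ^ (-(η * n)) * (T ^ 2 / N + N) := by field_simp
        _ ≤ Ct * (T ^ 11)⁻¹ * (2 * T ^ 2) := by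
            have h2 : T ^ 2 / N ≤ T ^ 2 := div_le_self (by positivity) hN1
            have h3 : (N : ℝ) ≤ T ^ 2 :=
              hNT.trans (le_self_pow₀ (by linarith) two_ne_zero)
            gcongr
            linarith
        _ = 2 * Ct / T ^ 9 := by field_simp
        _ ≤ _ := by
            gcongr
            rw [hKe]; linarith
  have hT3 : 1 ≤ T ^ 3 := one_le_pow₀ (by linarith)
  have hGle' : ∀ v, ‖G v‖ ≤ L * T ^ 3 := fun v => (hGle v).trans (by rw [hL]; gcongr; linarith)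
  have hgle : ∀ t ∈ W, ∀ s ∈ W,
      ‖offGram (Icc 1 (3 * N)) (gramEntry N) t s‖ ≤ L * T ^ 3 := fun t ht s hs => by
    have h1 := (norm_le_norm_add_norm_sub' _ (G (t - s))).trans
      (add_le_add (hGle (t - s)) ((hclose t ht s hs).trans
        (div_le_self hKe0 (one_le_pow₀ (by linarith)))))
    rw [hL]
    nlinarith [mul_nonneg hKe0 (sub_nonneg.2 hT3)]
  -- the sum of the dual products
  obtain ⟨w, hw⟩ : ∃ w : ℝ, w = W.card := ⟨_, rfl⟩
  have hw0 : 0 ≤ w := hw ▸ Nat.cast_nonneg _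
  have hwT : w ≤ 5 * T := hw ▸ card_le_five_mul hW (by linarith) hbd
  have hGGG : ∀ t u s : ℝ, G (t - u) * G (u - s) * G (s - t) =
      (N : ℂ) ^ 3 * (Q (t - u) * Q (u - s) * Q (s - t)) := fun t u s => by
    have h1 : Complex.exp ((((t - u) * Real.log N : ℝ) : ℂ) * I) *
        Complex.exp ((((u - s) * Real.log N : ℝ) : ℂ) * I) *
        Complex.exp ((((s - t) * Real.log N : ℝ) : ℂ) * I) = 1 := by
      rw [← Complex.exp_add, ← Complex.exp_add, ← Complex.exp_zero]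
      congr 1
      push_cast
      ring
    rw [hG]
    linear_combination ((N : ℂ) ^ 3 * (Q (t - u) * Q (u - s) * Q (s - t))) * h1
  have hswap : ∑ t ∈ W, ∑ u ∈ W, ∑ s ∈ W, Q (t - u) * Q (u - s) * Q (s - t) =
      ∑ m ∈ tripleCube (2 ^ J), tripleSum W N m := by
    simp only [hQ, tripleSum, sum_mul_sum]
    simp only [sum_mul]
    rw [sum_comm (s := tripleCube (2 ^ J))]
    refine sum_congr rfl fun t _ => ?_
    rw [sum_comm (s := tripleCube (2 ^ J))]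
    refine sum_congr rfl fun u _ => ?_
    rw [sum_comm (s := tripleCube (2 ^ J))]
    refine sum_congr rfl fun s _ => ?_
    simp only [tripleCube, sum_product]
    exact sum_congr rfl fun x _ => sum_comm
  have hdiff : ‖(∑ t ∈ W, ∑ u ∈ W, ∑ s ∈ W, offGram (Icc 1 (3 * N)) (gramEntry N) t u *
      offGram (Icc 1 (3 * N)) (gramEntry N) u s * offGram (Icc 1 (3 * N)) (gramEntry N) s t) -
      ∑ t ∈ W, ∑ u ∈ W, ∑ s ∈ W, G (t - u) * G (u - s) * G (s - t)‖ ≤ 375 * L ^ 2 * Ke := by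
    simp only [← sum_sub_distrib]
    refine (norm_sum_le _ _).trans ((sum_le_sum fun t ht => (norm_sum_le _ _).trans
      (sum_le_sum fun u hu => (norm_sum_le _ _).trans (sum_le_sum fun s hs =>
        norm_prod_three_sub_le (hgle t ht u hu) (hgle u hu s hs) (hGle' _) (hGle' _) (hGle' _)
          (hclose t ht u hu) (hclose u hu s hs) (hclose s hs t ht)))).trans ?_)
    simp only [sum_const, nsmul_eq_mul]
    rw [← hw]
    calc w * (w * (w * (3 * (L * T ^ 3) ^ 2 * (Ke / T ^ 9))))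
        = 3 * L ^ 2 * Ke * (w / T) ^ 3 := by field_simp
      _ ≤ 3 * L ^ 2 * Ke * 5 ^ 3 := by
          gcongr
          rw [div_le_iff₀ hT0]; exact hwT
      _ = _ := by ring
  obtain ⟨E, hE⟩ : ∃ E : ℝ, E = energy W := ⟨_, rfl⟩
  rw [← hw, ← hE]
  obtain ⟨F, hF⟩ : ∃ F : ℝ,
      F = T ^ 2 * (w * √w) + T * N * √(w * E) + (N : ℝ) ^ 3 := ⟨_, rfl⟩
  rw [← hF]
  have hmain : ‖∑ t ∈ W, ∑ u ∈ W, ∑ s ∈ W, G (t - u) * G (u - s) * G (s - t)‖ ≤
      4 * Cc * T ^ (7 * η) * F := by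
    simp only [hGGG, ← mul_sum]
    rw [hswap, norm_mul, norm_pow, Complex.norm_natCast]
    refine (mul_le_mul_of_nonneg_left ((norm_sum_le _ _).trans
      (hcube T N W J hT hbd hW (by linarith) (by
        rw [← hP]
        refine hPT.trans ?_
        nlinarith [mul_le_mul_of_nonneg_left hT (show 0 ≤ T ^ 2 * T by positivity),
          mul_le_mul_of_nonneg_left hT (sq_nonneg T)]))) (by positivity)).trans ?_
    rw [← hw, ← hE, ← hP]
    have e : T ^ (7 * η) = T ^ (5 * η) * (T ^ η) ^ 2 := by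
      rw [← Real.rpow_mul_natCast hT0.le, ← Real.rpow_add hT0]; push_cast; ring_nf
    have a1 : (N : ℝ) ^ 3 * (P ^ 2 * (w * √w) / N) ≤ 4 * (T ^ η) ^ 2 * (T ^ 2 * (w * √w)) := by
      calc (N : ℝ) ^ 3 * (P ^ 2 * (w * √w) / N) = (P * N) ^ 2 * (w * √w) := by field_simp
        _ ≤ (2 * (T * T ^ η)) ^ 2 * (w * √w) := by gcongr
        _ = _ := by ring
    have a2 : (N : ℝ) ^ 3 * (P * √(w * E) / N) ≤ 4 * (T ^ η) ^ 2 * (T * N * √(w * E)) := by
      calc (N : ℝ) ^ 3 * (P * √(w * E) / N) = (P * N) * (N * √(w * E)) := by field_simp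
        _ ≤ (2 * (T * T ^ η)) * (N * √(w * E)) := by gcongr
        _ = 2 * T ^ η * (T * N * √(w * E)) := by ring
        _ ≤ _ := by
            refine mul_le_mul_of_nonneg_right ?_ (by positivity)
            nlinarith
    have a3 : (N : ℝ) ^ 3 * 1 ≤ 4 * (T ^ η) ^ 2 * (N : ℝ) ^ 3 := by
      rw [mul_one]; exact le_mul_of_one_le_left (by positivity) (by nlinarith)
    calc (N : ℝ) ^ 3 * (Cc * T ^ (5 * η) * (P ^ 2 * (w * √w) / N + P * √(w * E) / N + 1))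
        = Cc * T ^ (5 * η) * ((N : ℝ) ^ 3 * (P ^ 2 * (w * √w) / N) +
            (N : ℝ) ^ 3 * (P * √(w * E) / N) + (N : ℝ) ^ 3 * 1) := by ring
      _ ≤ Cc * T ^ (5 * η) * (4 * (T ^ η) ^ 2 * (T ^ 2 * (w * √w)) +
            4 * (T ^ η) ^ 2 * (T * N * √(w * E)) + 4 * (T ^ η) ^ 2 * (N : ℝ) ^ 3) :=
          mul_le_mul_of_nonneg_left (add_le_add (add_le_add a1 a2) a3) (by positivity)
      _ = _ := by rw [hF, e]; ring
  refine (norm_le_norm_add_norm_sub' _ _).trans ((add_le_add hmain hdiff).trans ?_)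
  have h1 : 1 ≤ T ^ (7 * η) * F := by
    refine one_le_mul_of_one_le_of_one_le (Real.one_le_rpow (by linarith) (by positivity)) ?_
    rw [hF]
    have : 0 ≤ T ^ 2 * (w * √w) + T * N * √(w * E) := by positivity
    linarith [one_le_pow₀ (n := 3) hN1]
  have hK : 0 ≤ 375 * L ^ 2 * Ke := by positivity
  nlinarith [mul_le_mul_of_nonneg_left h1 hK]

/-- **Both traces.** -/
theorem exists_offdiag_trace_le {η : ℝ} (hη : 0 < η) (hη1 : η ≤ 1 / 2) : ∃ C, 0 ≤ C ∧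
    ∀ (T : ℝ) (W : Finset ℝ) (N : ℕ), 2 ≤ T → (∀ t ∈ W, |t| ≤ T) →
      (∀ t ∈ W, ∀ s ∈ W, t ≠ s → T ^ η ≤ |t - s|) → 1 ≤ N → (N : ℝ) ≤ T → T ≤ (N : ℝ) ^ 2 →
      blockMass N * ∑ t ∈ W, ∑ s ∈ W, ‖offGram (Icc 1 (3 * N)) (gramEntry N) t s‖ ^ 2 +
        ‖∑ t ∈ W, ∑ u ∈ W, ∑ s ∈ W, offGram (Icc 1 (3 * N)) (gramEntry N) t u *
          offGram (Icc 1 (3 * N)) (gramEntry N) u s * offGram (Icc 1 (3 * N)) (gramEntry N) s t‖ ≤
        C * T ^ (7 * η) * ((N : ℝ) ^ 2 * (W.card : ℝ) ^ 2 +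
          N * T * (W.card : ℝ) ^ (7 / 4 : ℝ) +
          (N : ℝ) ^ 2 * T ^ (1 / 8 : ℝ) * (W.card : ℝ) ^ (29 / 16 : ℝ) +
          T ^ 2 * ((W.card : ℝ) * √(W.card : ℝ)) + T * N * √((W.card : ℝ) * energy W) +
          (N : ℝ) ^ 3) := by
  obtain ⟨C₂, hC₂, h2⟩ := exists_offdiag_sq_le hη hη1
  obtain ⟨C₃, hC₃, h3⟩ := exists_offdiag_cube_le hη hη1
  refine ⟨3 * C₂ + C₃, by positivity, fun T W N hT hbd hsep hN hNT hTN => ?_⟩
  have hT0 : 0 < T := by linarith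
  have hN0 : (0 : ℝ) < N := Nat.cast_pos.2 hN
  refine (add_le_add (mul_le_mul (blockMass_le N) (h2 T W N hT hbd hsep hN hNT hTN)
    (sum_nonneg fun _ _ => sum_nonneg fun _ _ => sq_nonneg _) (by positivity))
    (h3 T W N hT hbd hsep hN hNT hTN)).trans ?_
  obtain ⟨w, hw⟩ : ∃ w : ℝ, w = W.card := ⟨_, rfl⟩
  have hw0 : 0 ≤ w := hw ▸ Nat.cast_nonneg _
  rw [← hw]
  have h57 : T ^ (5 * η) ≤ T ^ (7 * η) :=
    Real.rpow_le_rpow_of_exponent_le (by linarith) (by linarith)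
  obtain ⟨A, hA⟩ : ∃ A : ℝ, A = (N : ℝ) ^ 2 * w ^ 2 + N * T * w ^ (7 / 4 : ℝ) +
      (N : ℝ) ^ 2 * T ^ (1 / 8 : ℝ) * w ^ (29 / 16 : ℝ) := ⟨_, rfl⟩
  have e : 3 * (N : ℝ) * (C₂ * T ^ (5 * η) * N *
      (w ^ 2 + T / N * w ^ (7 / 4 : ℝ) + T ^ (1 / 8 : ℝ) * w ^ (29 / 16 : ℝ))) =
      3 * C₂ * T ^ (5 * η) * A := by
    rw [hA]; field_simp
  rw [e]
  have hA0 : 0 ≤ A := hA ▸ by positivity
  have hB0 : 0 ≤ T ^ 2 * (w * √w) + T * N * √(w * energy W) + (N : ℝ) ^ 3 := by positivity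
  have h7 : 0 ≤ T ^ (7 * η) := by positivity
  have a1 := mul_le_mul_of_nonneg_right (mul_le_mul_of_nonneg_left h57
    (show 0 ≤ 3 * C₂ by positivity)) hA0
  have a2 : 0 ≤ C₃ * T ^ (7 * η) * A := by positivity
  have a3 : 0 ≤ 3 * C₂ * T ^ (7 * η) *
      (T ^ 2 * (w * √w) + T * N * √(w * energy W) + (N : ℝ) ^ 3) := by positivity
  rw [hA] at a1 a2 ⊢
  linarith

end FA.GuthMaynard

end
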