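import Fermat.Agent.GuthMaynard.EnergyExplicit
import Fermat.Agent.GuthMaynard.Offdiag

/-!
# Large values at the critical height

For heights `T ^ η` apart in `[-N ^ (6/5), N ^ (6/5)]` at which a polynomial of length `N` has size
`N ^ σ`, `7/10 ≤ σ ≤ 4/5`, the number of heights is at most `N ^ (18/5 - 4 σ + ε)`.
-/

set_option autoImplicit false

noncomputable section

namespace FA.GuthMaynard

open Finset Complex
open FA.Hoheisel (dpoly)
open scoped Real ComplexConjugate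

/-- `N ^ a * w ^ p`. -/
def powTerm (N w a p : ℝ) : ℝ := N ^ a * w ^ p

theorem powTerm_nonneg {N w : ℝ} (hN : 0 ≤ N) (hw : 0 ≤ w) (a p : ℝ) : 0 ≤ powTerm N w a p := by
  unfold powTerm; positivity

theorem powTerm_mul {N w : ℝ} (hN : 0 < N) (hw : 0 < w) (a p b q : ℝ) :
    powTerm N w a p * powTerm N w b q = powTerm N w (a + b) (p + q) := by
  unfold powTerm
  rw [Real.rpow_add hN, Real.rpow_add hw]
  ring

theorem powTerm_rpow {N w : ℝ} (hN : 0 ≤ N) (hw : 0 ≤ w) (a p r : ℝ) :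
    powTerm N w a p ^ r = powTerm N w (a * r) (p * r) := by
  unfold powTerm
  rw [Real.mul_rpow (Real.rpow_nonneg hN _) (Real.rpow_nonneg hw _), ← Real.rpow_mul hN,
    ← Real.rpow_mul hw]

theorem sqrt_powTerm {N w : ℝ} (hN : 0 ≤ N) (hw : 0 ≤ w) (a p : ℝ) :
    √(powTerm N w a p) = powTerm N w (a / 2) (p / 2) := by
  rw [Real.sqrt_eq_rpow, powTerm_rpow hN hw]
  congr 1 <;> ring

/-- A term is at most `N ^ τ w ^ 2` when its exponents allow. -/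
theorem powTerm_le {N w τ a p : ℝ} (hN : 1 ≤ N) (hw : N ^ τ ≤ w) (hp : p ≤ 2)
    (ha : a ≤ (3 - p) * τ) : powTerm N w a p ≤ N ^ τ * w ^ 2 := by
  have hN0 : 0 < N := by linarith
  have hQ : 0 < N ^ τ := Real.rpow_pos_of_pos hN0 τ
  have hw0 : 0 < w := hQ.trans_le hw
  calc powTerm N w a p ≤ N ^ (τ + (2 - p) * τ) * w ^ p :=
        mul_le_mul_of_nonneg_right (Real.rpow_le_rpow_of_exponent_le hN (by linarith))
          (by positivity)
    _ = N ^ τ * ((N ^ τ) ^ (2 - p) * w ^ p) := by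
        rw [← Real.rpow_mul hN0.le, Real.rpow_add hN0, mul_comm τ]; ring
    _ ≤ N ^ τ * (w ^ (2 - p) * w ^ p) := by
        refine mul_le_mul_of_nonneg_left (mul_le_mul_of_nonneg_right ?_ (by positivity)) hQ.le
        exact Real.rpow_le_rpow hQ.le hw (by linarith)
    _ = _ := by
        rw [← Real.rpow_add hw0, sub_add_cancel, Real.rpow_two]

theorem sqrt_add_le_add_sqrt {a b : ℝ} (ha : 0 ≤ a) (hb : 0 ≤ b) : √(a + b) ≤ √a + √b := by
  refine Real.sqrt_le_iff.2 ⟨by positivity, ?_⟩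
  nlinarith [Real.sq_sqrt ha, Real.sq_sqrt hb, mul_nonneg (Real.sqrt_nonneg a) (Real.sqrt_nonneg b)]

/-- The sums behind the inequality for the form. -/
theorem exists_form (W : Finset ℝ) (N : ℕ) {b : ℕ → ℂ} (hb : ∀ n, ‖b n‖ ≤ 1) :
    ∃ e : ℝ, (∑ t ∈ W, ‖dpoly (Ioc N (2 * N)) b t‖ ^ 2) ^ 2 ≤
        N * (blockMass N * (∑ t ∈ W, ‖dpoly (Ioc N (2 * N)) b t‖ ^ 2) + e) ∧
      (e : ℂ) = ∑ t ∈ W, conj (conj (dpoly (Ioc N (2 * N)) b t)) *
        ∑ s ∈ W, offGram (Icc 1 (3 * N)) (gramEntry N) t s *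
          conj (dpoly (Ioc N (2 * N)) b s) := by
  obtain ⟨D, hD⟩ : ∃ D : ℝ → ℂ, D = fun t => dpoly (Ioc N (2 * N)) b t := ⟨_, rfl⟩
  obtain ⟨X, hX⟩ : ∃ X, X = ∑ t ∈ W, ‖D t‖ ^ 2 := ⟨_, rfl⟩
  obtain ⟨S, hS⟩ : ∃ S : ℕ → ℂ, S = fun n => ∑ s ∈ W, gramEntry N n s * conj (D s) := ⟨_, rfl⟩
  obtain ⟨P, hP⟩ : ∃ P, P = ∑ n ∈ Icc 1 (3 * N), ‖S n‖ ^ 2 := ⟨_, rfl⟩
  have hXX : ∑ t ∈ W, ‖dpoly (Ioc N (2 * N)) b t‖ ^ 2 = X := by rw [hX, hD]
  have hDD : ∀ t, dpoly (Ioc N (2 * N)) b t = D t := fun t => by rw [hD]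
  rw [hXX]
  simp only [hDD]
  refine ⟨P - blockMass N * X, ?_, ?_⟩
  · rw [add_sub_cancel]
    have hdual : (X : ℂ) = ∑ n ∈ Ioc N (2 * N), b n * S n := by
      rw [hX, hS]
      push_cast
      simp only [← Complex.conj_mul', mul_sum]
      rw [sum_comm]
      refine sum_congr rfl fun t _ => ?_
      rw [show D t = ∑ n ∈ Ioc N (2 * N), b n * (n : ℂ) ^ (-(I * (t : ℂ))) by rw [hD]; rfl, mul_sum]
      refine sum_congr rfl fun n hn => ?_
      rw [gramEntry, blockWeight_eq_one hn, Real.sqrt_one, Complex.ofReal_one, one_mul]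
      ring
    have hle : X ≤ ∑ n ∈ Ioc N (2 * N), 1 * ‖S n‖ := by
      have h : X ≤ ‖(X : ℂ)‖ := by rw [Complex.norm_real]; exact Real.le_norm_self X
      rw [hdual] at h
      refine h.trans ((norm_sum_le _ _).trans (sum_le_sum fun n _ => ?_))
      rw [norm_mul]
      exact mul_le_mul_of_nonneg_right (hb n) (norm_nonneg _)
    refine (pow_le_pow_left₀ (hX ▸ sum_nonneg fun _ _ => sq_nonneg _) hle 2).trans
      ((sum_mul_sq_le_sq_mul_sq _ _ _).trans ?_)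
    refine mul_le_mul (le_of_eq (by simp [two_mul])) ?_ (sum_nonneg fun _ _ => sq_nonneg _)
      (Nat.cast_nonneg _)
    rw [hP]
    refine sum_le_sum_of_subset_of_nonneg (fun n hn => ?_) fun n _ _ => sq_nonneg _
    rw [mem_Ioc] at hn; rw [Finset.mem_Icc]; omega
  · have h := inner_gram (S := W) (J := Icc 1 (3 * N)) (a := gramEntry N)
      (fun t _ => sum_norm_gramEntry N t) (fun t => conj (D t)) (fun t => conj (D t))
    have hPc : (P : ℂ) = ∑ n ∈ Icc 1 (3 * N), conj (∑ t ∈ W, gramEntry N n t * conj (D t)) *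
        ∑ s ∈ W, gramEntry N n s * conj (D s) := by
      rw [hP, hS]
      push_cast
      simp only [← Complex.conj_mul']
    have hXc : (X : ℂ) = ∑ t ∈ W, conj (conj (D t)) * conj (D t) := by
      rw [hX]
      push_cast
      simp only [← Complex.conj_mul', Complex.conj_conj]
      exact sum_congr rfl fun t _ => mul_comm _ _
    rw [Complex.ofReal_sub, Complex.ofReal_mul, hPc, h, hXc]
    ring

/-- **Large values at heights `T ^ η` apart.** -/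
theorem exists_spaced_le {η : ℝ} (hη : 0 < η) (hη1 : η ≤ 1 / 2) : ∃ C, 0 ≤ C ∧
    ∀ (T σ : ℝ) (W : Finset ℝ) (N : ℕ) (b : ℕ → ℂ), 2 ≤ N → T = (N : ℝ) ^ (6 / 5 : ℝ) →
      7 / 10 ≤ σ → σ ≤ 4 / 5 → (∀ t ∈ W, |t| ≤ T) →
      (∀ t ∈ W, ∀ s ∈ W, t ≠ s → T ^ η ≤ |t - s|) → (∀ n, ‖b n‖ ≤ 1) →
      (∀ t ∈ W, (N : ℝ) ^ σ ≤ ‖dpoly (Ioc N (2 * N)) b t‖) →
      (W.card : ℝ) ≤ C * T ^ (8 * η) * (N : ℝ) ^ (18 / 5 - 4 * σ) := by
  obtain ⟨C₁, hC₁, htrace⟩ := exists_offdiag_trace_le hη hη1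
  obtain ⟨C₂, hC₂, henergy⟩ := exists_energy_explicit hη
  refine ⟨80 * C₁ * (1 + √C₂) + 7, by positivity,
    fun T σ W N b hN hTdef hσ1 hσ2 hbd hsep hb hbig => ?_⟩
  have hN2 : (2 : ℝ) ≤ N := by exact_mod_cast hN
  have hN1 : (1 : ℝ) ≤ N := by linarith
  have hN0 : (0 : ℝ) < N := by linarith
  have hTN : (N : ℝ) ≤ T := by
    rw [hTdef]
    exact (Real.rpow_one _).symm.le.trans
      (Real.rpow_le_rpow_of_exponent_le hN1 (by norm_num))
  have hT2 : 2 ≤ T := hN2.trans hTN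
  have hT0 : 0 < T := by linarith
  have hTN2 : T ≤ (N : ℝ) ^ 2 := by
    rw [hTdef, ← Real.rpow_natCast (N : ℝ) 2]
    exact Real.rpow_le_rpow_of_exponent_le hN1 (by norm_num)
  have hTη : 1 ≤ T ^ η := Real.one_le_rpow (by linarith) hη.le
  have hW : Separated W := fun t ht s hs hne => hTη.trans (hsep t ht s hs hne)
  obtain ⟨τ, hτ⟩ : ∃ τ, τ = 18 / 5 - 4 * σ := ⟨_, rfl⟩
  rw [← hτ]
  obtain ⟨w, hw⟩ : ∃ w : ℝ, w = W.card := ⟨_, rfl⟩
  rw [← hw]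
  obtain ⟨Λ, hΛ⟩ : ∃ Λ : ℝ, Λ = 8 * C₁ * (1 + √C₂) * T ^ (8 * η) := ⟨_, rfl⟩
  have hT8 : 1 ≤ T ^ (8 * η) := Real.one_le_rpow (by linarith) (by positivity)
  have hQ0 : 0 < (N : ℝ) ^ τ := Real.rpow_pos_of_pos hN0 τ
  suffices hgoal : w ≤ (10 * Λ + 7 * T ^ (8 * η)) * (N : ℝ) ^ τ by
    refine hgoal.trans (le_of_eq ?_); rw [hΛ]; ring
  rcases le_or_gt w ((N : ℝ) ^ τ) with hsmall | hlarge
  · refine hsmall.trans (le_mul_of_one_le_left hQ0.le ?_)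
    have : 0 ≤ Λ := hΛ ▸ by positivity
    linarith
  have hw0 : 0 < w := hQ0.trans hlarge
  obtain ⟨V, hV⟩ : ∃ V : ℝ, V = (N : ℝ) ^ σ := ⟨_, rfl⟩
  have hV0 : 0 < V := hV ▸ Real.rpow_pos_of_pos hN0 σ
  have hVk : ∀ k : ℕ, V ^ k = (N : ℝ) ^ ((k : ℝ) * σ) := fun k => by
    rw [hV, ← Real.rpow_mul_natCast hN0.le, mul_comm σ]
  obtain ⟨X, hX⟩ : ∃ X, X = ∑ t ∈ W, ‖dpoly (Ioc N (2 * N)) b t‖ ^ 2 := ⟨_, rfl⟩
  have hXw : w * V ^ 2 ≤ X := by
    rw [hX, hw, ← nsmul_eq_mul, ← sum_const]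
    exact sum_le_sum fun t ht => pow_le_pow_left₀ hV0.le (hV ▸ hbig t ht) 2
  rcases le_or_gt X (6 * (N : ℝ) ^ 2) with hXs | hXl
  · have h1 : w * (N : ℝ) ^ (2 * σ) ≤ 6 * (N : ℝ) ^ τ * (N : ℝ) ^ (2 * σ) := by
      have e : (N : ℝ) ^ (2 * σ) = V ^ 2 := by rw [hVk]; norm_num
      rw [e]
      refine hXw.trans (hXs.trans ?_)
      rw [← e, mul_assoc, ← Real.rpow_add hN0, ← Real.rpow_natCast (N : ℝ) 2]
      refine mul_le_mul_of_nonneg_left (Real.rpow_le_rpow_of_exponent_le hN1 ?_) (by norm_num)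
      push_cast
      linarith
    refine (le_of_mul_le_mul_right h1 (Real.rpow_pos_of_pos hN0 _)).trans
      (mul_le_mul_of_nonneg_right ?_ hQ0.le)
    have : 0 ≤ Λ := hΛ ▸ by positivity
    linarith
  -- the cube
  have hX0 : 0 < X := lt_trans (by positivity) hXl
  obtain ⟨e, he1, he2⟩ := exists_form W N hb
  rw [← hX] at he1
  have he : X ^ 2 / (2 * N) ≤ e := by
    have hd := mul_le_mul_of_nonneg_left
      (mul_le_mul_of_nonneg_right (blockMass_le N) hX0.le) hN0.le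
    have h6 := mul_le_mul_of_nonneg_left hXl.le hX0.le
    rw [div_le_iff₀ (by positivity)]
    nlinarith
  have hcube := cube_offdiag_le (S := W) (J := Icc 1 (3 * N)) (a := gramEntry N)
    (fun t _ => sum_norm_gramEntry N t) (blockMass_nonneg N)
    (fun t => conj (dpoly (Ioc N (2 * N)) b t)) (le_trans (by positivity) he) he2
  simp only [Complex.norm_conj, ← hX] at hcube
  obtain ⟨R, hR⟩ : ∃ R, R = (N : ℝ) ^ 2 * w ^ 2 + N * T * w ^ (7 / 4 : ℝ) +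
      (N : ℝ) ^ 2 * T ^ (1 / 8 : ℝ) * w ^ (29 / 16 : ℝ) + T ^ 2 * (w * √w) +
      T * N * √(w * energy W) + (N : ℝ) ^ 3 := ⟨_, rfl⟩
  have hR0 : 0 ≤ R := hR ▸ by positivity
  have hX3 : w ^ 3 * V ^ 6 ≤ 8 * (N : ℝ) ^ 3 * (C₁ * T ^ (7 * η) * R) := by
    have h1 : (X ^ 2 / (2 * N)) ^ 3 ≤ X ^ 3 * (C₁ * T ^ (7 * η) * R) := by
      refine (pow_le_pow_left₀ (by positivity) he 3).trans (hcube.trans
        (mul_le_mul_of_nonneg_left ?_ (by positivity)))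
      have := htrace T W N hT2 hbd hsep (by omega) hTN hTN2
      rw [← hw, ← hR] at this
      exact this
    have h2 : X ^ 3 ≤ 8 * (N : ℝ) ^ 3 * (C₁ * T ^ (7 * η) * R) := by
      rw [div_pow, div_le_iff₀ (by positivity)] at h1
      refine le_of_mul_le_mul_left (le_trans (le_of_eq ?_) (h1.trans (le_of_eq ?_)))
        (pow_pos hX0 3) <;> ring
    refine le_trans (le_of_eq ?_) ((pow_le_pow_left₀ (by positivity) hXw 3).trans h2)
    ring
  -- the exponents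
  obtain ⟨F, hF⟩ : ∃ F : ℝ → ℝ → ℝ, F = powTerm N w := ⟨_, rfl⟩
  have hFmul : ∀ a p a' p', F a p * F a' p' = F (a + a') (p + p') := fun a p a' p' =>
    hF ▸ powTerm_mul hN0 hw0 a p a' p'
  have hF0 : ∀ a p, 0 ≤ F a p := fun a p => hF ▸ powTerm_nonneg hN0.le hw0.le a p
  have hFN : ∀ k : ℕ, (N : ℝ) ^ k = F k 0 := fun k => by simp [hF, powTerm]
  have hFV : ∀ k : ℕ, V ^ k = F ((k : ℝ) * σ) 0 := fun k => by simp [hF, powTerm, hVk]
  have hFT : ∀ r : ℝ, T ^ r = F (6 / 5 * r) 0 := fun r => by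
    simp [hF, powTerm, hTdef, ← Real.rpow_mul hN0.le]
  have hFw : ∀ r : ℝ, w ^ r = F 0 r := fun r => by simp [hF, powTerm]
  have hFdiv : ∀ a p a', F a p / F a' 0 = F (a - a') p := fun a p a' => by
    rw [div_eq_iff (ne_of_gt ?_), hFmul, sub_add_cancel, add_zero]
    simp [hF, powTerm, Real.rpow_pos_of_pos hN0]
  have hN1' : (N : ℝ) = F 1 0 := by simp [hF, powTerm]
  have hw1' : w = F 0 1 := by simp [hF, powTerm]
  have hbudget : ∀ a p : ℝ, p ≤ 2 → a ≤ 6 * σ + (3 - p) * τ →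
      F a p ≤ V ^ 6 * ((N : ℝ) ^ τ * w ^ 2) := fun a p hp ha => by
    have h := powTerm_le (a := a - 6 * σ) hN1 hlarge.le hp (by linarith)
    have e6 : F a p = V ^ 6 * powTerm N w (a - 6 * σ) p := by
      rw [hFV 6, ← hF, hFmul]; push_cast; ring_nf
    rw [e6]
    exact mul_le_mul_of_nonneg_left h (by positivity)
  have hroot : √(w * energy W) ≤ √C₂ * T ^ η * (F (2 - 2 * σ) 1 + F (1 / 2 - σ) 2 +
      F (13 / 20 - σ) (29 / 16) + F (26 / 25 - 8 / 5 * σ) (17 / 10) +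
      F (32 / 25 - 8 / 5 * σ) (7 / 5)) := by
    have h := henergy T V W N b hT2 hV0 hbd hW hb fun t ht => hV ▸ hbig t ht
    rw [← hw] at h
    have t1 : w * ((N : ℝ) ^ 4 * w / V ^ 4) = F (4 - 4 * σ) 2 := by
      rw [hFN 4, hFV 4, hw1', hFmul, hFdiv, hFmul]; congr 1 <;> (push_cast; ring)
    have t2 : w * ((N : ℝ) * w ^ 3 / V ^ 2) = F (1 - 2 * σ) 4 := by
      rw [← Real.rpow_natCast w 3, hFw, hN1', hFV 2, hw1', hFmul, hFdiv, hFmul]
      congr 1 <;> (push_cast; ring)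
    have t3 : w * ((N : ℝ) * T ^ (1 / 4 : ℝ) * w ^ (21 / 8 : ℝ) / V ^ 2) =
        F (13 / 10 - 2 * σ) (29 / 8) := by
      rw [hFw, hFT, hN1', hFV 2, hw1', hFmul, hFmul, hFdiv, hFmul]
      congr 1 <;> (push_cast; ring)
    have t4 : w * ((N : ℝ) * T ^ (1 / 4 : ℝ) * w ^ (3 / 2 : ℝ) / V ^ 2) ^ (8 / 5 : ℝ) =
        F (52 / 25 - 16 / 5 * σ) (17 / 5) := by
      rw [hFw, hFT, hN1', hFV 2, hw1', hFmul, hFmul, hFdiv, hF, powTerm_rpow hN0.le hw0.le,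
        powTerm_mul hN0 hw0]
      congr 1 <;> (push_cast; ring)
    have t5 : w * ((N : ℝ) * √T * w ^ (9 / 8 : ℝ) / V ^ 2) ^ (8 / 5 : ℝ) =
        F (64 / 25 - 16 / 5 * σ) (14 / 5) := by
      rw [Real.sqrt_eq_rpow, hFw, hFT, hN1', hFV 2, hw1', hFmul, hFmul, hFdiv, hF,
        powTerm_rpow hN0.le hw0.le, powTerm_mul hN0 hw0]
      congr 1 <;> (push_cast; ring)
    have h' : w * energy W ≤ C₂ * T ^ η * (F (4 - 4 * σ) 2 + F (1 - 2 * σ) 4 +
        F (13 / 10 - 2 * σ) (29 / 8) + F (52 / 25 - 16 / 5 * σ) (17 / 5) +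
        F (64 / 25 - 16 / 5 * σ) (14 / 5)) := by
      rw [← t1, ← t2, ← t3, ← t4, ← t5]
      refine (mul_le_mul_of_nonneg_left h hw0.le).trans (le_of_eq ?_)
      ring
    refine (Real.sqrt_le_sqrt h').trans ?_
    rw [Real.sqrt_mul (by positivity), Real.sqrt_mul hC₂]
    have hfive : ∀ x₁ x₂ x₃ x₄ x₅ : ℝ, 0 ≤ x₁ → 0 ≤ x₂ → 0 ≤ x₃ → 0 ≤ x₄ → 0 ≤ x₅ →
        √(x₁ + x₂ + x₃ + x₄ + x₅) ≤ √x₁ + √x₂ + √x₃ + √x₄ + √x₅ := by
      intro x₁ x₂ x₃ x₄ x₅ h₁ h₂ h₃ h₄ h₅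
      have := sqrt_add_le_add_sqrt h₁ h₂
      have := sqrt_add_le_add_sqrt (show 0 ≤ x₁ + x₂ by linarith) h₃
      have := sqrt_add_le_add_sqrt (show 0 ≤ x₁ + x₂ + x₃ by linarith) h₄
      have := sqrt_add_le_add_sqrt (show 0 ≤ x₁ + x₂ + x₃ + x₄ by linarith) h₅
      linarith
    refine mul_le_mul ?_ ?_ (Real.sqrt_nonneg _) (by positivity)
    · exact mul_le_mul_of_nonneg_left (Real.sqrt_le_iff.2
        ⟨by positivity, le_self_pow₀ hTη two_ne_zero⟩) (Real.sqrt_nonneg _)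
    · refine (hfive _ _ _ _ _ (hF0 _ _) (hF0 _ _) (hF0 _ _) (hF0 _ _) (hF0 _ _)).trans
        (le_of_eq ?_)
      simp only [hF, sqrt_powTerm hN0.le hw0.le]
      norm_num
      ring_nf
  have hs7 : 1 ≤ 1 + √C₂ := le_add_of_nonneg_right (Real.sqrt_nonneg _)
  have hRle : (N : ℝ) ^ 3 * R ≤ (1 + √C₂) * T ^ η * (10 * (V ^ 6 * ((N : ℝ) ^ τ * w ^ 2))) := by
    obtain ⟨B, hB⟩ : ∃ B, B = V ^ 6 * ((N : ℝ) ^ τ * w ^ 2) := ⟨_, rfl⟩
    rw [← hB] at hbudget ⊢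
    have a1 : (N : ℝ) ^ 3 * ((N : ℝ) ^ 2 * w ^ 2) = F 5 2 := by
      rw [← Real.rpow_natCast w 2, hFw, hFN 3, hFN 2, hFmul, hFmul]
      congr 1 <;> norm_num
    have a2 : (N : ℝ) ^ 3 * (N * T * w ^ (7 / 4 : ℝ)) = F (26 / 5) (7 / 4) := by
      rw [hFN 3, ← Real.rpow_one T, hFT, hFw, hN1', hFmul, hFmul, hFmul]
      congr 1 <;> norm_num
    have a3 : (N : ℝ) ^ 3 * ((N : ℝ) ^ 2 * T ^ (1 / 8 : ℝ) * w ^ (29 / 16 : ℝ)) =
        F (103 / 20) (29 / 16) := by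
      rw [hFN 3, hFN 2, hFT, hFw, hFmul, hFmul, hFmul]
      congr 1 <;> norm_num
    have a4 : (N : ℝ) ^ 3 * (T ^ 2 * (w * √w)) = F (27 / 5) (3 / 2) := by
      rw [hFN 3, ← Real.rpow_natCast T 2, hFT, Real.sqrt_eq_rpow, hFw, hw1', hFmul, hFmul, hFmul]
      congr 1 <;> norm_num
    have a5 : (N : ℝ) ^ 3 * (T * N) = F (26 / 5) 0 := by
      rw [hFN 3, ← Real.rpow_one T, hFT, hN1', hFmul, hFmul]
      congr 1 <;> norm_num
    have a6 : (N : ℝ) ^ 3 * (N : ℝ) ^ 3 = F 6 0 := by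
      rw [hFN 3, hFmul]
      congr 1 <;> norm_num
    have a7 : (N : ℝ) ^ 3 * (T * N * √(w * energy W)) ≤ √C₂ * T ^ η * (5 * B) := by
      rw [← mul_assoc, a5]
      refine (mul_le_mul_of_nonneg_left hroot (hF0 _ _)).trans ?_
      rw [mul_left_comm]
      refine mul_le_mul_of_nonneg_left ?_ (by positivity)
      simp only [mul_add, hFmul]
      have b1 := hbudget (26 / 5 + (2 - 2 * σ)) (0 + 1) (by norm_num) (by rw [hτ]; linarith)
      have b2 := hbudget (26 / 5 + (1 / 2 - σ)) (0 + 2) (by norm_num) (by rw [hτ]; linarith)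
      have b3 := hbudget (26 / 5 + (13 / 20 - σ)) (0 + 29 / 16) (by norm_num)
        (by rw [hτ]; linarith)
      have b4 := hbudget (26 / 5 + (26 / 25 - 8 / 5 * σ)) (0 + 17 / 10) (by norm_num)
        (by rw [hτ]; linarith)
      have b5 := hbudget (26 / 5 + (32 / 25 - 8 / 5 * σ)) (0 + 7 / 5) (by norm_num)
        (by rw [hτ]; linarith)
      linarith
    have c1 := hbudget 5 2 le_rfl (by rw [hτ]; linarith)
    have c2 := hbudget (26 / 5) (7 / 4) (by norm_num) (by rw [hτ]; linarith)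
    have c3 := hbudget (103 / 20) (29 / 16) (by norm_num) (by rw [hτ]; linarith)
    have c4 := hbudget (27 / 5) (3 / 2) (by norm_num) (by rw [hτ]; linarith)
    have c6 := hbudget 6 0 (by norm_num) (by rw [hτ]; linarith)
    rw [hR, mul_add, mul_add, mul_add, mul_add, mul_add, a1, a2, a3, a4, a6]
    have hB0 : 0 ≤ B := hB ▸ by positivity
    have d1 := mul_le_mul_of_nonneg_right hTη (show 0 ≤ 5 * B by positivity)
    have d2 : 0 ≤ √C₂ * T ^ η * (5 * B) := by positivity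
    have d3 : 0 ≤ T ^ η * (5 * B) := by positivity
    linarith
  have hfin : w * (w ^ 2 * V ^ 6) ≤ (10 * Λ * (N : ℝ) ^ τ) * (w ^ 2 * V ^ 6) := by
    calc w * (w ^ 2 * V ^ 6) = w ^ 3 * V ^ 6 := by ring
      _ ≤ 8 * (N : ℝ) ^ 3 * (C₁ * T ^ (7 * η) * R) := hX3
      _ = 8 * C₁ * T ^ (7 * η) * ((N : ℝ) ^ 3 * R) := by ring
      _ ≤ 8 * C₁ * T ^ (7 * η) *
          ((1 + √C₂) * T ^ η * (10 * (V ^ 6 * ((N : ℝ) ^ τ * w ^ 2)))) :=
          mul_le_mul_of_nonneg_left hRle (by positivity)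
      _ = _ := by
          rw [hΛ, show 8 * η = 7 * η + η by ring, Real.rpow_add hT0]; ring
  refine (le_of_mul_le_mul_right hfin (by positivity)).trans
    (mul_le_mul_of_nonneg_right ?_ hQ0.le)
  linarith

end FA.GuthMaynard

end
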