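import Mathlib.MeasureTheory.Function.JacobianOneDim
import Mathlib.Analysis.SpecialFunctions.Log.Deriv
import Mathlib.Analysis.Calculus.BumpFunction.InnerProduct
import Mathlib.Analysis.InnerProductSpace.Calculus
import Fermat.Agent.GuthMaynard.Farey

/-!
# The squared sum of characters on the half line

`β (y) |∑ y ^ (- i t)|²` for a bump `β` that is one on `[1/5, 5]`: smooth, with integral at most the
number of heights, square integral at most the energy and derivative `O (T |W|²)`.
-/

set_option autoImplicit false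

noncomputable section

namespace FA.GuthMaynard

open Finset Complex MeasureTheory Filter
open scoped Topology ContDiff Real

/-- The cut on the half line. -/
def lineBump : ContDiffBump (13 / 5 : ℝ) where
  rIn := 12 / 5
  rOut := 5 / 2
  rIn_pos := by norm_num
  rIn_lt_rOut := by norm_num

theorem lineBump_eq_zero {y : ℝ} (h : y ≤ 1 / 10 ∨ 51 / 10 ≤ y) : lineBump y = 0 := by
  refine lineBump.zero_of_le_dist ?_
  rw [Real.dist_eq]
  show (5 / 2 : ℝ) ≤ _
  rcases h with h | h
  · rw [abs_of_nonpos (by linarith)]; linarith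
  · rw [abs_of_nonneg (by linarith)]; linarith

theorem lineBump_eq_one {y : ℝ} (h1 : 1 / 5 ≤ y) (h2 : y ≤ 5) : lineBump y = 1 := by
  refine lineBump.one_of_mem_closedBall ?_
  rw [Metric.mem_closedBall, Real.dist_eq]
  show _ ≤ (12 / 5 : ℝ)
  rw [abs_le]
  constructor <;> linarith

/-- `∑ exp (- i t x)`. -/
def charSum (W : Finset ℝ) (x : ℝ) : ℂ := ∑ t ∈ W, Complex.exp (((-(t * x) : ℝ) : ℂ) * I)

theorem charNorm_eq (W : Finset ℝ) (x : ℝ) : charNorm W x = ‖charSum W x‖ := rfl

theorem charNorm_neg (W : Finset ℝ) (x : ℝ) : charNorm W (-x) = charNorm W x := by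
  rw [charNorm, charNorm, ← Complex.norm_conj (∑ t ∈ W, Complex.exp (((-(t * x) : ℝ) : ℂ) * I)),
    map_sum]
  refine congrArg norm (sum_congr rfl fun t _ => ?_)
  rw [conj_exp_real_mul_I]
  congr 2
  push_cast
  ring

/-- `β y |∑ y ^ (- i t)|²`. -/
def lineSq (W : Finset ℝ) (y : ℝ) : ℝ := lineBump y * charNorm W (Real.log y) ^ 2

theorem lineSq_nonneg (W : Finset ℝ) (y : ℝ) : 0 ≤ lineSq W y :=
  mul_nonneg lineBump.nonneg (sq_nonneg _)

theorem lineSq_eq_zero (W : Finset ℝ) {y : ℝ} (h : y ≤ 1 / 10 ∨ 51 / 10 ≤ y) : lineSq W y = 0 := by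
  rw [lineSq, lineBump_eq_zero h, zero_mul]

theorem lineSq_le (W : Finset ℝ) (y : ℝ) : lineSq W y ≤ (W.card : ℝ) ^ 2 :=
  (mul_le_of_le_one_left (sq_nonneg _) lineBump.le_one).trans
    (pow_le_pow_left₀ (charNorm_nonneg _ _) (charNorm_le_card _ _) 2)

theorem charNorm_le_sqrt_lineSq (W : Finset ℝ) {y : ℝ} (h1 : 1 / 5 ≤ y) (h2 : y ≤ 5) :
    charNorm W (Real.log y) ≤ √(lineSq W y) := by
  rw [lineSq, lineBump_eq_one h1 h2, one_mul, Real.sqrt_sq (charNorm_nonneg _ _)]

theorem hasDerivAt_charSum (W : Finset ℝ) (x : ℝ) : HasDerivAt (charSum W)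
    (∑ t ∈ W, (-(t : ℂ) * I) * Complex.exp (((-(t * x) : ℝ) : ℂ) * I)) x := by
  refine HasDerivAt.fun_sum fun t _ => ?_
  refine (((((hasDerivAt_id x).const_mul t).fun_neg).ofReal_comp).mul_const I).cexp.congr_deriv ?_
  simp only [id, mul_one]
  push_cast
  ring

theorem lineSq_smooth (W : Finset ℝ) : ContDiff ℝ ∞ (lineSq W) := by
  refine contDiff_iff_contDiffAt.2 fun y => ?_
  rcases lt_or_ge y (1 / 10) with hy | hy
  · refine (contDiffAt_const (c := (0 : ℝ))).congr_of_eventuallyEq ?_
    filter_upwards [Iio_mem_nhds hy] with x hx using lineSq_eq_zero W (Or.inl (le_of_lt hx))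
  · have hlog : ContDiffAt ℝ ∞ Real.log y := Real.contDiffAt_log.2 (by linarith)
    have hsum : ContDiffAt ℝ ∞ (fun x => charSum W (Real.log x)) y := by
      refine ContDiffAt.sum fun t _ => ?_
      exact ((((contDiffAt_const.mul hlog).neg).continuousLinearMap_comp
        Complex.ofRealCLM).mul contDiffAt_const).cexp
    exact lineBump.contDiffAt.mul (hsum.norm_sq ℂ)

theorem continuous_lineSq (W : Finset ℝ) : Continuous (lineSq W) := (lineSq_smooth W).continuous

theorem lineSq_compact (W : Finset ℝ) : HasCompactSupport (lineSq W) :=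
  HasCompactSupport.intro (isCompact_Icc (a := (1 / 10 : ℝ)) (b := 51 / 10)) fun y hy => by
    rw [Set.mem_Icc, not_and_or, not_le, not_le] at hy
    exact lineSq_eq_zero W (hy.imp le_of_lt le_of_lt)

theorem lineSq_integrable (W : Finset ℝ) : Integrable (lineSq W) :=
  (continuous_lineSq W).integrable_of_hasCompactSupport (lineSq_compact W)

theorem lineSq_sq_integrable (W : Finset ℝ) : Integrable fun y => lineSq W y ^ 2 :=
  ((continuous_lineSq W).pow 2).integrable_of_hasCompactSupport
    (HasCompactSupport.intro (isCompact_Icc (a := (1 / 10 : ℝ)) (b := 51 / 10)) fun y hy => by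
      rw [Set.mem_Icc, not_and_or, not_le, not_le] at hy
      simp only [Pi.pow_apply, lineSq_eq_zero W (hy.imp le_of_lt le_of_lt)]
      norm_num)

theorem lineBump_exp_le (x : ℝ) :
    Real.exp x * lineBump (Real.exp x) ≤ 6 * Real.exp 9 * Real.exp (-x ^ 2) := by
  by_cases h : Real.exp x ≤ 1 / 10 ∨ 51 / 10 ≤ Real.exp x
  · rw [lineBump_eq_zero h, mul_zero]; positivity
  rw [not_or, not_le, not_le] at h
  have h8 : (8 : ℝ) = 2 ^ 3 := by norm_num
  have hx1 : x < 3 := by
    have h3 : Real.exp x < Real.exp 3 := h.2.trans (by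
      have := Real.add_one_le_exp (1 : ℝ)
      have he : Real.exp 3 = Real.exp 1 ^ 3 := by rw [← Real.exp_nat_mul]; norm_num
      nlinarith [pow_le_pow_left₀ (by norm_num : (0 : ℝ) ≤ 2) (show 2 ≤ Real.exp 1 by linarith) 3])
    exact Real.exp_lt_exp.1 h3
  have hx2 : -3 < x := by
    have h3 : Real.exp (-3) < Real.exp x := by
      refine lt_of_le_of_lt ?_ h.1
      rw [Real.exp_neg, one_div]
      refine inv_anti₀ (by norm_num) ?_
      have := Real.exp_one_gt_d9
      have he : Real.exp 3 = Real.exp 1 ^ 3 := by rw [← Real.exp_nat_mul]; norm_num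
      nlinarith [pow_le_pow_left₀ (by norm_num : (0 : ℝ) ≤ 27 / 10)
        (show 27 / 10 ≤ Real.exp 1 by linarith) 3]
    exact Real.exp_lt_exp.1 h3
  have h9 : 1 ≤ Real.exp 9 * Real.exp (-x ^ 2) := by
    rw [← Real.exp_add]
    exact Real.one_le_exp (by nlinarith)
  calc Real.exp x * lineBump (Real.exp x) ≤ 6 * 1 :=
        mul_le_mul (by linarith [h.2]) lineBump.le_one lineBump.nonneg (by norm_num)
    _ ≤ 6 * (Real.exp 9 * Real.exp (-x ^ 2)) := by linarith
    _ = _ := by ring

theorem integral_comp_exp {g : ℝ → ℝ} (hg : ∀ y ≤ 0, g y = 0) :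
    ∫ y, g y = ∫ x, Real.exp x * g (Real.exp x) := by
  rw [← setIntegral_eq_integral_of_forall_compl_eq_zero (s := Set.Ioi (0 : ℝ))
    (fun y hy => hg y (not_lt.1 hy)), ← Real.range_exp, ← Set.image_univ,
    integral_image_eq_integral_abs_deriv_smul MeasurableSet.univ
      (fun x _ => (Real.hasDerivAt_exp x).hasDerivWithinAt) Real.exp_injective.injOn,
    setIntegral_univ]
  exact integral_congr_ae (Eventually.of_forall fun x => by
    simp [abs_of_pos (Real.exp_pos x)])

/-- **The norms of the line weight.** -/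
theorem exists_lineSq_norms : ∃ C, 0 ≤ C ∧ ∀ (W : Finset ℝ) (T : ℝ), Separated W → 1 ≤ T →
    (∀ t ∈ W, |t| ≤ T) →
      ∫ y, lineSq W y ≤ C * W.card ∧ ∫ y, lineSq W y ^ 2 ≤ C * energy W ∧
      ∫ y, deriv (lineSq W) y ^ 2 ≤ C * T ^ 2 * (W.card : ℝ) ^ 4 := by
  obtain ⟨K, hK, hgauss⟩ := exists_gauss_le
  obtain ⟨D, hD⟩ : ∃ D, ∀ y, |deriv lineBump y| ≤ D := by
    have hc : HasCompactSupport (deriv lineBump) := lineBump.hasCompactSupport.deriv
    obtain ⟨D, hD⟩ := ((contDiff_infty_iff_deriv.1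
      (lineBump.contDiff (n := (⊤ : ℕ∞)))).2.continuous).bounded_above_of_compact_support hc
    exact ⟨D, fun y => (Real.norm_eq_abs _).symm.trans_le (hD y)⟩
  have hD0 : 0 ≤ D := (abs_nonneg _).trans (hD 0)
  refine ⟨6 * Real.exp 9 * K * 5 + 5 * (D + 20) ^ 2, by positivity, fun W T hW hT hb => ?_⟩
  have hw0 : (0 : ℝ) ≤ W.card := Nat.cast_nonneg _
  have hE0 : (0 : ℝ) ≤ energy W := Nat.cast_nonneg _
  have hchar : ∀ x : ℝ, charNorm W (-x) =
      ‖∑ t ∈ W, (1 : ℂ) * Complex.exp (((t * x : ℝ) : ℂ) * I)‖ := fun x => by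
    refine congrArg norm (sum_congr rfl fun t _ => ?_)
    rw [one_mul]
    congr 2
    push_cast
    ring
  have hchar4 : ∀ x : ℝ, charNorm W (-x) ^ 4 =
      ‖∑ p ∈ W ×ˢ W, (1 : ℂ) * Complex.exp ((((p.1 + p.2) * x : ℝ) : ℂ) * I)‖ ^ 2 := fun x => by
    rw [hchar, show (4 : ℕ) = 2 * 2 from rfl, pow_mul, ← norm_pow, sq (∑ t ∈ W, _), sum_mul_sum,
      sum_product]
    congr 2
    refine sum_congr rfl fun t _ => sum_congr rfl fun u _ => ?_
    rw [one_mul, one_mul, one_mul, ← Complex.exp_add]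
    congr 1
    push_cast
    ring
  refine ⟨?_, ?_, ?_⟩
  · obtain ⟨hi, hle⟩ := hgauss W id (fun _ => (1 : ℂ)) 1 zero_le_one fun t _ => by simp
    rw [integral_comp_exp fun y hy => lineSq_eq_zero W (Or.inl (by linarith))]
    refine (integral_mono_of_nonneg
      (Eventually.of_forall fun x => mul_nonneg (Real.exp_pos x).le (lineSq_nonneg W _))
      (hi.const_mul (6 * Real.exp 9)) (Eventually.of_forall fun x => ?_)).trans ?_
    · simp only [lineSq, Real.log_exp, ← charNorm_neg W x, hchar, id]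
      rw [← mul_assoc, ← mul_assoc]
      exact mul_le_mul_of_nonneg_right (lineBump_exp_le x) (sq_nonneg _)
    · rw [integral_const_mul]
      refine (mul_le_mul_of_nonneg_left (hle.trans (mul_le_mul_of_nonneg_left
        (closePairs_id_le hW) (by positivity))) (by positivity)).trans ?_
      have : 0 ≤ 5 * (D + 20) ^ 2 * (W.card : ℝ) := by positivity
      linarith
  · obtain ⟨hi, hle⟩ :=
      hgauss (W ×ˢ W) (fun p => p.1 + p.2) (fun _ => (1 : ℂ)) 1 zero_le_one fun t _ => by simp
    rw [integral_comp_exp fun y hy => by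
      rw [lineSq_eq_zero W (Or.inl (by linarith))]; norm_num]
    refine (integral_mono_of_nonneg
      (Eventually.of_forall fun x => mul_nonneg (Real.exp_pos x).le (sq_nonneg _))
      (hi.const_mul (6 * Real.exp 9)) (Eventually.of_forall fun x => ?_)).trans ?_
    · simp only [lineSq, Real.log_exp, mul_pow, ← pow_mul, ← charNorm_neg W x]
      rw [hchar4, ← mul_assoc, ← mul_assoc]
      refine mul_le_mul_of_nonneg_right (le_trans ?_ (lineBump_exp_le x)) (sq_nonneg _)
      exact mul_le_mul_of_nonneg_left (pow_le_of_le_one lineBump.nonneg lineBump.le_one two_ne_zero)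
        (Real.exp_pos x).le
    · rw [integral_const_mul]
      refine (mul_le_mul_of_nonneg_left hle (by positivity)).trans ?_
      rw [← energy]
      have : 0 ≤ 6 * Real.exp 9 * K * 4 * (energy W : ℝ) := by positivity
      have : 0 ≤ 5 * (D + 20) ^ 2 * (energy W : ℝ) := by positivity
      linarith
  · have hd : ∀ y, |deriv (lineSq W) y| ≤ (D + 20 * T) * (W.card : ℝ) ^ 2 := fun y => by
      rcases lt_or_ge y (1 / 10) with hy | hy
      · have h : lineSq W =ᶠ[𝓝 y] fun _ => (0 : ℝ) := by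
          filter_upwards [Iio_mem_nhds hy] with x hx using lineSq_eq_zero W (Or.inl (le_of_lt hx))
        rw [h.deriv_eq, deriv_const, abs_zero]
        positivity
      obtain ⟨Q, hQ⟩ : ∃ Q, Q = ∑ t ∈ W, (-(t : ℂ) * I) *
          Complex.exp (((-(t * Real.log y) : ℝ) : ℂ) * I) := ⟨_, rfl⟩
      have hQle : ‖Q‖ ≤ T * W.card := by
        rw [hQ]
        refine (norm_sum_le _ _).trans
          ((sum_le_card_nsmul _ _ T fun t ht => ?_).trans (le_of_eq ?_))
        · rw [norm_mul, Complex.norm_exp_ofReal_mul_I, mul_one, norm_mul, norm_neg, Complex.norm_I,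
            Complex.norm_real, mul_one]
          exact hb t ht
        · rw [nsmul_eq_mul, mul_comm]
      have h1 : HasDerivAt (fun z => charSum W (Real.log z)) (((y⁻¹ : ℝ) : ℂ) * Q) y := by
        refine ((hasDerivAt_charSum W (Real.log y)).scomp y
          (Real.hasDerivAt_log (by linarith))).congr_deriv ?_
        rw [Complex.real_smul, hQ]
      have h2 : HasDerivAt (lineSq W) (deriv lineBump y * ‖charSum W (Real.log y)‖ ^ 2 +
          lineBump y * (2 * inner ℝ (charSum W (Real.log y)) (((y⁻¹ : ℝ) : ℂ) * Q))) y :=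
        ((lineBump.contDiff (n := 1)).differentiable one_ne_zero y).hasDerivAt.mul h1.norm_sq
      rw [h2.deriv]
      have hc := charNorm_le_card W (Real.log y)
      rw [charNorm_eq] at hc
      refine (abs_add_le _ _).trans ?_
      rw [add_mul]
      refine add_le_add ?_ ?_
      · rw [abs_mul, abs_pow, abs_norm]
        exact mul_le_mul (hD y) (pow_le_pow_left₀ (norm_nonneg _) hc 2) (sq_nonneg _) hD0
      · rw [abs_mul, abs_of_nonneg lineBump.nonneg, abs_mul, abs_two]
        refine (mul_le_of_le_one_left (by positivity) lineBump.le_one).trans ?_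
        refine (mul_le_mul_of_nonneg_left (abs_real_inner_le_norm _ _) zero_le_two).trans ?_
        rw [norm_mul, Complex.norm_real, Real.norm_of_nonneg (by positivity)]
        have hy' : y⁻¹ ≤ 10 := by
          rw [inv_le_comm₀ (by linarith) (by norm_num)]; linarith
        calc 2 * (‖charSum W (Real.log y)‖ * (y⁻¹ * ‖Q‖))
            ≤ 2 * ((W.card : ℝ) * (10 * (T * W.card))) := by gcongr
          _ = _ := by ring
    have hz : ∀ y, y ∉ Set.Icc (1 / 10 : ℝ) (51 / 10) → deriv (lineSq W) y = 0 := fun y hy => by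
      rw [Set.mem_Icc, not_and_or, not_le, not_le] at hy
      have h : lineSq W =ᶠ[𝓝 y] fun _ => (0 : ℝ) := by
        rcases hy with hy | hy
        · filter_upwards [Iio_mem_nhds hy] with x hx using lineSq_eq_zero W (Or.inl (le_of_lt hx))
        · filter_upwards [Ioi_mem_nhds hy] with x hx using lineSq_eq_zero W (Or.inr (le_of_lt hx))
      rw [h.deriv_eq, deriv_const]
    rw [← setIntegral_eq_integral_of_forall_compl_eq_zero (s := Set.Icc (1 / 10 : ℝ) (51 / 10))
      fun y hy => by rw [hz y hy]; norm_num]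
    refine (setIntegral_mono_on ((((contDiff_infty_iff_deriv.1 (lineSq_smooth W)).2.continuous).pow
      2).integrableOn_Icc) (integrableOn_const measure_Icc_lt_top.ne) measurableSet_Icc
      fun y _ => sq_le_sq' (abs_le.1 (hd y)).1 (abs_le.1 (hd y)).2).trans ?_
    rw [setIntegral_const, measureReal_def, Real.volume_Icc, ENNReal.toReal_ofReal (by norm_num),
      smul_eq_mul]
    calc (51 / 10 - 1 / 10) * ((D + 20 * T) * (W.card : ℝ) ^ 2) ^ 2
        ≤ 5 * (((D + 20) * T) * (W.card : ℝ) ^ 2) ^ 2 := by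
          rw [show (51 / 10 - 1 / 10 : ℝ) = 5 by norm_num]
          gcongr
          nlinarith
      _ = 5 * (D + 20) ^ 2 * T ^ 2 * (W.card : ℝ) ^ 4 := by ring
      _ ≤ _ := by
          gcongr
          linarith [show 0 ≤ 6 * Real.exp 9 * K * 5 by positivity]

end FA.GuthMaynard

end
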