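import Mathlib.Analysis.Calculus.BumpFunction.InnerProduct
import Mathlib.Analysis.Fourier.FourierTransformDeriv
import Mathlib.Analysis.Fourier.PoissonSummation
import Mathlib.Analysis.SpecialFunctions.Log.Deriv

/-!
# Oscillating weights

For `φ` smooth and supported in `[1/2, 5/2]` the function `φ x * x ^ (i u)` has `n`-th derivative
`O ((1 + |u|) ^ n)`, so its Fourier transform is `O ((1 + |u|) / |ξ|) ^ n`, and its integral is
`O (|u| ^ (-n))`.
-/

set_option autoImplicit false

noncomputable section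

namespace FA.GuthMaynard

open Complex Filter MeasureTheory
open scoped Topology ContDiff Real FourierTransform ComplexConjugate

/-- Smooth and supported in `[1/2, 5/2]`. -/
structure IsCut (φ : ℝ → ℂ) : Prop where
  smooth : ContDiff ℝ ∞ φ
  zero : ∀ x, x < 1 / 2 ∨ 5 / 2 < x → φ x = 0

/-- `φ x * x ^ (i u)`. -/
def phase (φ : ℝ → ℂ) (u x : ℝ) : ℂ := φ x * Complex.exp (((u * Real.log x : ℝ) : ℂ) * I)

/-- The operator `φ ↦ (x φ)'`. -/
def mellinStep (φ : ℝ → ℂ) : ℝ → ℂ := deriv fun x : ℝ => (x : ℂ) * φ x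

namespace IsCut

variable {φ : ℝ → ℂ} (hφ : IsCut φ)

include hφ

theorem zero_nhds {x : ℝ} (hx : x < 1 / 2 ∨ 5 / 2 < x) : φ =ᶠ[𝓝 x] 0 := by
  rcases hx with hx | hx
  · filter_upwards [Iio_mem_nhds hx] with y hy using hφ.zero y (Or.inl hy)
  · filter_upwards [Ioi_mem_nhds hx] with y hy using hφ.zero y (Or.inr hy)

theorem deriv' : IsCut (deriv φ) :=
  ⟨(contDiff_infty_iff_deriv.1 hφ.smooth).2, fun x hx => by
    rw [(hφ.zero_nhds hx).deriv_eq]
    exact deriv_const x 0⟩

theorem mul_id : IsCut fun x : ℝ => (x : ℂ) * φ x :=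
  ⟨Complex.ofRealCLM.contDiff.mul hφ.smooth, fun x hx => by rw [hφ.zero x hx, mul_zero]⟩

theorem div_id : IsCut fun x : ℝ => φ x / (x : ℂ) := by
  refine ⟨contDiff_iff_contDiffAt.2 fun x => ?_, fun x hx => by rw [hφ.zero x hx, zero_div]⟩
  rcases lt_or_ge x (1 / 2) with hx | hx
  · refine (contDiffAt_const (c := (0 : ℂ))).congr_of_eventuallyEq ?_
    filter_upwards [hφ.zero_nhds (Or.inl hx)] with y hy
    rw [hy, Pi.zero_apply, zero_div]
  · rw [show (fun y : ℝ => φ y / (y : ℂ)) = fun y : ℝ => φ y * ((y⁻¹ : ℝ) : ℂ) from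
      funext fun y => by rw [Complex.ofReal_inv, div_eq_mul_inv]]
    exact hφ.smooth.contDiffAt.mul ((contDiffAt_inv ℝ (show x ≠ 0 by linarith))
      |>.continuousLinearMap_comp Complex.ofRealCLM)

theorem step : IsCut (mellinStep φ) := hφ.mul_id.deriv'

theorem step_iterate : ∀ n : ℕ, IsCut (mellinStep^[n] φ)
  | 0 => hφ
  | n + 1 => by
    rw [Function.iterate_succ_apply']
    exact (step_iterate n).step

theorem hasCompactSupport : HasCompactSupport φ :=
  HasCompactSupport.intro (isCompact_Icc (a := (1 / 2 : ℝ)) (b := 5 / 2)) fun x hx => by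
    refine hφ.zero x ?_
    rw [Set.mem_Icc, not_and_or, not_le, not_le] at hx
    exact hx

theorem exists_bound : ∃ C, 0 ≤ C ∧ ∀ x, ‖φ x‖ ≤ C := by
  obtain ⟨C, hC⟩ := hφ.smooth.continuous.bounded_above_of_compact_support hφ.hasCompactSupport
  exact ⟨max C 0, le_max_right _ _, fun x => (hC x).trans (le_max_left _ _)⟩

theorem phase_zero (u : ℝ) {x : ℝ} (hx : x < 1 / 2 ∨ 5 / 2 < x) : phase φ u x = 0 := by
  rw [phase, hφ.zero x hx, zero_mul]

theorem phase_smooth (u : ℝ) : ContDiff ℝ ∞ (phase φ u) := by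
  refine contDiff_iff_contDiffAt.2 fun x => ?_
  rcases lt_or_ge x (1 / 2) with hx | hx
  · refine (contDiffAt_const (c := (0 : ℂ))).congr_of_eventuallyEq ?_
    filter_upwards [hφ.zero_nhds (Or.inl hx)] with y hy
    rw [phase, hy, Pi.zero_apply, zero_mul]
  · unfold phase
    refine hφ.smooth.contDiffAt.mul ?_
    exact (((contDiffAt_const.mul (Real.contDiffAt_log.2 (by linarith))).continuousLinearMap_comp
      Complex.ofRealCLM).mul contDiffAt_const).cexp

theorem phase_continuous (u : ℝ) : Continuous (phase φ u) := (hφ.phase_smooth u).continuous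

theorem phase_compact (u : ℝ) : HasCompactSupport (phase φ u) :=
  hφ.hasCompactSupport.mul_right

theorem phase_integrable (u : ℝ) : Integrable (phase φ u) :=
  (hφ.phase_continuous u).integrable_of_hasCompactSupport (hφ.phase_compact u)

theorem deriv_phase (u x : ℝ) : deriv (phase φ u) x =
    phase (deriv φ) u x + (u : ℂ) * I * phase (fun y => φ y / (y : ℂ)) u x := by
  rcases lt_or_ge x (1 / 2) with hx | hx
  · have h : phase φ u =ᶠ[𝓝 x] 0 := by
      filter_upwards [Iio_mem_nhds hx] with y hy using hφ.phase_zero u (Or.inl hy)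
    rw [h.deriv_eq, phase, phase, hφ.deriv'.zero x (Or.inl hx), hφ.zero x (Or.inl hx)]
    simp only [zero_div, zero_mul, mul_zero, add_zero]
    exact deriv_const x 0
  · have hx0 : x ≠ 0 := by linarith
    have h1 : HasDerivAt φ (deriv φ x) x :=
      ((hφ.smooth.differentiable (by simp)) x).hasDerivAt
    have h2 : HasDerivAt (fun y => Complex.exp (((u * Real.log y : ℝ) : ℂ) * I))
        (Complex.exp (((u * Real.log x : ℝ) : ℂ) * I) * (((u * x⁻¹ : ℝ) : ℂ) * I)) x :=
      (((Real.hasDerivAt_log hx0).const_mul u).ofReal_comp.mul_const I).cexp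
    refine ((h1.mul h2).congr_deriv ?_).deriv
    rw [phase, phase, Complex.ofReal_mul u x⁻¹, Complex.ofReal_inv]
    ring

theorem exists_iteratedDeriv_phase_le (n : ℕ) :
    ∃ C, 0 ≤ C ∧ ∀ u x, ‖iteratedDeriv n (phase φ u) x‖ ≤ C * (1 + |u|) ^ n := by
  induction n generalizing φ with
  | zero =>
    obtain ⟨C, hC, h⟩ := hφ.exists_bound
    refine ⟨C, hC, fun u x => ?_⟩
    rw [iteratedDeriv_zero, phase, pow_zero, mul_one, norm_mul, Complex.norm_exp_ofReal_mul_I,
      mul_one]
    exact h x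
  | succ n ih =>
    obtain ⟨C₁, hC₁, h₁⟩ := ih hφ.deriv'
    obtain ⟨C₂, hC₂, h₂⟩ := ih hφ.div_id
    refine ⟨C₁ + C₂, by linarith, fun u x => ?_⟩
    rw [iteratedDeriv_succ', funext (hφ.deriv_phase u)]
    have hs1 : ContDiffAt ℝ n (phase (deriv φ) u) x :=
      ((hφ.deriv'.phase_smooth u).of_le (mod_cast le_top)).contDiffAt
    have hs2 : ContDiffAt ℝ n (phase (fun y => φ y / (y : ℂ)) u) x :=
      ((hφ.div_id.phase_smooth u).of_le (mod_cast le_top)).contDiffAt
    rw [show (fun y => phase (deriv φ) u y + (u : ℂ) * I * phase (fun z => φ z / (z : ℂ)) u y) =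
        phase (deriv φ) u + fun y => (u : ℂ) * I * phase (fun z => φ z / (z : ℂ)) u y from rfl,
      iteratedDeriv_add hs1 (contDiffAt_const.mul hs2), iteratedDeriv_const_mul _ hs2]
    refine (norm_add_le _ _).trans ?_
    rw [norm_mul, norm_mul, Complex.norm_real, Complex.norm_I, mul_one, Real.norm_eq_abs]
    calc ‖iteratedDeriv n (phase (deriv φ) u) x‖ +
          |u| * ‖iteratedDeriv n (phase (fun z => φ z / (z : ℂ)) u) x‖
        ≤ C₁ * (1 + |u|) ^ n + |u| * (C₂ * (1 + |u|) ^ n) :=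
          add_le_add (h₁ u x) (mul_le_mul_of_nonneg_left (h₂ u x) (abs_nonneg u))
      _ ≤ (C₁ * (1 + |u|) + C₂ * (1 + |u|)) * (1 + |u|) ^ n := by
          have := pow_nonneg (show 0 ≤ 1 + |u| by positivity) n
          nlinarith [mul_nonneg (mul_nonneg hC₁ (abs_nonneg u)) this, mul_nonneg hC₂ this]
      _ = _ := by ring

theorem iteratedDeriv_phase_zero (n : ℕ) (u : ℝ) {x : ℝ} (hx : x < 1 / 2 ∨ 5 / 2 < x) :
    iteratedDeriv n (phase φ u) x = 0 := by
  have h : phase φ u =ᶠ[𝓝 x] fun _ => (0 : ℂ) := by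
    filter_upwards [hφ.zero_nhds hx] with y hy
    rw [phase, hy, Pi.zero_apply, zero_mul]
  rw [h.iteratedDeriv_eq n]
  simp

theorem iteratedDeriv_integrable (n : ℕ) (u : ℝ) : Integrable (iteratedDeriv n (phase φ u)) := by
  refine Continuous.integrable_of_hasCompactSupport
    ((hφ.phase_smooth u).continuous_iteratedDeriv n (mod_cast le_top))
    (HasCompactSupport.intro (isCompact_Icc (a := (1 / 2 : ℝ)) (b := 5 / 2)) fun x hx => ?_)
  rw [Set.mem_Icc, not_and_or, not_le, not_le] at hx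
  exact hφ.iteratedDeriv_phase_zero n u hx

/-- **The decay of the Fourier transform.** -/
theorem exists_fourier_phase_le (n : ℕ) :
    ∃ C, 0 ≤ C ∧ ∀ u ξ : ℝ, (2 * π * |ξ|) ^ n * ‖𝓕 (phase φ u) ξ‖ ≤ C * (1 + |u|) ^ n := by
  obtain ⟨C, hC, h⟩ := hφ.exists_iteratedDeriv_phase_le n
  refine ⟨2 * C, by positivity, fun u ξ => ?_⟩
  have e := congrFun (Real.fourier_iteratedDeriv (N := ⊤) (n := n) (hφ.phase_smooth u)
    (fun m _ => hφ.iteratedDeriv_integrable m u) le_top) ξ
  have e' : ‖𝓕 (iteratedDeriv n (phase φ u)) ξ‖ = (2 * π * |ξ|) ^ n * ‖𝓕 (phase φ u) ξ‖ := by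
    rw [e, norm_smul, norm_pow]
    congr 2
    simp [abs_of_pos Real.pi_pos]
  rw [← e']
  calc ‖𝓕 (iteratedDeriv n (phase φ u)) ξ‖ ≤ ∫ x, ‖iteratedDeriv n (phase φ u) x‖ :=
        VectorFourier.norm_fourierIntegral_le_integral_norm _ _ _ _ _
    _ = ∫ x in Set.Icc (1 / 2 : ℝ) (5 / 2), ‖iteratedDeriv n (phase φ u) x‖ := by
        refine (setIntegral_eq_integral_of_forall_compl_eq_zero fun x hx => ?_).symm
        rw [Set.mem_Icc, not_and_or, not_le, not_le] at hx
        rw [hφ.iteratedDeriv_phase_zero n u hx, norm_zero]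
    _ ≤ ∫ _x in Set.Icc (1 / 2 : ℝ) (5 / 2), C * (1 + |u|) ^ n :=
        setIntegral_mono_on (hφ.iteratedDeriv_integrable n u).norm.integrableOn
          (integrableOn_const measure_Icc_lt_top.ne) measurableSet_Icc fun x _ => h u x
    _ = _ := by
        rw [setIntegral_const, measureReal_def, Real.volume_Icc,
          ENNReal.toReal_ofReal (by norm_num), smul_eq_mul]
        ring

theorem phase_step (u x : ℝ) :
    deriv (phase (fun y : ℝ => (y : ℂ) * φ y) u) x =
      phase (mellinStep φ) u x + (u : ℂ) * I * phase φ u x := by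
  rw [hφ.mul_id.deriv_phase]
  congr 2
  rcases eq_or_ne x 0 with rfl | hx
  · simp [phase, hφ.zero 0 (Or.inl (by norm_num))]
  · simp only [phase]
    rw [mul_div_cancel_left₀ _ (Complex.ofReal_ne_zero.2 hx)]

theorem mul_integral_phase (u : ℝ) :
    (u : ℂ) * I * ∫ x, phase φ u x = -∫ x, phase (mellinStep φ) u x := by
  have h : ∫ x, deriv (phase (fun y : ℝ => (y : ℂ) * φ y) u) x = 0 := by
    refine integral_eq_zero_of_hasDerivAt_of_integrable
      (fun x => (((hφ.mul_id.phase_smooth u).differentiable (by simp)) x).hasDerivAt) ?_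
      (hφ.mul_id.phase_integrable u)
    simpa using hφ.mul_id.iteratedDeriv_integrable 1 u
  rw [funext (hφ.phase_step u), integral_add (hφ.step.phase_integrable u)
    ((hφ.phase_integrable u).const_mul _), integral_const_mul] at h
  exact eq_neg_of_add_eq_zero_right h

/-- **The integral decays in the height.** -/
theorem exists_integral_phase_le (n : ℕ) :
    ∃ C, 0 ≤ C ∧ ∀ u : ℝ, |u| ^ n * ‖∫ x, phase φ u x‖ ≤ C := by
  induction n generalizing φ with
  | zero =>
    obtain ⟨C, hC, h⟩ := hφ.exists_fourier_phase_le 0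
    refine ⟨C, hC, fun u => ?_⟩
    have h0 := h u 0
    simpa [Real.fourier_real_eq] using h0
  | succ n ih =>
    obtain ⟨C, hC, h⟩ := ih hφ.step
    refine ⟨C, hC, fun u => ?_⟩
    have e := congrArg norm (hφ.mul_integral_phase u)
    rw [norm_mul, norm_mul, Complex.norm_real, Complex.norm_I, mul_one, norm_neg,
      Real.norm_eq_abs] at e
    rw [pow_succ, mul_assoc, e]
    exact h u

end IsCut

theorem conj_phase {φ : ℝ → ℂ} (hφ : ∀ x, conj (φ x) = φ x) (u x : ℝ) :
    conj (phase φ u x) = phase φ (-u) x := by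
  rw [phase, phase, map_mul, hφ, ← Complex.exp_conj, map_mul, conj_ofReal, conj_I, neg_mul u]
  push_cast
  ring_nf

theorem fourier_phase_neg {φ : ℝ → ℂ} (hφ : ∀ x, conj (φ x) = φ x) (u ξ : ℝ) :
    𝓕 (phase φ u) (-ξ) = conj (𝓕 (phase φ (-u)) ξ) := by
  rw [Real.fourier_real_eq_integral_exp_smul, Real.fourier_real_eq_integral_exp_smul,
    ← integral_conj]
  refine integral_congr_ae (Eventually.of_forall fun v => ?_)
  simp only [smul_eq_mul, map_mul, ← Complex.exp_conj, conj_phase hφ, neg_neg, conj_ofReal, conj_I]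
  push_cast
  ring_nf

/-- The weight: one on `[1, 2]`. -/
def bump : ContDiffBump (3 / 2 : ℝ) where
  rIn := 1 / 2
  rOut := 1
  rIn_pos := by norm_num
  rIn_lt_rOut := by norm_num

/-- The weight as a complex function. -/
def weight (x : ℝ) : ℂ := (bump x : ℝ)

theorem isCut_weight : IsCut weight :=
  ⟨Complex.ofRealCLM.contDiff.comp bump.contDiff, fun x hx => by
    rw [weight, bump.zero_of_le_dist, Complex.ofReal_zero]
    rw [Real.dist_eq]
    show (1 : ℝ) ≤ _
    rcases hx with hx | hx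
    · rw [abs_of_nonpos (by linarith)]; linarith
    · rw [abs_of_nonneg (by linarith)]; linarith⟩

theorem conj_weight (x : ℝ) : conj (weight x) = weight x := conj_ofReal _

theorem bump_eq_one {x : ℝ} (h1 : 1 ≤ x) (h2 : x ≤ 2) : bump x = 1 := by
  refine bump.one_of_mem_closedBall ?_
  rw [Metric.mem_closedBall, Real.dist_eq]
  show _ ≤ (1 / 2 : ℝ)
  rw [abs_le]
  constructor <;> linarith

end FA.GuthMaynard

end
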