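import Mathlib.Analysis.Fourier.Inversion
import Mathlib.Analysis.Distribution.SchwartzSpace.Fourier
import Mathlib.MeasureTheory.Function.JacobianOneDim
import Fermat.Agent.GuthMaynard.Weight
import Fermat.Agent.SelbergCLT.Kernel
import Fermat.Agent.Hoheisel.DPoly

/-!
# The Fourier transform of a weight on a logarithmic scale

`y ↦ exp (y / 2) * 𝓕 (phase φ u) (exp y)` is a Schwartz function with square integral at most that
of `φ`, whose transform decays away from `-u / 2π`. Hence a block `∑ 𝓕 (phase φ u) (m L)` is an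
average of the Dirichlet polynomial `∑ m ^ (-1/2) m ^ (-i t)` near `t = u`.
-/

set_option autoImplicit false

noncomputable section

namespace FA.GuthMaynard

open Complex Filter MeasureTheory
open FA.SelbergCLT (decay decay_nonneg decay_le_one integrable_decay continuous_decay)
open FA.Hoheisel (dpoly)
open scoped Topology ContDiff Real FourierTransform SchwartzMap

/-- The Cauchy–Schwarz inequality for integrals of real functions. -/
theorem sq_integral_mul_le {f g : ℝ → ℝ} (hf : Integrable fun v => f v ^ 2)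
    (hfg : Integrable fun v => f v * g v) (hg : Integrable fun v => g v ^ 2) :
    (∫ v, f v * g v) ^ 2 ≤ (∫ v, f v ^ 2) * ∫ v, g v ^ 2 := by
  obtain ⟨a, ha⟩ : ∃ a, a = ∫ v, f v ^ 2 := ⟨_, rfl⟩
  obtain ⟨b, hb⟩ : ∃ b, b = ∫ v, f v * g v := ⟨_, rfl⟩
  obtain ⟨c, hc⟩ : ∃ c, c = ∫ v, g v ^ 2 := ⟨_, rfl⟩
  rw [← ha, ← hb, ← hc]
  have key : ∀ x : ℝ, 0 ≤ a * (x * x) + (-(2 * b)) * x + c := fun x => by
    have e : ∫ v, (x * f v - g v) ^ 2 = a * (x * x) + (-(2 * b)) * x + c := by
      have e' : ∀ v, (x * f v - g v) ^ 2 =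
          ((x * x) * f v ^ 2 - 2 * x * (f v * g v)) + g v ^ 2 := fun v => by ring
      simp only [e']
      have h12 : Integrable fun v => (x * x) * f v ^ 2 - 2 * x * (f v * g v) :=
        (hf.const_mul _).sub (hfg.const_mul _)
      rw [integral_add h12 hg, integral_sub (hf.const_mul _) (hfg.const_mul _), integral_const_mul,
        integral_const_mul, ha, hb, hc]
      ring
    exact e ▸ integral_nonneg fun v => sq_nonneg _
  have h := discrim_le_zero key
  rw [discrim] at h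
  linarith

/-- `y ↦ exp (y / 2) * 𝓕 (phase φ u) (exp y)`. -/
def logFourier (φ : ℝ → ℂ) (u y : ℝ) : ℂ :=
  ((Real.exp (y / 2) : ℝ) : ℂ) * 𝓕 (phase φ u) (Real.exp y)

/-- The coefficients `m ^ (-1/2)`. -/
def invSqrt (m : ℕ) : ℂ := (((√(m : ℝ))⁻¹ : ℝ) : ℂ)

theorem phase_id_mul (φ : ℝ → ℂ) (u x : ℝ) :
    phase (fun y : ℝ => (y : ℂ) * φ y) u x = (x : ℂ) * phase φ u x := mul_assoc _ _ _

namespace IsCut

variable {φ : ℝ → ℂ} (hφ : IsCut φ)

include hφ

theorem fourier_phase_smooth (u : ℝ) : ContDiff ℝ ∞ (𝓕 (phase φ u)) := by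
  obtain ⟨f, hf⟩ : ∃ f : 𝓢(ℝ, ℂ), (f : ℝ → ℂ) = phase φ u :=
    ⟨(hφ.phase_compact u).toSchwartzMap (hφ.phase_smooth u), rfl⟩
  have hF : ((𝓕 f : 𝓢(ℝ, ℂ)) : ℝ → ℂ) = 𝓕 (phase φ u) := by rw [SchwartzMap.fourier_coe, hf]
  exact hF ▸ (𝓕 f).smooth'

theorem mul_deriv_fourier_phase (u ξ : ℝ) :
    (ξ : ℂ) * deriv (𝓕 (phase φ u)) ξ =
      -𝓕 (phase (mellinStep φ) u) ξ - (u : ℂ) * I * 𝓕 (phase φ u) ξ := by
  have hsc : ∀ {ψ : ℝ → ℂ}, IsCut ψ → Integrable fun v : ℝ =>
      Complex.exp ((↑(-2 * π * v * ξ) : ℂ) * I) • phase ψ u v := fun {ψ} hψ =>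
    (Continuous.smul (show Continuous fun v : ℝ => Complex.exp ((↑(-2 * π * v * ξ) : ℂ) * I) by
      fun_prop) (hψ.phase_continuous u)).integrable_of_hasCompactSupport
      (hψ.phase_compact u).smul_left
  have hint : Integrable fun x : ℝ => x • phase φ u x := by
    refine (hφ.mul_id.phase_integrable u).congr (Eventually.of_forall fun x => ?_)
    simp [phase_id_mul, Complex.real_smul]
  have hdi : Integrable (deriv (phase (fun y : ℝ => (y : ℂ) * φ y) u)) := by
    simpa using hφ.mul_id.iteratedDeriv_integrable 1 u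
  have h1 := congrFun (Real.deriv_fourier (hφ.phase_integrable u) hint) ξ
  have h2 := congrFun (Real.fourier_deriv (hφ.mul_id.phase_integrable u)
    ((hφ.mul_id.phase_smooth u).differentiable (by simp)) hdi) ξ
  rw [h1]
  have e1 : 𝓕 (fun x : ℝ => (-2 * (π : ℂ) * I * x) • phase φ u x) ξ =
      -2 * (π : ℂ) * I * 𝓕 (phase (fun y : ℝ => (y : ℂ) * φ y) u) ξ := by
    rw [Real.fourier_real_eq_integral_exp_smul, Real.fourier_real_eq_integral_exp_smul,
      ← integral_const_mul]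
    refine integral_congr_ae (Eventually.of_forall fun v => ?_)
    simp only [smul_eq_mul, phase_id_mul]
    ring
  have e2 : 𝓕 (deriv (phase (fun y : ℝ => (y : ℂ) * φ y) u)) ξ =
      𝓕 (phase (mellinStep φ) u) ξ + (u : ℂ) * I * 𝓕 (phase φ u) ξ := by
    simp only [Real.fourier_real_eq_integral_exp_smul]
    rw [← integral_const_mul, ← integral_add (hsc hφ.step) ((hsc hφ).const_mul _)]
    refine integral_congr_ae (Eventually.of_forall fun v => ?_)
    simp only [hφ.phase_step, smul_eq_mul]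
    ring
  rw [e1]
  rw [e2, smul_eq_mul] at h2
  linear_combination h2

theorem hasDerivAt_logFourier (u y : ℝ) : HasDerivAt (logFourier φ u)
    ((1 / 2 - (u : ℂ) * I) * logFourier φ u y - logFourier (mellinStep φ) u y) y := by
  have h1 : HasDerivAt (𝓕 (phase φ u)) (deriv (𝓕 (phase φ u)) (Real.exp y)) (Real.exp y) :=
    (((hφ.fourier_phase_smooth u).differentiable (by simp)) _).hasDerivAt
  have h2 : HasDerivAt (fun z : ℝ => ((Real.exp (z / 2) : ℝ) : ℂ))
      ((Real.exp (y / 2) * (1 / 2) : ℝ) : ℂ) y :=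
    (((hasDerivAt_id y).div_const 2).exp).ofReal_comp
  refine (h2.mul (h1.scomp y (Real.hasDerivAt_exp y))).congr_deriv ?_
  rw [Complex.real_smul, hφ.mul_deriv_fourier_phase, logFourier, logFourier, Function.comp_apply]
  push_cast
  ring

theorem logFourier_smooth (u : ℝ) : ContDiff ℝ ∞ (logFourier φ u) :=
  (Complex.ofRealCLM.contDiff.comp (Real.contDiff_exp.comp (contDiff_id.div_const 2))).mul
    ((hφ.fourier_phase_smooth u).comp Real.contDiff_exp)

theorem exists_logFourier_le (u : ℝ) (n : ℕ) :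
    ∃ C, 0 ≤ C ∧ ∀ y, ‖iteratedDeriv n (logFourier φ u) y‖ ≤ C * Real.exp (-|y| / 2) := by
  induction n generalizing φ with
  | zero =>
    obtain ⟨C₀, hC₀, h₀⟩ := hφ.exists_fourier_phase_le 0
    obtain ⟨C₁, hC₁, h₁⟩ := hφ.exists_fourier_phase_le 1
    refine ⟨C₀ + C₁ * (1 + |u|), by positivity, fun y => ?_⟩
    rw [iteratedDeriv_zero, logFourier, norm_mul, Complex.norm_real,
      Real.norm_of_nonneg (Real.exp_pos _).le]
    rcases le_total y 0 with hy | hy
    · rw [abs_of_nonpos hy, neg_neg, mul_comm]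
      refine mul_le_mul_of_nonneg_right ?_ (Real.exp_pos _).le
      have := h₀ u (Real.exp y)
      simp only [pow_zero, one_mul, mul_one] at this
      nlinarith [abs_nonneg u]
    · rw [abs_of_nonneg hy]
      have := h₁ u (Real.exp y)
      rw [pow_one, pow_one, abs_of_pos (Real.exp_pos y)] at this
      have h2 : Real.exp (y / 2) = Real.exp (-y / 2) * Real.exp y := by
        rw [← Real.exp_add]; ring_nf
      rw [h2, mul_assoc, mul_comm (C₀ + C₁ * (1 + |u|))]
      refine mul_le_mul_of_nonneg_left ?_ (Real.exp_pos _).le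
      have h3 : 0 ≤ (2 * π - 1) * (Real.exp y * ‖𝓕 (phase φ u) (Real.exp y)‖) :=
        mul_nonneg (by linarith [Real.pi_gt_three]) (by positivity)
      nlinarith [h3]
  | succ n ih =>
    obtain ⟨C₁, hC₁, h₁⟩ := ih hφ
    obtain ⟨C₂, hC₂, h₂⟩ := ih hφ.step
    refine ⟨‖1 / 2 - (u : ℂ) * I‖ * C₁ + C₂, by positivity, fun y => ?_⟩
    have hd : deriv (logFourier φ u) = fun z =>
        (1 / 2 - (u : ℂ) * I) * logFourier φ u z - logFourier (mellinStep φ) u z :=
      funext fun z => (hφ.hasDerivAt_logFourier u z).deriv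
    have hs1 : ContDiffAt ℝ n (logFourier φ u) y :=
      ((hφ.logFourier_smooth u).of_le (mod_cast le_top)).contDiffAt
    have hs2 : ContDiffAt ℝ n (logFourier (mellinStep φ) u) y :=
      ((hφ.step.logFourier_smooth u).of_le (mod_cast le_top)).contDiffAt
    rw [iteratedDeriv_succ', hd, show (fun z => (1 / 2 - (u : ℂ) * I) * logFourier φ u z -
        logFourier (mellinStep φ) u z) = (fun z => (1 / 2 - (u : ℂ) * I) * logFourier φ u z) -
        logFourier (mellinStep φ) u from rfl, iteratedDeriv_sub (contDiffAt_const.mul hs1) hs2,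
      iteratedDeriv_const_mul _ hs1]
    refine (norm_sub_le _ _).trans ?_
    rw [norm_mul]
    calc ‖1 / 2 - (u : ℂ) * I‖ * ‖iteratedDeriv n (logFourier φ u) y‖ +
          ‖iteratedDeriv n (logFourier (mellinStep φ) u) y‖
        ≤ ‖1 / 2 - (u : ℂ) * I‖ * (C₁ * Real.exp (-|y| / 2)) + C₂ * Real.exp (-|y| / 2) :=
          add_le_add (mul_le_mul_of_nonneg_left (h₁ y) (norm_nonneg _)) (h₂ y)
      _ = _ := by ring

/-- The logarithmic Fourier transform as a Schwartz function. -/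
def logFourierMap (u : ℝ) : 𝓢(ℝ, ℂ) where
  toFun := logFourier φ u
  smooth' := hφ.logFourier_smooth u
  decay' k n := by
    obtain ⟨C, hC, h⟩ := hφ.exists_logFourier_le u n
    refine ⟨C * (2 ^ k * k.factorial), fun y => ?_⟩
    rw [norm_iteratedFDeriv_eq_norm_iteratedDeriv, Real.norm_eq_abs]
    refine (mul_le_mul_of_nonneg_left (h y) (by positivity)).trans ?_
    have h1 := Real.pow_div_factorial_le_exp (x := |y| / 2) (by positivity) k
    rw [div_le_iff₀ (by positivity), div_pow, div_le_iff₀ (by positivity)] at h1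
    calc |y| ^ k * (C * Real.exp (-|y| / 2))
        ≤ Real.exp (|y| / 2) * (k.factorial : ℝ) * 2 ^ k * (C * Real.exp (-|y| / 2)) :=
          mul_le_mul_of_nonneg_right h1 (by positivity)
      _ = C * (2 ^ k * k.factorial) * (Real.exp (|y| / 2) * Real.exp (-|y| / 2)) := by ring
      _ = _ := by rw [← Real.exp_add, neg_div, add_neg_cancel, Real.exp_zero, mul_one]

theorem fourier_logFourier_eq (u : ℝ) :
    ((𝓕 (hφ.logFourierMap u) : 𝓢(ℝ, ℂ)) : ℝ → ℂ) = 𝓕 (logFourier φ u) := by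
  rw [SchwartzMap.fourier_coe]
  rfl

theorem logFourier_integrable (u : ℝ) : Integrable (logFourier φ u) :=
  (hφ.logFourierMap u).integrable

theorem fourier_logFourier_integrable (u : ℝ) : Integrable (𝓕 (logFourier φ u)) :=
  hφ.fourier_logFourier_eq u ▸ (𝓕 (hφ.logFourierMap u)).integrable

theorem fourier_logFourier_sq_integrable (u : ℝ) :
    Integrable fun v => ‖𝓕 (logFourier φ u) v‖ ^ 2 := by
  have h := (hφ.fourier_logFourier_eq u ▸ (𝓕 (hφ.logFourierMap u)).memLp 2 :
    MemLp (𝓕 (logFourier φ u)) 2)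
  exact (memLp_two_iff_integrable_sq_norm h.1).1 h

theorem fourier_logFourier_continuous (u : ℝ) : Continuous (𝓕 (logFourier φ u)) :=
  hφ.fourier_logFourier_eq u ▸ (𝓕 (hφ.logFourierMap u)).continuous

/-- **The transform on the logarithmic scale decays away from `-u / 2π`.** -/
theorem fourier_logFourier_step (u v : ℝ) : (1 + |2 * π * v + u|) * ‖𝓕 (logFourier φ u) v‖ ≤
    3 * ‖𝓕 (logFourier (mellinStep φ) u) v‖ := by
  have hd : deriv (logFourier φ u) = fun z =>
      (1 / 2 - (u : ℂ) * I) * logFourier φ u z - logFourier (mellinStep φ) u z :=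
    funext fun z => (hφ.hasDerivAt_logFourier u z).deriv
  have hdi : Integrable (deriv (logFourier φ u)) := hd ▸
    ((hφ.logFourier_integrable u).const_mul _).sub (hφ.step.logFourier_integrable u)
  have h := congrFun (Real.fourier_deriv (hφ.logFourier_integrable u)
    ((hφ.logFourier_smooth u).differentiable (by simp)) hdi) v
  have hsc : ∀ {ψ : ℝ → ℂ}, IsCut ψ → Integrable fun y : ℝ =>
      Complex.exp ((↑(-2 * π * y * v) : ℂ) * I) • logFourier ψ u y := fun {ψ} hψ => by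
    refine (hψ.logFourier_integrable u).norm.mono'
      ((Continuous.smul (show Continuous fun y : ℝ => Complex.exp ((↑(-2 * π * y * v) : ℂ) * I) by
        fun_prop) (hψ.logFourier_smooth u).continuous).aestronglyMeasurable)
      (Eventually.of_forall fun y => ?_)
    rw [norm_smul, Complex.norm_exp_ofReal_mul_I, one_mul]
  have e : 𝓕 (deriv (logFourier φ u)) v = (1 / 2 - (u : ℂ) * I) * 𝓕 (logFourier φ u) v -
      𝓕 (logFourier (mellinStep φ) u) v := by
    simp only [hd, Real.fourier_real_eq_integral_exp_smul]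
    rw [← integral_const_mul, ← integral_sub ((hsc hφ).const_mul _) (hsc hφ.step)]
    refine integral_congr_ae (Eventually.of_forall fun y => ?_)
    simp only [smul_eq_mul]
    ring
  rw [e, smul_eq_mul] at h
  obtain ⟨w, hw⟩ : ∃ w, w = 2 * π * v + u := ⟨_, rfl⟩
  have h' : 𝓕 (logFourier (mellinStep φ) u) v =
      (1 / 2 - (w : ℂ) * I) * 𝓕 (logFourier φ u) v := by
    rw [hw]
    push_cast
    linear_combination -h
  rw [← hw, h', norm_mul, ← mul_assoc]
  refine mul_le_mul_of_nonneg_right ?_ (norm_nonneg _)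
  have h1 := Complex.abs_re_le_norm (1 / 2 - (w : ℂ) * I)
  have h2 := Complex.abs_im_le_norm (1 / 2 - (w : ℂ) * I)
  simp at h1 h2
  norm_num at h1
  norm_num
  linarith

theorem integral_fourier_logFourier_sq_le (u : ℝ) :
    ∫ v, ‖𝓕 (logFourier φ u) v‖ ^ 2 ≤ ∫ x, ‖φ x‖ ^ 2 := by
  rw [← hφ.fourier_logFourier_eq u, SchwartzMap.integral_norm_sq_fourier]
  show ∫ y, ‖logFourier φ u y‖ ^ 2 ≤ _
  have e : ∫ y, ‖logFourier φ u y‖ ^ 2 = ∫ x in Set.Ioi 0, ‖𝓕 (phase φ u) x‖ ^ 2 := by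
    rw [← Real.range_exp, ← Set.image_univ,
      integral_image_eq_integral_abs_deriv_smul MeasurableSet.univ
        (fun x _ => (Real.hasDerivAt_exp x).hasDerivWithinAt) Real.exp_injective.injOn,
      setIntegral_univ]
    refine integral_congr_ae (Eventually.of_forall fun y => ?_)
    simp only [logFourier, norm_mul, Complex.norm_real, Real.norm_of_nonneg (Real.exp_pos _).le,
      smul_eq_mul, abs_of_pos (Real.exp_pos y), mul_pow]
    rw [← Real.exp_nat_mul]
    congr 2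
    push_cast
    ring
  rw [e]
  obtain ⟨f, hf⟩ : ∃ f : 𝓢(ℝ, ℂ), (f : ℝ → ℂ) = phase φ u :=
    ⟨(hφ.phase_compact u).toSchwartzMap (hφ.phase_smooth u), rfl⟩
  have hF : ((𝓕 f : 𝓢(ℝ, ℂ)) : ℝ → ℂ) = 𝓕 (phase φ u) := by rw [SchwartzMap.fourier_coe, hf]
  rw [← hF]
  refine (setIntegral_le_integral ((memLp_two_iff_integrable_sq_norm ((𝓕 f).memLp 2).1).1
    ((𝓕 f).memLp 2)) (Eventually.of_forall fun x => sq_nonneg _)).trans (le_of_eq ?_)
  rw [SchwartzMap.integral_norm_sq_fourier, hf]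
  refine integral_congr_ae (Eventually.of_forall fun x => ?_)
  simp only [phase, norm_mul, Complex.norm_exp_ofReal_mul_I, mul_one]

/-- Inversion on the logarithmic scale. -/
theorem fourier_phase_eq_integral (u : ℝ) {ξ : ℝ} (hξ : 0 < ξ) :
    (√ξ : ℂ) * 𝓕 (phase φ u) ξ = ∫ v, 𝓕 (logFourier φ u) v *
      Complex.exp (((2 * π * v * Real.log ξ : ℝ) : ℂ) * I) := by
  have h := congrFun ((hφ.logFourier_smooth u).continuous.fourierInv_fourier_eq
    (hφ.logFourier_integrable u) (hφ.fourier_logFourier_integrable u)) (Real.log ξ)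
  rw [Real.fourierInv_eq', logFourier, Real.exp_half, Real.exp_log hξ] at h
  rw [← h]
  refine integral_congr_ae (Eventually.of_forall fun v => ?_)
  simp only [smul_eq_mul, RCLike.inner_apply, conj_trivial]
  rw [mul_comm]
  congr 3
  push_cast
  ring

/-- The weighted square of the transform. -/
theorem exists_integral_weighted_le : ∃ C, 0 ≤ C ∧ ∀ u : ℝ,
    (Integrable fun v => ((1 + |2 * π * v + u|) ^ 2 * ‖𝓕 (logFourier φ u) v‖) ^ 2) ∧
    ∫ v, ((1 + |2 * π * v + u|) ^ 2 * ‖𝓕 (logFourier φ u) v‖) ^ 2 ≤ C := by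
  refine ⟨81 * ∫ x, ‖mellinStep (mellinStep φ) x‖ ^ 2, by
    have : 0 ≤ ∫ x, ‖mellinStep (mellinStep φ) x‖ ^ 2 := integral_nonneg fun x => sq_nonneg _
    positivity, fun u => ?_⟩
  have hle : ∀ v, ((1 + |2 * π * v + u|) ^ 2 * ‖𝓕 (logFourier φ u) v‖) ^ 2 ≤
      81 * ‖𝓕 (logFourier (mellinStep (mellinStep φ)) u) v‖ ^ 2 := fun v => by
    have h1 := hφ.fourier_logFourier_step u v
    have h2 := hφ.step.fourier_logFourier_step u v
    have h3 : (1 + |2 * π * v + u|) ^ 2 * ‖𝓕 (logFourier φ u) v‖ ≤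
        9 * ‖𝓕 (logFourier (mellinStep (mellinStep φ)) u) v‖ := by
      rw [sq, mul_assoc]
      refine (mul_le_mul_of_nonneg_left h1 (by positivity)).trans ?_
      linarith
    calc _ ≤ (9 * ‖𝓕 (logFourier (mellinStep (mellinStep φ)) u) v‖) ^ 2 :=
          pow_le_pow_left₀ (by positivity) h3 2
      _ = _ := by ring
  have hi := (hφ.step.step.fourier_logFourier_sq_integrable u).const_mul 81
  have hc := hφ.fourier_logFourier_continuous u
  have hl : Integrable fun v => ((1 + |2 * π * v + u|) ^ 2 * ‖𝓕 (logFourier φ u) v‖) ^ 2 := by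
    refine hi.mono' (by fun_prop) (Eventually.of_forall fun v => ?_)
    rw [Real.norm_of_nonneg (sq_nonneg _)]
    exact hle v
  refine ⟨hl, (integral_mono hl hi hle).trans ?_⟩
  rw [integral_const_mul]
  exact mul_le_mul_of_nonneg_left (hφ.step.step.integral_fourier_logFourier_sq_le u) (by norm_num)

/-- **A block of the dual sum.** -/
theorem exists_block_le : ∃ C, 0 ≤ C ∧ ∀ (u L : ℝ) (s : Finset ℕ), 0 < L → (∀ m ∈ s, 1 ≤ m) →
    L * ‖∑ m ∈ s, 𝓕 (phase φ u) ((m : ℝ) * L)‖ ^ 2 ≤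
      C * ∫ w, decay 4 w * ‖dpoly s invSqrt (u - w)‖ ^ 2 := by
  obtain ⟨C, hC, hw⟩ := hφ.exists_integral_weighted_le
  refine ⟨C * (2 * π)⁻¹, by positivity, fun u L s hL hs => ?_⟩
  obtain ⟨hfi, hfle⟩ := hw u
  obtain ⟨G, hG⟩ : ∃ G, G = 𝓕 (logFourier φ u) := ⟨_, rfl⟩
  obtain ⟨P, hP⟩ : ∃ P : ℝ → ℂ, P = fun v => dpoly s invSqrt (-(2 * π * v)) := ⟨_, rfl⟩
  have hcd : Continuous (dpoly s invSqrt) := FA.Hoheisel.continuous_dpoly hs _
  have hPc : Continuous P := by rw [hP]; exact hcd.comp (by fun_prop)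
  have hGc : Continuous G := hG ▸ hφ.fourier_logFourier_continuous u
  have hGi : Integrable G := hG ▸ hφ.fourier_logFourier_integrable u
  obtain ⟨B, hB⟩ : ∃ B, ∀ t, ‖dpoly s invSqrt t‖ ≤ B := ⟨∑ m ∈ s, ‖invSqrt m‖, fun t => by
    refine (norm_sum_le _ _).trans (le_of_eq (Finset.sum_congr rfl fun m hm => ?_))
    rw [norm_mul, Complex.norm_natCast_cpow_of_pos (hs m hm)]
    simp⟩
  -- the block as an integral
  have e : (√L : ℂ) * ∑ m ∈ s, 𝓕 (phase φ u) ((m : ℝ) * L) =
      ∫ v, G v * Complex.exp (((2 * π * v * Real.log L : ℝ) : ℂ) * I) * P v := by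
    have hterm : ∀ m ∈ s, Integrable fun v => G v *
        Complex.exp (((2 * π * v * Real.log L : ℝ) : ℂ) * I) *
          (invSqrt m * (m : ℂ) ^ (-(I * ((-(2 * π * v) : ℝ) : ℂ)))) := fun m hm => by
      have hm0 : (m : ℂ) ≠ 0 := Nat.cast_ne_zero.2 (by have := hs m hm; omega)
      refine (hGi.norm.mul_const ‖invSqrt m‖).mono' ?_ (Eventually.of_forall fun v => ?_)
      · exact (Continuous.mul (by fun_prop) (continuous_const.mul
          (Continuous.const_cpow (by fun_prop) (Or.inl hm0)))).aestronglyMeasurable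
      · rw [norm_mul, norm_mul, Complex.norm_exp_ofReal_mul_I, mul_one, norm_mul,
          Complex.norm_natCast_cpow_of_pos (hs m hm)]
        simp
    simp only [hP, dpoly, Finset.mul_sum]
    rw [integral_finsetSum _ hterm]
    refine Finset.sum_congr rfl fun m hm => ?_
    have hm1 : (0 : ℝ) < m := Nat.cast_pos.2 (hs m hm)
    have h1 := hφ.fourier_phase_eq_integral u (mul_pos hm1 hL)
    rw [Real.sqrt_mul hm1.le, Real.log_mul hm1.ne' hL.ne'] at h1
    have hsm : (√(m : ℝ) : ℂ) ≠ 0 :=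
      Complex.ofReal_ne_zero.2 (Real.sqrt_pos.2 hm1).ne'
    rw [show (√L : ℂ) * 𝓕 (phase φ u) ((m : ℝ) * L) =
      invSqrt m * (((√(m : ℝ) * √L : ℝ) : ℂ) * 𝓕 (phase φ u) ((m : ℝ) * L)) by
        rw [invSqrt, Complex.ofReal_inv, Complex.ofReal_mul]
        field_simp, h1, ← integral_const_mul, hG]
    refine integral_congr_ae (Eventually.of_forall fun v => ?_)
    simp only [Complex.cpow_def_of_ne_zero (Nat.cast_ne_zero.2 (show m ≠ 0 by
      have := hs m hm; omega)), ← Complex.natCast_log]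
    rw [show ((2 * π * v * (Real.log m + Real.log L) : ℝ) : ℂ) * I =
      ((2 * π * v * Real.log L : ℝ) : ℂ) * I +
        (Real.log m : ℂ) * -(I * ((-(2 * π * v) : ℝ) : ℂ)) by push_cast; ring, Complex.exp_add]
    ring
  -- Cauchy–Schwarz
  obtain ⟨f, hf⟩ : ∃ f : ℝ → ℝ, f = fun v => (1 + |2 * π * v + u|) ^ 2 * ‖G v‖ := ⟨_, rfl⟩
  obtain ⟨g, hg⟩ : ∃ g : ℝ → ℝ, g = fun v => ‖P v‖ / (1 + |2 * π * v + u|) ^ 2 := ⟨_, rfl⟩
  have hfg : ∀ v, f v * g v = ‖G v‖ * ‖P v‖ := fun v => by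
    rw [hf, hg]
    field_simp
  have hg2 : ∀ v, g v ^ 2 =
      decay 4 (2 * π * v + u) * ‖dpoly s invSqrt (u - (2 * π * v + u))‖ ^ 2 := fun v => by
    rw [hg, decay, div_pow, ← pow_mul, div_eq_inv_mul, hP,
      show u - (2 * π * v + u) = -(2 * π * v) by ring]
  have hhi : Integrable fun w => decay 4 w * ‖dpoly s invSqrt (u - w)‖ ^ 2 := by
    refine ((integrable_decay (show 2 ≤ 4 by norm_num)).mul_const (B ^ 2)).mono'
      (((continuous_decay 4).mul ((hcd.comp (by fun_prop)).norm.pow 2)).aestronglyMeasurable)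
      (Eventually.of_forall fun w => ?_)
    rw [Real.norm_of_nonneg (mul_nonneg (decay_nonneg _ _) (sq_nonneg _))]
    exact mul_le_mul_of_nonneg_left (pow_le_pow_left₀ (norm_nonneg _) (hB _) 2) (decay_nonneg _ _)
  have hpi : 2 * π ≠ 0 := by positivity
  have hgi : Integrable fun v => g v ^ 2 := by
    simp only [hg2]
    exact (hhi.comp_add_right u).comp_mul_left' hpi
  have hfgi : Integrable fun v => f v * g v := by
    simp only [hfg]
    refine (hGi.norm.mul_const B).mono' (hGc.norm.mul hPc.norm).aestronglyMeasurable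
      (Eventually.of_forall fun v => ?_)
    rw [Real.norm_of_nonneg (mul_nonneg (norm_nonneg _) (norm_nonneg _)), hP]
    exact mul_le_mul_of_nonneg_left (hB _) (norm_nonneg _)
  have hfi' : Integrable fun v => f v ^ 2 := by rw [hf, hG]; exact hfi
  have hfle' : ∫ v, f v ^ 2 ≤ C := by rw [hf, hG]; exact hfle
  have hgint : ∫ v, g v ^ 2 =
      (2 * π)⁻¹ * ∫ w, decay 4 w * ‖dpoly s invSqrt (u - w)‖ ^ 2 := by
    simp only [hg2]
    rw [Measure.integral_comp_mul_left
      (fun x => decay 4 (x + u) * ‖dpoly s invSqrt (u - (x + u))‖ ^ 2) (2 * π),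
      abs_of_pos (by positivity), smul_eq_mul,
      integral_add_right_eq_self (fun x => decay 4 x * ‖dpoly s invSqrt (u - x)‖ ^ 2) u]
  have h1 : L * ‖∑ m ∈ s, 𝓕 (phase φ u) ((m : ℝ) * L)‖ ^ 2 =
      ‖(√L : ℂ) * ∑ m ∈ s, 𝓕 (phase φ u) ((m : ℝ) * L)‖ ^ 2 := by
    rw [norm_mul, Complex.norm_real, Real.norm_of_nonneg (Real.sqrt_nonneg _), mul_pow,
      Real.sq_sqrt hL.le]
  rw [h1, e]
  calc ‖∫ v, G v * Complex.exp (((2 * π * v * Real.log L : ℝ) : ℂ) * I) * P v‖ ^ 2
      ≤ (∫ v, f v * g v) ^ 2 := by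
        refine pow_le_pow_left₀ (norm_nonneg _) (norm_integral_le_of_norm_le hfgi
          (Eventually.of_forall fun v => le_of_eq ?_)) 2
        rw [norm_mul, norm_mul, Complex.norm_exp_ofReal_mul_I, mul_one, hfg]
    _ ≤ (∫ v, f v ^ 2) * ∫ v, g v ^ 2 := sq_integral_mul_le hfi' hfgi hgi
    _ ≤ C * ∫ v, g v ^ 2 :=
        mul_le_mul_of_nonneg_right hfle' (integral_nonneg fun v => sq_nonneg _)
    _ = _ := by rw [hgint]; ring

end IsCut

end FA.GuthMaynard

end
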