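import Fermat.Agent.GuthMaynard.Reflection
import Fermat.Agent.GuthMaynard.HeathBrown

/-!
# Short blocks over pairs of heights

A block of length `M ≤ T` has, by two doublings and the bound for long blocks, mean square over
pairs of heights at most `T ^ ε (M W ^ (7/4) + W² + W ^ (29/16) T ^ (1/8))`.
-/

set_option autoImplicit false

noncomputable section

namespace FA.GuthMaynard

open Finset
open scoped Real

/-- **Short blocks.** -/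
theorem exists_blockMean_short_le {η : ℝ} (hη : 0 < η) : ∃ C, 0 ≤ C ∧
    ∀ (T : ℝ) (W : Finset ℝ) (M : ℕ), 2 ≤ T → (∀ t ∈ W, |t| ≤ T) → Separated W → 1 ≤ M →
      (M : ℝ) ≤ T → blockMean W M ≤ C * T ^ (2 * η) * (M * (W.card : ℝ) ^ (7 / 4 : ℝ) +
        (W.card : ℝ) ^ 2 + (W.card : ℝ) ^ (29 / 16 : ℝ) * T ^ (1 / 8 : ℝ)) := by
  obtain ⟨Cb, hCb, hlong⟩ := exists_blockMean_le hη
  obtain ⟨Cd, hCd, hdiv⟩ := exists_divisors_le hη
  obtain ⟨K, hK⟩ : ∃ K, K = √(48 * Cb) * Cd := ⟨_, rfl⟩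
  have hK0 : 0 ≤ K := hK ▸ by positivity
  refine ⟨√(6 * K * Cd ^ 2), Real.sqrt_nonneg _, fun T W M hT hbd hW hM hMT => ?_⟩
  have hT0 : 0 < T := by linarith
  obtain ⟨w, hw⟩ : ∃ w : ℝ, w = W.card := ⟨_, rfl⟩
  have hw0 : 0 ≤ w := hw ▸ Nat.cast_nonneg _
  rw [← hw]
  obtain ⟨Q, hQ⟩ : ∃ Q : ℝ, Q = (M : ℝ) ^ 4 * w + w ^ 2 + w ^ (5 / 4 : ℝ) * √T := ⟨_, rfl⟩
  have hQ0 : 0 ≤ Q := hQ ▸ by positivity
  obtain ⟨p, hp⟩ : ∃ p : ℝ, p = T ^ η := ⟨_, rfl⟩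
  have hp1 : 1 ≤ p := hp ▸ Real.one_le_rpow (by linarith) hη.le
  have hM1 : (1 : ℝ) ≤ M := Nat.one_le_cast.2 hM
  have hD : ∀ n : ℕ, (n : ℝ) ≤ 64 * (M : ℝ) ^ 4 → (n.divisors.card : ℝ) ≤ Cd * p := fun n hn =>
    hp ▸ hdiv T (by linarith) n (hn.trans (by gcongr))
  have hlong' : ∀ L : ℕ, 1 ≤ L → (L : ℝ) ≤ 8 * (M : ℝ) ^ 4 →
      blockMean W L ≤ 8 * Cb * p * Q := fun L hL hLM => by
    refine (hlong T W L hT hbd hW hL).trans ?_
    rw [← hw, ← hp, hQ]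
    have h1 : (L : ℝ) * w ≤ 8 * (M : ℝ) ^ 4 * w := mul_le_mul_of_nonneg_right hLM hw0
    have h2 : 0 ≤ w ^ 2 + w ^ (5 / 4 : ℝ) * √T := by positivity
    have h3 : 0 ≤ Cb * p := mul_nonneg hCb (by linarith)
    nlinarith
  have hmid : ∀ L : ℕ, 1 ≤ L → (L : ℝ) ≤ 2 * (M : ℝ) ^ 2 →
      blockMean W L ≤ K * p ^ 2 * (w * √Q) := fun L hL hLM => by
    have hL4 : ((L * L : ℕ) : ℝ) ≤ 4 * (M : ℝ) ^ 4 := by
      push_cast
      calc (L : ℝ) * L ≤ (2 * (M : ℝ) ^ 2) * (2 * (M : ℝ) ^ 2) :=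
            mul_le_mul hLM hLM (Nat.cast_nonneg _) (by positivity)
        _ = _ := by ring
    have hsq := sq_blockMean_le W hL (D := Cd * p) fun n hn => hD n ((Nat.cast_le.2 hn).trans (by
      push_cast at hL4 ⊢
      nlinarith [show 0 ≤ (M : ℝ) ^ 4 by positivity]))
    rw [← hw] at hsq
    have h1 := hlong' (L * L) (Nat.one_le_iff_ne_zero.2 (by positivity))
      (hL4.trans (by nlinarith [show 0 ≤ (M : ℝ) ^ 4 by positivity]))
    have h2 := hlong' (2 * (L * L)) (Nat.one_le_iff_ne_zero.2 (by positivity))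
      (by push_cast at hL4 ⊢; linarith)
    have e : 2 * w ^ 2 * (Cd * p) ^ 2 * (3 * (8 * Cb * p * Q)) =
        (K * (w * √Q)) ^ 2 * p ^ 3 := by
      rw [hK, mul_pow, mul_pow, mul_pow, mul_pow, Real.sq_sqrt (by positivity), Real.sq_sqrt hQ0]
      ring
    have h3 : blockMean W L ^ 2 ≤ (K * p ^ 2 * (w * √Q)) ^ 2 := by
      refine (hsq.trans (mul_le_mul_of_nonneg_left (show _ ≤ 3 * (8 * Cb * p * Q) by linarith)
        (by positivity))).trans (e.trans_le ?_)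
      rw [show (K * p ^ 2 * (w * √Q)) ^ 2 = (K * (w * √Q)) ^ 2 * p ^ 4 by ring]
      exact mul_le_mul_of_nonneg_left (pow_le_pow_right₀ hp1 (by norm_num)) (sq_nonneg _)
    exact (abs_le_of_sq_le_sq' h3 (by positivity)).2
  have hM2 : (1 : ℝ) ≤ (M : ℝ) ^ 2 := one_le_pow₀ hM1
  have hsq := sq_blockMean_le W hM (D := Cd * p) fun n hn => hD n ((Nat.cast_le.2 hn).trans (by
    push_cast
    nlinarith [pow_le_pow_right₀ hM1 (show 2 ≤ 4 by norm_num), sq_nonneg ((M : ℝ) ^ 2)]))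
  rw [← hw] at hsq
  have h1 := hmid (M * M) (Nat.one_le_iff_ne_zero.2 (by positivity))
    (by push_cast; nlinarith)
  have h2 := hmid (2 * (M * M)) (Nat.one_le_iff_ne_zero.2 (by positivity))
    (by push_cast; linarith [sq (M : ℝ)])
  obtain ⟨S, hS⟩ : ∃ S : ℝ, S = M * w ^ (7 / 4 : ℝ) + w ^ 2 +
      w ^ (29 / 16 : ℝ) * T ^ (1 / 8 : ℝ) := ⟨_, rfl⟩
  rw [← hS]
  have hS0 : 0 ≤ S := hS ▸ by positivity
  have hroot : w ^ 3 * √Q ≤ S ^ 2 := by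
    have hsub : √Q ≤ (M : ℝ) ^ 2 * √w + w + √(w ^ (5 / 4 : ℝ) * √T) := by
      refine Real.sqrt_le_iff.2 ⟨by positivity, ?_⟩
      rw [hQ]
      have e1 : ((M : ℝ) ^ 2 * √w) ^ 2 = (M : ℝ) ^ 4 * w := by
        rw [mul_pow, Real.sq_sqrt hw0]; ring
      have e2 : √(w ^ (5 / 4 : ℝ) * √T) ^ 2 = w ^ (5 / 4 : ℝ) * √T := Real.sq_sqrt (by positivity)
      nlinarith [show 0 ≤ (M : ℝ) ^ 2 * √w by positivity, Real.sqrt_nonneg (w ^ (5 / 4 : ℝ) * √T),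
        mul_nonneg (show 0 ≤ (M : ℝ) ^ 2 * √w by positivity) hw0,
        mul_nonneg (show 0 ≤ (M : ℝ) ^ 2 * √w by positivity)
          (Real.sqrt_nonneg (w ^ (5 / 4 : ℝ) * √T)),
        mul_nonneg hw0 (Real.sqrt_nonneg (w ^ (5 / 4 : ℝ) * √T))]
    have e1 : w ^ 3 * ((M : ℝ) ^ 2 * √w) = ((M : ℝ) * w ^ (7 / 4 : ℝ)) ^ 2 := by
      rw [mul_pow, ← Real.rpow_mul_natCast hw0, Real.sqrt_eq_rpow, ← Real.rpow_natCast w 3,
        mul_left_comm, ← Real.rpow_add_of_nonneg hw0 (by norm_num) (by norm_num)]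
      norm_num
    have e3 : w ^ 3 * √(w ^ (5 / 4 : ℝ) * √T) = (w ^ (29 / 16 : ℝ) * T ^ (1 / 8 : ℝ)) ^ 2 := by
      rw [mul_pow, ← Real.rpow_mul_natCast hw0, ← Real.rpow_mul_natCast hT0.le,
        Real.sqrt_mul (by positivity), Real.sqrt_eq_rpow, Real.sqrt_eq_rpow, Real.sqrt_eq_rpow,
        ← Real.rpow_mul hw0, ← Real.rpow_mul hT0.le, ← Real.rpow_natCast w 3, ← mul_assoc,
        ← Real.rpow_add_of_nonneg hw0 (by norm_num) (by norm_num)]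
      norm_num
    have e2 : w ^ 3 * w = (w ^ 2) ^ 2 := by ring
    have h := mul_le_mul_of_nonneg_left hsub (pow_nonneg hw0 3)
    rw [mul_add, mul_add, e1, e2, e3] at h
    refine h.trans ?_
    rw [hS]
    nlinarith [mul_nonneg (show 0 ≤ (M : ℝ) * w ^ (7 / 4 : ℝ) by positivity) (sq_nonneg w),
      mul_nonneg (show 0 ≤ (M : ℝ) * w ^ (7 / 4 : ℝ) by positivity)
        (show 0 ≤ w ^ (29 / 16 : ℝ) * T ^ (1 / 8 : ℝ) by positivity),
      mul_nonneg (sq_nonneg w) (show 0 ≤ w ^ (29 / 16 : ℝ) * T ^ (1 / 8 : ℝ) by positivity)]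
  have h3 : blockMean W M ^ 2 ≤ (√(6 * K * Cd ^ 2) * p ^ 2 * S) ^ 2 := by
    refine (hsq.trans (mul_le_mul_of_nonneg_left (show _ ≤ 3 * (K * p ^ 2 * (w * √Q)) by linarith)
      (by positivity))).trans ?_
    rw [show (√(6 * K * Cd ^ 2) * p ^ 2 * S) ^ 2 = √(6 * K * Cd ^ 2) ^ 2 * (p ^ 4 * S ^ 2) by ring,
      Real.sq_sqrt (by positivity)]
    have := mul_le_mul_of_nonneg_left hroot (show 0 ≤ 6 * K * Cd ^ 2 * p ^ 4 by positivity)
    linarith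
  refine (abs_le_of_sq_le_sq' h3 (by positivity)).2.trans (le_of_eq ?_)
  rw [hp, ← Real.rpow_mul_natCast hT0.le]
  push_cast
  ring_nf

end FA.GuthMaynard

end
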