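import Mathlib.MeasureTheory.Measure.Haar.NormedSpace
import Mathlib.MeasureTheory.Integral.Prod
import Fermat.Agent.GuthMaynard.Weight

/-!
# Products of three transforms of oscillating weights

For `u₁ + u₂ + u₃ = 0` the product of `𝓕 (phase weight uᵢ) ξᵢ` is the integral over the plane of
`v₁ ^ (i u₁) v₂ ^ (i u₂) K (v, ξ₁ v₁ + ξ₂ v₂ + ξ₃)`, where `K` is supported where `v₁`, `v₂`,
`v₂ / v₁` are in `[1/5, 5]` and decays rapidly in its last argument.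
-/

set_option autoImplicit false

noncomputable section

namespace FA.GuthMaynard

open Complex Filter MeasureTheory
open scoped Topology ContDiff Real FourierTransform

/-- `φ₁ (x v₁) φ₂ (x v₂) φ₃ x`. -/
def prod3 (φ₁ φ₂ φ₃ : ℝ → ℂ) (v : ℝ × ℝ) (x : ℝ) : ℂ := φ₁ (x * v.1) * φ₂ (x * v.2) * φ₃ x

/-- `x ^ 2 weight x`. -/
def sqWeight (x : ℝ) : ℂ := (x : ℂ) * ((x : ℂ) * weight x)

theorem isCut_sqWeight : IsCut sqWeight := isCut_weight.mul_id.mul_id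

/-- The kernel of the triple product. -/
def tripleKernel (v : ℝ × ℝ) (ξ : ℝ) : ℂ := 𝓕 (prod3 weight weight sqWeight v) ξ

section

variable {φ₁ φ₂ φ₃ : ℝ → ℂ}

theorem prod3_smooth (h₁ : IsCut φ₁) (h₂ : IsCut φ₂) (h₃ : IsCut φ₃) (v : ℝ × ℝ) :
    ContDiff ℝ ∞ (prod3 φ₁ φ₂ φ₃ v) :=
  ((h₁.smooth.comp (contDiff_id.mul contDiff_const)).mul
    (h₂.smooth.comp (contDiff_id.mul contDiff_const))).mul h₃.smooth

theorem prod3_zero (h₃ : IsCut φ₃) (v : ℝ × ℝ) {x : ℝ} (hx : x < 1 / 2 ∨ 5 / 2 < x) :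
    prod3 φ₁ φ₂ φ₃ v x = 0 := by
  rw [prod3, h₃.zero x hx, mul_zero]

theorem prod3_zero_nhds (h₃ : IsCut φ₃) (v : ℝ × ℝ) {x : ℝ} (hx : x < 1 / 2 ∨ 5 / 2 < x) :
    prod3 φ₁ φ₂ φ₃ v =ᶠ[𝓝 x] fun _ => (0 : ℂ) := by
  filter_upwards [h₃.zero_nhds hx] with y hy
  rw [prod3, hy, Pi.zero_apply, mul_zero]

theorem deriv_prod3 (h₁ : IsCut φ₁) (h₂ : IsCut φ₂) (h₃ : IsCut φ₃) (v : ℝ × ℝ) :
    deriv (prod3 φ₁ φ₂ φ₃ v) = fun x => (v.1 : ℂ) * prod3 (deriv φ₁) φ₂ φ₃ v x +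
      (v.2 : ℂ) * prod3 φ₁ (deriv φ₂) φ₃ v x + prod3 φ₁ φ₂ (deriv φ₃) v x := by
  funext x
  have e : ∀ {φ : ℝ → ℂ}, IsCut φ → ∀ y : ℝ, HasDerivAt φ (deriv φ y) y := fun {φ} hφ y =>
    ((hφ.smooth.differentiable (by simp)) y).hasDerivAt
  have d1 : HasDerivAt (fun y => φ₁ (y * v.1)) ((v.1 : ℂ) * deriv φ₁ (x * v.1)) x := by
    refine ((e h₁ (x * v.1)).scomp x ((hasDerivAt_id x).mul_const v.1)).congr_deriv ?_
    rw [one_mul, Complex.real_smul]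
  have d2 : HasDerivAt (fun y => φ₂ (y * v.2)) ((v.2 : ℂ) * deriv φ₂ (x * v.2)) x := by
    refine ((e h₂ (x * v.2)).scomp x ((hasDerivAt_id x).mul_const v.2)).congr_deriv ?_
    rw [one_mul, Complex.real_smul]
  refine (((d1.mul d2).mul (e h₃ x)).congr_deriv ?_).deriv
  simp only [prod3, Pi.mul_apply]
  ring

theorem exists_iteratedDeriv_prod3_le (h₁ : IsCut φ₁) (h₂ : IsCut φ₂) (h₃ : IsCut φ₃) (n : ℕ) :
    ∃ C, 0 ≤ C ∧ ∀ (v : ℝ × ℝ) (x : ℝ), |v.1| ≤ 5 → |v.2| ≤ 5 →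
      ‖iteratedDeriv n (prod3 φ₁ φ₂ φ₃ v) x‖ ≤ C := by
  induction n generalizing φ₁ φ₂ φ₃ with
  | zero =>
    obtain ⟨A, hA, hA'⟩ := h₁.exists_bound
    obtain ⟨B, hB, hB'⟩ := h₂.exists_bound
    obtain ⟨D, hD, hD'⟩ := h₃.exists_bound
    refine ⟨A * B * D, by positivity, fun v x _ _ => ?_⟩
    rw [iteratedDeriv_zero, prod3, norm_mul, norm_mul]
    exact mul_le_mul (mul_le_mul (hA' _) (hB' _) (norm_nonneg _) hA) (hD' _) (norm_nonneg _)
      (mul_nonneg hA hB)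
  | succ n ih =>
    obtain ⟨A, hA, hA'⟩ := ih h₁.deriv' h₂ h₃
    obtain ⟨B, hB, hB'⟩ := ih h₁ h₂.deriv' h₃
    obtain ⟨D, hD, hD'⟩ := ih h₁ h₂ h₃.deriv'
    refine ⟨5 * A + 5 * B + D, by positivity, fun v x hv1 hv2 => ?_⟩
    rw [iteratedDeriv_succ', deriv_prod3 h₁ h₂ h₃]
    have s1 : ContDiffAt ℝ n (prod3 (deriv φ₁) φ₂ φ₃ v) x :=
      ((prod3_smooth h₁.deriv' h₂ h₃ v).of_le (mod_cast le_top)).contDiffAt
    have s2 : ContDiffAt ℝ n (prod3 φ₁ (deriv φ₂) φ₃ v) x :=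
      ((prod3_smooth h₁ h₂.deriv' h₃ v).of_le (mod_cast le_top)).contDiffAt
    have s3 : ContDiffAt ℝ n (prod3 φ₁ φ₂ (deriv φ₃) v) x :=
      ((prod3_smooth h₁ h₂ h₃.deriv' v).of_le (mod_cast le_top)).contDiffAt
    rw [show (fun y => (v.1 : ℂ) * prod3 (deriv φ₁) φ₂ φ₃ v y +
          (v.2 : ℂ) * prod3 φ₁ (deriv φ₂) φ₃ v y + prod3 φ₁ φ₂ (deriv φ₃) v y) =
        (fun y => (v.1 : ℂ) * prod3 (deriv φ₁) φ₂ φ₃ v y +
          (v.2 : ℂ) * prod3 φ₁ (deriv φ₂) φ₃ v y) + prod3 φ₁ φ₂ (deriv φ₃) v from rfl,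
      iteratedDeriv_add (((contDiffAt_const (c := (v.1 : ℂ))).mul s1).add
        ((contDiffAt_const (c := (v.2 : ℂ))).mul s2)) s3,
      iteratedDeriv_fun_add ((contDiffAt_const (c := (v.1 : ℂ))).mul s1)
        ((contDiffAt_const (c := (v.2 : ℂ))).mul s2),
      iteratedDeriv_const_mul _ s1, iteratedDeriv_const_mul _ s2]
    refine norm_add₃_le.trans ?_
    rw [norm_mul, norm_mul, Complex.norm_real, Complex.norm_real, Real.norm_eq_abs,
      Real.norm_eq_abs]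
    exact add_le_add (add_le_add (mul_le_mul hv1 (hA' v x hv1 hv2) (norm_nonneg _) (by norm_num))
      (mul_le_mul hv2 (hB' v x hv1 hv2) (norm_nonneg _) (by norm_num))) (hD' v x hv1 hv2)

/-- Off `[1/5, 5]` in either ratio the product is zero. -/
theorem prod3_eq_zero (h₁ : IsCut φ₁) (h₂ : IsCut φ₂) (h₃ : IsCut φ₃) {v : ℝ × ℝ}
    (hv : ¬(v.1 ∈ Set.Icc (1 / 5 : ℝ) 5 ∧ v.2 ∈ Set.Icc (1 / 5 : ℝ) 5 ∧
      v.2 / v.1 ∈ Set.Icc (1 / 5 : ℝ) 5)) (x : ℝ) :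
    prod3 φ₁ φ₂ φ₃ v x = 0 := by
  by_contra h
  rw [prod3] at h
  obtain ⟨h12, hx⟩ := mul_ne_zero_iff.1 h
  obtain ⟨hx1, hx2⟩ := mul_ne_zero_iff.1 h12
  have b : ∀ {φ : ℝ → ℂ}, IsCut φ → ∀ {y : ℝ}, φ y ≠ 0 → 1 / 2 ≤ y ∧ y ≤ 5 / 2 :=
    fun {φ} hφ {y} hy => ⟨not_lt.1 fun h => hy (hφ.zero y (Or.inl h)),
      not_lt.1 fun h => hy (hφ.zero y (Or.inr h))⟩
  obtain ⟨a, a'⟩ := b h₁ hx1
  obtain ⟨c, c'⟩ := b h₂ hx2
  obtain ⟨d, d'⟩ := b h₃ hx
  have hx0 : 0 < x := by linarith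
  have hv1 : 0 < v.1 := (pos_iff_pos_of_mul_pos (show 0 < x * v.1 by linarith)).1 hx0
  refine hv ⟨⟨?_, ?_⟩, ⟨?_, ?_⟩, ⟨?_, ?_⟩⟩
  · nlinarith
  · nlinarith
  · nlinarith
  · nlinarith
  · rw [← mul_div_mul_left v.2 v.1 hx0.ne', le_div_iff₀ (by linarith)]; linarith
  · rw [← mul_div_mul_left v.2 v.1 hx0.ne', div_le_iff₀ (by linarith)]; linarith

end

theorem tripleKernel_eq_zero {v : ℝ × ℝ} (hv : ¬(v.1 ∈ Set.Icc (1 / 5 : ℝ) 5 ∧
    v.2 ∈ Set.Icc (1 / 5 : ℝ) 5 ∧ v.2 / v.1 ∈ Set.Icc (1 / 5 : ℝ) 5)) (ξ : ℝ) :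
    tripleKernel v ξ = 0 := by
  rw [tripleKernel, Real.fourier_real_eq_integral_exp_smul]
  simp [prod3_eq_zero isCut_weight isCut_weight isCut_sqWeight hv]

theorem exists_tripleKernel_le (n : ℕ) : ∃ C, 0 ≤ C ∧ ∀ (v : ℝ × ℝ) (ξ : ℝ),
    (1 + |ξ|) ^ n * ‖tripleKernel v ξ‖ ≤ C := by
  obtain ⟨A, hA, hA'⟩ := exists_iteratedDeriv_prod3_le isCut_weight isCut_weight isCut_sqWeight n
  obtain ⟨B, hB, hB'⟩ := exists_iteratedDeriv_prod3_le isCut_weight isCut_weight isCut_sqWeight 0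
  refine ⟨2 ^ n * (2 * A + 2 * B), by positivity, fun v ξ => ?_⟩
  by_cases hv : v.1 ∈ Set.Icc (1 / 5 : ℝ) 5 ∧ v.2 ∈ Set.Icc (1 / 5 : ℝ) 5 ∧
      v.2 / v.1 ∈ Set.Icc (1 / 5 : ℝ) 5
  swap
  · rw [tripleKernel_eq_zero hv, norm_zero, mul_zero]; positivity
  obtain ⟨⟨a, a'⟩, ⟨c, c'⟩, -⟩ := hv
  have hv1 : |v.1| ≤ 5 := by rw [abs_le]; constructor <;> linarith
  have hv2 : |v.2| ≤ 5 := by rw [abs_le]; constructor <;> linarith
  have hs := prod3_smooth isCut_weight isCut_weight isCut_sqWeight v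
  have hz : ∀ (m : ℕ) (x : ℝ), x ∉ Set.Icc (1 / 2 : ℝ) (5 / 2) →
      iteratedDeriv m (prod3 weight weight sqWeight v) x = 0 := fun m x hx => by
    rw [Set.mem_Icc, not_and_or, not_le, not_le] at hx
    rw [(prod3_zero_nhds isCut_sqWeight v hx).iteratedDeriv_eq m]
    simp
  have hi : ∀ m : ℕ, Integrable (iteratedDeriv m (prod3 weight weight sqWeight v)) := fun m =>
    (hs.continuous_iteratedDeriv m (mod_cast le_top)).integrable_of_hasCompactSupport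
      (HasCompactSupport.intro isCompact_Icc (hz m))
  have hbd : ∀ (m : ℕ) (K : ℝ), (∀ x, ‖iteratedDeriv m (prod3 weight weight sqWeight v) x‖ ≤ K) →
      (2 * π * |ξ|) ^ m * ‖tripleKernel v ξ‖ ≤ 2 * K := fun m K hK => by
    have e := congrFun (Real.fourier_iteratedDeriv (N := ⊤) (n := m) hs
      (fun k _ => hi k) le_top) ξ
    have e' : ‖𝓕 (iteratedDeriv m (prod3 weight weight sqWeight v)) ξ‖ =
        (2 * π * |ξ|) ^ m * ‖tripleKernel v ξ‖ := by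
      rw [e, norm_smul, norm_pow, tripleKernel]
      congr 2
      simp [abs_of_pos Real.pi_pos]
    rw [← e']
    calc ‖𝓕 (iteratedDeriv m (prod3 weight weight sqWeight v)) ξ‖
        ≤ ∫ x, ‖iteratedDeriv m (prod3 weight weight sqWeight v) x‖ :=
          VectorFourier.norm_fourierIntegral_le_integral_norm _ _ _ _ _
      _ = ∫ x in Set.Icc (1 / 2 : ℝ) (5 / 2),
            ‖iteratedDeriv m (prod3 weight weight sqWeight v) x‖ :=
          (setIntegral_eq_integral_of_forall_compl_eq_zero fun x hx => by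
            rw [hz m x hx, norm_zero]).symm
      _ ≤ ∫ _x in Set.Icc (1 / 2 : ℝ) (5 / 2), K :=
          setIntegral_mono_on (hi m).norm.integrableOn
            (integrableOn_const measure_Icc_lt_top.ne) measurableSet_Icc fun x _ => hK x
      _ = _ := by
          rw [setIntegral_const, measureReal_def, Real.volume_Icc,
            ENNReal.toReal_ofReal (by norm_num), smul_eq_mul]
          ring
  have hn := hbd n A fun x => hA' v x hv1 hv2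
  have h0 := hbd 0 B fun x => hB' v x hv1 hv2
  rw [pow_zero, one_mul] at h0
  have hξ : (1 + |ξ|) ^ n ≤ 2 ^ n * (1 + (2 * π * |ξ|) ^ n) := by
    have hpi := Real.two_le_pi
    rcases le_total |ξ| 1 with h | h
    · calc (1 + |ξ|) ^ n ≤ 2 ^ n := pow_le_pow_left₀ (by positivity) (by linarith) n
        _ ≤ _ := le_mul_of_one_le_right (by positivity)
          (le_add_of_nonneg_right (by positivity))
    · calc (1 + |ξ|) ^ n ≤ (2 * (2 * π * |ξ|)) ^ n :=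
            pow_le_pow_left₀ (by positivity) (by nlinarith) n
        _ ≤ _ := by
            rw [mul_pow]
            exact mul_le_mul_of_nonneg_left (le_add_of_nonneg_left zero_le_one) (by positivity)
  calc (1 + |ξ|) ^ n * ‖tripleKernel v ξ‖
      ≤ 2 ^ n * (1 + (2 * π * |ξ|) ^ n) * ‖tripleKernel v ξ‖ :=
        mul_le_mul_of_nonneg_right hξ (norm_nonneg _)
    _ = 2 ^ n * (‖tripleKernel v ξ‖ + (2 * π * |ξ|) ^ n * ‖tripleKernel v ξ‖) := by ring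
    _ ≤ _ := mul_le_mul_of_nonneg_left (by linarith) (by positivity)

/-- The integrand of the transform. -/
def phaseWave (φ : ℝ → ℂ) (u ξ y : ℝ) : ℂ :=
  Complex.exp ((↑(-2 * π * y * ξ) : ℂ) * I) • phase φ u y

theorem continuous_phaseWave {φ : ℝ → ℂ} (hφ : IsCut φ) (u ξ : ℝ) :
    Continuous (phaseWave φ u ξ) :=
  (show Continuous fun y : ℝ => Complex.exp ((↑(-2 * π * y * ξ) : ℂ) * I) by fun_prop).smul
    (hφ.phase_continuous u)

theorem phaseWave_zero {φ : ℝ → ℂ} (hφ : IsCut φ) (u ξ : ℝ) {y : ℝ}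
    (hy : y < 1 / 2 ∨ 5 / 2 < y) : phaseWave φ u ξ y = 0 := by
  rw [phaseWave, hφ.phase_zero u hy, smul_zero]

theorem fourier_phase_eq {φ : ℝ → ℂ} (u ξ : ℝ) :
    𝓕 (phase φ u) ξ = ∫ y, phaseWave φ u ξ y := Real.fourier_real_eq_integral_exp_smul _ _

/-- **The product of three transforms.** -/
theorem fourier_phase_triple {u₁ u₂ u₃ : ℝ} (hu : u₁ + u₂ + u₃ = 0) (ξ₁ ξ₂ ξ₃ : ℝ) :
    Integrable (fun p : ℝ × ℝ =>
      Complex.exp (((u₁ * Real.log p.1 + u₂ * Real.log p.2 : ℝ) : ℂ) * I) *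
        tripleKernel p (ξ₁ * p.1 + ξ₂ * p.2 + ξ₃)) ∧
    𝓕 (phase weight u₁) ξ₁ * 𝓕 (phase weight u₂) ξ₂ * 𝓕 (phase weight u₃) ξ₃ =
      ∫ p : ℝ × ℝ, Complex.exp (((u₁ * Real.log p.1 + u₂ * Real.log p.2 : ℝ) : ℂ) * I) *
        tripleKernel p (ξ₁ * p.1 + ξ₂ * p.2 + ξ₃) := by
  obtain ⟨G, hG⟩ : ∃ G : ℝ → ℝ × ℝ → ℂ, G = fun (x : ℝ) (p : ℝ × ℝ) => ((x : ℂ) * (x : ℂ) *
      phaseWave weight u₃ ξ₃ x) * (phaseWave weight u₁ ξ₁ (x * p.1) *
        phaseWave weight u₂ ξ₂ (x * p.2)) := ⟨_, rfl⟩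
  have hGc : Continuous (Function.uncurry G) := by
    rw [hG]
    have := continuous_phaseWave isCut_weight u₁ ξ₁
    have := continuous_phaseWave isCut_weight u₂ ξ₂
    have := continuous_phaseWave isCut_weight u₃ ξ₃
    simp only [Function.uncurry_def]
    fun_prop
  have hGi : Integrable (Function.uncurry G) (volume.prod volume) := by
    refine hGc.integrable_of_hasCompactSupport (HasCompactSupport.intro
      ((isCompact_Icc (a := (1 / 2 : ℝ)) (b := 5 / 2)).prod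
        ((isCompact_Icc (a := (1 / 5 : ℝ)) (b := 5)).prod
          (isCompact_Icc (a := (1 / 5 : ℝ)) (b := 5)))) ?_)
    rintro ⟨x, p⟩ hxp
    simp only [Function.uncurry_apply_pair, hG]
    by_cases hx : x < 1 / 2 ∨ 5 / 2 < x
    · rw [phaseWave_zero isCut_weight u₃ ξ₃ hx]; ring
    simp only [Set.mem_prod, Set.mem_Icc] at hxp
    rw [not_or, not_lt, not_lt] at hx
    by_cases h1 : x * p.1 < 1 / 2 ∨ 5 / 2 < x * p.1
    · rw [phaseWave_zero isCut_weight u₁ ξ₁ h1]; ring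
    by_cases h2 : x * p.2 < 1 / 2 ∨ 5 / 2 < x * p.2
    · rw [phaseWave_zero isCut_weight u₂ ξ₂ h2]; ring
    rw [not_or, not_lt, not_lt] at h1 h2
    exact absurd ⟨hx, ⟨by nlinarith, by nlinarith⟩, ⟨by nlinarith, by nlinarith⟩⟩ hxp
  have hinner : ∀ p : ℝ × ℝ, ∫ x, G x p =
      Complex.exp (((u₁ * Real.log p.1 + u₂ * Real.log p.2 : ℝ) : ℂ) * I) *
        tripleKernel p (ξ₁ * p.1 + ξ₂ * p.2 + ξ₃) := fun p => by
    rw [tripleKernel, Real.fourier_real_eq_integral_exp_smul, ← integral_const_mul]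
    refine integral_congr_ae (Eventually.of_forall fun x => ?_)
    simp only [hG, phaseWave, phase, prod3, sqWeight, smul_eq_mul]
    by_cases hx : x < 1 / 2 ∨ 5 / 2 < x
    · rw [isCut_weight.zero x hx]; ring
    by_cases h1 : x * p.1 < 1 / 2 ∨ 5 / 2 < x * p.1
    · rw [isCut_weight.zero _ h1]; ring
    by_cases h2 : x * p.2 < 1 / 2 ∨ 5 / 2 < x * p.2
    · rw [isCut_weight.zero _ h2]; ring
    rw [not_or, not_lt, not_lt] at hx h1 h2
    have hx0 : 0 < x := by linarith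
    have hp1 : 0 < p.1 := (pos_iff_pos_of_mul_pos (show 0 < x * p.1 by linarith)).1 hx0
    have hp2 : 0 < p.2 := (pos_iff_pos_of_mul_pos (show 0 < x * p.2 by linarith)).1 hx0
    have key : Complex.exp ((↑(-2 * π * x * ξ₃) : ℂ) * I) *
          Complex.exp (((u₃ * Real.log x : ℝ) : ℂ) * I) *
          (Complex.exp ((↑(-2 * π * (x * p.1) * ξ₁) : ℂ) * I) *
            Complex.exp (((u₁ * Real.log (x * p.1) : ℝ) : ℂ) * I) *
          (Complex.exp ((↑(-2 * π * (x * p.2) * ξ₂) : ℂ) * I) *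
            Complex.exp (((u₂ * Real.log (x * p.2) : ℝ) : ℂ) * I))) =
        Complex.exp (((u₁ * Real.log p.1 + u₂ * Real.log p.2 : ℝ) : ℂ) * I) *
          Complex.exp ((↑(-2 * π * x * (ξ₁ * p.1 + ξ₂ * p.2 + ξ₃)) : ℂ) * I) := by
      simp only [← Complex.exp_add]
      congr 1
      rw [Real.log_mul hx0.ne' hp1.ne', Real.log_mul hx0.ne' hp2.ne',
        show u₃ = -u₁ - u₂ by linarith]
      push_cast
      ring
    linear_combination
      (weight (x * p.1) * weight (x * p.2) * ((x : ℂ) * ((x : ℂ) * weight x))) * key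
  have houter : ∀ x : ℝ, ∫ p, G x p =
      phaseWave weight u₃ ξ₃ x * (𝓕 (phase weight u₁) ξ₁ * 𝓕 (phase weight u₂) ξ₂) := fun x => by
    by_cases hx : x < 1 / 2 ∨ 5 / 2 < x
    · simp [hG, phaseWave_zero isCut_weight u₃ ξ₃ hx]
    rw [not_or, not_lt, not_lt] at hx
    have hx0 : 0 < x := by linarith
    simp only [hG, integral_const_mul]
    rw [Measure.volume_eq_prod, integral_prod_mul (fun a => phaseWave weight u₁ ξ₁ (x * a))
      (fun a => phaseWave weight u₂ ξ₂ (x * a)), Measure.integral_comp_mul_left,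
      Measure.integral_comp_mul_left, abs_of_pos (inv_pos.2 hx0), Complex.real_smul,
      Complex.real_smul, fourier_phase_eq u₁, fourier_phase_eq u₂]
    have hxc : (x : ℂ) ≠ 0 := Complex.ofReal_ne_zero.2 hx0.ne'
    simp only [Complex.ofReal_inv]
    field_simp
  refine ⟨hGi.integral_prod_right.congr (Eventually.of_forall hinner), ?_⟩
  rw [← integral_congr_ae (Eventually.of_forall hinner), ← integral_integral_swap hGi]
  simp only [houter, integral_mul_const]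
  rw [fourier_phase_eq u₃]
  ring

end FA.GuthMaynard

end
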