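import Mathlib.MeasureTheory.Function.JacobianOneDim
import Mathlib.MeasureTheory.Integral.Prod
import Fermat.Agent.GuthMaynard.Affine
import Fermat.Agent.GuthMaynard.LineWeight
import Fermat.Agent.GuthMaynard.TripleKernel
import Fermat.Agent.GuthMaynard.MellinKernel

/-!
# Triples of heights

For heights `W` the sum over triples of products of three transforms at `m₁ N`, `m₂ N`, `m₃ N` is
an integral over the plane near the lines `m₁ v + m₂ w + m₃ = 0`. Summed over `|mᵢ| ≤ M` it is
bounded through the square integral of the sum of affine images of the line weight.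
-/

set_option autoImplicit false

noncomputable section

namespace FA.GuthMaynard

open Finset Complex MeasureTheory Filter
open scoped Topology ContDiff Real FourierTransform

/-- The inverse, clamped to `[1/10, 6]`. -/
def safeInv (x : ℝ) : ℝ := (min (max x (1 / 10)) 6)⁻¹

theorem safeInv_eq {x : ℝ} (h1 : 1 / 10 ≤ x) (h2 : x ≤ 6) : safeInv x = x⁻¹ := by
  rw [safeInv, max_eq_left h1, min_eq_left h2]

theorem safeInv_bounds (x : ℝ) : 1 / 6 ≤ safeInv x ∧ safeInv x ≤ 10 := by
  have h1 : 1 / 10 ≤ min (max x (1 / 10)) 6 := le_min (le_max_right _ _) (by norm_num)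
  refine ⟨?_, ?_⟩
  · rw [safeInv, one_div]
    exact inv_anti₀ (by linarith) (min_le_right _ _)
  · rw [safeInv]
    exact (inv_anti₀ (by norm_num) h1).trans (le_of_eq (by norm_num))

theorem continuous_safeInv : Continuous safeInv :=
  ((continuous_id.max continuous_const).min continuous_const).inv₀ fun x => by
    have : 1 / 10 ≤ min (max x (1 / 10)) 6 := le_min (le_max_right _ _) (by norm_num)
    exact ne_of_gt (lt_of_lt_of_le (by norm_num) this)

/-- The triples with a middle entry of largest size. -/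
def tripleClass (M : ℕ) : Finset (ℤ × ℤ × ℤ) :=
  nonzeroRange M ×ˢ (dyadicRange M ×ˢ nonzeroRange M)

/-- All triples of nonzero integers up to `M`. -/
def tripleCube (M : ℕ) : Finset (ℤ × ℤ × ℤ) :=
  nonzeroRange M ×ˢ (nonzeroRange M ×ˢ nonzeroRange M)

/-- The sum over triples of heights. -/
def tripleSum (W : Finset ℝ) (N : ℝ) (m : ℤ × ℤ × ℤ) : ℂ :=
  ∑ t₁ ∈ W, ∑ t₂ ∈ W, ∑ t₃ ∈ W, 𝓕 (phase weight (t₁ - t₂)) ((m.1 : ℝ) * N) *
    𝓕 (phase weight (t₂ - t₃)) ((m.2.1 : ℝ) * N) * 𝓕 (phase weight (t₃ - t₁)) ((m.2.2 : ℝ) * N)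

theorem tripleSum_rotate (W : Finset ℝ) (N : ℝ) (a b c : ℤ) :
    tripleSum W N (a, b, c) = tripleSum W N (b, c, a) := by
  simp only [tripleSum]
  refine (sum_comm.trans (sum_congr rfl fun t₂ _ => sum_comm.trans (sum_congr rfl fun t₃ _ =>
    sum_congr rfl fun t₁ _ => ?_)))
  ring

/-- **Reduction to a middle entry of largest size.** -/
theorem sum_tripleCube_le (W : Finset ℝ) (N : ℝ) (J : ℕ) :
    ∑ m ∈ tripleCube (2 ^ J), ‖tripleSum W N m‖ ≤
      3 * ∑ j ∈ range (J + 1), ∑ m ∈ tripleClass (2 ^ j), ‖tripleSum W N m‖ := by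
  classical
  obtain ⟨f, hf⟩ : ∃ f : ℤ × ℤ × ℤ → ℝ, f = fun m => ‖tripleSum W N m‖ := ⟨_, rfl⟩
  have hf0 : ∀ m, 0 ≤ f m := fun m => hf ▸ norm_nonneg _
  have hr1 : ∀ m : ℤ × ℤ × ℤ, f (m.2.1, m.2.2, m.1) = f m := fun m => by
    rw [hf]; exact congrArg norm (tripleSum_rotate W N m.1 m.2.1 m.2.2).symm
  have hr2 : ∀ m : ℤ × ℤ × ℤ, f (m.2.2, m.1, m.2.1) = f m := fun m => by
    rw [hf]; exact congrArg norm (tripleSum_rotate W N m.2.2 m.1 m.2.1)
  have hcover : ∀ m ∈ tripleCube (2 ^ J), ∃ j ∈ range (J + 1), m ∈ tripleClass (2 ^ j) ∨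
      (m.2.1, m.2.2, m.1) ∈ tripleClass (2 ^ j) ∨ (m.2.2, m.1, m.2.1) ∈ tripleClass (2 ^ j) := by
    intro m hm
    simp only [tripleCube, mem_product, mem_nonzeroRange, abs_le] at hm
    push_cast at hm
    obtain ⟨K, hK⟩ : ∃ K, K = max m.1.natAbs (max m.2.1.natAbs m.2.2.natAbs) := ⟨_, rfl⟩
    have hK1 : 1 ≤ K := le_trans (by omega) (hK ▸ le_max_left _ _)
    have hpz : ((2 ^ J : ℕ) : ℤ) = (2 : ℤ) ^ J := by push_cast; rfl
    have hKJ : K ≤ 2 ^ J := by
      rw [hK]; refine max_le ?_ (max_le ?_ ?_) <;> omega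
    refine ⟨Nat.clog 2 K, mem_range.2 (Nat.lt_succ_of_le (Nat.clog_le_of_le_pow hKJ)), ?_⟩
    have h1 : K ≤ 2 ^ Nat.clog 2 K := Nat.le_pow_clog one_lt_two K
    have h2 : 2 ^ Nat.clog 2 K < 2 * K := by
      rcases Nat.lt_or_ge 1 K with h | h
      · have h3 := Nat.pow_pred_clog_lt_self one_lt_two h
        have h4 : 0 < Nat.clog 2 K := Nat.clog_pos one_lt_two h
        rw [← Nat.succ_pred_eq_of_pos h4, pow_succ]
        omega
      · rw [show K = 1 by omega, Nat.clog_one_right]; norm_num
    obtain ⟨P, hP⟩ : ∃ P : ℕ, P = 2 ^ Nat.clog 2 K := ⟨_, rfl⟩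
    simp only [← hP] at h1 h2 ⊢
    simp only [tripleClass, dyadicRange, mem_product, mem_filter, mem_nonzeroRange,
      Int.abs_eq_natAbs]
    omega
  have hmove : ∀ (g : ℤ × ℤ × ℤ → ℤ × ℤ × ℤ), Function.Injective g → (∀ m, f (g m) = f m) →
      ∀ j, ∑ m ∈ (tripleCube (2 ^ J)).filter (fun m => g m ∈ tripleClass (2 ^ j)), f m ≤
        ∑ m ∈ tripleClass (2 ^ j), f m := fun g hg hgf j => by
    rw [← sum_congr rfl fun m _ => hgf m, ← sum_image fun a _ b _ h => hg h]
    refine sum_le_sum_of_subset_of_nonneg (fun m hm => ?_) fun m _ _ => hf0 m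
    obtain ⟨x, hx, rfl⟩ := mem_image.1 hm
    exact (mem_filter.1 hx).2
  have key : ∑ m ∈ tripleCube (2 ^ J), f m ≤
      ∑ j ∈ range (J + 1), ∑ m ∈ tripleCube (2 ^ J),
        ((if m ∈ tripleClass (2 ^ j) then f m else 0) +
          (if (m.2.1, m.2.2, m.1) ∈ tripleClass (2 ^ j) then f m else 0) +
          if (m.2.2, m.1, m.2.1) ∈ tripleClass (2 ^ j) then f m else 0) := by
    rw [sum_comm]
    refine sum_le_sum fun m hm => ?_
    obtain ⟨j, hj, h⟩ := hcover m hm
    refine le_trans ?_ (single_le_sum (f := fun j =>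
      (if m ∈ tripleClass (2 ^ j) then f m else 0) +
        (if (m.2.1, m.2.2, m.1) ∈ tripleClass (2 ^ j) then f m else 0) +
        if (m.2.2, m.1, m.2.1) ∈ tripleClass (2 ^ j) then f m else 0) (fun i _ => ?_) hj)
    · have := hf0 m
      rcases h with h | h | h <;> simp only [h, if_true] <;> split_ifs <;> linarith
    · have := hf0 m
      split_ifs <;> linarith
  rw [hf] at key
  refine key.trans ?_
  rw [mul_sum]
  refine sum_le_sum fun j _ => ?_
  have e : ∀ m, ‖tripleSum W N m‖ = f m := fun m => by rw [hf]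
  simp only [e, sum_add_distrib, ← sum_filter]
  have a1 := hmove id Function.injective_id (fun _ => rfl) j
  have a2 := hmove (fun m => (m.2.1, m.2.2, m.1)) (fun a b h => by
    simp only [Prod.mk.injEq] at h; exact Prod.ext h.2.2 (Prod.ext h.1 h.2.1)) hr1 j
  have a3 := hmove (fun m => (m.2.2, m.1, m.2.1)) (fun a b h => by
    simp only [Prod.mk.injEq] at h; exact Prod.ext h.2.1 (Prod.ext h.2.2 h.1)) hr2 j
  simp only [id] at a1
  linarith

/-- The weight of a point of the plane. -/
def triWeight (W : Finset ℝ) (p : ℝ × ℝ) : ℝ :=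
  √(lineSq W p.1) * (√(lineSq W (p.2 * safeInv p.1)) * √(lineSq W p.2))

/-- The smoothed number of lines near a point. -/
def classWave (M : ℕ) (δ : ℝ) (p : ℝ × ℝ) : ℝ :=
  ∑ m ∈ tripleClass M, shiftBump (((m.1 : ℝ) * p.1 + (m.2.1 : ℝ) * p.2 + (m.2.2 : ℝ)) / δ)

/-- The mass of the line weight near the lines over `v`. -/
def slabMass (W : Finset ℝ) (M : ℕ) (δ v : ℝ) : ℝ :=
  ∫ w in Set.Icc (0 : ℝ) 31, lineSq W w * classWave M δ (v, w)

/-- The same with the line weight moved. -/
def slabMass' (W : Finset ℝ) (M : ℕ) (δ v : ℝ) : ℝ :=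
  ∫ w in Set.Icc (0 : ℝ) 31, lineSq W (w * safeInv v) * classWave M δ (v, w)

/-- The sum of affine images of the line weight, as a real number. -/
def affineReal (M : ℕ) (f : ℝ → ℝ) (z v : ℝ) : ℝ :=
  ∑ a ∈ nonzeroRange M, ∑ c ∈ dyadicRange M, ∑ b ∈ shiftRange M,
    shiftBump ((b : ℝ) / M) * f (((a : ℝ) * v + ((b : ℝ) + z)) / c)

theorem affineSum_ofReal (M : ℕ) (f : ℝ → ℝ) (z v : ℝ) :
    affineSum M (fun x => (f x : ℂ)) z v = (affineReal M f z v : ℂ) := by
  simp only [affineSum, affineReal]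
  push_cast
  rfl

theorem classWave_nonneg (M : ℕ) (δ : ℝ) (p : ℝ × ℝ) : 0 ≤ classWave M δ p :=
  sum_nonneg fun _ _ => shiftBump.nonneg

theorem continuous_classWave (M : ℕ) (δ : ℝ) : Continuous (classWave M δ) :=
  continuous_finsetSum _ fun _ _ => shiftBump.continuous.comp (by fun_prop)

theorem triWeight_nonneg (W : Finset ℝ) (p : ℝ × ℝ) : 0 ≤ triWeight W p := by
  unfold triWeight; positivity

theorem continuous_triWeight (W : Finset ℝ) : Continuous (triWeight W) := by
  have := continuous_lineSq W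
  have := continuous_safeInv
  unfold triWeight
  fun_prop

theorem triWeight_eq_zero (W : Finset ℝ) {p : ℝ × ℝ}
    (hp : p ∉ Set.Icc (0 : ℝ) 6 ×ˢ Set.Icc (0 : ℝ) 6) : triWeight W p = 0 := by
  rw [Set.mem_prod, not_and_or] at hp
  rcases hp with hp | hp <;> rw [Set.mem_Icc, not_and_or, not_le, not_le] at hp
  · rw [triWeight, lineSq_eq_zero W (hp.imp (fun h => by linarith) fun h => by linarith)]
    simp
  · rw [triWeight, lineSq_eq_zero W (y := p.2) (hp.imp (fun h => by linarith) fun h => by linarith)]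
    simp

/-- The first step: a point of the plane with the character sums there. -/
theorem exists_tripleSum_le (n : ℕ) : ∃ C, 0 ≤ C ∧ ∀ (W : Finset ℝ) (N Θ : ℝ) (M : ℕ),
    0 < N → 1 ≤ Θ → ∑ m ∈ tripleClass M, ‖tripleSum W N m‖ ≤
      C * ((∫ p, triWeight W p * classWave M (Θ / N) p) +
        (Θ ^ n)⁻¹ * (M : ℝ) ^ 3 * (W.card : ℝ) ^ 3) := by
  obtain ⟨C, hC, hK⟩ := exists_tripleKernel_le n
  refine ⟨288 * C + C, by positivity, fun W N Θ M hN hΘ => ?_⟩
  obtain ⟨ε, hε⟩ : ∃ ε, ε = (Θ ^ n)⁻¹ := ⟨_, rfl⟩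
  have hε0 : 0 ≤ ε := hε ▸ by positivity
  have hti : ∀ {g : ℝ × ℝ → ℝ}, Continuous g → Integrable fun p => triWeight W p * g p := by
    intro g hg
    exact ((continuous_triWeight W).mul hg).integrable_of_hasCompactSupport
      (HasCompactSupport.intro ((isCompact_Icc (a := (0 : ℝ)) (b := 6)).prod
        (isCompact_Icc (a := (0 : ℝ)) (b := 6))) fun p hp => by
        simp [triWeight_eq_zero W hp])
  have hbump : ∀ m : ℤ × ℤ × ℤ, Continuous fun p : ℝ × ℝ =>
      shiftBump (((m.1 : ℝ) * p.1 + (m.2.1 : ℝ) * p.2 + (m.2.2 : ℝ)) / (Θ / N)) + ε := fun m =>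
    (shiftBump.continuous.comp (by fun_prop)).add continuous_const
  have hone : ∀ m : ℤ × ℤ × ℤ, ‖tripleSum W N m‖ ≤ C * ∫ p, triWeight W p *
      (shiftBump (((m.1 : ℝ) * p.1 + (m.2.1 : ℝ) * p.2 + (m.2.2 : ℝ)) / (Θ / N)) + ε) := by
    intro m
    obtain ⟨L, hL⟩ : ∃ L : ℝ × ℝ → ℝ, L = fun p =>
        (m.1 : ℝ) * N * p.1 + (m.2.1 : ℝ) * N * p.2 + (m.2.2 : ℝ) * N := ⟨_, rfl⟩
    have h3 : ∀ t₁ t₂ t₃ : ℝ, Integrable (fun p : ℝ × ℝ =>
          Complex.exp ((((t₁ - t₂) * Real.log p.1 + (t₂ - t₃) * Real.log p.2 : ℝ) : ℂ) * I) *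
            tripleKernel p (L p)) ∧
        𝓕 (phase weight (t₁ - t₂)) ((m.1 : ℝ) * N) * 𝓕 (phase weight (t₂ - t₃)) ((m.2.1 : ℝ) * N) *
            𝓕 (phase weight (t₃ - t₁)) ((m.2.2 : ℝ) * N) =
          ∫ p : ℝ × ℝ,
            Complex.exp ((((t₁ - t₂) * Real.log p.1 + (t₂ - t₃) * Real.log p.2 : ℝ) : ℂ) * I) *
              tripleKernel p (L p) := fun t₁ t₂ t₃ => by
      rw [hL]; exact fourier_phase_triple (by ring) _ _ _
    have e : tripleSum W N m = ∫ p : ℝ × ℝ, ∑ t₁ ∈ W, ∑ t₂ ∈ W, ∑ t₃ ∈ W,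
        Complex.exp ((((t₁ - t₂) * Real.log p.1 + (t₂ - t₃) * Real.log p.2 : ℝ) : ℂ) * I) *
          tripleKernel p (L p) := by
      rw [tripleSum, integral_finsetSum _ fun t₁ _ => integrable_finsetSum _ fun t₂ _ =>
        integrable_finsetSum _ fun t₃ _ => (h3 t₁ t₂ t₃).1]
      refine sum_congr rfl fun t₁ _ => ?_
      rw [integral_finsetSum _ fun t₂ _ => integrable_finsetSum _ fun t₃ _ => (h3 t₁ t₂ t₃).1]
      refine sum_congr rfl fun t₂ _ => ?_
      rw [integral_finsetSum _ fun t₃ _ => (h3 t₁ t₂ t₃).1]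
      exact sum_congr rfl fun t₃ _ => (h3 t₁ t₂ t₃).2
    rw [e, ← integral_const_mul]
    refine norm_integral_le_of_norm_le ((hti (hbump m)).const_mul C)
      (Eventually.of_forall fun p => ?_)
    have efac : ∑ t₁ ∈ W, ∑ t₂ ∈ W, ∑ t₃ ∈ W,
        Complex.exp ((((t₁ - t₂) * Real.log p.1 + (t₂ - t₃) * Real.log p.2 : ℝ) : ℂ) * I) *
          tripleKernel p (L p) =
        charSum W (-Real.log p.1) * charSum W (-(Real.log p.2 - Real.log p.1)) *
          charSum W (Real.log p.2) * tripleKernel p (L p) := by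
      have pt : ∀ t₁ t₂ t₃ : ℝ,
          Complex.exp ((((t₁ - t₂) * Real.log p.1 + (t₂ - t₃) * Real.log p.2 : ℝ) : ℂ) * I) *
            tripleKernel p (L p) =
          Complex.exp (((-(t₁ * -Real.log p.1) : ℝ) : ℂ) * I) *
            (Complex.exp (((-(t₂ * -(Real.log p.2 - Real.log p.1)) : ℝ) : ℂ) * I) *
              (Complex.exp (((-(t₃ * Real.log p.2) : ℝ) : ℂ) * I) * tripleKernel p (L p))) := by
        intro t₁ t₂ t₃
        rw [← mul_assoc, ← mul_assoc, ← Complex.exp_add, ← Complex.exp_add]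
        congr 2
        push_cast
        ring
      simp only [pt, ← mul_sum, ← sum_mul, charSum]
      ring
    rw [efac, norm_mul, norm_mul, norm_mul, ← charNorm_eq, ← charNorm_eq, ← charNorm_eq,
      charNorm_neg, charNorm_neg]
    by_cases hv : p.1 ∈ Set.Icc (1 / 5 : ℝ) 5 ∧ p.2 ∈ Set.Icc (1 / 5 : ℝ) 5 ∧
        p.2 / p.1 ∈ Set.Icc (1 / 5 : ℝ) 5
    swap
    · rw [tripleKernel_eq_zero hv, norm_zero, mul_zero]
      exact mul_nonneg hC (mul_nonneg (triWeight_nonneg W p)
        (add_nonneg shiftBump.nonneg hε0))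
    obtain ⟨⟨a, a'⟩, ⟨b, b'⟩, ⟨c, c'⟩⟩ := hv
    have hs : p.2 * safeInv p.1 = p.2 / p.1 := by
      rw [safeInv_eq (by linarith) (by linarith), div_eq_mul_inv]
    have hlog : Real.log p.2 - Real.log p.1 = Real.log (p.2 / p.1) :=
      (Real.log_div (by linarith) (by linarith)).symm
    have hw : charNorm W (Real.log p.1) * charNorm W (Real.log p.2 - Real.log p.1) *
        charNorm W (Real.log p.2) ≤ triWeight W p := by
      rw [triWeight, hs, hlog, mul_assoc]
      exact mul_le_mul (charNorm_le_sqrt_lineSq W a a')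
        (mul_le_mul (charNorm_le_sqrt_lineSq W c c') (charNorm_le_sqrt_lineSq W b b')
          (charNorm_nonneg _ _) (Real.sqrt_nonneg _))
        (mul_nonneg (charNorm_nonneg _ _) (charNorm_nonneg _ _)) (Real.sqrt_nonneg _)
    have hker : ‖tripleKernel p (L p)‖ ≤
        C * (shiftBump (((m.1 : ℝ) * p.1 + (m.2.1 : ℝ) * p.2 + (m.2.2 : ℝ)) / (Θ / N)) + ε) := by
      have h := hK p (L p)
      have e1 : ((m.1 : ℝ) * p.1 + (m.2.1 : ℝ) * p.2 + (m.2.2 : ℝ)) / (Θ / N) = L p / Θ := by
        rw [hL]; field_simp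
      rw [e1]
      rcases le_total |L p| Θ with h' | h'
      · rw [shiftBump_eq_one (by rwa [abs_div, abs_of_pos (by linarith : (0 : ℝ) < Θ),
          div_le_one (by linarith)])]
        refine le_trans (le_trans (le_mul_of_one_le_left (norm_nonneg _)
          (one_le_pow₀ (by linarith [abs_nonneg (L p)]))) h) ?_
        exact le_mul_of_one_le_right hC (le_add_of_nonneg_right hε0)
      · refine le_trans ?_ (mul_le_mul_of_nonneg_left (le_add_of_nonneg_left shiftBump.nonneg) hC)
        rw [hε, ← div_eq_mul_inv, le_div_iff₀ (by positivity), mul_comm]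
        exact le_trans (mul_le_mul_of_nonneg_right
          (pow_le_pow_left₀ (by linarith) (by linarith) n) (norm_nonneg _)) h
    refine (mul_le_mul hw hker (norm_nonneg _) (triWeight_nonneg W p)).trans (le_of_eq ?_)
    ring
  refine (sum_le_sum fun m _ => hone m).trans ?_
  rw [← mul_sum, ← integral_finsetSum _ fun m _ => hti (hbump m)]
  have e2 : ∀ p, ∑ m ∈ tripleClass M, triWeight W p *
      (shiftBump (((m.1 : ℝ) * p.1 + (m.2.1 : ℝ) * p.2 + (m.2.2 : ℝ)) / (Θ / N)) + ε) =
      triWeight W p * classWave M (Θ / N) p + (tripleClass M).card * ε * triWeight W p :=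
        fun p => by
    rw [← mul_sum, sum_add_distrib, sum_const, nsmul_eq_mul, classWave]
    ring
  simp only [e2]
  have hw1 : Integrable (triWeight W) := by simpa using hti (g := fun _ => (1 : ℝ)) continuous_const
  rw [integral_add (hti (continuous_classWave M _)) (hw1.const_mul _), integral_const_mul]
  have hmass : ∫ p, triWeight W p ≤ 36 * (W.card : ℝ) ^ 3 := by
    rw [← setIntegral_eq_integral_of_forall_compl_eq_zero
      (s := Set.Icc (0 : ℝ) 6 ×ˢ Set.Icc (0 : ℝ) 6) fun p hp => triWeight_eq_zero W hp]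
    have hfin : volume (Set.Icc (0 : ℝ) 6 ×ˢ Set.Icc (0 : ℝ) 6) < ⊤ :=
      (isCompact_Icc.prod isCompact_Icc).measure_lt_top
    refine (setIntegral_mono_on hw1.integrableOn (integrableOn_const hfin.ne)
      (measurableSet_Icc.prod measurableSet_Icc) (g := fun _ => (W.card : ℝ) ^ 3)
      fun p _ => ?_).trans (le_of_eq ?_)
    · have hs : ∀ y, √(lineSq W y) ≤ W.card := fun y =>
        (Real.sqrt_le_sqrt (lineSq_le W y)).trans (le_of_eq (Real.sqrt_sq (Nat.cast_nonneg _)))
      rw [triWeight, pow_succ' _ 2, sq]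
      gcongr <;> apply hs
    · rw [setIntegral_const, measureReal_def, Measure.volume_eq_prod, Measure.prod_prod,
        Real.volume_Icc, ENNReal.toReal_mul, ENNReal.toReal_ofReal (by norm_num), smul_eq_mul]
      norm_num
  have hcard : ((tripleClass M).card : ℝ) ≤ 8 * (M : ℝ) ^ 3 := by
    rw [tripleClass, card_product, card_product]
    push_cast
    calc ((nonzeroRange M).card : ℝ) * ((dyadicRange M).card * (nonzeroRange M).card)
        ≤ (2 * M) * ((2 * M) * (2 * M)) :=
          mul_le_mul (card_nonzeroRange_le M) (mul_le_mul (card_dyadicRange_le M)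
            (card_nonzeroRange_le M) (Nat.cast_nonneg _) (by positivity)) (by positivity)
            (by positivity)
      _ = _ := by ring
  rw [← hε]
  have hI : 0 ≤ ∫ p, triWeight W p * classWave M (Θ / N) p :=
    integral_nonneg fun p => mul_nonneg (triWeight_nonneg W p) (classWave_nonneg _ _ _)
  have h1 : ((tripleClass M).card : ℝ) * ε * ∫ p, triWeight W p ≤
      (8 * (M : ℝ) ^ 3) * ε * (36 * (W.card : ℝ) ^ 3) :=
    mul_le_mul (mul_le_mul_of_nonneg_right hcard hε0) hmass
      (integral_nonneg (triWeight_nonneg W)) (by positivity)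
  have h2 := mul_le_mul_of_nonneg_left h1 hC
  have h3 : 0 ≤ C * (ε * (M : ℝ) ^ 3 * (W.card : ℝ) ^ 3) := by positivity
  have h4 : 0 ≤ C * (∫ p, triWeight W p * classWave M (Θ / N) p) := mul_nonneg hC hI
  nlinarith

theorem sum_symm_range {M : ℕ} (g : ℤ → ℝ) :
    ∑ a ∈ nonzeroRange M, g (-a) = ∑ a ∈ nonzeroRange M, g a :=
  sum_nbij' (fun a => -a) (fun a => -a)
    (fun a ha => by simpa [mem_nonzeroRange, abs_neg] using ha)
    (fun a ha => by simpa [mem_nonzeroRange, abs_neg] using ha) (fun a _ => neg_neg a)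
    (fun a _ => neg_neg a) fun a _ => rfl

theorem slabMass_nonneg (W : Finset ℝ) (M : ℕ) (δ v : ℝ) : 0 ≤ slabMass W M δ v :=
  setIntegral_nonneg measurableSet_Icc fun w _ =>
    mul_nonneg (lineSq_nonneg W w) (classWave_nonneg _ _ _)

theorem slabMass'_nonneg (W : Finset ℝ) (M : ℕ) (δ v : ℝ) : 0 ≤ slabMass' W M δ v :=
  setIntegral_nonneg measurableSet_Icc fun w _ =>
    mul_nonneg (lineSq_nonneg W _) (classWave_nonneg _ _ _)

theorem continuous_slabMass (W : Finset ℝ) (M : ℕ) (δ : ℝ) : Continuous (slabMass W M δ) :=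
  continuous_parametric_integral_of_continuous (by
    have := continuous_lineSq W
    have := continuous_classWave M δ
    simp only [Function.uncurry_def]
    fun_prop) isCompact_Icc

theorem continuous_slabMass' (W : Finset ℝ) (M : ℕ) (δ : ℝ) : Continuous (slabMass' W M δ) :=
  continuous_parametric_integral_of_continuous (by
    have := continuous_lineSq W
    have := continuous_classWave M δ
    have := continuous_safeInv
    simp only [Function.uncurry_def]
    fun_prop) isCompact_Icc

theorem affineReal_nonneg (W : Finset ℝ) (M : ℕ) (z v : ℝ) :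
    0 ≤ affineReal M (lineSq W) z v :=
  sum_nonneg fun _ _ => sum_nonneg fun _ _ => sum_nonneg fun _ _ =>
    mul_nonneg shiftBump.nonneg (lineSq_nonneg W _)

theorem continuous_affineReal (W : Finset ℝ) (M : ℕ) :
    Continuous fun p : ℝ × ℝ => affineReal M (lineSq W) p.1 p.2 := by
  have := continuous_lineSq W
  unfold affineReal
  fun_prop

/-- The mass near the lines through the sum of affine images. -/
theorem slabMass_le (W : Finset ℝ) {M : ℕ} (hM : 1 ≤ M) {δ : ℝ} (hδ : 0 < δ) (v : ℝ) :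
    slabMass W M δ v ≤
      2 * δ / M * ∫ s in Set.Icc (-2 : ℝ) 2, affineReal M (lineSq W) (δ * s) v := by
  have hM0 : (0 : ℝ) < M := Nat.cast_pos.2 hM
  obtain ⟨h, hh⟩ : ∃ h : ℤ × ℤ × ℤ → ℝ → ℝ, h = fun m s => shiftBump s *
      lineSq W ((δ * s - ((m.1 : ℝ) * v + (m.2.2 : ℝ))) / (m.2.1 : ℝ)) := ⟨_, rfl⟩
  have hcont : ∀ m, Continuous (h m) := fun m => by
    rw [hh]
    exact shiftBump.continuous.mul ((continuous_lineSq W).comp (by fun_prop))
  have hzero : ∀ m, ∀ s ∉ Set.Icc (-2 : ℝ) 2, h m s = 0 := fun m s hs => by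
    rw [hh]
    simp only
    rw [shiftBump_eq_zero (by
      rw [Set.mem_Icc, not_and_or, not_le, not_le] at hs
      rcases hs with hs | hs
      · rw [abs_of_neg (by linarith)]; linarith
      · rw [abs_of_pos (by linarith)]; linarith), zero_mul]
  have hone : ∀ m ∈ tripleClass M, ∫ w in Set.Icc (0 : ℝ) 31, lineSq W w *
      shiftBump (((m.1 : ℝ) * v + (m.2.1 : ℝ) * w + (m.2.2 : ℝ)) / δ) ≤
        2 * δ / M * ∫ s in Set.Icc (-2 : ℝ) 2, h m s := fun m hm => by
    simp only [tripleClass, mem_product] at hm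
    have hc := half_lt_abs_of_mem hm.2.1
    have hc0 : (m.2.1 : ℝ) ≠ 0 := fun e => by rw [e, abs_zero] at hc; linarith
    rw [setIntegral_eq_integral_of_forall_compl_eq_zero fun w hw => by
        rw [Set.mem_Icc, not_and_or, not_le, not_le] at hw
        rw [lineSq_eq_zero W (hw.imp (fun h => by linarith) fun h => by linarith), zero_mul],
      setIntegral_eq_integral_of_forall_compl_eq_zero (hzero m)]
    have e : ∀ w, lineSq W w *
        shiftBump (((m.1 : ℝ) * v + (m.2.1 : ℝ) * w + (m.2.2 : ℝ)) / δ) =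
        h m (w * ((m.2.1 : ℝ) / δ) + ((m.1 : ℝ) * v + (m.2.2 : ℝ)) / δ) := fun w => by
      have e1 : w * ((m.2.1 : ℝ) / δ) + ((m.1 : ℝ) * v + (m.2.2 : ℝ)) / δ =
          ((m.1 : ℝ) * v + (m.2.1 : ℝ) * w + (m.2.2 : ℝ)) / δ := by ring
      rw [hh]
      simp only [e1]
      rw [mul_comm]
      congr 2
      field_simp
      ring
    simp only [e]
    rw [Measure.integral_comp_mul_right
      (fun x => h m (x + ((m.1 : ℝ) * v + (m.2.2 : ℝ)) / δ)), integral_add_right_eq_self,
      smul_eq_mul]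
    refine mul_le_mul_of_nonneg_right ?_ (integral_nonneg fun s => by
      rw [hh]; exact mul_nonneg shiftBump.nonneg (lineSq_nonneg W _))
    rw [inv_div, abs_div, abs_of_pos hδ, div_le_div_iff₀ (by linarith) hM0]
    nlinarith
  have hint : ∀ m, Integrable (h m) (volume.restrict (Set.Icc (-2 : ℝ) 2)) := fun m =>
    (hcont m).integrableOn_Icc
  calc slabMass W M δ v
      = ∑ m ∈ tripleClass M, ∫ w in Set.Icc (0 : ℝ) 31, lineSq W w *
          shiftBump (((m.1 : ℝ) * v + (m.2.1 : ℝ) * w + (m.2.2 : ℝ)) / δ) := by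
        simp only [slabMass, classWave, mul_sum]
        exact integral_finsetSum _ fun m _ => ((continuous_lineSq W).mul
          (shiftBump.continuous.comp (by fun_prop))).integrableOn_Icc
    _ ≤ ∑ m ∈ tripleClass M, 2 * δ / M * ∫ s in Set.Icc (-2 : ℝ) 2, h m s := sum_le_sum hone
    _ ≤ _ := by
        rw [← mul_sum, ← integral_finsetSum _ fun m _ => hint m]
        refine mul_le_mul_of_nonneg_left (setIntegral_mono_on
          (integrable_finsetSum _ fun m _ => hint m)
          ((continuous_affineReal W M).comp (by fun_prop :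
            Continuous fun s : ℝ => (δ * s, v))).integrableOn_Icc measurableSet_Icc fun s _ => ?_)
          (by positivity)
        rw [hh, tripleClass, sum_product, affineReal]
        simp only [sum_product]
        rw [← sum_symm_range]
        refine sum_le_sum fun a _ => sum_le_sum fun c _ => ?_
        rw [← sum_symm_range]
        refine (sum_le_sum fun b hb => ?_).trans (sum_le_sum_of_subset_of_nonneg
          (t := shiftRange M) (f := fun b : ℤ => shiftBump ((b : ℝ) / M) *
            lineSq W (((a : ℝ) * v + ((b : ℝ) + δ * s)) / c)) (fun b hb => ?_)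
          fun b _ _ => mul_nonneg shiftBump.nonneg (lineSq_nonneg W _))
        · rw [shiftBump_eq_one (x := (b : ℝ) / M) (by
            rw [abs_div, Nat.abs_cast, div_le_one hM0]; exact (abs_cast_bounds hb).2), one_mul]
          refine (mul_le_of_le_one_left (lineSq_nonneg W _) shiftBump.le_one).trans
            (le_of_eq (congrArg _ ?_))
          push_cast
          ring
        · rw [mem_nonzeroRange, abs_le] at hb
          simp only [shiftRange, Finset.mem_Icc]
          omega

/-- The square integral of the mass near the lines. -/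
theorem sq_slabMass_le (W : Finset ℝ) {M : ℕ} (hM : 1 ≤ M) {δ : ℝ} (hδ : 0 < δ) {Z : ℝ}
    (hZ : ∀ z, ∫ v, affineReal M (lineSq W) z v ^ 2 ≤ Z) :
    ∫ v in Set.Icc (0 : ℝ) 10, slabMass W M δ v ^ 2 ≤ 64 * (δ / M) ^ 2 * Z := by
  obtain ⟨A, hA⟩ : ∃ A : ℝ → ℝ → ℝ, A = fun s v => affineReal M (lineSq W) (δ * s) v := ⟨_, rfl⟩
  have hAc : Continuous (Function.uncurry A) := by
    have h := (continuous_affineReal W M).comp
      (show Continuous fun p : ℝ × ℝ => (δ * p.1, p.2) by fun_prop)
    rw [hA]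
    simpa only [Function.uncurry_def, Function.comp_def] using h
  have hAs : ∀ v, Continuous fun s => A s v := fun v =>
    hAc.comp (continuous_id.prodMk continuous_const)
  have hAv : ∀ s, Continuous fun v => A s v := fun s =>
    hAc.comp (continuous_const.prodMk continuous_id)
  have hA2 : Continuous (Function.uncurry fun v s => A s v ^ 2) := by
    have h := (hAc.comp continuous_swap).pow 2
    simpa [Function.uncurry_def, Function.comp_def, Pi.pow_def] using h
  have hA2' : Continuous (Function.uncurry fun s v => A s v ^ 2) := by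
    have h := hAc.pow 2
    simpa [Function.uncurry_def, Function.comp_def, Pi.pow_def] using h
  have hcs : ∀ v, (∫ s in Set.Icc (-2 : ℝ) 2, A s v) ^ 2 ≤
      4 * ∫ s in Set.Icc (-2 : ℝ) 2, A s v ^ 2 := fun v => by
    have i1 : ∀ {g : ℝ → ℝ}, Continuous g → Integrable ((Set.Icc (-2 : ℝ) 2).indicator g) :=
      fun {g} hg => (hg.integrableOn_Icc).integrable_indicator measurableSet_Icc
    have h := sq_integral_mul_le (f := (Set.Icc (-2 : ℝ) 2).indicator fun _ => (1 : ℝ))
      (g := (Set.Icc (-2 : ℝ) 2).indicator fun s => A s v)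
      ((i1 (g := fun _ => (1 : ℝ)) continuous_const).congr (Eventually.of_forall fun s => by
        by_cases hs : s ∈ Set.Icc (-2 : ℝ) 2 <;> simp [hs]))
      ((i1 (hAs v)).congr (Eventually.of_forall fun s => by
        by_cases hs : s ∈ Set.Icc (-2 : ℝ) 2 <;> simp [hs]))
      ((i1 ((hAs v).pow 2)).congr (Eventually.of_forall fun s => by
        by_cases hs : s ∈ Set.Icc (-2 : ℝ) 2 <;> simp [hs]))
    have e1 : ∫ s, ((Set.Icc (-2 : ℝ) 2).indicator (fun _ => (1 : ℝ)) s) ^ 2 = 4 := by
      rw [show (fun s => ((Set.Icc (-2 : ℝ) 2).indicator (fun _ => (1 : ℝ)) s) ^ 2) =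
          (Set.Icc (-2 : ℝ) 2).indicator (fun _ => (1 : ℝ)) from funext fun s => by
        by_cases hs : s ∈ Set.Icc (-2 : ℝ) 2 <;> simp [hs], integral_indicator measurableSet_Icc,
        setIntegral_const, measureReal_def, Real.volume_Icc, ENNReal.toReal_ofReal (by norm_num),
        smul_eq_mul]
      norm_num
    have e2 : ∫ s, (Set.Icc (-2 : ℝ) 2).indicator (fun _ => (1 : ℝ)) s *
        (Set.Icc (-2 : ℝ) 2).indicator (fun s => A s v) s = ∫ s in Set.Icc (-2 : ℝ) 2, A s v := by
      rw [← integral_indicator measurableSet_Icc]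
      refine integral_congr_ae (Eventually.of_forall fun s => ?_)
      by_cases hs : s ∈ Set.Icc (-2 : ℝ) 2 <;> simp [hs]
    have e3 : ∫ s, ((Set.Icc (-2 : ℝ) 2).indicator (fun s => A s v) s) ^ 2 =
        ∫ s in Set.Icc (-2 : ℝ) 2, A s v ^ 2 := by
      rw [← integral_indicator measurableSet_Icc]
      refine integral_congr_ae (Eventually.of_forall fun s => ?_)
      by_cases hs : s ∈ Set.Icc (-2 : ℝ) 2 <;> simp [hs]
    rwa [e1, e2, e3] at h
  have hsupp : ∀ s, HasCompactSupport fun v => A s v ^ 2 := fun s => by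
    refine HasCompactSupport.intro (isCompact_Icc (a := -(8 * (M : ℝ) + |δ * s|))
      (b := 8 * (M : ℝ) + |δ * s|)) fun v hv => ?_
    rw [hA]
    simp only [affineReal]
    rw [sum_eq_zero fun a ha => sum_eq_zero fun c hc => sum_eq_zero fun b _ => ?_]
    · norm_num
    rcases lt_or_ge |(b : ℝ) / M| 2 with hb | hb
    swap
    · rw [shiftBump_eq_zero hb, zero_mul]
    refine mul_eq_zero_of_right _ (lineSq_eq_zero W ?_)
    have hM0 : (0 : ℝ) < M := Nat.cast_pos.2 hM
    have hcb := half_lt_abs_of_mem hc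
    have hcb' : |(c : ℝ)| ≤ M := (abs_cast_bounds (mem_filter.1 hc).1).2
    have ha1 := (abs_cast_bounds ha).1
    rw [abs_div, Nat.abs_cast, div_lt_iff₀ hM0] at hb
    by_contra hne
    rw [not_or, not_le, not_le] at hne
    have h1 : |((a : ℝ) * v + ((b : ℝ) + δ * s)) / c| ≤ 6 := by
      rw [abs_le]; exact ⟨by linarith, by linarith⟩
    rw [abs_div, div_le_iff₀ (by linarith)] at h1
    have h2 : |(a : ℝ) * v| ≤ 8 * M + |δ * s| := by
      have := abs_sub ((a : ℝ) * v + ((b : ℝ) + δ * s)) ((b : ℝ) + δ * s)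
      rw [add_sub_cancel_right] at this
      have := abs_add_le (b : ℝ) (δ * s)
      nlinarith
    rw [abs_mul] at h2
    have h3 : |v| ≤ 8 * M + |δ * s| := le_trans (le_mul_of_one_le_left (abs_nonneg v) ha1) h2
    exact hv (Set.mem_Icc.2 (abs_le.1 h3))
  have hZ0 : 0 ≤ Z := le_trans (integral_nonneg fun v => sq_nonneg _) (hZ 0)
  calc ∫ v in Set.Icc (0 : ℝ) 10, slabMass W M δ v ^ 2
      ≤ ∫ v in Set.Icc (0 : ℝ) 10,
          (2 * δ / M) ^ 2 * (4 * ∫ s in Set.Icc (-2 : ℝ) 2, A s v ^ 2) := by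
        refine setIntegral_mono_on ((continuous_slabMass W M δ).pow 2).integrableOn_Icc ?_
          measurableSet_Icc fun v _ => ?_
        · exact ((continuous_parametric_integral_of_continuous
            (f := fun v s => A s v ^ 2) hA2 isCompact_Icc).const_mul
              4).const_mul _ |>.integrableOn_Icc
        · refine (pow_le_pow_left₀ (slabMass_nonneg W M δ v) (slabMass_le W hM hδ v) 2).trans ?_
          rw [mul_pow]
          have := hcs v
          rw [hA] at this
          exact mul_le_mul_of_nonneg_left (hA ▸ this) (sq_nonneg _)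
    _ = (2 * δ / M) ^ 2 * 4 * ∫ s in Set.Icc (-2 : ℝ) 2,
          ∫ v in Set.Icc (0 : ℝ) 10, A s v ^ 2 := by
        rw [integral_const_mul, integral_const_mul, ← mul_assoc]
        congr 1
        refine integral_integral_swap ?_
        rw [Measure.prod_restrict]
        exact hA2.continuousOn.integrableOn_compact
          (isCompact_Icc.prod isCompact_Icc)
    _ ≤ (2 * δ / M) ^ 2 * 4 * ∫ _s in Set.Icc (-2 : ℝ) 2, Z := by
        refine mul_le_mul_of_nonneg_left (setIntegral_mono_on ?_
          (integrableOn_const measure_Icc_lt_top.ne) measurableSet_Icc fun s _ => ?_)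
          (by positivity)
        · exact (continuous_parametric_integral_of_continuous (f := fun s v => A s v ^ 2)
            hA2' isCompact_Icc).integrableOn_Icc
        · refine le_trans (setIntegral_le_integral
            (((hAv s).pow 2).integrable_of_hasCompactSupport (hsupp s))
            (Eventually.of_forall fun v => sq_nonneg _)) ?_
          rw [hA]; exact hZ _
    _ = _ := by
        rw [setIntegral_const, measureReal_def, Real.volume_Icc,
          ENNReal.toReal_ofReal (by norm_num), smul_eq_mul]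
        ring

/-- The moved mass through the plain one. -/
theorem slabMass'_le (W : Finset ℝ) (M : ℕ) {δ : ℝ} (hδ : 0 < δ) {v : ℝ} (h1 : 1 / 10 ≤ v)
    (h2 : v ≤ 51 / 10) : slabMass' W M δ v ≤ 6 * slabMass W M (20 * δ) v⁻¹ := by
  have hv0 : 0 < v := by linarith
  have hcl : ∀ u, classWave M δ (v, u * v) ≤ classWave M (20 * δ) (v⁻¹, u) := fun u => by
    simp only [classWave, tripleClass, sum_product]
    rw [sum_comm (s := nonzeroRange M)]
    conv_rhs => rw [sum_comm (s := nonzeroRange M)]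
    refine sum_le_sum fun c _ => ?_
    rw [sum_comm]
    refine sum_le_sum fun b _ => sum_le_sum fun a _ => ?_
    rcases le_or_gt 2 |((a : ℝ) * v + (c : ℝ) * (u * v) + (b : ℝ)) / δ| with h | h
    · rw [shiftBump_eq_zero h]; exact shiftBump.nonneg
    refine shiftBump.le_one.trans (le_of_eq (shiftBump_eq_one ?_).symm)
    rw [show ((b : ℝ) * v⁻¹ + (c : ℝ) * u + (a : ℝ)) / (20 * δ) =
        ((a : ℝ) * v + (c : ℝ) * (u * v) + (b : ℝ)) / δ * (20 * v)⁻¹ by field_simp; ring,
      abs_mul, abs_inv, abs_of_pos (by linarith : (0 : ℝ) < 20 * v), ← div_eq_mul_inv,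
      div_le_one (by linarith)]
    linarith
  rw [slabMass', slabMass, setIntegral_eq_integral_of_forall_compl_eq_zero,
    setIntegral_eq_integral_of_forall_compl_eq_zero, safeInv_eq h1 (by linarith)]
  · have e : ∀ w, lineSq W (w * v⁻¹) * classWave M δ (v, w) =
        lineSq W (w * v⁻¹) * classWave M δ (v, w * v⁻¹ * v) := fun w => by
      rw [mul_assoc, inv_mul_cancel₀ hv0.ne', mul_one]
    simp only [e]
    rw [Measure.integral_comp_mul_right (fun u => lineSq W u * classWave M δ (v, u * v)),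
      inv_inv, abs_of_pos hv0, smul_eq_mul]
    have hcs : ∀ {g : ℝ → ℝ}, Continuous g → Integrable fun u => lineSq W u * g u :=
      fun {g} hg => ((continuous_lineSq W).mul hg).integrable_of_hasCompactSupport
        ((lineSq_compact W).mul_right)
    refine mul_le_mul (by linarith) (integral_mono
      (hcs ((continuous_classWave M δ).comp (by fun_prop)))
      (hcs ((continuous_classWave M (20 * δ)).comp (by fun_prop)))
      fun u => mul_le_mul_of_nonneg_left (hcl u) (lineSq_nonneg W u))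
      (integral_nonneg fun u => mul_nonneg (lineSq_nonneg W u) (classWave_nonneg _ _ _))
      (by norm_num)
  · intro w hw
    rw [Set.mem_Icc, not_and_or, not_le, not_le] at hw
    rw [lineSq_eq_zero W (hw.imp (fun h => by linarith) fun h => by linarith), zero_mul]
  · intro w hw
    rw [Set.mem_Icc, not_and_or, not_le, not_le] at hw
    obtain ⟨s1, s2⟩ := safeInv_bounds v
    rw [lineSq_eq_zero W (hw.imp (fun h => by nlinarith) fun h => by nlinarith), zero_mul]

/-- **The integral near the lines.** -/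
theorem planeMass_le (W : Finset ℝ) {M : ℕ} (hM : 1 ≤ M) {δ : ℝ} (hδ : 0 < δ) {Z : ℝ}
    (hZ : ∀ z, ∫ v, affineReal M (lineSq W) z v ^ 2 ≤ Z) :
    ∫ p, triWeight W p * classWave M δ p ≤ 5000 * (δ / M) * √((∫ y, lineSq W y) * Z) := by
  obtain ⟨S, hS⟩ : ∃ S, S = Set.Icc (1 / 10 : ℝ) (51 / 10) := ⟨_, rfl⟩
  have hSm : MeasurableSet S := hS ▸ measurableSet_Icc
  obtain ⟨H, hH⟩ : ∃ H : ℝ → ℝ, H = fun v => ∫ w in Set.Icc (0 : ℝ) 31,
      √(lineSq W (w * safeInv v) * classWave M δ (v, w)) *
        √(lineSq W w * classWave M δ (v, w)) := ⟨_, rfl⟩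
  have hZ0 : 0 ≤ Z := le_trans (integral_nonneg fun v => sq_nonneg _) (hZ 0)
  have hHc : Continuous H := by
    rw [hH]
    exact continuous_parametric_integral_of_continuous (by
      have := continuous_lineSq W
      have := continuous_classWave M δ
      have := continuous_safeInv
      simp only [Function.uncurry_def]
      fun_prop) isCompact_Icc
  have hH0 : ∀ v, 0 ≤ H v := fun v => by
    rw [hH]; exact setIntegral_nonneg measurableSet_Icc fun w _ => by positivity
  have hHsq : ∀ v, H v ^ 2 ≤ (slabMass' W M δ v ^ 2 + slabMass W M δ v ^ 2) / 2 := fun v => by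
    obtain ⟨p, hp⟩ : ∃ p : ℝ → ℝ, p = fun w => lineSq W (w * safeInv v) * classWave M δ (v, w) :=
      ⟨_, rfl⟩
    obtain ⟨q, hq⟩ : ∃ q : ℝ → ℝ, q = fun w => lineSq W w * classWave M δ (v, w) := ⟨_, rfl⟩
    have hp0 : ∀ w, 0 ≤ p w := fun w => hp ▸ mul_nonneg (lineSq_nonneg W _) (classWave_nonneg _ _ _)
    have hq0 : ∀ w, 0 ≤ q w := fun w => hq ▸ mul_nonneg (lineSq_nonneg W _) (classWave_nonneg _ _ _)
    have hpc : Continuous p := hp ▸ ((continuous_lineSq W).comp (by fun_prop)).mul
      ((continuous_classWave M δ).comp (by fun_prop))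
    have hqc : Continuous q := hq ▸ (continuous_lineSq W).mul
      ((continuous_classWave M δ).comp (by fun_prop))
    have i1 : ∀ {g : ℝ → ℝ}, Continuous g → Integrable ((Set.Icc (0 : ℝ) 31).indicator g) :=
      fun {g} hg => (hg.integrableOn_Icc).integrable_indicator measurableSet_Icc
    have h := sq_integral_mul_le (f := (Set.Icc (0 : ℝ) 31).indicator fun w => √(p w))
      (g := (Set.Icc (0 : ℝ) 31).indicator fun w => √(q w))
      ((i1 hpc).congr (Eventually.of_forall fun w => by
        by_cases hw : w ∈ Set.Icc (0 : ℝ) 31 <;> simp [hw, Real.sq_sqrt (hp0 w)]))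
      ((i1 (hpc.sqrt.mul hqc.sqrt)).congr (Eventually.of_forall fun w => by
        by_cases hw : w ∈ Set.Icc (0 : ℝ) 31 <;> simp [hw]))
      ((i1 hqc).congr (Eventually.of_forall fun w => by
        by_cases hw : w ∈ Set.Icc (0 : ℝ) 31 <;> simp [hw, Real.sq_sqrt (hq0 w)]))
    have e1 : ∫ w, ((Set.Icc (0 : ℝ) 31).indicator (fun w => √(p w)) w) ^ 2 =
        slabMass' W M δ v := by
      rw [slabMass', ← integral_indicator measurableSet_Icc]
      refine integral_congr_ae (Eventually.of_forall fun w => ?_)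
      by_cases hw : w ∈ Set.Icc (0 : ℝ) 31
      · simp [hw, Real.sq_sqrt (hp0 w)]; rw [hp]
      · simp [hw]
    have e2 : ∫ w, ((Set.Icc (0 : ℝ) 31).indicator (fun w => √(q w)) w) ^ 2 =
        slabMass W M δ v := by
      rw [slabMass, ← integral_indicator measurableSet_Icc]
      refine integral_congr_ae (Eventually.of_forall fun w => ?_)
      by_cases hw : w ∈ Set.Icc (0 : ℝ) 31
      · simp [hw, Real.sq_sqrt (hq0 w)]; rw [hq]
      · simp [hw]
    have e3 : ∫ w, (Set.Icc (0 : ℝ) 31).indicator (fun w => √(p w)) w *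
        (Set.Icc (0 : ℝ) 31).indicator (fun w => √(q w)) w = H v := by
      rw [hH]
      simp only
      rw [← integral_indicator measurableSet_Icc]
      refine integral_congr_ae (Eventually.of_forall fun w => ?_)
      by_cases hw : w ∈ Set.Icc (0 : ℝ) 31 <;> simp [hw, hp, hq]
    rw [e1, e2, e3] at h
    nlinarith [sq_nonneg (slabMass' W M δ v - slabMass W M δ v)]
  -- the plane as iterated integrals
  have hplane : ∫ p, triWeight W p * classWave M δ p =
      ∫ v, √(lineSq W v) * S.indicator H v := by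
    rw [Measure.volume_eq_prod, integral_prod]
    swap
    · rw [← Measure.volume_eq_prod]
      exact
        ((continuous_triWeight W).mul (continuous_classWave M δ)).integrable_of_hasCompactSupport
        (HasCompactSupport.intro ((isCompact_Icc (a := (0 : ℝ)) (b := 6)).prod
        (isCompact_Icc (a := (0 : ℝ)) (b := 6))) fun p hp => by
          simp [triWeight_eq_zero W hp])
    refine integral_congr_ae (Eventually.of_forall fun v => ?_)
    simp only
    by_cases hv : v ∈ S
    · rw [Set.indicator_of_mem hv, hH]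
      simp only
      rw [← integral_const_mul, ← integral_indicator measurableSet_Icc]
      refine integral_congr_ae (Eventually.of_forall fun w => ?_)
      simp only [triWeight]
      by_cases hw : w ∈ Set.Icc (0 : ℝ) 31
      · rw [Set.indicator_of_mem hw, Real.sqrt_mul (lineSq_nonneg W _),
          Real.sqrt_mul (lineSq_nonneg W _)]
        linear_combination (-(√(lineSq W v) * √(lineSq W (w * safeInv v)) * √(lineSq W w))) *
          Real.mul_self_sqrt (classWave_nonneg M δ (v, w))
      · rw [Set.indicator_of_notMem hw]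
        rw [Set.mem_Icc, not_and_or, not_le, not_le] at hw
        rw [lineSq_eq_zero W (y := w) (hw.imp (fun h => by linarith) fun h => by linarith)]
        simp
    · rw [Set.indicator_of_notMem hv, mul_zero]
      rw [hS, Set.mem_Icc, not_and_or, not_le, not_le] at hv
      simp [triWeight, lineSq_eq_zero W (hv.imp le_of_lt le_of_lt)]
  have hHi : Integrable fun v => S.indicator H v ^ 2 := by
    refine (((hHc.pow 2).integrableOn_Icc).integrable_indicator (hS ▸ hSm)).congr
      (Eventually.of_forall fun v => ?_)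
    rw [hS]
    by_cases hv : v ∈ Set.Icc (1 / 10 : ℝ) (51 / 10) <;> simp [hv, -one_div]
  have hcs := sq_integral_mul_le (f := fun v => √(lineSq W v)) (g := S.indicator H)
    ((lineSq_integrable W).congr (Eventually.of_forall fun v =>
      (Real.sq_sqrt (lineSq_nonneg W v)).symm))
    (by
      refine ((((continuous_lineSq W).sqrt.mul hHc).integrableOn_Icc).integrable_indicator
        (hS ▸ hSm)).congr (Eventually.of_forall fun v => ?_)
      rw [hS]
      by_cases hv : v ∈ Set.Icc (1 / 10 : ℝ) (51 / 10) <;> simp [hv, -one_div]) hHi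
  rw [← hplane] at hcs
  simp only [Real.sq_sqrt (lineSq_nonneg W _)] at hcs
  -- the second factor
  have hH2 : ∫ v, S.indicator H v ^ 2 ≤ 5000 ^ 2 * (δ / M) ^ 2 * Z := by
    have e : (fun v => S.indicator H v ^ 2) = S.indicator fun v => H v ^ 2 := funext fun v => by
      by_cases hv : v ∈ S <;> simp [hv]
    rw [e, integral_indicator hSm, hS]
    have hsm2 : ∫ v in Set.Icc (1 / 10 : ℝ) (51 / 10), slabMass W M δ v ^ 2 ≤
        64 * (δ / M) ^ 2 * Z :=
      (setIntegral_mono_set ((continuous_slabMass W M δ).pow 2).integrableOn_Icc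
        (Eventually.of_forall fun v => sq_nonneg _)
        (Set.Icc_subset_Icc (by norm_num) (by norm_num)).eventuallyLE).trans
          (sq_slabMass_le W hM hδ hZ)
    have hsm1 : ∫ v in Set.Icc (1 / 10 : ℝ) (51 / 10), slabMass' W M δ v ^ 2 ≤
        33177600 * (δ / M) ^ 2 * Z := by
      obtain ⟨g, hg⟩ : ∃ g : ℝ → ℝ, g = fun x => slabMass W M (20 * δ) x ^ 2 := ⟨_, rfl⟩
      have hgc : Continuous g := hg ▸ (continuous_slabMass W M (20 * δ)).pow 2
      have hne : ∀ v ∈ Set.Icc (1 / 10 : ℝ) (51 / 10), v ≠ (0 : ℝ) := fun v hv =>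
        ne_of_gt (lt_of_lt_of_le (by norm_num) hv.1)
      have hinvc : ContinuousOn (fun v : ℝ => v⁻¹) (Set.Icc (1 / 10 : ℝ) (51 / 10)) :=
        continuousOn_id.inv₀ hne
      have hwc : ContinuousOn (fun v : ℝ => |(-(v ^ 2)⁻¹)| • g v⁻¹)
          (Set.Icc (1 / 10 : ℝ) (51 / 10)) :=
        ((((continuousOn_id.pow 2).inv₀ fun v hv => pow_ne_zero 2 (hne v hv)).neg).abs).smul
          (hgc.comp_continuousOn hinvc)
      refine (setIntegral_mono_on ((continuous_slabMass' W M δ).pow 2).integrableOn_Icc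
        ((hwc.integrableOn_compact isCompact_Icc).const_mul (36 * 36)) measurableSet_Icc
        fun v hv => ?_).trans ?_
      · simp only [hg, abs_neg, smul_eq_mul]
        rw [abs_of_pos (inv_pos.2 (pow_pos (show (0 : ℝ) < v by linarith [hv.1]) 2))]
        refine (pow_le_pow_left₀ (slabMass'_nonneg W M δ v)
          (slabMass'_le W M hδ hv.1 hv.2) 2).trans ?_
        rw [mul_pow, ← mul_assoc]
        refine mul_le_mul_of_nonneg_right ?_ (sq_nonneg _)
        have hv2 : v ^ 2 ≤ 36 := by nlinarith [hv.1, hv.2]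
        rw [← div_eq_mul_inv, le_div_iff₀ (pow_pos (by linarith [hv.1]) 2)]
        nlinarith
      · rw [integral_const_mul, ← integral_image_eq_integral_abs_deriv_smul measurableSet_Icc
          (fun v hv => (hasDerivAt_inv (hne v hv)).hasDerivWithinAt) inv_injective.injOn g]
        have hz := sq_slabMass_le W hM (show 0 < 20 * δ by linarith) hZ
        have hle : ∫ x in (fun v : ℝ => v⁻¹) '' Set.Icc (1 / 10 : ℝ) (51 / 10), g x ≤
            64 * (20 * δ / M) ^ 2 * Z := by
          refine (setIntegral_mono_set hgc.integrableOn_Icc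
            (Eventually.of_forall fun x => hg ▸ sq_nonneg _) ?_).trans (hg ▸ hz)
          refine HasSubset.Subset.eventuallyLE ?_
          rintro x ⟨v, hv, rfl⟩
          refine ⟨inv_nonneg.2 (by linarith [hv.1]), ?_⟩
          exact (inv_anti₀ (by norm_num) hv.1).trans (le_of_eq (by norm_num))
        refine (mul_le_mul_of_nonneg_left hle (by norm_num)).trans (le_of_eq ?_)
        ring
    refine (setIntegral_mono_on (hHc.pow 2).integrableOn_Icc
      ((((continuous_slabMass' W M δ).pow 2).add ((continuous_slabMass W M δ).pow 2)).div_const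
        2).integrableOn_Icc measurableSet_Icc fun v _ => hHsq v).trans ?_
    simp only [Pi.add_apply, Pi.pow_apply]
    have i2 : IntegrableOn (fun v => slabMass' W M δ v ^ 2) (Set.Icc (1 / 10 : ℝ) (51 / 10)) :=
      ((continuous_slabMass' W M δ).pow 2).integrableOn_Icc
    have i3 : IntegrableOn (fun v => slabMass W M δ v ^ 2) (Set.Icc (1 / 10 : ℝ) (51 / 10)) :=
      ((continuous_slabMass W M δ).pow 2).integrableOn_Icc
    rw [integral_div, integral_add i2 i3]
    have : 0 ≤ (δ / M) ^ 2 * Z := by positivity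
    linarith
  have hF0 : 0 ≤ ∫ y, lineSq W y := integral_nonneg (lineSq_nonneg W)
  have hJ0 : 0 ≤ ∫ p, triWeight W p * classWave M δ p :=
    integral_nonneg fun p => mul_nonneg (triWeight_nonneg W p) (classWave_nonneg _ _ _)
  refine le_trans (Real.le_sqrt_of_sq_le (hcs.trans (mul_le_mul_of_nonneg_left hH2 hF0))) ?_
  refine le_of_eq ?_
  rw [show (∫ y, lineSq W y) * (5000 ^ 2 * (δ / M) ^ 2 * Z) =
      (5000 * (δ / M)) ^ 2 * ((∫ y, lineSq W y) * Z) by ring,
    Real.sqrt_mul (sq_nonneg _), Real.sqrt_sq (by positivity)]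

/-- **The bound for triples with a middle entry of largest size.** -/
theorem exists_tripleClass_le (n : ℕ) : ∃ C, 0 ≤ C ∧
    ∀ (W : Finset ℝ) (N Θ Z : ℝ) (M : ℕ), 0 < N → 1 ≤ Θ → 1 ≤ M →
      (∀ z, ∫ v, affineReal M (lineSq W) z v ^ 2 ≤ Z) →
      ∑ m ∈ tripleClass M, ‖tripleSum W N m‖ ≤
        C * (Θ / (N * M) * √((∫ y, lineSq W y) * Z) +
          (Θ ^ n)⁻¹ * (M : ℝ) ^ 3 * (W.card : ℝ) ^ 3) := by
  obtain ⟨C, hC, h⟩ := exists_tripleSum_le n
  refine ⟨5000 * C + C, by positivity, fun W N Θ Z M hN hΘ hM hZ => ?_⟩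
  refine (h W N Θ M hN hΘ).trans ?_
  have hJ := planeMass_le W hM (show 0 < Θ / N by positivity) hZ
  rw [div_div] at hJ
  have : 0 ≤ C * (Θ / (N * M) * √((∫ y, lineSq W y) * Z)) := by positivity
  have : 0 ≤ C * ((Θ ^ n)⁻¹ * (M : ℝ) ^ 3 * (W.card : ℝ) ^ 3) := by positivity
  have := mul_le_mul_of_nonneg_left hJ hC
  linarith

end FA.GuthMaynard

end
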